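import Fermat.Agent.CUBE.FibRoots
import Fermat.Agent.CUBE.FibNewton

/-!
A twist whose local ratios become constant after multiplying by `m` is killed by `m`.
-/

set_option autoImplicit false
set_option linter.unusedSectionVars false
set_option linter.unusedVariables false

noncomputable section

open AlgebraicCurve IsLocalRing
open FLTAgent.RR (Bd KK)
open FLTAgent.Reduction (Val)

namespace FLTAgent.CUBE

/-- the two relations between the ratios at a crossing make a power of them constant -/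
theorem ratio_pow {k : Type*} [Field k] {q : ℕ} (hq : 1 ≤ q) {a b C C' : k} (ha : a = C * b ^ q)
    (hb : b = C' * a ^ q) (ha0 : a ≠ 0) : a ^ (q ^ 2 - 1) = (C * C' ^ q)⁻¹ := by
  refine eq_inv_of_mul_eq_one_left (mul_left_cancel₀ ha0 ?_)
  rw [← mul_assoc, ← pow_succ', Nat.sub_add_cancel (Nat.one_le_pow _ _ hq), mul_one]
  conv_rhs => rw [ha, hb]
  rw [mul_pow, ← pow_mul, sq]
  ring

namespace Fib

variable {br : ℕ} {K : Type*} [Field K] [IsAlgClosed K] [CharZero K] {A : ValuationSubring K}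
  {F : Type*} [Field F] [Algebra K F] [RR.FnField K F]
  {Fs : Type*} [Field Fs] [Algebra (ResidueField A) Fs] (M : Fib br K A F Fs) {n : ℕ}

/-- a multiple of a twist -/
def Twist.smul (W : M.Twist n) (m : ℕ) : M.Twist n where
  D := m • W.D
  f := W.f ^ m
  degree_D := by rw [map_nsmul, W.degree_D, smul_zero]
  f_ne := pow_ne_zero _ W.f_ne
  ord_f P := by
    rw [RR.ord_pow, ← W.ord_f, Finsupp.smul_apply, nsmul_eq_mul]
    ring
  f_mem b := pow_mem (W.f_mem b) m
  red_f b := by rw [M.red_pow b (W.f_mem b), W.red_f, one_pow]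

theorem pow_mem_I {D : Divisor K F} {s : Bool} {g : F} (hg : g ∈ M.I D s) (m : ℕ) :
    g ^ m ∈ M.I (m • D) s := by
  refine ⟨pow_mem hg.1 m, fun P hP => ?_⟩
  rw [Finsupp.smul_apply, nsmul_eq_mul]
  exact (hg.2 P hP).pow m

variable (t : Bool → Fs) (htr : ∀ s, Transcendental (ResidueField A) (t s))
  (hfd : ∀ s, FiniteDimensional (KK (ResidueField A) (t s)) Fs)
  (hsep : ∀ s, Algebra.IsSeparable (KK (ResidueField A) (t s)) Fs)
  (hchart : ∀ s b (Q : Place (ResidueField A) Fs), InChart s (Q.ord (M.Jbar b)) ↔ Bd Q (t s) 0)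
  (p : ℕ) [Fact p.Prime] [CharP (ResidueField A) p] [IsAlgClosed (ResidueField A)]

include htr hfd hsep hchart p in
/-- if the `m`-th powers of the local ratios are constant, `m` times the twist is principal -/
theorem exists_principal_of_ratios (hA : SS.Arch A) (hn : (n : ResidueField A) ≠ 0)
    (W : M.Twist n) (m : ℕ) (ω : Fin (br + 1) → ResidueField A) (hω : ∀ b, ω b ^ n = 1)
    (hrat : ∀ s b (Q : Place (ResidueField A) Fs), InChart s (Q.ord (M.Jbar b)) →
      ∃ g ∈ M.I W.D s, ∃ c : ResidueField A, c ≠ 0 ∧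
        ∀ b' (Q' : Place (ResidueField A) Fs), InChart s (Q'.ord (M.Jbar b')) →
          M.SamePt s b Q b' Q' → ∃ ζ, Val Q' (M.red b' g) ζ ∧ ζ ^ m = c * ω b') :
    ∃ x : F, x ≠ 0 ∧ ∀ P : Place K F, (m : ℤ) * W.D P = P.ord x := by
  obtain ⟨x, hx, hxD⟩ := M.exists_principal hA hn (W.smul M m) ω hω
    (fun s => M.exists_roots t htr hfd hsep hchart p hn (W.smul M m) ω hω (fun s b Q hQ => by
      obtain ⟨g, hg, c, hc, hv⟩ := hrat s b Q hQ
      refine ⟨g ^ m, M.pow_mem_I hg m, c, hc, fun b' Q' hQ' hs => ?_⟩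
      obtain ⟨ζ, hζ, hζm⟩ := hv b' Q' hQ' hs
      rw [M.red_pow b' (M.GI_iff.mp hg.1 b'), ← hζm]
      exact hζ.pow m) s)
  refine ⟨x, hx, fun P => ?_⟩
  rw [← hxD P]
  simp [Twist.smul, nsmul_eq_mul]

end Fib

/-- the congruences between the three valuations force equality after multiplying by `q + 1` -/
theorem valuations_congr {n : ℕ} {q : ℕ} {v20 v02 w c c' h1 h2 h1' h2' : ℤ}
    (e1 : v20 + w = c + n * h1) (e2 : (q : ℤ) * v02 = c + n * h2)
    (e3 : v02 + w = c' + n * h1') (e4 : (q : ℤ) * v20 = c' + n * h2') :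
    (n : ℤ) ∣ ((q : ℤ) + 1) * (v20 - v02) ∧
      (n : ℤ) ∣ ((q : ℤ) + 1) * w - ((q : ℤ) - 1) * (((q : ℤ) + 1) * v20) := by
  refine ⟨⟨h1 - h2 - h1' + h2', by linear_combination e1 - e2 - e3 + e4⟩,
    ⟨(h1 - h2) + (q : ℤ) * (h1' - h2'), by linear_combination e1 - e2 + (q : ℤ) * (e3 - e4)⟩⟩

/-- a vanishing residual class: `x` prime to `n` and `xⁿ`-th powers -/
theorem exists_root_of_pow {G : Type*} [CommGroup G] {n q : ℕ} (hqn : Nat.Coprime q n) {r h : G}
    (he : r ^ q = h ^ n) : ∃ g : G, r = g ^ n := by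
  have hb := Nat.gcd_eq_gcd_ab q n
  rw [hqn.gcd_eq_one, Nat.cast_one] at hb
  refine ⟨h ^ Nat.gcdA q n * r ^ Nat.gcdB q n, ?_⟩
  calc r = r ^ (1 : ℤ) := (zpow_one r).symm
    _ = (r ^ q) ^ Nat.gcdA q n * (r ^ Nat.gcdB q n) ^ n := by
        rw [hb, zpow_add, zpow_mul, zpow_natCast, mul_comm (n : ℤ), zpow_mul, zpow_natCast]
    _ = _ := by
        rw [he, mul_pow, ← zpow_natCast h n, ← zpow_mul, ← zpow_natCast (h ^ Nat.gcdA q n) n,
          ← zpow_mul, mul_comm (n : ℤ)]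

end FLTAgent.CUBE
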