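import Fermat.Agent.CUBE.Res
import Fermat.Agent.SS2.ModelLift
import Fermat.Agent.SS2.ModelValues

/-!
The coordinate `J = ∏ j(qˡτ)` and its charts.
-/

set_option autoImplicit false
set_option linter.unusedSectionVars false
set_option linter.style.haveILetI false
set_option synthInstance.maxHeartbeats 200000
set_option maxHeartbeats 1000000

noncomputable section

open ModularCurve AlgebraicCurve IsLocalRing
open FLTAgent.RR (Bd)
open FLTAgent.Reduction (Qb FB FS Ctx GR cB tB tS jS kA red regOn BT Val)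
open FLTAgent.SS2 (InChart rationalFn)

namespace FLTAgent.CUBE

variable {A : ValuationSubring Qb} {M q : ℕ} [NeZero M] [NeZero q]

variable (M q) in
/-- the coordinate -/
def Jp (k : ℕ) : FB (lev M q k) := ∏ l ∈ Finset.range (k + 1), nd M q k l (ModFun.jBar M)

/-- the exponents of the coordinate on the branches -/
def eJ (q k i : ℕ) : ℕ := ∑ l ∈ Finset.range (k + 1), q ^ nE k i l

theorem eJ_pos' (hq : 0 < q) (k i : ℕ) : 0 < eJ q k i :=
  Finset.sum_pos (fun _ _ => pow_pos hq _) Finset.nonempty_range_add_one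

theorem Jp_rational (A : ValuationSubring Qb) (k : ℕ) : Jp M q k ∈ rationalFn A (lev M q k) :=
  prod_mem fun l _ => nd_rational l (SS2.jBar_rational A M)

theorem coe_nd_jBar {k l : ℕ} (hl : l ≤ k) :
    ((nd M q k l (ModFun.jBar M) : FB (lev M q k)) : SS2.LS) =
      qExpand Qb (q ^ l) (coeffEmb Qb jq) := by
  rw [coe_nd hl, Reduction.coe_jBar]

theorem nd_jBar_ne_zero (k l : ℕ) : nd M q k l (ModFun.jBar M) ≠ 0 :=
  (_root_.map_ne_zero _).mpr (Reduction.ne_zero_of_transc (ModFun.transcendental_jBar M))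

/-- neighbouring nodes of the coordinate have the same poles -/
theorem bd_nd_succ_iff (hq : q.Prime) {k l : ℕ} (hl : l + 1 ≤ k)
    {P : Place Qb (FB (lev M q k))} :
    Bd P (nd M q k l (ModFun.jBar M)) 0 ↔ Bd P (nd M q k (l + 1) (ModFun.jBar M)) 0 := by
  obtain ⟨h1, h2⟩ := SS2.monicRel_pair q hq
  have e : qExpand Qb (q ^ (l + 1)) (coeffEmb Qb jq) =
      qExpand Qb (q ^ l) (qExpand Qb q (coeffEmb Qb jq)) := by
    rw [qExpand_qExpand]
    exact SS2.qExpand_congr' (pow_succ q l) _
  refine ⟨SS2.bd_of_monicRel ?_, SS2.bd_of_monicRel ?_⟩ <;>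
    rw [coe_nd_jBar (Nat.le_of_succ_le hl), coe_nd_jBar hl, e]
  exacts [h1.map (q ^ l), h2.map (q ^ l)]

theorem bd_nd_iff (hq : q.Prime) {k : ℕ} {P : Place Qb (FB (lev M q k))} :
    ∀ {l : ℕ}, l ≤ k →
      (Bd P (nd M q k l (ModFun.jBar M)) 0 ↔ Bd P (nd M q k 0 (ModFun.jBar M)) 0)
  | 0, _ => Iff.rfl
  | _ + 1, hl => (bd_nd_succ_iff hq hl).symm.trans (bd_nd_iff hq (Nat.le_of_succ_le hl))

theorem ord_nd_neg_iff (hq : q.Prime) {k : ℕ} (P : Place Qb (FB (lev M q k))) {l : ℕ} (hl : l ≤ k) :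
    P.ord (nd M q k l (ModFun.jBar M)) < 0 ↔ P.ord (nd M q k 0 (ModFun.jBar M)) < 0 := by
  have h := bd_nd_iff (P := P) hq hl
  rw [RR.bd_iff_ord (nd_jBar_ne_zero k l), RR.bd_iff_ord (nd_jBar_ne_zero k 0), neg_zero] at h
  rw [← not_le, ← not_le, h]

theorem ord_Jp (k : ℕ) (P : Place Qb (FB (lev M q k))) :
    P.ord (Jp M q k) = ∑ l ∈ Finset.range (k + 1), P.ord (nd M q k l (ModFun.jBar M)) := by
  rw [Jp, RR.ord_prod _ _ _ fun l _ => nd_jBar_ne_zero k l]

/-- `J` and the nodes have the same poles -/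
theorem ord_Jp_neg_iff (hq : q.Prime) {k : ℕ} (P : Place Qb (FB (lev M q k))) :
    P.ord (Jp M q k) < 0 ↔ P.ord (nd M q k 0 (ModFun.jBar M)) < 0 := by
  rw [ord_Jp]
  constructor
  · intro h
    by_contra hc
    refine absurd h (not_lt.mpr (Finset.sum_nonneg fun l hl => ?_))
    exact not_lt.mp fun h' =>
      hc ((ord_nd_neg_iff hq P (Nat.le_of_lt_succ (Finset.mem_range.mp hl))).mp h')
  · intro h
    exact Finset.sum_neg
      (fun l hl => (ord_nd_neg_iff hq P (Nat.le_of_lt_succ (Finset.mem_range.mp hl))).mpr h)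
      Finset.nonempty_range_add_one

/-- the signs on a chart of `J` -/
theorem inChart_Jp_iff (hq : q.Prime) {k : ℕ} {s : Bool} {P : Place Qb (FB (lev M q k))} :
    InChart s (P.ord (Jp M q k)) ↔ ∀ l ≤ k, InChart s (P.ord (nd M q k l (ModFun.jBar M))) := by
  have hneg := ord_Jp_neg_iff (k := k) hq P
  have hl0 := fun l hl => ord_nd_neg_iff (k := k) hq P (l := l) hl
  cases s
  · simp only [InChart, Bool.false_eq_true, if_false]
    refine ⟨fun h l hl => ?_, fun h => ?_⟩
    · have := hl0 l hl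
      omega
    · have := h 0 (Nat.zero_le k)
      omega
  · simp only [InChart, if_true]
    refine ⟨fun h l hl => ?_, fun h => ?_⟩
    · by_cases h0 : P.ord (nd M q k 0 (ModFun.jBar M)) < 0
      · have := (hl0 l hl).mpr h0
        omega
      · rw [ord_Jp] at h
        have hnn : ∀ j ∈ Finset.range (k + 1), 0 ≤ P.ord (nd M q k j (ModFun.jBar M)) :=
          fun j hj => not_lt.mp fun h' =>
            h0 ((hl0 j (Nat.le_of_lt_succ (Finset.mem_range.mp hj))).mp h')
        exact (Finset.single_le_sum (f := fun j => P.ord (nd M q k j (ModFun.jBar M))) hnn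
          (Finset.mem_range.mpr (Nat.lt_succ_of_le hl))).trans h
    · rw [ord_Jp]
      exact Finset.sum_nonpos fun l hl => h l (Nat.le_of_lt_succ (Finset.mem_range.mp hl))

theorem inChart_iff_bd_nd {k l : ℕ} {s : Bool} {P : Place Qb (FB (lev M q k))} :
    InChart s (P.ord (nd M q k l (ModFun.jBar M))) ↔ Bd P (nd M q k l (tB M s)) 0 := by
  cases s
  · show _ ↔ Bd P (nd M q k l (ModFun.jBar M)) 0
    rw [RR.bd_iff_ord (nd_jBar_ne_zero k l), neg_zero]
    simp [InChart]
  · show _ ↔ Bd P (nd M q k l (ModFun.jBar M)⁻¹) 0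
    rw [map_inv₀]
    exact SS2.inChart_true_iff_bd (nd_jBar_ne_zero k l)

theorem transcendental_Jp (hq : q.Prime) (k : ℕ) : Transcendental Qb (Jp M q k) := by
  haveI := Reduction.finite_tB (lev M q k) true
  haveI := Reduction.separable_tB (lev M q k) true
  obtain ⟨S, hS, hsum⟩ := Reduction.exists_zeros (Reduction.transcendental_tB (lev M q k) true)
  obtain ⟨P, hP⟩ : S.Nonempty := by
    rcases S.eq_empty_or_nonempty with rfl | h
    · rw [Finset.sum_empty, Reduction.ndeg_tB] at hsum
      have := SS2.dedekindPsi_pos' (lev M q k)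
      omega
    · exact h
  have hpole : P.ord (tB (lev M q k) false) < 0 := by
    have h := (hS P).mp hP
    rw [show tB (lev M q k) true = (tB (lev M q k) false)⁻¹ from Reduction.tB_not _ false,
      P.ord_inv] at h
    omega
  refine SS2.transcendental_of_pole ((ord_Jp_neg_iff hq P).mpr ?_)
  have e : nd M q k 0 (ModFun.jBar M) = tB (lev M q k) false := by
    refine Subtype.ext ?_
    rw [coe_nd_jBar (Nat.zero_le k), SS2.qExpand_congr' (pow_zero q), qExpand_one_apply]
    exact (Reduction.coe_jBar (lev M q k)).symm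
  rwa [e]

variable (C : Ctx A M q)
include C

theorem isRes_nd_tB {k : ℕ} (i : Fin (k + 1)) {l : ℕ} (hl : l ≤ k) (s : Bool) :
    IsRes C k i (nd M q k l (tB M s)) (tS A M s ^ q ^ nE k i l) :=
  (isRes_nd C i hl (Reduction.tB_mem s)).congr_res (by rw [Reduction.red_tB C, frIt_tS C])

theorem isRes_Jp {k : ℕ} (i : Fin (k + 1)) :
    IsRes C k i (Jp M q k) (jS A M ^ eJ q k i) := by
  refine (IsRes.prod (Finset.range (k + 1)) _ (fun l => jS A M ^ q ^ nE k i l) fun l hl =>
    isRes_nd_tB C i (Nat.le_of_lt_succ (Finset.mem_range.mp hl)) false).congr_res ?_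
  rw [Finset.prod_pow_eq_pow_sum]
  rfl

/-- the chart of `J` is contained in the charts of the nodes -/
theorem bd_nd_of_inChart {k : ℕ} {s : Bool} {P : Place Qb (FB (lev M q k))}
    (h : InChart s (P.ord (Jp M q k))) {l : ℕ} (hl : l ≤ k) : Bd P (nd M q k l (tB M s)) 0 :=
  inChart_iff_bd_nd.mp ((inChart_Jp_iff C.prime).mp h l hl)

/-- a place with finite values of all nodes of the coordinate lies in the chart -/
theorem inChart_of_bd {k : ℕ} {s : Bool} {P : Place Qb (FB (lev M q k))}
    (h : ∀ l ≤ k, Bd P (nd M q k l (tB M s)) 0) : InChart s (P.ord (Jp M q k)) :=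
  (inChart_Jp_iff C.prime).mpr fun l hl => inChart_iff_bd_nd.mpr (h l hl)

theorem nd_regOn {k l : ℕ} {s : Bool} {a : FB M} (ha : BT A M s a) :
    nd M q k l a ∈ regOn Qb (nd M q k l (tB M s)) :=
  SS2.map_regOn (nd M q k l) ha.mem_regOn

/-- if one node of the coordinate reduces to zero then so does every other one -/
theorem vanish_nd {k : ℕ} {P : Place Qb (FB (lev M q k))} {c : ℕ → Qb}
    (hc : ∀ l ≤ k, Reduction.Val P (nd M q k l (ModFun.jBar M)) (c l)) {l₀ : ℕ} (h₀ : l₀ ≤ k)
    (hv : A.valuation (c l₀) < 1) : A.valuation (c k) < 1 := by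
  rcases k with _ | k
  · obtain rfl : l₀ = 0 := Nat.le_zero.mp h₀
    exact hv
  have hstep : ∀ l ≤ k, A.valuation (c l) < 1 → A.valuation (c (l + 1)) < 1 := by
    intro l hl h
    obtain ⟨P', -, hval, -⟩ := SS2.exists_pull (ed M q k l) P
    refine SS2.vanish_beta C ((hval _ _).mp ?_) h ((hval _ _).mp ?_)
    · rw [ed_alpha hl]; exact hc l (hl.trans k.le_succ)
    · rw [ed_beta hl]; exact hc (l + 1) (Nat.succ_le_succ hl)
  have hall : ∀ d, l₀ + d ≤ k + 1 → A.valuation (c (l₀ + d)) < 1 := by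
    intro d
    induction d with
    | zero => exact fun _ => hv
    | succ d ih => exact fun hd => hstep (l₀ + d) (by omega) (ih (by omega))
  have := hall (k + 1 - l₀) (by omega)
  rwa [show l₀ + (k + 1 - l₀) = k + 1 by omega] at this

/-- at a zero of the coordinate the last node reduces to zero -/
theorem exists_node_value {k : ℕ} {P : Place Qb (FB (lev M q k))} (hP : 0 < P.ord (Jp M q k)) :
    ∃ v : Qb, A.valuation v < 1 ∧ Reduction.Val P (nd M q k k (ModFun.jBar M)) v := by
  have hbd : ∀ l ≤ k, Bd P (nd M q k l (ModFun.jBar M)) 0 := fun l hl =>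
    bd_nd_of_inChart (s := false) C (show InChart false (P.ord (Jp M q k)) from hP.le) hl
  have hex : ∀ l, ∃ c : Qb, l ≤ k → Reduction.Val P (nd M q k l (ModFun.jBar M)) c := by
    intro l
    by_cases hl : l ≤ k
    · obtain ⟨c, hc⟩ := Reduction.exists_val (RR.hasRes P) (hbd l hl)
      exact ⟨c, fun _ => hc⟩
    · exact ⟨0, fun h => absurd h hl⟩
  choose c hc using hex
  refine ⟨c k, ?_, hc k le_rfl⟩
  obtain ⟨l, hl, hl0⟩ : ∃ l ≤ k, c l = 0 := by
    by_contra hcon
    push Not at hcon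
    rw [ord_Jp, Finset.sum_eq_zero fun l hl =>
      ((hc l (Nat.le_of_lt_succ (Finset.mem_range.mp hl))).ord_eq_zero
        (hcon l (Nat.le_of_lt_succ (Finset.mem_range.mp hl)))).2] at hP
    exact lt_irrefl _ hP
  exact vanish_nd C hc hl (by rw [hl0, map_zero]; exact zero_lt_one)

/-- units congruent to one moving the poles of chart functions onto the chart of the last node -/
theorem exists_unit_move {k : ℕ} (s : Bool) {x : FB (lev M q k)}
    (hx : ∀ P : Place Qb (FB (lev M q k)), InChart s (P.ord (Jp M q k)) → Bd P x 0) :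
    ∃ u : FB M, u ∈ rationalFn A M ∧ u ∈ GR A M ∧ red A M u = 1 ∧
      u ∈ regOn Qb (tB M s) ∧
      nd M q k k u * x ∈ regOn Qb (nd M q k k (tB M s)) := by
  classical
  cases s
  · refine ⟨1, one_mem _, one_mem _, Reduction.red_one C, one_mem _, fun P hP => ?_⟩
    rw [map_one, one_mul]
    refine hx P (inChart_of_bd C fun l hl => ?_)
    exact ((bd_nd_iff C.prime hl).trans (bd_nd_iff C.prime le_rfl).symm).mpr hP
  set S : Finset (Place Qb (FB (lev M q k))) := RR.zeros (Jp M q k)
  have hval : ∀ P : Place Qb (FB (lev M q k)), ∃ v : Qb, P ∈ S →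
      A.valuation v < 1 ∧ Val P (nd M q k k (ModFun.jBar M)) v := fun P => by
    by_cases hP : P ∈ S
    · obtain ⟨v, hv⟩ := exists_node_value C (RR.mem_zeros.mp hP)
      exact ⟨v, fun _ => hv⟩
    · exact ⟨0, fun h => absurd h hP⟩
  choose v hv using hval
  set fac : Place Qb (FB (lev M q k)) → FB M := fun P => 1 - cB M (v P) * tB M true
  set u0 : FB M := ∏ P ∈ S, fac P
  have hfG : ∀ P ∈ S, fac P ∈ GR A M := fun P hP => sub_mem (one_mem _)
    (mul_mem (Reduction.cB_mem ((A.valuation_le_one_iff _).mp (hv P hP).1.le))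
      (Reduction.tB_mem true))
  have hfr : ∀ P ∈ S, red A M (fac P) = 1 := fun P hP => by
    have hA := (A.valuation_le_one_iff _).mp (hv P hP).1.le
    rw [Reduction.red_sub C (one_mem _)
      (mul_mem (Reduction.cB_mem hA) (Reduction.tB_mem true)), Reduction.red_one C,
      Reduction.red_mul C (Reduction.cB_mem hA) (Reduction.tB_mem true),
      Reduction.red_cB C ⟨_, hA⟩, (Reduction.res_eq_zero_iff A _).mpr (hv P hP).1, map_zero,
      zero_mul, sub_zero]
  have hfreg : ∀ P, fac P ∈ regOn Qb (tB M true) := fun P =>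
    sub_mem (one_mem _) (mul_mem (Subalgebra.algebraMap_mem _ _) (Reduction.self_mem_regOn _))
  have hu0r : u0 ∈ rationalFn A M := by
    intro σ hσ
    set g := SS2.galFn (lev M q k) σ
    have hJ : g • Jp M q k = Jp M q k := Jp_rational A k σ hσ
    have hj1 : g • nd M q k k (ModFun.jBar M) = nd M q k k (ModFun.jBar M) :=
      nd_rational k (SS2.jBar_rational A M) σ hσ
    have hS : ∀ P, g • P ∈ S ↔ P ∈ S := fun P => by
      rw [RR.mem_zeros, RR.mem_zeros]
      conv_lhs => rw [← hJ, SemilinearAut.ord_smul]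
    have hvg : ∀ P ∈ S, v (g • P) = σ (v P) := fun P hP => by
      refine (hv _ ((hS P).mpr hP)).2.unique ?_
      have h := (hv P hP).2
      show Bd _ _ _
      rw [← hj1, ← SS2.galFn_smul_const, ← smul_sub, RR.bd_iff, SemilinearAut.ord_smul,
        smul_eq_zero_iff_eq]
      exact RR.bd_iff.mp h
    have hfac : ∀ P ∈ S, SS2.galFn M σ • fac P = fac (g • P) := fun P hP => by
      show SS2.galFn M σ • (1 - algebraMap Qb (FB M) (v P) * tB M true) =
        1 - algebraMap Qb (FB M) (v (g • P)) * tB M true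
      rw [smul_sub, smul_one, smul_mul', SS2.galFn_smul_const, hvg P hP,
        SS2.tB_mem_rationalFn A M true σ hσ]
    rw [Finset.smul_prod']
    rw [Finset.prod_congr rfl hfac]
    exact Finset.prod_equiv (MulAction.toPerm g) (fun P => (hS P).symm) fun P _ => rfl
  have hu0G : u0 ∈ GR A M := prod_mem hfG
  have hu0red : red A M u0 = 1 := by
    rw [Reduction.red_prod C S _ hfG, Finset.prod_eq_one hfr]
  have hu0reg : u0 ∈ regOn Qb (tB M true) := prod_mem fun P _ => hfreg P
  have hu0ne : u0 ≠ 0 := fun h => by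
    rw [h, show red A M 0 = (0 : FS A M) from by
      have := Reduction.red_cB C (0 : A)
      simpa [map_zero] using this] at hu0red
    exact zero_ne_one hu0red
  set e : ℕ := ∑ P ∈ S, (-P.ord x).toNat
  refine ⟨u0 ^ e, pow_mem hu0r e, pow_mem hu0G e, by rw [Reduction.red_pow C hu0G, hu0red, one_pow],
    pow_mem hu0reg e, fun P hP => ?_⟩
  have hU : Bd P (nd M q k k u0) 0 := SS2.map_regOn (nd M q k k) hu0reg P hP
  rw [map_pow]
  by_cases hin : InChart true (P.ord (Jp M q k))
  · simpa using (hU.pow e).mul (hx P hin)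
  have hPS : P ∈ S := RR.mem_zeros.mpr (by simpa [InChart] using hin)
  rcases eq_or_ne x 0 with rfl | hx0
  · rw [mul_zero]; exact RR.Bd.zero
  have hU0 : nd M q k k u0 ≠ 0 := (_root_.map_ne_zero _).mpr hu0ne
  have hone : 1 ≤ P.ord (nd M q k k u0) := by
    have hj := (hv P hPS).2
    have hv0 : v P ≠ 0 := fun h => by
      rw [h] at hj
      have hne : nd M q k k (ModFun.jBar M) ≠ 0 :=
        (_root_.map_ne_zero _).mpr (Reduction.tB_ne_zero M false)
      have h1 := hj.ord_pos hne
      have h2 := (RR.bd_iff_ord ((_root_.map_ne_zero _).mpr (Reduction.tB_ne_zero M true))).mp hP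
      rw [show nd M q k k (tB M true) = (nd M q k k (ModFun.jBar M))⁻¹ from map_inv₀ _ _,
        P.ord_inv] at h2
      omega
    have hfac : Val P (nd M q k k (fac P)) 0 := by
      have h := (Reduction.Val.one (v := P)).sub
        ((Reduction.Val.const (v := P) (v P)).mul (hj.inv hv0))
      rw [mul_inv_cancel₀ hv0, sub_self] at h
      show Val P (nd M q k k (1 - algebraMap Qb (FB M) (v P) * (ModFun.jBar M)⁻¹)) 0
      rwa [map_sub, map_one, map_mul, AlgHom.commutes, map_inv₀]
    have hrest : Bd P (nd M q k k (∏ P' ∈ S.erase P, fac P')) 0 :=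
      SS2.map_regOn (nd M q k k) (prod_mem fun P' _ => hfreg P') P hP
    have h : Bd P (nd M q k k u0) (-1 + 0) := by
      show Bd P (nd M q k k (∏ P' ∈ S, fac P')) _
      rw [← Finset.mul_prod_erase S fac hPS, map_mul]
      refine RR.Bd.mul ?_ hrest
      have h' := hfac
      rwa [Val, map_zero, sub_zero] at h'
    have := (RR.bd_iff_ord hU0).mp h
    omega
  refine RR.bd_iff.mpr (Or.inr ?_)
  rw [P.ord_mul (pow_ne_zero _ hU0) hx0, RR.ord_pow]
  have hk : (-P.ord x).toNat ≤ e :=
    Finset.single_le_sum (f := fun P => (-P.ord x).toNat) (fun _ _ => Nat.zero_le _) hPS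
  have : (e : ℤ) ≤ e * P.ord (nd M q k k u0) := le_mul_of_one_le_right (by positivity) hone
  omega

end FLTAgent.CUBE

end
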