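import Fermat.Agent.CUBE.FibGen
import Fermat.Agent.Reduction.Charts

/-!
The points of the special fibre in a chart: a local generator off the crossings, and the classes of
points with the same maximal ideal.
-/

set_option autoImplicit false
set_option linter.unusedSectionVars false
set_option linter.unusedVariables false
set_option linter.style.haveILetI false

noncomputable section

open AlgebraicCurve IsLocalRing
open FLTAgent.RR (Bd KK)
open FLTAgent.Reduction (Val regOn)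

namespace FLTAgent.CUBE.Fib

variable {br : ℕ} {K : Type*} [Field K] [IsAlgClosed K] [CharZero K] {A : ValuationSubring K}
  {F : Type*} [Field F] [Algebra K F] [RR.FnField K F]
  {Fs : Type*} [Field Fs] [Algebra (ResidueField A) Fs] (M : Fib br K A F Fs) {n : ℕ}

/-- reduction to a component as a ring homomorphism on a chart ring -/
def redHom (s : Bool) (b : Fin (br + 1)) : M.R s →+* Fs where
  toFun r := M.red b (r : F)
  map_one' := M.red_one b
  map_mul' x y := M.red_mul b _ (M.GI_iff.mp x.2.1 b) _ (M.GI_iff.mp y.2.1 b)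
  map_zero' := M.red_zero b
  map_add' x y := M.red_add b _ (M.GI_iff.mp x.2.1 b) _ (M.GI_iff.mp y.2.1 b)

/-- from two functions each of which keeps the component `b`, one killing each other component -/
theorem exists_eps_of_mul {s : Bool} {b : Fin (br + 1)} {Q : Place (ResidueField A) Fs}
    (hQ : InChart s (Q.ord (M.Jbar b))) {e₁ e₂ : F} (h₁ : e₁ ∈ M.R s) (h₂ : e₂ ∈ M.R s)
    (hQ₁ : ¬ Val Q (M.red b e₁) 0) (hQ₂ : ¬ Val Q (M.red b e₂) 0)
    (h0 : ∀ b', b' ≠ b → M.red b' e₁ = 0 ∨ M.red b' e₂ = 0) :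
    ∃ ε ∈ M.R s, ¬ Val Q (M.red b ε) 0 ∧ ∀ b', b' ≠ b → M.red b' ε = 0 := by
  refine ⟨e₁ * e₂, mul_mem h₁ h₂, fun h => ?_, fun b' hb' => ?_⟩
  · obtain ⟨v₁, hv₁⟩ := M.val_exists hQ h₁
    obtain ⟨v₂, hv₂⟩ := M.val_exists hQ h₂
    rw [M.red_mul b _ (M.GI_iff.mp h₁.1 b) _ (M.GI_iff.mp h₂.1 b)] at h
    rcases mul_eq_zero.mp ((hv₁.mul hv₂).unique h) with rfl | rfl
    · exact hQ₁ hv₁
    · exact hQ₂ hv₂
  · rw [M.red_mul b' _ (M.GI_iff.mp h₁.1 b') _ (M.GI_iff.mp h₂.1 b')]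
    rcases h0 b' hb' with h | h <;> simp [h]

section

variable [IsAlgClosed (ResidueField A)] (s : Bool) (b : Fin (br + 1)) {t : Fs}
  (ht : Transcendental (ResidueField A) t) [FiniteDimensional (KK (ResidueField A) t) Fs]
  [Algebra.IsSeparable (KK (ResidueField A) t) Fs]
  (hchart : ∀ Q : Place (ResidueField A) Fs, InChart s (Q.ord (M.Jbar b)) ↔ Bd Q t 0)

include hchart in
/-- functions regular on the chart lift -/
theorem exists_lift_regOn {φ : Fs} (hφ : φ ∈ regOn (ResidueField A) t) :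
    ∃ x ∈ M.R s, M.red b x = φ := by
  obtain ⟨x, hx, hxc, hxr⟩ := M.lift s b φ fun Q hQ => hφ Q ((hchart Q).mp hQ)
  exact ⟨x, ⟨M.GI_iff.mpr hx, by simpa [OnChart] using hxc⟩, hxr⟩

include ht hchart in
/-- a function regular at a point of the chart is a quotient of restrictions of chart functions -/
theorem exists_quot {Q : Place (ResidueField A) Fs} (hQ : InChart s (Q.ord (M.Jbar b))) {φ : Fs}
    (hφ : Bd Q φ 0) :
    ∃ e ∈ M.R s, ∃ r ∈ M.R s, ¬ Val Q (M.red b e) 0 ∧ M.red b e * φ = M.red b r := by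
  classical
  rcases eq_or_ne φ 0 with rfl | hφ0
  · exact ⟨1, one_mem _, 0, zero_mem _,
      fun h => one_ne_zero (Val.one.unique (by rwa [M.red_one] at h)),
      by rw [mul_zero, M.red_zero]⟩
  set bad := (M.finite_ord φ hφ0).toFinset.filter
    fun u : Place (ResidueField A) Fs => Bd u t 0 ∧ u.ord φ < 0
  have hQord : 0 ≤ Q.ord φ := by simpa using (RR.bd_iff_ord hφ0).mp hφ
  have hex : ∀ u : bad, ∃ g ∈ regOn (ResidueField A) t, Bd u.1 g (-1) ∧ g ≠ 0 ∧ Q.ord g = 0 :=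
    fun u => by
    obtain ⟨hu, hu'⟩ := (Finset.mem_filter.mp u.2).2
    exact Reduction.exists_separate ht hu ((hchart Q).mp hQ) (fun h => by rw [h] at hu'; omega)
  choose g hgR hgu hg0 hgQ using hex
  set ψ := ∏ u : bad, g u ^ (-u.1.ord φ).toNat
  have hψR : ψ ∈ regOn (ResidueField A) t := prod_mem fun u _ => pow_mem (hgR u) _
  have hψ0 : ψ ≠ 0 := Finset.prod_ne_zero_iff.mpr fun u _ => pow_ne_zero _ (hg0 u)
  have hψQ : Q.ord ψ = 0 := by
    rw [RR.ord_prod Q _ _ fun u _ => pow_ne_zero _ (hg0 u)]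
    exact Finset.sum_eq_zero fun u _ => by rw [RR.ord_pow, hgQ, mul_zero]
  have hprod : ψ * φ ∈ regOn (ResidueField A) t := by
    intro u hu
    rcases le_or_gt 0 (u.ord φ) with h | h
    · simpa using (hψR u hu).mul (RR.bd_iff.mpr (Or.inr (by simpa using h)) : Bd u φ 0)
    have hmem : u ∈ bad :=
      Finset.mem_filter.mpr ⟨(Set.Finite.mem_toFinset _).mpr h.ne, hu, h⟩
    have hrest : (∏ v ∈ Finset.univ.erase (⟨u, hmem⟩ : bad), g v ^ (-v.1.ord φ).toNat) ∈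
        regOn (ResidueField A) t := prod_mem fun v _ => pow_mem (hgR v) _
    have h1 := (((hgu ⟨u, hmem⟩).pow (-u.ord φ).toNat).mul (hrest u hu)).mul
      (RR.bd_self (v := u) (f := φ))
    simp only [ψ]
    rw [← Finset.mul_prod_erase _ _ (Finset.mem_univ (⟨u, hmem⟩ : bad))]
    refine h1.mono ?_
    rw [Int.toNat_of_nonneg (by omega)]
    omega
  obtain ⟨e, heR, her⟩ := M.exists_lift_regOn s b hchart hψR
  obtain ⟨r, hrR, hrr⟩ := M.exists_lift_regOn s b hchart hprod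
  refine ⟨e, heR, r, hrR, fun h => ?_, by rw [her, hrr]⟩
  rw [her] at h
  have := h.ord_pos hψ0
  omega

include ht hchart in
/-- points of one component with the same maximal ideal are equal -/
theorem SamePt.eq_of_same {Q Q' : Place (ResidueField A) Fs}
    (hQ : InChart s (Q.ord (M.Jbar b))) (hQ' : InChart s (Q'.ord (M.Jbar b)))
    (h : M.SamePt s b Q b Q') : Q' = Q := by
  by_contra hne
  obtain ⟨g, hgR, hgv, hg0, hgQ⟩ :=
    Reduction.exists_separate ht ((hchart Q').mp hQ') ((hchart Q).mp hQ) hne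
  obtain ⟨x, hxR, hxr⟩ := M.exists_lift_regOn s b hchart hgR
  have h1 : Val Q' (M.red b x) 0 := by
    rw [hxr, Val, map_zero, sub_zero]; exact hgv
  have h2 := (h x hxR).mpr h1
  rw [hxr] at h2
  have := h2.ord_pos hg0
  omega

include ht hchart in
/-- a point separated from the other components is alone in its class -/
theorem samePt_off_iff {Q : Place (ResidueField A) Fs} (hQ : InChart s (Q.ord (M.Jbar b))) {ε : F}
    (hεR : ε ∈ M.R s) (hεQ : ¬ Val Q (M.red b ε) 0) (hε0 : ∀ b', b' ≠ b → M.red b' ε = 0)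
    {b' : Fin (br + 1)} {Q' : Place (ResidueField A) Fs} (hQ' : InChart s (Q'.ord (M.Jbar b'))) :
    M.SamePt s b Q b' Q' ↔ b' = b ∧ Q' = Q := by
  refine ⟨fun h => ?_, ?_⟩
  · rcases eq_or_ne b' b with rfl | hne
    · exact ⟨rfl, SamePt.eq_of_same M s b' ht hchart hQ hQ' h⟩
    · exact absurd ((h ε hεR).mpr (by rw [hε0 b' hne]; exact Val.zero)) hεQ
  · rintro ⟨rfl, rfl⟩ x _
    exact Iff.rfl

include ht hchart in
/-- the local generator off the crossings: `ρ` is a uniformiser of the component with `q / ρ ^ e`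
finite and non-zero at the point, `ε` separates the point from the other components -/
theorem exists_generator_off (hn : n ≠ 0) (W : M.Triv n) {Q : Place (ResidueField A) Fs}
    (hQ : InChart s (Q.ord (M.Jbar b))) (hfg : (M.I W.D s).FG) {ε : F} (hεR : ε ∈ M.R s)
    (hεQ : ¬ Val Q (M.red b ε) 0) (hε0 : ∀ b', b' ≠ b → M.red b' ε = 0) {ρ : F} (hρR : ρ ∈ M.R s)
    (hρG : ρ * (M.ϖ b)⁻¹ ∈ M.G b) (hρr : M.red b (ρ * (M.ϖ b)⁻¹) ≠ 0) {c₀ : ResidueField A}
    (hc₀ : c₀ ≠ 0) (hq : Val Q (M.red b (algebraMap K F (M.q : K) * (ρ ^ M.e b)⁻¹)) c₀)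
    (hfull : ∀ PK : Place K F, InChart s (PK.ord M.J) →
      ∃ m ∈ M.Ω, m ≠ 0 ∧ M.OnChart W.D s m ∧ PK.ord m = -W.D PK)
    (hρ : ∀ b, ∃ ρ : F, M.OnChart 0 s ρ ∧ ρ * (M.ϖ b)⁻¹ ∈ M.G b ∧
      M.red b (ρ * (M.ϖ b)⁻¹) ≠ 0) :
    ∃ g ∈ M.I W.D s,
      (∀ m ∈ M.I W.D s, ∃ e : M.R s, ¬ Val Q (M.red b (e : F)) 0 ∧
        ∃ r : M.R s, (e : F) * m = (r : F) * g) ∧
      ∃ c : ResidueField A, c ≠ 0 ∧ Val Q (M.red b (g ^ n * W.f)) c ∧
        ∀ b' (Q' : Place (ResidueField A) Fs), InChart s (Q'.ord (M.Jbar b')) →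
          M.SamePt s b Q b' Q' → Val Q' (M.red b' (g ^ n * W.f)) c := by
  classical
  have hϖ := M.ϖ_ne b
  have hρ0 : ρ ≠ 0 := fun h => hρr (by rw [h, zero_mul, M.red_zero])
  have hρ_eq : ρ = (ρ * (M.ϖ b)⁻¹) * M.ϖ b := by rw [inv_mul_cancel_right₀ hϖ]
  have hρred : M.red b ρ = 0 := by
    rw [hρ_eq, M.red_mul b _ hρG _ (M.ϖ_mem b), M.red_ϖ, mul_zero]
  have hρΩ : ρ ∈ M.Ω := M.G_le b _ (M.GI_iff.mp hρR.1 b)
  set u := algebraMap K F (M.q : K) * (ρ ^ M.e b)⁻¹ with hu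
  have huinv := M.inv_mem_G b (pow_mem hρG (M.e b))
    (by rw [M.red_pow b hρG]; exact pow_ne_zero _ hρr)
  have hueq : u = algebraMap K F (M.q : K) * (M.ϖ b ^ M.e b)⁻¹ *
      ((ρ * (M.ϖ b)⁻¹) ^ M.e b)⁻¹ := by
    rw [hu, mul_pow, inv_pow, mul_inv, inv_inv]
    field_simp
  have huG : u ∈ M.G b := hueq ▸ mul_mem (M.q_eq b).1 huinv.1
  have hur : M.red b u ≠ 0 := by
    rw [hueq, M.red_mul b _ (M.q_eq b).1 _ huinv.1, huinv.2, M.red_pow b hρG]
    exact mul_ne_zero (M.q_eq b).2 (inv_ne_zero (pow_ne_zero _ hρr))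
  have huI := M.inv_mem_G b huG hur
  -- a chart function `y = ρ ^ e ε ^ k / q` non-zero at the point
  have huΩ : u⁻¹ ∈ M.Ω := M.G_le b _ huI.1
  have hqΩ : algebraMap K F (M.q : K) ≠ 0 := (map_ne_zero _).mpr M.q_ne
  choose N hN using fun b' => M.exists_killing_exp b' huΩ
  set k := ∑ b', N b'
  set y := u⁻¹ * ε ^ k with hy
  have hyR : y ∈ M.R s := by
    refine ⟨M.GI_iff.mpr fun b' => ?_, fun P hP => ?_⟩
    · rcases eq_or_ne b' b with rfl | hne
      · exact mul_mem huI.1 (pow_mem (M.GI_iff.mp hεR.1 _) k)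
      · exact (hN b' ε (M.GI_iff.mp hεR.1 b') (hε0 b' hne) k
          (Finset.single_le_sum (fun _ _ => Nat.zero_le _) (Finset.mem_univ b'))).1
    · rw [hy, hu, mul_inv, inv_inv, ← map_inv₀]
      simpa using ((RR.Bd.of_algebraMap (v := P) ((M.q : K)⁻¹)).mul
        ((pow_mem hρR (M.e b) : ρ ^ M.e b ∈ M.R s).2 P hP)).mul ((pow_mem hεR k : ε ^ k ∈ M.R s).2 P hP)
  haveI := M.ptIdeal_isPrime s b Q hQ
  have hεP : (⟨ε, hεR⟩ : M.R s) ∉ M.ptIdeal s b Q hQ := hεQ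
  have hyP : (⟨y, hyR⟩ : M.R s) ∉ M.ptIdeal s b Q hQ := by
    intro h
    obtain ⟨vε, hvε⟩ := M.val_exists hQ hεR
    have hvε0 : vε ≠ 0 := fun h0 => hεQ (h0 ▸ hvε)
    have h1 : Val Q (M.red b y) (c₀⁻¹ * vε ^ k) := by
      rw [hy, M.red_mul b _ huI.1 _ (pow_mem (M.GI_iff.mp hεR.1 b) k), huI.2,
        M.red_pow b (M.GI_iff.mp hεR.1 b)]
      exact (hq.inv hc₀).mul (hvε.pow k)
    exact mul_ne_zero (inv_ne_zero hc₀) (pow_ne_zero _ hvε0) (h1.unique h)
  let lam : M.I W.D s →+ Fs := AddMonoidHom.mk' (fun m => M.red b (m : F)) fun m m' =>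
    M.red_add b _ (M.GI_iff.mp m.2.1 b) _ (M.GI_iff.mp m'.2.1 b)
  refine M.exists_generator hn W s b Q hQ hfg (M.redHom s b) (x := ⟨ρ, hρR⟩)
    (by rw [hρred]; exact Val.zero) lam ?_ ?_ ?_ hfull hρ
  · exact fun r m => M.red_mul b _ (M.GI_iff.mp r.2.1 b) _ (M.GI_iff.mp m.2.1 b)
  · intro m hm
    have hmG := M.GI_iff.mp m.2.1
    have hm1 : (m : F) * (M.ϖ b)⁻¹ ∈ M.G b := by
      rcases eq_or_ne (m : F) 0 with h0 | h0
      · rw [h0, zero_mul]; exact zero_mem _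
      obtain ⟨i, Y, hY, hYr, hmY⟩ := M.exists_unit_part b (M.G_le b _ (hmG b)) h0
      have hi := M.exponent_pos b hY hYr hmY (hmG b) hm
      rw [hmY, mul_right_comm, ← zpow_sub_one₀ hϖ]
      refine mul_mem ?_ hY
      obtain ⟨j, hj⟩ : ∃ j : ℕ, i - 1 = (j : ℤ) := ⟨(i - 1).toNat, by omega⟩
      rw [hj, zpow_natCast]
      exact pow_mem (M.ϖ_mem b) j
    have hm2 : (m : F) * ρ⁻¹ ∈ M.G b := by
      have h1 := mul_mem hm1 (M.inv_mem_G b hρG hρr).1
      rwa [mul_inv, inv_inv, mul_assoc, mul_left_comm (M.ϖ b)⁻¹,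
        inv_mul_cancel₀ hϖ, mul_one] at h1
    have hΩ2 : (m : F) * ρ⁻¹ ∈ M.Ω := M.G_le b _ hm2
    choose N' hN' using fun b' => M.exists_killing_exp b' hΩ2
    set j := ∑ b', N' b'
    refine ⟨⟨y, hyR⟩ * ⟨ε, hεR⟩ ^ j,
      fun h => ((Ideal.IsPrime.mem_or_mem ‹_› h).elim hyP
        fun h => hεP (Ideal.IsPrime.mem_of_pow_mem inferInstance _ h)),
      ⟨y * ((m : F) * ρ⁻¹ * ε ^ j), M.GI_iff.mpr fun b' => ?_, fun P hP => ?_⟩, Subtype.ext ?_⟩
    · refine mul_mem (M.GI_iff.mp hyR.1 b') ?_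
      rcases eq_or_ne b' b with rfl | hne
      · exact mul_mem hm2 (pow_mem (M.GI_iff.mp hεR.1 _) j)
      · exact (hN' b' ε (M.GI_iff.mp hεR.1 b') (hε0 b' hne) j
          (Finset.single_le_sum (fun _ _ => Nat.zero_le _) (Finset.mem_univ b'))).1
    · obtain ⟨e', he'⟩ : ∃ e', M.e b = e' + 1 := ⟨M.e b - 1, by have := M.e_pos b; omega⟩
      have heq : y * ((m : F) * ρ⁻¹ * ε ^ j) =
          algebraMap K F ((M.q : K)⁻¹) * (ρ ^ e' * ε ^ (k + j)) * (m : F) := by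
        rw [hy, hu, he', pow_succ, pow_add, map_inv₀]
        field_simp
      rw [heq]
      simpa using ((RR.Bd.of_algebraMap (v := P) ((M.q : K)⁻¹)).mul
        ((mul_mem (pow_mem hρR e') (pow_mem hεR (k + j)) : ρ ^ e' * ε ^ (k + j) ∈ M.R s).2 P hP)).mul
          (m.2.2 P hP)
    · show y * ε ^ j * (m : F) = ρ * (y * ((m : F) * ρ⁻¹ * ε ^ j))
      field_simp
  · intro m m'
    have hcase : ∀ f g : Fs, Bd Q (f / g) 0 → g ≠ 0 →
        ∃ e ∈ M.R s, ∃ r ∈ M.R s, ¬ Val Q (M.red b e) 0 ∧ M.red b e * f = M.red b r * g := by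
      intro f g hfgQ hg
      obtain ⟨e, he, r, hr, heQ, her⟩ := M.exists_quot s b ht hchart hQ hfgQ
      refine ⟨e, he, r, hr, heQ, ?_⟩
      rw [← her, mul_assoc, div_mul_cancel₀ _ hg]
    set f := M.red b (m : F) with hf
    set g := M.red b (m' : F) with hg
    have h1Q : ¬ Val Q (M.red b (1 : F)) 0 := fun h =>
      one_ne_zero (Val.one.unique (by rwa [M.red_one] at h))
    rcases eq_or_ne g 0 with hg0 | hg0
    · refine ⟨1, h1Q, 0, Or.inr ?_⟩
      show M.redHom s b 1 * g = M.redHom s b 0 * f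
      rw [hg0, map_zero, mul_zero, zero_mul]
    rcases eq_or_ne f 0 with hf0 | hf0
    · refine ⟨1, h1Q, 0, Or.inl ?_⟩
      show M.redHom s b 1 * f = M.redHom s b 0 * g
      rw [hf0, map_zero, mul_zero, zero_mul]
    rcases le_total (Q.ord g) (Q.ord f) with hle | hle
    · obtain ⟨e, he, r, hr, heQ, her⟩ := hcase f g
        (by rw [RR.bd_div_iff hg0, RR.bd_iff_ord hf0]; omega) hg0
      exact ⟨⟨e, he⟩, heQ, ⟨r, hr⟩, Or.inl her⟩
    · obtain ⟨e, he, r, hr, heQ, her⟩ := hcase g f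
        (by rw [RR.bd_div_iff hf0, RR.bd_iff_ord hg0]; omega) hf0
      exact ⟨⟨e, he⟩, heQ, ⟨r, hr⟩, Or.inr her⟩

end

end FLTAgent.CUBE.Fib

end
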