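import Fermat.Agent.CUBE.CrossPoints
import Fermat.Agent.CUBE.FibPointOff

/-!
Off the double points each branch is separated from the others.
-/

set_option autoImplicit false
set_option linter.unusedSectionVars false
set_option linter.style.haveILetI false
set_option synthInstance.maxHeartbeats 400000
set_option maxHeartbeats 1000000

noncomputable section

open ModularCurve AlgebraicCurve IsLocalRing
open FLTAgent.RR (Bd)
open FLTAgent.Reduction
open FLTAgent.SS2 (InChart rationalFn DblSet LevelData)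

namespace FLTAgent.CUBE

variable {A : ValuationSubring Qb} {M q : ℕ} [NeZero M] [NeZero q] (C : Ctx A M q) {k : ℕ}
  {D : SS.Data Qb A (FB (M * q)) (FS A M)} (L : LevelData D)
  {r : ℕ} (hr : r.Prime) (h11 : r % 12 = 11) (hrM : r ∣ M)
  (hin : ∀ σ ∈ A.inertiaSubgroupIn ℚ,
    SS.Compat D.toCore (SS2.galFn (M * q) σ) (RingEquiv.refl (FS A M)))

section Edges

include C L

omit hr h11 hrM hin

theorem w_eq_atkinW : L.w = SS.atkinW M q :=
  SS2.algHom_ext_two C.prime C.not_dvd (fun a => by rw [L.w_alpha]; exact (SS.atkinW_i1 C a).symm)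
    fun a => by rw [L.w_beta]; exact (SS.atkinW_i2 C a).symm

/-- residues on the two sides as restrictions of level `Mq` -/
theorem isRed_red {g : FB (M * q)} (b : Bool) (hg : g ∈ D.G b) :
    SS.IsRed A b g (D.red b g) := by
  cases b
  · exact ⟨SS.mem_GS.mpr ((L.mem_false g).mp hg), (L.red_false g ((L.mem_false g).mp hg)).symm⟩
  · have h := (L.mem_true g).mp hg
    have e : SS.side M q true g = L.w g := by rw [w_eq_atkinW C L]; rfl
    refine ⟨SS.mem_GS.mpr (by rwa [e]), ?_⟩
    rw [e, L.red_true g h, L.red_false _ h]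

omit L in
/-- zeros of iterates of Frobenius -/
theorem val_zero_of_frIt {x : FS A M} : ∀ (n : ℕ) {Q : PS A M},
    Val Q (frIt C n x) 0 → Val (crossR C Q n) x 0
  | 0, Q, h => by rw [crossR_zero]; exact h
  | n + 1, Q, h => by
    have h' : Val (frobS C • Q) (frIt C n x) 0 := by
      rcases eq_or_ne (frIt C n x) 0 with h0 | h0
      · rw [h0]; exact Val.zero
      refine val_zero_of_ord_pos ?_
      have hne : SS.Fr C (frIt C n x) ≠ 0 := (_root_.map_ne_zero (SS.Fr C)).mpr h0
      have h1 : 1 ≤ Q.ord (SS.Fr C (frIt C n x)) :=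
        Val.ord_pos (show Val Q (SS.Fr C (frIt C n x)) 0 from h) hne
      rw [SS2.Fr_eq_pow C, RR.ord_pow] at h1
      have h2 : Q.ord ((frobS C)⁻¹ • frIt C n x) = (frobS C • Q).ord (frIt C n x) := by
        have := SemilinearAut.ord_smul (frobS C) Q ((frobS C)⁻¹ • frIt C n x)
        rw [smul_inv_smul] at this
        exact this.symm
      rw [h2] at h1
      by_contra hle
      have := mul_nonpos_of_nonneg_of_nonpos (Int.natCast_nonneg q) (not_lt.mp hle)
      omega
    have := val_zero_of_frIt n h'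
    rwa [crossR, smul_smul, ← pow_succ] at this

/-- edges of functions regular on a chart of level `Mq` are in the chart ring, with their
restrictions -/
theorem ed_mem_R {l : ℕ} (hl : l ≤ k) {s : Bool} {g : FB (M * q)} (hg : g ∈ rationalFn A (M * q))
    (hG : ∀ b, g ∈ D.G b) (hreg : ∀ P : PB (M * q), InChart s (P.ord D.J) → Bd P g 0) :
    ed M q k l g ∈ (model C (k + 1)).R s ∧
      (∀ i : Fin (k + 2), l + 1 ≤ (i : ℕ) → (model C (k + 1)).red i (ed M q k l g) =
        frIt C (nE (k + 1) i l) (D.red false g)) ∧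
      ∀ i : Fin (k + 2), (i : ℕ) ≤ l → (model C (k + 1)).red i (ed M q k l g) =
        frIt C (nE (k + 1) i (l + 1)) (D.red true g) := by
  have hf := fun (i : Fin (k + 2)) (hi : l + 1 ≤ (i : ℕ)) =>
    isRes_ed_false C i hl hi (isRed_red C L false (hG false))
  have ht := fun (i : Fin (k + 2)) (hi : (i : ℕ) ≤ l) =>
    isRes_ed_true C i hl hi (isRed_red C L true (hG true))
  refine ⟨model_mem_R (ed_rational l hg) (fun i => ?_) fun P hP => ?_,
    fun i hi => (hf i hi).redB_eq, fun i hi => (ht i hi).redB_eq⟩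
  · by_cases hi : l + 1 ≤ (i : ℕ)
    · exact ⟨_, hf i hi⟩
    · exact ⟨_, ht i (by omega)⟩
  -- the place below on level `Mq` lies in the chart
  have hint : (ed M q k l).toRingHom.IsIntegral := HeckeJ.isIntegralAlong _
  rw [SS2.bd_restrictAlong (ed M q k l) hint]
  refine hreg _ ?_
  set P' := P.restrictAlong (ed M q k l) hint
  have hj : ModFun.jBar M ≠ 0 := ne_zero_of_transc (ModFun.transcendental_jBar M)
  have ha : heckeAlphaBar Qb M q (ModFun.jBar M) ≠ 0 := (_root_.map_ne_zero _).mpr hj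
  have hb : heckeBetaBar Qb M q (ModFun.jBar M) ≠ 0 := (_root_.map_ne_zero _).mpr hj
  have h1 : Bd P' (heckeAlphaBar Qb M q (tB M s)) 0 ∧ Bd P' (heckeBetaBar Qb M q (tB M s)) 0 := by
    constructor
    · rw [← SS2.bd_restrictAlong (ed M q k l) hint, ed_alpha hl]
      exact bd_nd_of_inChart C hP (by omega)
    · rw [← SS2.bd_restrictAlong (ed M q k l) hint, ed_beta hl]
      exact bd_nd_of_inChart C hP (by omega)
  have hJ : D.J = heckeAlphaBar Qb M q (ModFun.jBar M) * heckeBetaBar Qb M q (ModFun.jBar M) :=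
    L.J_eq
  rw [hJ]
  cases s
  · have hab := h1.1.mul h1.2
    rw [add_zero] at hab
    show InChart false _
    simp only [InChart, Bool.false_eq_true, if_false]
    rw [show tB M false = ModFun.jBar M from rfl, RR.bd_iff_ord (mul_ne_zero ha hb)] at hab
    simpa using hab
  · have hab := h1.1.mul h1.2
    rw [add_zero, show tB M true = (ModFun.jBar M)⁻¹ from rfl, map_inv₀, map_inv₀, ← mul_inv]
      at hab
    exact (SS2.inChart_true_iff_bd (mul_ne_zero ha hb)).mpr hab

end Edges

include C L hr h11 hrM hin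

theorem exists_eps_off' (s : Bool) (b : Fin (k + 1)) {Q : PS A M} (hQ : Bd Q (tS A M s) 0)
    (hQD : Q ∉ DblSet D) :
    ∃ ε ∈ (model C k).R s, ¬ Val Q ((model C k).red b ε) 0 ∧
      ∀ b', b' ≠ b → (model C k).red b' ε = 0 := by
  classical
  set Mo := model C k with hMo
  have hQb : InChart s (Q.ord (Mo.Jbar b)) := (model_inChart_iff s b Q).mpr hQ
  have h1 : (1 : FB (lev M q k)) ∈ Mo.R s := one_mem _
  have h1Q : ¬ Val Q (Mo.red b 1) 0 := fun h => one_ne_zero (Val.one.unique (by rwa [Mo.red_one] at h))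
  -- the points seen from `Q` at the ends of an edge
  have hstep : ∀ n : ℕ, Bd (crossR C Q n) (tS A M s) 0 ∧ crossR C Q n ∉ DblSet D := by
    intro n
    refine ⟨fin_crossR C hQ n, ?_⟩
    induction n with
    | zero => rwa [crossR_zero]
    | succ m ih => rwa [crossR_succ, SS2.frobS_mem_DblSet_iff C L hr h11 hrM]
  -- a function killing the branches on one side of an edge
  have key : ∀ (k' : ℕ), k = k' + 1 → ∀ (l n : ℕ) (t : Bool), l ≤ k' →
      (∀ i : Fin (k + 1), i = b → if t then (i : ℕ) ≤ l ∧ n = nE k i (l + 1)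
        else l + 1 ≤ (i : ℕ) ∧ n = nE k i l) →
      ∃ e ∈ Mo.R s, ¬ Val Q (Mo.red b e) 0 ∧
        ∀ i : Fin (k + 1), (if t then l + 1 ≤ (i : ℕ) else (i : ℕ) ≤ l) → Mo.red i e = 0 := by
    intro k' hk' l n t hl hb
    subst hk'
    obtain ⟨g, hg, hG, hreg, hz, hne⟩ := SS2.exists_rational_supp C L hin s t (hstep n).1
      (fun i => (SS2.ne_pt_of_not_mem C L hr h11 hrM (hstep n).2 t i).1)
    obtain ⟨hR, hF, hT⟩ := ed_mem_R C L hl hg hG hreg
    have hval : ¬ Val Q (frIt C n (D.red t g)) 0 := fun h => hne (val_zero_of_frIt C n h)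
    refine ⟨ed M q k' l g, hR, fun h => ?_, fun i hi => ?_⟩
    · have hb' := hb b rfl
      cases t
      · simp only [Bool.false_eq_true, if_false] at hb'
        rw [hMo, hF b hb'.1, ← hb'.2] at h
        exact hval h
      · simp only [if_true] at hb'
        rw [hMo, hT b hb'.1, ← hb'.2] at h
        exact hval h
    · cases t
      · simp only [Bool.false_eq_true, if_false] at hi
        rw [hMo, hT i hi, show D.red true g = 0 from hz, map_zero]
      · simp only [if_true] at hi
        rw [hMo, hF i hi, show D.red false g = 0 from hz, map_zero]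
  have hbk : (b : ℕ) ≤ k := Nat.le_of_lt_succ b.2
  -- the branches after `b`
  obtain ⟨e₁, he₁, he₁Q, he₁0⟩ : ∃ e ∈ Mo.R s, ¬ Val Q (Mo.red b e) 0 ∧
      ∀ i : Fin (k + 1), (b : ℕ) < i → Mo.red i e = 0 := by
    by_cases hb : (b : ℕ) < k
    · obtain ⟨e, he, heQ, he0⟩ := key (k - 1) (by omega) b (nE k b (b + 1)) true (by omega)
        (fun i hi => by subst hi; simp)
      exact ⟨e, he, heQ, fun i hi => he0 i (by simp only [if_true]; omega)⟩
    · exact ⟨1, h1, h1Q, fun i hi => by have := i.2; omega⟩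
  -- the branches before `b`
  obtain ⟨e₂, he₂, he₂Q, he₂0⟩ : ∃ e ∈ Mo.R s, ¬ Val Q (Mo.red b e) 0 ∧
      ∀ i : Fin (k + 1), (i : ℕ) < b → Mo.red i e = 0 := by
    by_cases hb : 0 < (b : ℕ)
    · obtain ⟨e, he, heQ, he0⟩ := key (k - 1) (by omega) (b - 1) (nE k b (b - 1)) false (by omega)
        (fun i hi => by subst hi; simp only [Bool.false_eq_true, if_false, and_true]; omega)
      exact ⟨e, he, heQ, fun i hi => he0 i (by simp only [Bool.false_eq_true, if_false]; omega)⟩
    · exact ⟨1, h1, h1Q, fun i hi => by omega⟩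
  refine Mo.exists_eps_of_mul hQb he₁ he₂ he₁Q he₂Q fun b' hb' => ?_
  rcases lt_or_gt_of_ne (fun h => hb' (Fin.ext h)) with h | h
  · exact Or.inr (he₂0 b' h)
  · exact Or.inl (he₁0 b' h)

end FLTAgent.CUBE

end
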