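import Fermat.Agent.CUBE.Model

/-!
The involution exchanging the branches `i` and `k - i` preserves the model.
-/

set_option autoImplicit false
set_option linter.unusedSectionVars false
set_option linter.style.haveILetI false
set_option synthInstance.maxHeartbeats 200000
set_option maxHeartbeats 1000000

noncomputable section

open ModularCurve AlgebraicCurve IsLocalRing
open FLTAgent.RR (Bd)
open FLTAgent.Reduction (Qb FB FS Ctx GR tB tS jS kA red)
open FLTAgent.SS2 (InChart rationalFn)

namespace FLTAgent.CUBE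

variable {A : ValuationSubring Qb} {M q : ℕ} [NeZero M] [NeZero q] (C : Ctx A M q) {k : ℕ}
include C

theorem wAL_const (c : Qb) :
    wAL C k (algebraMap Qb (FB (lev M q k)) c) = algebraMap Qb (FB (lev M q k)) c :=
  (wAL C k).commutes c

theorem wAL_injective : Function.Injective (wAL C k) := (wAL C k).injective

theorem wAL_mem_GB {i : Fin (k + 1)} {x : FB (lev M q k)} (hx : x ∈ GB C k i) :
    wAL C k x ∈ GB C k i.rev ∧ redB C k i.rev (wAL C k x) = redB C k i x :=
  ⟨(isRes_redB hx).wAL.mem_GB (wAL_rational C (GB_le hx)), (isRes_redB hx).wAL.redB_eq⟩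

theorem dpt_rev (i : Fin (k + 1)) : dpt k (i.rev : ℕ) = dpt k i := by
  have := i.isLt
  simp only [dpt, Fin.val_rev]
  omega

theorem eMul_rev (i : Fin (k + 1)) : eMul q k (i.rev : ℕ) = eMul q k i := by
  rw [eMul, eMul, dpt_rev C i]

/-- the uniformisers are exchanged up to sign -/
theorem wAL_vpi (i : Fin (k + 1)) :
    wAL C k (vpi M q k i) = vpi M q k i.rev ∨ wAL C k (vpi M q k i) = -vpi M q k i.rev := by
  have hi := i.isLt
  have hr : (i.rev : ℕ) = k - i := by simp only [Fin.val_rev]; omega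
  unfold vpi
  rw [dpt_rev C i]
  by_cases h0 : dpt k i = 0
  · rw [if_pos h0, if_pos h0]
    exact Or.inl (wAL_const C _)
  rw [if_neg h0, if_neg h0, hr]
  by_cases h1 : (i : ℕ) ≤ k - i
  · rw [if_pos h1, map_sub, wAL_nd C (by omega), wAL_nd C (Nat.zero_le k), Nat.sub_zero]
    by_cases h2 : k - (i : ℕ) ≤ k - (k - i)
    · right
      rw [if_pos h2, neg_sub, show 2 * (k - (i : ℕ)) = k by omega,
        show k - 2 * (i : ℕ) = 0 by omega]
    · left
      rw [if_neg h2, show 2 * (k - (i : ℕ)) - k = k - 2 * i by omega]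
  · left
    rw [if_neg h1, if_pos (show k - (i : ℕ) ≤ k - (k - i) by omega), map_sub,
      wAL_nd C (by omega), wAL_nd C (le_refl k), Nat.sub_self,
      show k - (2 * (i : ℕ) - k) = 2 * (k - i) by omega]

/-- exponents are exchanged -/
theorem wAL_hasExp {i : Fin (k + 1)} {x : FB (lev M q k)} {z : ℤ}
    (h : (model C k).HasExp i x z) : (model C k).HasExp i.rev (wAL C k x) z := by
  obtain ⟨h1, h2⟩ : x * vpi M q k i ^ (-z) ∈ GB C k i ∧
      redB C k i (x * vpi M q k i ^ (-z)) ≠ 0 := h
  obtain ⟨h3, h4⟩ := wAL_mem_GB C h1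
  rw [← h4] at h2
  rw [map_mul, map_zpow₀] at h2 h3
  rcases wAL_vpi C i with e | e
  · rw [e] at h2 h3
    exact ⟨h3, h2⟩
  · rw [e, show -vpi M q k i.rev = (-1) * vpi M q k i.rev by ring, mul_zpow] at h2 h3
    rcases neg_one_pow_eq_or (FB (lev M q k)) (-z).natAbs with hs | hs
    all_goals
      have hs' : (-1 : FB (lev M q k)) ^ (-z) = (-1) ^ (-z).natAbs := by
        rcases Int.natAbs_eq (-z) with hn | hn
        · conv_lhs => rw [hn]
          rw [zpow_natCast]
        · conv_lhs => rw [hn]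
          rw [zpow_neg, zpow_natCast, ← inv_pow, inv_neg_one]
      rw [hs', hs] at h2 h3
    · rw [one_mul] at h2 h3
      exact ⟨h3, h2⟩
    · rw [show wAL C k x * (-1 * vpi M q k i.rev ^ (-z)) =
        -(wAL C k x * vpi M q k i.rev ^ (-z)) by ring] at h2 h3
      have h5 : wAL C k x * vpi M q k i.rev ^ (-z) ∈ GB C k i.rev := by simpa using neg_mem h3
      refine ⟨h5, fun h0 => h2 ?_⟩
      rw [(isRes_redB h5).neg.redB_eq]
      show -(redB C k i.rev _) = 0
      rw [show redB C k i.rev (wAL C k x * vpi M q k i.rev ^ (-z)) = 0 from h0, neg_zero]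

/-- the involution preserves regularity on the charts -/
theorem bd_wAL_of_inChart {s : Bool} {x : FB (lev M q k)}
    (hx : ∀ P : Place Qb (FB (lev M q k)), InChart s (P.ord (Jp M q k)) → Bd P x 0)
    (P : Place Qb (FB (lev M q k))) (hP : InChart s (P.ord (Jp M q k))) :
    Bd P (wAL C k x) 0 := by
  obtain ⟨P0, hbd, -, -⟩ := SS2.exists_pull (wAL C k) P
  refine (hbd x).mpr (hx P0 (inChart_of_bd C fun l hl => ?_))
  rw [← hbd, wAL_nd C hl]
  exact bd_nd_of_inChart C hP (Nat.sub_le k l)

/-- the involution preserves the chart rings -/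
theorem wAL_mem_R {s : Bool} {x : FB (lev M q k)} (hx : x ∈ (model C k).R s) :
    wAL C k x ∈ (model C k).R s := by
  refine ⟨(model C k).GI_iff.mpr fun i => ?_,
    fun P hP => by simpa using bd_wAL_of_inChart C (fun P hP => by simpa using hx.2 P hP) P hP⟩
  have h := (wAL_mem_GB C (i := i.rev) ((model C k).GI_iff.mp hx.1 i.rev)).1
  rwa [Fin.rev_rev] at h

end FLTAgent.CUBE

end
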