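import Fermat.Agent.CUBE.Points
import Fermat.Agent.CUBE.Sym
import Fermat.Agent.SS2.KillRho

/-!
Functions cutting out a branch: uniformisers of exact order on each chart.
-/

set_option autoImplicit false
set_option linter.unusedSectionVars false
set_option linter.style.haveILetI false
set_option synthInstance.maxHeartbeats 400000
set_option maxHeartbeats 1000000

noncomputable section

open ModularCurve AlgebraicCurve IsLocalRing
open FLTAgent.RR (Bd)
open FLTAgent.Reduction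
open FLTAgent.SS2 (InChart rationalFn DblSet LevelData theta redL cL GG PR)

namespace FLTAgent.CUBE

variable {A : ValuationSubring Qb} {M q : ℕ} [NeZero M] [NeZero q] (C : Ctx A M q) {k : ℕ}
include C

/-! ### iterated Frobenius and values -/

theorem val_frIt_pow : ∀ (n : ℕ) {Q : PS A M} {g : FS A M} {c : kA A},
    Val (frobS C ^ n • Q) g c → Val Q (frIt C n g) c
  | 0, Q, g, c, h => by rw [pow_zero, one_smul] at h; exact h
  | n + 1, Q, g, c, h => by
    rw [pow_succ, mul_smul] at h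
    exact SS2.PV.val_Fr C (val_frIt_pow n h)

theorem ord_frIt (n : ℕ) {Q : PS A M} {g : FS A M} (hg : g ≠ 0)
    (h : (frobS C ^ n • Q).ord g = 0) : Q.ord (frIt C n g) = 0 := by
  obtain ⟨c, hc⟩ := val_exists_S C (Q := frobS C ^ n • Q) (x := g) (by rw [RR.bd_iff_ord hg]; omega)
  refine ((val_frIt_pow C n hc).ord_eq_zero fun h0 => ?_).2
  have := (h0 ▸ hc).ord_pos hg
  omega

theorem ord_frobS_pow_tS (s : Bool) : ∀ (n : ℕ) (Q : PS A M),
    (frobS C ^ n • Q).ord (tS A M s) = Q.ord (tS A M s)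
  | 0, Q => by rw [pow_zero, one_smul]
  | n + 1, Q => by
    rw [pow_succ', mul_smul]
    conv_lhs => rw [← SS2.PV.frobS_tS C s, SemilinearAut.ord_smul]
    exact ord_frobS_pow_tS s n Q

theorem frobS_pow_mem_DblSet_iff {D : SS.Data Qb A (FB (M * q)) (FS A M)} (L : LevelData D)
    {r : ℕ} (hr : r.Prime) (h11 : r % 12 = 11) (hrM : r ∣ M) : ∀ (n : ℕ) (Q : PS A M),
    frobS C ^ n • Q ∈ DblSet D ↔ Q ∈ DblSet D
  | 0, Q => by rw [pow_zero, one_smul]
  | n + 1, Q => by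
    rw [pow_succ', mul_smul, SS2.frobS_mem_DblSet_iff C L hr h11 hrM]
    exact frobS_pow_mem_DblSet_iff L hr h11 hrM n Q

/-! ### `a(q^(2i)τ) - a(τ)` -/

/-- `(a(q^(2i)τ) - a(τ))^e / q` restricts to a constant times a power of `θā` -/
theorem low_unit {i : Fin (k + 1)} (hi : 1 ≤ (i : ℕ)) (hik : 2 * (i : ℕ) ≤ k) {a : FB M}
    (ha : a ∈ GR A M) (har : a ∈ rationalFn A M) :
    ∃ (r : FS A M) (u : kA A), u ≠ 0 ∧
      (r : LaurentSeries (kA A)) = algebraMap (kA A) _ u *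
        qExpand (kA A) (q ^ (k - 2 * (i : ℕ))) (theta (redS A M a)) ^ eMul q k i ∧
      IsRes C k i ((nd M q k (2 * (i : ℕ)) a - nd M q k 0 a) ^ eMul q k i *
        (algebraMap Qb (FB (lev M q k)) (q : Qb))⁻¹) r := by
  obtain ⟨θ⟩ := nonempty_root C (i : ℕ)
  obtain ⟨g1, g2⟩ := red_node_diff C i hi hik θ ha
  set y := nd M q k (2 * (i : ℕ)) a - nd M q k 0 a
  set e := eMul q k i
  set x := y ^ e * (algebraMap Qb (FB (lev M q k)) (q : Qb))⁻¹ with hx
  have hxr : x ∈ rationalFn A (lev M q k) :=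
    mul_mem (pow_mem (sub_mem (nd_rational _ har) (nd_rational _ har)) _)
      (inv_mem (SS2.const_mem_rationalFn (natCast_mem _ _)))
  have hq0 : (q : Qb) ≠ 0 := Nat.cast_ne_zero.mpr C.prime.ne_zero
  set v : Qb := pB q k i θ ^ e * (q : Qb)⁻¹ with hvdef
  have hv : A.valuation v = 1 := by
    rw [map_mul, map_pow, valuation_pB_pow C i θ, map_inv₀,
      mul_inv_cancel₀ ((Valuation.ne_zero_iff _).mpr hq0)]
  have hvA : v ∈ A := (A.valuation_le_one_iff _).mp hv.le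
  have hexp : eB C k i θ x = cL v * (cL (pB q k i θ)⁻¹ * eB C k i θ y) ^ e := by
    rw [hx, map_mul, map_pow, map_inv₀, AlgHom.commutes, mul_pow, ← mul_assoc, mul_comm (cL v * _)]
    congr 1
    show (algebraMap Qb SS2.LS (q : Qb))⁻¹ =
      algebraMap Qb SS2.LS v * algebraMap Qb SS2.LS (pB q k i θ)⁻¹ ^ e
    rw [← map_pow, ← map_mul, ← map_inv₀]
    congr 1
    rw [hvdef, inv_pow, mul_right_comm,
      mul_inv_cancel₀ (pow_ne_zero _ (pB_ne_zero C i θ)), one_mul]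
  have hmem : eB C k i θ x ∈ GG A := by
    rw [hexp]; exact mul_mem (SS2.cL_mem hvA) (pow_mem g1 _)
  obtain ⟨r, hr⟩ := landing' C i θ x hxr hmem
  refine ⟨r, residue A ⟨v, hvA⟩, (Reduction.res_ne_zero_iff A _).mpr hv, ?_,
    isRes_of_series C hxr hmem hr⟩
  rw [← hr, hexp, SS2.redL_mul (SS2.cL_mem hvA) (pow_mem g1 _), SS2.redL_pow g1, g2,
    SS2.redL_cL ⟨v, hvA⟩]

/-- `(θā)^(q-1)` is a function on the special fibre -/
theorem exists_theta_pow {a : FB M} (ha : a ∈ GR A M) (har : a ∈ rationalFn A M) :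
    ∃ V : FS A M, (V : LaurentSeries (kA A)) = theta (redS A M a) ^ (q - 1) := by
  obtain ⟨r, u, hu, hr, -⟩ :=
    low_unit C (k := 2) (i := 1) le_rfl le_rfl ha har
  refine ⟨algebraMap (kA A) (FS A M) u⁻¹ * r, ?_⟩
  have he : eMul q 2 ((1 : Fin 3) : ℕ) = q - 1 := by
    show Nat.totient (q ^ 1) = q - 1
    rw [pow_one, Nat.totient_prime C.prime]
  rw [he, qExpand_congr (show q ^ (2 - 2 * ((1 : Fin 3) : ℕ)) = 1 from pow_zero q),
    qExpand_one_apply] at hr
  rw [MulMemClass.coe_mul, hr, ← mul_assoc]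
  show algebraMap (kA A) (LaurentSeries (kA A)) u⁻¹ * algebraMap (kA A) _ u * _ = _
  rw [← map_mul, inv_mul_cancel₀ hu, map_one, one_mul]

/-- the properties of a uniformiser of a branch -/
def RhoOk (s : Bool) (b : Fin (k + 1)) (P : FS A M → Prop) : Prop :=
  ∃ ρ ∈ (model C k).R s, ρ * ((model C k).ϖ b)⁻¹ ∈ (model C k).G b ∧
    (model C k).red b (ρ * ((model C k).ϖ b)⁻¹) ≠ 0 ∧
    P ((model C k).red b (algebraMap Qb (FB (lev M q k)) (q : Qb) * (ρ ^ (model C k).e b)⁻¹))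

/-- a function whose `e`-th power is `q` times a unit has exponent one -/
theorem exp_one_of_unit {b : Fin (k + 1)} {ρ : FB (lev M q k)}
    (hρ : ρ ∈ rationalFn A (lev M q k))
    (hG : algebraMap Qb (FB (lev M q k)) (q : Qb) * (ρ ^ (model C k).e b)⁻¹ ∈ (model C k).G b)
    (hr : (model C k).red b
      (algebraMap Qb (FB (lev M q k)) (q : Qb) * (ρ ^ (model C k).e b)⁻¹) ≠ 0) :
    ρ * ((model C k).ϖ b)⁻¹ ∈ (model C k).G b ∧
      (model C k).red b (ρ * ((model C k).ϖ b)⁻¹) ≠ 0 := by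
  have hx0 : (model C k).HasExp b
      (algebraMap Qb (FB (lev M q k)) (q : Qb) * (ρ ^ (model C k).e b)⁻¹) 0 :=
    Fib.HasExp.zero_iff.mpr ⟨hG, hr⟩
  have he := (model C k).e_pos b
  have hρ0 : ρ ≠ 0 := fun h => hx0.ne_zero (by rw [h, zero_pow he.ne', inv_zero, mul_zero])
  obtain ⟨i, hi⟩ := (model C k).exists_hasExp b hρ hρ0
  have h := (((model C k).hasExp_q b).mul (hi.pow ((model C k).e b)).inv).unique hx0
  have h0 : (((model C k).e b : ℕ) : ℤ) * (1 - i) = 0 := by linear_combination h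
  have := (mul_eq_zero.mp h0).resolve_left (by exact_mod_cast he.ne')
  obtain rfl : i = 1 := by omega
  rwa [Fib.HasExp, zpow_neg_one] at hi

theorem rho_mem_Ω {s : Bool} {ρ : FB (lev M q k)} (h : ρ ∈ (model C k).R s) :
    ρ ∈ rationalFn A (lev M q k) :=
  (model C k).mem_Ω_of_GI h.1

/-- the residue of `q` divided by the power of the uniformiser, `i ≤ k/2` -/
theorem low_rho {i : Fin (k + 1)} (hi : 1 ≤ (i : ℕ)) (hik : 2 * (i : ℕ) ≤ k) {a : FB M}
    (ha : a ∈ GR A M) (har : a ∈ rationalFn A M) (hθ : theta (redS A M a) ≠ 0)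
    {V : FS A M} (hV : (V : LaurentSeries (kA A)) = theta (redS A M a) ^ (q - 1))
    {g : FB (lev M q k)} (hg : g ∈ (model C k).G i) (hg0 : (model C k).red i g ≠ 0) :
    ∃ u : kA A, u ≠ 0 ∧
      algebraMap Qb (FB (lev M q k)) (q : Qb) *
          (((nd M q k (2 * (i : ℕ)) a - nd M q k 0 a) * g) ^ (model C k).e i)⁻¹ ∈
        (model C k).G i ∧
      (model C k).red i (algebraMap Qb (FB (lev M q k)) (q : Qb) *
          (((nd M q k (2 * (i : ℕ)) a - nd M q k 0 a) * g) ^ (model C k).e i)⁻¹) =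
        (algebraMap (kA A) (FS A M) u *
          (frIt C (k - 2 * (i : ℕ)) V ^ q ^ ((i : ℕ) - 1) *
            (model C k).red i g ^ (model C k).e i))⁻¹ ∧
      (model C k).red i (algebraMap Qb (FB (lev M q k)) (q : Qb) *
          (((nd M q k (2 * (i : ℕ)) a - nd M q k 0 a) * g) ^ (model C k).e i)⁻¹) ≠ 0 := by
  obtain ⟨r, u, hu, hr, hres⟩ := low_unit C hi hik ha har
  set y := nd M q k (2 * (i : ℕ)) a - nd M q k 0 a
  have he : eMul q k i = q ^ ((i : ℕ) - 1) * (q - 1) := by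
    rw [eMul, dpt, Nat.min_eq_left (by omega), Nat.totient_prime_pow C.prime hi]
  have hrV : r = algebraMap (kA A) (FS A M) u *
      frIt C (k - 2 * (i : ℕ)) V ^ q ^ ((i : ℕ) - 1) := by
    refine Subtype.ext ?_
    rw [MulMemClass.coe_mul, SubmonoidClass.coe_pow, coe_frIt C, hV, hr, map_pow, ← pow_mul, he,
      mul_comm (q ^ _)]
    rfl
  have hV0 : V ≠ 0 := fun h => pow_ne_zero (q - 1) hθ (by rw [← hV, h]; rfl)
  have hr0 : r ≠ 0 := by
    rw [hrV]
    exact mul_ne_zero ((_root_.map_ne_zero _).mpr hu)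
      (pow_ne_zero _ ((_root_.map_ne_zero _).mpr hV0))
  have hxr : y ^ eMul q k i * (algebraMap Qb (FB (lev M q k)) (q : Qb))⁻¹ ∈
      rationalFn A (lev M q k) :=
    mul_mem (pow_mem (sub_mem (nd_rational _ har) (nd_rational _ har)) _)
      (inv_mem (SS2.const_mem_rationalFn (natCast_mem _ _)))
  obtain ⟨hxG, hxred⟩ := model_of_res hxr hres
  have hgp := (isRes_redB hg).pow (eMul q k i)
  obtain ⟨hgG, hgred⟩ := model_of_res (pow_mem (GB_le hg) _) hgp
  have hprod := (model C k).red_mul i _ hxG _ hgG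
  rw [hxred, hgred, hrV] at hprod
  have hne : algebraMap (kA A) (FS A M) u * frIt C (k - 2 * (i : ℕ)) V ^ q ^ ((i : ℕ) - 1) *
      redB C k i g ^ eMul q k i ≠ 0 := mul_ne_zero (hrV ▸ hr0) (pow_ne_zero _ hg0)
  have hinv := (model C k).inv_mem_G i (mul_mem hxG hgG) (by rw [hprod]; exact hne)
  have e : (y ^ eMul q k i * (algebraMap Qb (FB (lev M q k)) (q : Qb))⁻¹ * g ^ eMul q k i)⁻¹ =
      algebraMap Qb (FB (lev M q k)) (q : Qb) * ((y * g) ^ eMul q k i)⁻¹ := by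
    rw [mul_inv, mul_inv, inv_inv, mul_pow, mul_inv]
    ring
  rw [e] at hinv
  refine ⟨u, hu, hinv.1, ?_, ?_⟩
  · rw [model_e, hinv.2, hprod, mul_assoc]
    rfl
  · rw [model_e, hinv.2, hprod]
    exact inv_ne_zero hne

theorem node_diff_mem_R {s : Bool} {a : FB M} (ha : BT A M s a) (har : a ∈ rationalFn A M)
    {l : ℕ} (hl : l ≤ k) : nd M q k l a - nd M q k 0 a ∈ (model C k).R s :=
  sub_mem (nd_mem_R ha har hl).1 (nd_mem_R ha har (Nat.zero_le k)).1

theorem redS_eq_red {a : FB M} (ha : a ∈ GR A M) :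
    redS A M a = ((red A M a : FS A M) : LaurentSeries (kA A)) :=
  (coe_red C ha).symm

/-- powers on a branch -/
theorem red_pow_G (b : Fin (k + 1)) {x : FB (lev M q k)}
    (hx : x ∈ (model C k).G b) (n : ℕ) :
    (model C k).red b (x ^ n) = (model C k).red b x ^ n :=
  (model_of_res (pow_mem (GB_le hx) n) ((isRes_redB hx).pow n)).2

/-- uniformisers of the branches `i ≤ k/2` built on a function of level `M` -/
theorem low_rho_point {i : Fin (k + 1)} (hi : 1 ≤ (i : ℕ)) (hik : 2 * (i : ℕ) ≤ k) {a : FB M}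
    (ha : BT A M false a) (har : a ∈ rationalFn A M) (hθ : theta (redS A M a) ≠ 0)
    {V : FS A M} (hV : (V : LaurentSeries (kA A)) = theta (redS A M a) ^ (q - 1)) (s : Bool) :
    RhoOk C s i (fun x => ∃ (u : kA A) (n : ℕ), u ≠ 0 ∧ (s = false → n = 0) ∧
      x = (algebraMap (kA A) (FS A M) u *
          (frIt C (k - 2 * (i : ℕ)) V ^ q ^ ((i : ℕ) - 1) * (jS A M)⁻¹ ^ n))⁻¹) := by
  have hy := node_diff_mem_R C (k := k) ha har hik
  have hj0 : jS A M ≠ 0 := tS_ne_zero A M false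
  cases s
  · obtain ⟨u, hu, hG, hval, hne⟩ := low_rho C hi hik (BT.mem_GR C ha) har hθ hV
      (g := 1) (one_mem _) (by rw [(model C k).red_one]; exact one_ne_zero)
    simp only [mul_one] at hG hval hne
    rw [(model C k).red_one, one_pow, mul_one] at hval
    obtain ⟨h1, h2⟩ := exp_one_of_unit C (rho_mem_Ω C hy) hG hne
    exact ⟨_, hy, h1, h2, u, 0, hu, fun _ => rfl, by rw [hval, pow_zero, mul_one]⟩
  · obtain ⟨n, hn⟩ := (model C k).exists_pow_onChart false hy.2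
    have hgG := fun b => pow_mem ((model C k).J_inv_mem b).1 n
    have hgr : (model C k).red i ((model C k).J⁻¹ ^ n) = (jS A M)⁻¹ ^ (eJ q k i * n) := by
      rw [red_pow_G C i ((model C k).J_inv_mem i).1, ((model C k).J_inv_mem i).2]
      show (jS A M ^ eJ q k i)⁻¹ ^ n = _
      rw [← inv_pow, ← pow_mul]
    have hR : (nd M q k (2 * (i : ℕ)) a - nd M q k 0 a) * (model C k).J⁻¹ ^ n ∈
        (model C k).R true :=
      ⟨(model C k).GI.mul_mem hy.1 ((model C k).mem_GI.mpr hgG), fun P hP => by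
        rw [mul_comm]; exact hn P hP⟩
    obtain ⟨u, hu, hG, hval, hne⟩ := low_rho C hi hik (BT.mem_GR C ha) har hθ hV
      (hgG i) (by rw [hgr]; exact pow_ne_zero _ (inv_ne_zero hj0))
    obtain ⟨h1, h2⟩ := exp_one_of_unit C (rho_mem_Ω C hR) hG hne
    exact ⟨_, hR, h1, h2, u, eJ q k i * n * (model C k).e i, hu, fun h => Bool.noConfusion h,
      by rw [hval, hgr, ← pow_mul]⟩

/-! ### the cusps -/

/-- neighbouring nodes at the cusps: either pole order is at most `q` times the other -/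
theorem ord_nd_ratio {P : Place Qb (FB (lev M q k))}
    (hP : ∀ l ≤ k, P.ord (nd M q k l (ModFun.jBar M)) ≤ 0) {l : ℕ} (hl : l + 1 ≤ k) :
    (q : ℤ) * P.ord (nd M q k l (ModFun.jBar M)) ≤ P.ord (nd M q k (l + 1) (ModFun.jBar M)) ∧
      (q : ℤ) * P.ord (nd M q k (l + 1) (ModFun.jBar M)) ≤
        P.ord (nd M q k l (ModFun.jBar M)) := by
  obtain ⟨k, rfl⟩ : ∃ k', k = k' + 1 := ⟨k - 1, by omega⟩
  have hl' : l ≤ k := by omega
  set φ := ed M q k l
  have ea : φ (SS.aFn M q) = nd M q (k + 1) l (ModFun.jBar M) := ed_alpha hl' _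
  have eb : φ (SS.bFn M q) = nd M q (k + 1) (l + 1) (ModFun.jBar M) := ed_beta hl' _
  have hle : ∀ y : FB (M * q), y ≠ 0 → P.ord (φ y) ≤ 0 →
      (P.restrictAlong φ (HeckeJ.isIntegralAlong φ)).ord y ≤ 0 := fun y hy h => by
    have h1 : Bd P (φ y⁻¹) 0 := by
      rw [map_inv₀, RR.bd_iff_ord (inv_ne_zero ((_root_.map_ne_zero _).mpr hy)), P.ord_inv]
      omega
    rw [SS2.bd_restrictAlong φ (HeckeJ.isIntegralAlong φ), RR.bd_iff_ord (inv_ne_zero hy),
      Place.ord_inv] at h1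
    omega
  obtain ⟨r1, r2⟩ := SS2.cusp_ratio C
    (hle _ (SS.aFn_ne_zero C) (ea ▸ hP l (by omega))) (hle _ (SS.bFn_ne_zero C) (eb ▸ hP (l + 1) hl))
  have h0 : ∀ j, nd M q (k + 1) j (ModFun.jBar M) ≠ 0 := fun j => nd_jBar_ne_zero (k + 1) j
  have h1 := (SS2.bd_restrictAlong φ (HeckeJ.isIntegralAlong φ) P _).mpr r1
  have h2 := (SS2.bd_restrictAlong φ (HeckeJ.isIntegralAlong φ) P _).mpr r2
  rw [map_mul, map_pow, map_inv₀, ea, eb] at h1 h2
  rw [RR.bd_iff_ord (mul_ne_zero (h0 _) (pow_ne_zero _ (inv_ne_zero (h0 _)))),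
    P.ord_mul (h0 _) (pow_ne_zero _ (inv_ne_zero (h0 _))), RR.ord_pow, P.ord_inv] at h1 h2
  constructor <;> linarith

theorem ord_nd_ratio_pow {P : Place Qb (FB (lev M q k))}
    (hP : ∀ l ≤ k, P.ord (nd M q k l (ModFun.jBar M)) ≤ 0) :
    ∀ (d l : ℕ), l + d ≤ k →
      (q : ℤ) ^ d * P.ord (nd M q k l (ModFun.jBar M)) ≤ P.ord (nd M q k (l + d) (ModFun.jBar M)) ∧
      (q : ℤ) ^ d * P.ord (nd M q k (l + d) (ModFun.jBar M)) ≤ P.ord (nd M q k l (ModFun.jBar M))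
  | 0, l, _ => by simp
  | d + 1, l, h => by
    obtain ⟨a1, a2⟩ := ord_nd_ratio_pow hP d l (by omega)
    obtain ⟨b1, b2⟩ := ord_nd_ratio C hP (l := l + d) (by omega)
    have hq : (0 : ℤ) ≤ q := Int.natCast_nonneg q
    have hqd : (0 : ℤ) ≤ (q : ℤ) ^ d := pow_nonneg hq d
    rw [← add_assoc, pow_succ]
    constructor
    · nlinarith [mul_le_mul_of_nonneg_left a1 hq]
    · nlinarith [mul_le_mul_of_nonneg_left b2 hqd]

/-- uniformisers of the branches `i ≤ k/2` at the cusps -/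
theorem low_rho_cusp {i : Fin (k + 1)} (hi : 1 ≤ (i : ℕ)) (hik : 2 * (i : ℕ) ≤ k) {Q : PS A M}
    (hQ : Q.ord (jS A M) < 0) :
    RhoOk C true i (fun x => ∃ c₀ : kA A, c₀ ≠ 0 ∧ Val Q x c₀) := by
  have har : tB M true ∈ rationalFn A M := SS2.tB_mem_rationalFn A M true
  have haG : tB M true ∈ GR A M := tB_mem true
  have ht0 : tS A M true ≠ 0 := tS_ne_zero A M true
  set l : ℕ → FB (lev M q k) := fun j => nd M q k j (tB M true) with hldef
  have hlres : ∀ (b : Fin (k + 1)) (j : ℕ), j ≤ k → l j ∈ (model C k).G b ∧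
      (model C k).red b (l j) = tS A M true ^ q ^ nE k b j := fun b j hj =>
    model_of_res (nd_rational j har) (isRes_nd_tB C b hj true)
  have hli : ∀ b : Fin (k + 1), (l i)⁻¹ ∈ (model C k).G b ∧
      (model C k).red b (l i)⁻¹ = (tS A M true ^ q ^ nE k b i)⁻¹ := fun b => by
    obtain ⟨h, h'⟩ := hlres b i (by omega)
    have := (model C k).inv_mem_G b h (h' ▸ pow_ne_zero _ ht0)
    exact ⟨this.1, this.2.trans (by rw [h'])⟩
  set g := l 0 ^ (q ^ (i : ℕ) - 1) * (l i)⁻¹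
  have hgG : ∀ b, g ∈ (model C k).G b := fun b =>
    mul_mem (pow_mem (hlres b 0 (Nat.zero_le k)).1 _) (hli b).1
  set m := k - 2 * (i : ℕ)
  have hg : (model C k).red i g = frIt C m (tS A M true)⁻¹ := by
    rw [(model C k).red_mul i _ (pow_mem (hlres i 0 (Nat.zero_le k)).1 _) _ (hli i).1,
      red_pow_G C i (hlres i 0 (Nat.zero_le k)).1, (hli i).2, (hlres i 0 (Nat.zero_le k)).2, map_inv₀,
      frIt_tS C, ← pow_mul]
    have e1 : nE k i 0 = m := by simp only [nE, m]; omega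
    have e2 : nE k i i = (i : ℕ) + m := by simp only [nE, m]; omega
    have e3 : q ^ m * (q ^ (i : ℕ) - 1) + q ^ m = q ^ ((i : ℕ) + m) := by
      rw [pow_add, mul_comm (q ^ (i : ℕ)), Nat.mul_sub, mul_one, Nat.sub_add_cancel]
      exact Nat.le_mul_of_pos_right _ (pow_pos C.prime.pos _)
    rw [e1, e2, ← e3, pow_add, mul_inv, ← mul_assoc, mul_inv_cancel₀ (pow_ne_zero _ ht0), one_mul]
  have hθ : theta (redS A M (tB M true)) ≠ 0 := by
    intro h0
    rw [redS_tB] at h0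
    refine SS2.theta_jS_ne C ?_
    have hjc : ((tS A M true : FS A M) : LaurentSeries (kA A)) * (jS A M : FS A M) = 1 := by
      rw [← MulMemClass.coe_mul, show tS A M true = (jS A M)⁻¹ from rfl,
        inv_mul_cancel₀ (show jS A M ≠ 0 from tS_ne_zero A M false)]
      rfl
    have h := congrArg theta hjc
    rw [SS2.theta_mul, h0, zero_mul, zero_add,
      ← map_one (algebraMap (kA A) (LaurentSeries (kA A))), SS2.theta_const] at h
    exact (mul_eq_zero.mp h).resolve_left fun hz => ht0 (Subtype.ext hz)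
  obtain ⟨V, hV⟩ := exists_theta_pow C haG har
  have hg0 : (model C k).red i g ≠ 0 := by
    rw [hg]; exact (_root_.map_ne_zero _).mpr (inv_ne_zero ht0)
  obtain ⟨u, hu, hG, hval, hne⟩ := low_rho C hi hik haG har hθ hV (hgG i) hg0
  set y := nd M q k (2 * (i : ℕ)) (tB M true) - nd M q k 0 (tB M true)
  have hy : y ∈ (model C k).R true := node_diff_mem_R C (BT_tB true) har hik
  have hR : y * g ∈ (model C k).R true := by
    refine ⟨(model C k).GI.mul_mem hy.1 ((model C k).mem_GI.mpr hgG), fun P hP => ?_⟩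
    have hk : ∀ j ≤ k, P.ord (nd M q k j (ModFun.jBar M)) ≤ 0 := fun j hj => by
      simpa [InChart] using (inChart_Jp_iff C.prime).mp (hP : InChart true (P.ord (Jp M q k))) j hj
    have hl0 : ∀ j, l j ≠ 0 := fun j => (_root_.map_ne_zero _).mpr (tB_ne_zero M true)
    have hlo : ∀ j, P.ord (l j) = -P.ord (nd M q k j (ModFun.jBar M)) := fun j => by
      show P.ord (nd M q k j (ModFun.jBar M)⁻¹) = _
      rw [map_inv₀, P.ord_inv]
    obtain ⟨c1, -⟩ := ord_nd_ratio_pow C hk (i : ℕ) 0 (by omega)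
    obtain ⟨-, c2⟩ := ord_nd_ratio_pow C hk (i : ℕ) (i : ℕ) (by omega)
    rw [zero_add] at c1
    rw [← two_mul] at c2
    have e : y * g = l (2 * (i : ℕ)) * l 0 ^ (q ^ (i : ℕ) - 1) * (l i)⁻¹ -
        l 0 ^ q ^ (i : ℕ) * (l i)⁻¹ := by
      obtain ⟨n, hn⟩ : ∃ n, q ^ (i : ℕ) = n + 1 :=
        ⟨q ^ (i : ℕ) - 1, by have := pow_pos C.prime.pos (i : ℕ); omega⟩
      show (l (2 * (i : ℕ)) - l 0) * (l 0 ^ (q ^ (i : ℕ) - 1) * (l i)⁻¹) = _
      simp only [hn, Nat.add_sub_cancel]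
      ring
    have hQ1 : (1 : ℤ) ≤ (q : ℤ) ^ (i : ℕ) := by exact_mod_cast pow_pos C.prime.pos (i : ℕ)
    simp only [Finsupp.coe_zero, Pi.zero_apply]
    rw [e]
    refine RR.Bd.sub ?_ ?_
    · rw [RR.bd_iff_ord (mul_ne_zero (mul_ne_zero (hl0 _) (pow_ne_zero _ (hl0 _)))
        (inv_ne_zero (hl0 _))), P.ord_mul (mul_ne_zero (hl0 _) (pow_ne_zero _ (hl0 _)))
        (inv_ne_zero (hl0 _)), P.ord_mul (hl0 _) (pow_ne_zero _ (hl0 _)), RR.ord_pow, P.ord_inv,
        hlo, hlo, hlo]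
      rw [Nat.cast_sub (Nat.one_le_pow _ _ C.prime.pos)]
      push_cast
      have := mul_le_mul_of_nonneg_left c1 (show (0 : ℤ) ≤ (q : ℤ) ^ (i : ℕ) - 1 by linarith)
      nlinarith [this, c2]
    · rw [RR.bd_iff_ord (mul_ne_zero (pow_ne_zero _ (hl0 _)) (inv_ne_zero (hl0 _))),
        P.ord_mul (pow_ne_zero _ (hl0 _)) (inv_ne_zero (hl0 _)), RR.ord_pow, P.ord_inv, hlo, hlo]
      push_cast
      linarith
  obtain ⟨h1, h2⟩ := exp_one_of_unit C (rho_mem_Ω C hR) hG hne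
  refine ⟨_, hR, h1, h2, ?_⟩
  have hj0 : jS A M ≠ 0 := tS_ne_zero A M false
  have hQ' : (frobS C ^ m • Q).ord (jS A M) < 0 := by
    rw [show jS A M = tS A M false from rfl, ord_frobS_pow_tS C false m Q]
    exact hQ
  have hV0 : V ≠ 0 := fun h => pow_ne_zero (q - 1) hθ (by rw [← hV, h]; rfl)
  have hW0 : V * jS A M ^ (q - 1) ≠ 0 := mul_ne_zero hV0 (pow_ne_zero _ hj0)
  have he : (model C k).e i = (q - 1) * q ^ ((i : ℕ) - 1) := by
    rw [model_e, eMul, dpt, Nat.min_eq_left (by omega), Nat.totient_prime_pow C.prime hi, mul_comm]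
  refine SS2.mid_val C hu (W := frIt C m (V * jS A M ^ (q - 1)) ^ q ^ ((i : ℕ) - 1))
    (pow_ne_zero _ ((_root_.map_ne_zero _).mpr hW0)) ?_ ?_
  swap
  · rw [hval, hg, show (tS A M true)⁻¹ = jS A M from inv_inv (jS A M), he, map_mul, map_pow,
      mul_pow, pow_mul]
  rw [RR.ord_pow, ord_frIt C m hW0, mul_zero]
  rw [Place.ord_mul _ hV0 (pow_ne_zero _ hj0), RR.ord_pow, SS2.ord_theta_cusp C hQ' hV]
  ring

/-! ### the branches `i > k/2` -/

/-- the involution transports uniformisers -/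
theorem rhoOk_rev {s : Bool} {b : Fin (k + 1)} {P : FS A M → Prop} (h : RhoOk C s b.rev P)
    (hP : ¬ P 0) : RhoOk C s b P := by
  obtain ⟨ρ, hR, hG, hne, hval⟩ := h
  set x := algebraMap Qb (FB (lev M q k)) (q : Qb) * (ρ ^ (model C k).e b.rev)⁻¹
  have hxG : x ∈ (model C k).G b.rev := by
    have h1 := ((model C k).hasExp_q b.rev).mul
      (Fib.HasExp.inv (Fib.HasExp.pow (show (model C k).HasExp b.rev ρ 1 by
        rw [Fib.HasExp, zpow_neg_one]; exact ⟨hG, hne⟩) ((model C k).e b.rev)))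
    rw [mul_one, add_neg_cancel] at h1
    exact h1.mem_G
  have hx : wAL C k x = algebraMap Qb (FB (lev M q k)) (q : Qb) *
      (wAL C k ρ ^ (model C k).e b)⁻¹ := by
    rw [map_mul, map_inv₀, map_pow, AlgHom.commutes, model_e, model_e, eMul_rev C b]
  obtain ⟨g1, g2⟩ : wAL C k x ∈ (model C k).G b.rev.rev ∧
      (model C k).red b.rev.rev (wAL C k x) = (model C k).red b.rev x := wAL_mem_GB C hxG
  rw [Fin.rev_rev, hx] at g1 g2
  have hR' := wAL_mem_R C hR
  obtain ⟨k1, k2⟩ := exp_one_of_unit C (rho_mem_Ω C hR') g1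
    (g2 ▸ fun h0 => hP (by rwa [h0] at hval))
  exact ⟨_, hR', k1, k2, by rwa [g2]⟩

theorem rhoOk_zero {s : Bool} {b : Fin (k + 1)} (hb : dpt k b = 0) :
    RhoOk C s b (fun x => x = 1) := by
  have he : (model C k).e b = 1 := by rw [model_e, eMul, hb, pow_zero, Nat.totient_one]
  have hq : algebraMap Qb (FB (lev M q k)) (q : Qb) ∈ (model C k).R s :=
    ⟨(model C k).mem_GI.mpr fun b' => (model C k).const_mem b' ⟨(q : Qb), natCast_mem _ _⟩
        (natCast_mem _ _), fun P _ => by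
      simpa using RR.Bd.of_algebraMap (v := P) (q : Qb)⟩
  have h := (model C k).q_eq b
  rw [he, pow_one] at h
  refine ⟨_, hq, h.1, h.2, ?_⟩
  show (model C k).red b _ = 1
  rw [he, pow_one, mul_inv_cancel₀ ((_root_.map_ne_zero _).mpr (Nat.cast_ne_zero.mpr C.prime.ne_zero : (q : Qb) ≠ 0)),
    (model C k).red_one]

theorem rhoOk_cases {s : Bool} (P : FS A M → Prop) (hP : ¬ P 0) (h1 : P 1)
    (hlow : ∀ i : Fin (k + 1), 1 ≤ (i : ℕ) → 2 * (i : ℕ) ≤ k → RhoOk C s i P) (b : Fin (k + 1)) :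
    RhoOk C s b P := by
  have hb := b.isLt
  by_cases h0 : dpt k b = 0
  · obtain ⟨ρ, a, c, d, e⟩ := rhoOk_zero C (s := s) h0
    exact ⟨ρ, a, c, d, by rw [e]; exact h1⟩
  rw [dpt] at h0
  by_cases h2 : 2 * (b : ℕ) ≤ k
  · exact hlow b (by omega) h2
  · refine rhoOk_rev C (hlow b.rev ?_ ?_) hP <;> rw [Fin.val_rev] <;> omega

theorem exists_rho_chart' (s : Bool) (b : Fin (k + 1)) :
    ∃ ρ, (model C k).OnChart 0 s ρ ∧ ρ * ((model C k).ϖ b)⁻¹ ∈ (model C k).G b ∧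
      (model C k).red b (ρ * ((model C k).ϖ b)⁻¹) ≠ 0 := by
  have har : tB M false ∈ rationalFn A M := SS2.jBar_rational A M
  have hθ : theta (redS A M (tB M false)) ≠ 0 := by
    rw [redS_tB]; exact SS2.theta_jS_ne C
  obtain ⟨V, hV⟩ := exists_theta_pow C (BT.mem_GR C (BT_tB false)) har
  obtain ⟨ρ, hR, h1, h2, -⟩ := rhoOk_cases C (s := s) (fun x => x ≠ 0) (fun h => h rfl) one_ne_zero
    (fun i hi hik => by
      obtain ⟨ρ, hR, h1, h2, u, n, hu, -, hx⟩ := low_rho_point C hi hik (BT_tB false) har hθ hV s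
      refine ⟨ρ, hR, h1, h2, hx ▸ inv_ne_zero (mul_ne_zero ((_root_.map_ne_zero _).mpr hu)
        (mul_ne_zero (pow_ne_zero _ ((_root_.map_ne_zero _).mpr fun h => ?_))
          (pow_ne_zero _ (inv_ne_zero (tS_ne_zero A M false)))))⟩
      exact pow_ne_zero (q - 1) hθ (by rw [← hV, h]; rfl)) b
  exact ⟨ρ, hR.2, h1, h2⟩

variable {D : SS.Data Qb A (FB (M * q)) (FS A M)} (L : LevelData D)
  {r : ℕ} (hr : r.Prime) (h11 : r % 12 = 11) (hrM : r ∣ M)
include L hr h11 hrM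

/-- the finite points off the double points -/
theorem low_rho_finite {i : Fin (k + 1)} (hi : 1 ≤ (i : ℕ)) (hik : 2 * (i : ℕ) ≤ k) (s : Bool)
    {Q : PS A M} (hQ : Bd Q (tS A M false) 0) (hne : Q ∉ DblSet D)
    (hs : s = false ∨ Q.ord (jS A M) = 0) :
    RhoOk C s i (fun x => ∃ c₀ : kA A, c₀ ≠ 0 ∧ Val Q x c₀) := by
  set m := k - 2 * (i : ℕ)
  have hQ' : Bd (frobS C ^ m • Q) (tS A M false) 0 := by
    rw [RR.bd_iff_ord (tS_ne_zero A M false)] at hQ ⊢
    rwa [ord_frobS_pow_tS C false m Q]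
  obtain ⟨a, ha, har, hθ, hord⟩ := SS2.exists_mid_lift C L hr h11 hrM hQ'
    (fun h => hne ((frobS_pow_mem_DblSet_iff C L hr h11 hrM m Q).mp h))
  obtain ⟨V, hV⟩ := exists_theta_pow C (BT.mem_GR C ha) har
  have hV0 : V ≠ 0 := fun h => pow_ne_zero (q - 1) hθ (by rw [← hV, h]; rfl)
  have hF : Q.ord (frIt C m V) = 0 := ord_frIt C m hV0 (hord V hV)
  obtain ⟨ρ, hR, h1, h2, u, n, hu, hn, hx⟩ := low_rho_point C hi hik ha har hθ hV s
  have hj0 : jS A M ≠ 0 := tS_ne_zero A M false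
  have hW1 : frIt C m V ^ q ^ ((i : ℕ) - 1) ≠ 0 :=
    pow_ne_zero _ ((_root_.map_ne_zero _).mpr hV0)
  refine ⟨ρ, hR, h1, h2, SS2.mid_val C hu
    (mul_ne_zero hW1 (pow_ne_zero _ (inv_ne_zero hj0))) ?_ hx⟩
  rw [Q.ord_mul hW1 (pow_ne_zero _ (inv_ne_zero hj0)), RR.ord_pow, RR.ord_pow, Q.ord_inv, hF]
  rcases hs with h | h
  · rw [hn h]; simp
  · rw [h]; simp

theorem exists_rho' (s : Bool) (b : Fin (k + 1)) {Q : PS A M} (hQ : Bd Q (tS A M s) 0)
    (hne : Q ∉ DblSet D) :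
    ∃ ρ ∈ (model C k).R s, ρ * ((model C k).ϖ b)⁻¹ ∈ (model C k).G b ∧
      (model C k).red b (ρ * ((model C k).ϖ b)⁻¹) ≠ 0 ∧
      ∃ c₀ : kA A, c₀ ≠ 0 ∧ Val Q ((model C k).red b
        (algebraMap Qb (FB (lev M q k)) (q : Qb) * (ρ ^ (model C k).e b)⁻¹)) c₀ := by
  refine rhoOk_cases C (fun x => ∃ c₀ : kA A, c₀ ≠ 0 ∧ Val Q x c₀) ?_ ⟨1, one_ne_zero, Val.one⟩ (fun i hi hik => ?_) b
  · rintro ⟨c₀, hc0, hc⟩
    refine hc0 (hc.unique ?_)
    show Bd Q _ _
    rw [map_zero, sub_zero]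
    exact RR.Bd.zero
  cases s
  · exact low_rho_finite C L hr h11 hrM hi hik false hQ hne (Or.inl rfl)
  rcases ((SS.bd_zero_inv_iff (tS_ne_zero A M false)).mp hQ).eq_or_lt with h0 | hneg
  · exact low_rho_finite C L hr h11 hrM hi hik true
      ((SS.bd_zero_iff (tS_ne_zero A M false)).mpr h0.ge) hne (Or.inr h0)
  · exact low_rho_cusp C hi hik hneg

end FLTAgent.CUBE

end
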