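import Fermat.Agent.CUBE.Cross
import Fermat.Agent.CUBE.Rho
import Fermat.Agent.CUBE.Eps

/-!
The points of the branches fall into singletons and crossings, and near each of them the twisted
sections have a generator.
-/

set_option autoImplicit false
set_option linter.unusedSectionVars false
set_option linter.style.haveILetI false
set_option synthInstance.maxHeartbeats 400000
set_option maxHeartbeats 1000000

noncomputable section

open ModularCurve AlgebraicCurve IsLocalRing
open FLTAgent.RR (Bd KK)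
open FLTAgent.Reduction
open FLTAgent.SS2 (InChart rationalFn DblSet LevelData)

namespace FLTAgent.CUBE

variable {A : ValuationSubring Qb} {M q : ℕ} [NeZero M] [NeZero q] (C : Ctx A M q) {k : ℕ}
include C

theorem bd_crossPt {s : Bool} {Q : PS A M} (hQ : Bd Q (tS A M s) 0) (i : ℕ) :
    Bd (crossPt C k i Q) (tS A M s) 0 := by
  unfold crossPt
  induction nE k i 0 with
  | zero => rwa [pow_zero, one_smul]
  | succ n ih => rw [pow_succ', mul_smul]; exact SS2.PV.fin_frobS C ih

variable {D : SS.Data Qb A (FB (M * q)) (FS A M)} (L : LevelData D)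
  {r : ℕ} (hr : r.Prime) (h11 : r % 12 = 11) (hrM : r ∣ M)
include L hr h11 hrM

theorem crossPt_mem_DblSet {Q : PS A M} (hQ : Q ∈ DblSet D) (i : ℕ) :
    crossPt C k i Q ∈ DblSet D := by
  unfold crossPt
  induction nE k i 0 with
  | zero => rwa [pow_zero, one_smul]
  | succ n ih =>
    rw [pow_succ', mul_smul]
    exact (SS2.frobS_mem_DblSet_iff C L hr h11 hrM _).mpr ih

theorem frobS_pow_even {Q : PS A M} (hQ : Q ∈ DblSet D) :
    ∀ n : ℕ, frobS C ^ (2 * n) • Q = Q
  | 0 => by rw [Nat.mul_zero, pow_zero, one_smul]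
  | n + 1 => by
    rw [show 2 * (n + 1) = 2 * n + 1 + 1 by ring, pow_succ, pow_succ, mul_smul, mul_smul,
      SS2.frobS_frobS C L hr h11 hrM hQ]
    exact frobS_pow_even hQ n

theorem crossPt_crossPt {Q : PS A M} (hQ : Q ∈ DblSet D) (i : ℕ) :
    crossPt C k i (crossPt C k i Q) = Q := by
  rw [crossPt, crossPt, smul_smul, ← pow_add, ← two_mul]
  exact frobS_pow_even C L hr h11 hrM hQ _

/-- the branches `0` and `1`, and `k - 1` and `k`, see a crossing at the same point -/
theorem crossPt_pair {Q : PS A M} (hQ : Q ∈ DblSet D) (hk : 2 ≤ k) :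
    crossPt C k 0 Q = crossPt C k 1 Q ∧ crossPt C k k Q = crossPt C k (k - 1) Q := by
  refine ⟨?_, ?_⟩
  · rw [crossPt, crossPt, show nE k 0 0 = nE k 1 0 + 2 by simp only [nE]; omega, pow_add, mul_smul,
      show 2 = 2 * 1 from rfl, frobS_pow_even C L hr h11 hrM hQ]
  · rw [crossPt, crossPt, show nE k k 0 = 0 by simp only [nE]; omega,
      show nE k (k - 1) 0 = 0 by simp only [nE]; omega]

variable (hin : ∀ σ ∈ A.inertiaSubgroupIn ℚ,
    SS.Compat D.toCore (SS2.galFn (M * q) σ) (RingEquiv.refl (FS A M))) (hk : 3 ≤ k)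
include hin hk

/-- the generators at all points -/
theorem exists_unit_gen' {n : ℕ} (hn : n ≠ 0) (W : (model C k).Triv n) (s : Bool) (b : Fin (k + 1))
    (Q : PS A M) (hQ : InChart s (Q.ord ((model C k).Jbar b))) :
    ∃ g ∈ (model C k).I W.D s, ∃ c : kA A, c ≠ 0 ∧ ∀ b' (Q' : PS A M),
      InChart s (Q'.ord ((model C k).Jbar b')) → (model C k).SamePt s b Q b' Q' →
        Val Q' ((model C k).red b' (g ^ n * W.f)) c := by
  have hQs : Bd Q (tS A M s) 0 := (model_inChart_iff s b Q).mp hQ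
  by_cases hQD : Q ∈ DblSet D
  · exact exists_gen_double' C L hr h11 hrM hk hn W s b hQs hQD
  haveI := finite_tS C s
  haveI := separable_tS C s
  obtain ⟨ε, hεR, hεQ, hε0⟩ := exists_eps_off' C L hr h11 hrM hin s b hQs hQD
  obtain ⟨ρ, hρR, hρG, hρr, c₀, hc₀, hq⟩ := exists_rho' C L hr h11 hrM s b hQs hQD
  obtain ⟨g, hg, -, c, hc, -, hval⟩ := (model C k).exists_generator_off s b
    (transcendental_tS A M s) (model_inChart_iff s b) hn W hQ (fg_triv' C hn W s) hεR hεQ hε0 hρR
    hρG hρr hc₀ hq (exists_full_chart' C hn W s) (exists_rho_chart' C s)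
  exact ⟨g, hg, c, hc, hval⟩

/-- the generators at all points, of a twist -/
theorem exists_gen' {n : ℕ} (hn : n ≠ 0) (W : (model C k).Twist n) (s : Bool) (b : Fin (k + 1))
    (Q : PS A M) (hQ : InChart s (Q.ord ((model C k).Jbar b))) :
    ∃ g ∈ (model C k).I W.D s, ∃ c : kA A, c ≠ 0 ∧ ∀ b' (Q' : PS A M),
      InChart s (Q'.ord ((model C k).Jbar b')) → (model C k).SamePt s b Q b' Q' →
        ∃ ζ, Val Q' ((model C k).red b' g) ζ ∧ ζ ^ n = c := by
  obtain ⟨g, hg, c, hc, hval⟩ := exists_unit_gen' C L hr h11 hrM hin hk hn W.toTriv s b Q hQ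
  exact ⟨g, hg, c, hc, fun b' Q' hQ' hs =>
    (model C k).exists_root_val hn W ((model C k).GI_iff.mp hg.1 b') (hval b' Q' hQ' hs)⟩

/-- the classes of points with one maximal ideal -/
theorem classify' (s : Bool) (b : Fin (k + 1)) (Q : PS A M)
    (hQ : InChart s (Q.ord ((model C k).Jbar b))) :
    (∀ b' (Q' : PS A M), InChart s (Q'.ord ((model C k).Jbar b')) →
        (model C k).SamePt s b Q b' Q' → b' = b ∧ Q' = Q) ∨
      ∃ π : Fin (k + 1) → PS A M, π b = Q ∧
        (∀ i j : Fin (k + 1), ((i : ℕ) = 0 ∧ (j : ℕ) = 1) ∨ ((i : ℕ) = k ∧ (j : ℕ) = k - 1) →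
          π i = π j) ∧
        (∀ b', InChart s ((π b').ord ((model C k).Jbar b'))) ∧
        (∀ b' b'', (model C k).SamePt s b' (π b') b'' (π b'')) ∧
        ∀ b' (Q' : PS A M), InChart s (Q'.ord ((model C k).Jbar b')) →
          (model C k).SamePt s b Q b' Q' → Q' = π b' := by
  have hQs : Bd Q (tS A M s) 0 := (model_inChart_iff s b Q).mp hQ
  haveI := finite_tS C s
  haveI := separable_tS C s
  have ht := transcendental_tS A M s
  by_cases hQD : Q ∈ DblSet D
  · right
    set P0 := crossPt C k b Q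
    have hP0 : P0 ∈ DblSet D := crossPt_mem_DblSet C L hr h11 hrM hQD b
    have hP0s : Bd P0 (tS A M s) 0 := bd_crossPt C hQs b
    have hb : crossPt C k b P0 = Q := crossPt_crossPt C L hr h11 hrM hQD b
    have hd := samePt_double' C L hr h11 hrM hk hP0 hP0s
    obtain ⟨hp, hp'⟩ := crossPt_pair C L hr h11 hrM hP0 (show 2 ≤ k by omega)
    refine ⟨fun b' => crossPt C k b' P0, hb, fun i j hij => ?_,
      fun b' => (model_inChart_iff s b' _).mpr (bd_crossPt C hP0s b'), hd, fun b' Q' hQ' h => ?_⟩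
    · show crossPt C k i P0 = crossPt C k j P0
      rcases hij with ⟨hi, hj⟩ | ⟨hi, hj⟩ <;> rw [hi, hj]
      exacts [hp, hp']
    · refine Fib.SamePt.eq_of_same (model C k) s b' ht (model_inChart_iff s b')
        ((model_inChart_iff s b' _).mpr (bd_crossPt C hP0s b')) hQ' fun x hx => ?_
      have h1 := hd b' b x hx
      rw [hb] at h1
      exact h1.trans (h x hx)
  · left
    obtain ⟨ε, hεR, hεQ, hε0⟩ := exists_eps_off' C L hr h11 hrM hin s b hQs hQD
    exact fun b' Q' hQ' h =>
      ((model C k).samePt_off_iff s b ht (model_inChart_iff s b) hQ hεR hεQ hε0 hQ').mp h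

end FLTAgent.CUBE

end
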