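import Fermat.Agent.CUBE.FibExp

/-!
A divisor on a fibre with `br + 1` components whose trivialisation has norms along two projections
that are constants times `n`-th powers is killed by a power of `q`, given local generators of the
twisted sections: on all but two components a norm is inseparable of degree `q`.
-/

set_option autoImplicit false
set_option linter.unusedSectionVars false
set_option linter.unusedVariables false
set_option linter.style.haveILetI false
set_option maxHeartbeats 1000000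

noncomputable section

open AlgebraicCurve IsLocalRing
open FLTAgent.RR (Bd KK)
open FLTAgent.Reduction (Val)

namespace FLTAgent.CUBE.Fib

variable {br : ℕ} {K : Type*} [Field K] [IsAlgClosed K] [CharZero K] {A : ValuationSubring K}
  {F : Type*} [Field F] [Algebra K F] [RR.FnField K F]
  {Fs : Type*} [Field Fs] [Algebra (ResidueField A) Fs] (M : Fib br K A F Fs) {n : ℕ}

/-- The norms along the two projections, read inside the function field: inseparable on the
components with `single t`, putting the components `p0 t` and `p1 t` together. -/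
structure Norms (M : Fib br K A F Fs) where
  /-- the norm along a projection, pulled back -/
  N : Bool → (F →* F)
  /-- the components on which a norm is inseparable -/
  single : Bool → Fin (br + 1) → Prop
  /-- the reduced component of the pair -/
  p0 : Bool → Fin (br + 1)
  /-- the other component of the pair -/
  p1 : Bool → Fin (br + 1)
  cover : ∀ t b, single t b ∨ b = p0 t ∨ b = p1 t
  cross0 : ∀ t, single (!t) (p0 t)
  cross1 : ∀ t, single (!t) (p1 t)
  e_p0 : ∀ t, M.e (p0 t) = 1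
  e_p1 : ∀ t, M.e (p1 t) = M.q - 1
  mem : ∀ t, ∀ x ∈ M.Ω, N t x ∈ M.Ω
  ne_zero : ∀ t, ∀ x : F, x ≠ 0 → N t x ≠ 0
  const : ∀ t, ∀ c ∈ M.T, N t (algebraMap K F c) = algebraMap K F c ^ M.q
  red_single : ∀ t b x, single t b → x ∈ M.G b →
    N t x ∈ M.G b ∧ M.red b (N t x) = M.red b x ^ M.q
  red_pair : ∀ t x, x ∈ M.G (p0 t) → x ∈ M.G (p1 t) →
    N t x ∈ M.G (p0 t) ∧ N t x ∈ M.G (p1 t) ∧
    M.red (p0 t) (N t x) = M.red (p0 t) x * M.red (p1 t) x ^ (M.q - 1) ∧
    M.red (p1 t) (N t x) = M.red (p0 t) x * M.red (p1 t) x ^ (M.q - 1)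
  exp_single : ∀ t b x i, single t b → M.HasExp b x i → M.HasExp b (N t x) ((M.q : ℤ) * i)
  exp_pair : ∀ t x i k, M.HasExp (p0 t) x i → M.HasExp (p1 t) x k →
    M.HasExp (p0 t) (N t x) (i + k)
  regular : ∀ t s, ∀ x ∈ M.R s, ∃ U ∈ M.R s, U * N t x ∈ M.R s ∧
    ∃ c : ResidueField A, c ≠ 0 ∧ ∀ b, M.red b U = algebraMap (ResidueField A) Fs c

variable {M} (Nm : Norms M)

/-- every component is inseparable for one of the norms -/
theorem Norms.single_or (b : Fin (br + 1)) : ∃ t, Nm.single t b := by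
  rcases Nm.cover false b with h | h | h
  exacts [⟨_, h⟩, ⟨_, h ▸ Nm.cross0 false⟩, ⟨_, h ▸ Nm.cross1 false⟩]

/-- residues of the norm of a function integral on all components -/
theorem Norms.red_unit (t : Bool) {x : F} (hx : ∀ b, x ∈ M.G b) :
    (∀ b, Nm.N t x ∈ M.G b) ∧
    (∀ b, Nm.single t b → M.red b (Nm.N t x) = M.red b x ^ M.q) ∧
    M.red (Nm.p0 t) (Nm.N t x) = M.red (Nm.p0 t) x * M.red (Nm.p1 t) x ^ (M.q - 1) ∧
    M.red (Nm.p1 t) (Nm.N t x) = M.red (Nm.p0 t) x * M.red (Nm.p1 t) x ^ (M.q - 1) := by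
  have h2 := Nm.red_pair t x (hx _) (hx _)
  refine ⟨fun b => ?_, fun b hb => (Nm.red_single t b x hb (hx b)).2, h2.2.2.1, h2.2.2.2⟩
  rcases Nm.cover t b with hb | rfl | rfl
  exacts [(Nm.red_single t b x hb (hx b)).1, h2.1, h2.2.1]

/-- the norm of a normalised trivialisation is a unit times an `n`-th power of a unit on all
components -/
theorem Norms.exists_unit_root (hn : n ≠ 0) (t : Bool) {f G : F}
    {lam : K} (hlam : lam ∈ M.T) (hlam0 : lam ≠ 0) (hG : G ∈ M.Ω) (hG0 : G ≠ 0)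
    (hNf : Nm.N t f = algebraMap K F lam * G ^ n) (hf : ∀ b, M.HasExp b f 0) :
    ∃ (u : K) (G' : F), u ∈ M.T ∧ u ≠ 0 ∧ G' ∈ M.Ω ∧ Nm.N t f = algebraMap K F u * G' ^ n ∧
      ∀ b, M.HasExp b G' 0 ∧ M.HasExp b (algebraMap K F u) 0 := by
  choose g hg using fun b => M.exists_hasExp b hG hG0
  obtain ⟨l, -, hl⟩ := M.exists_hasExp_const hlam hlam0
  have hexp : ∀ b, M.HasExp b (Nm.N t f) (l * M.e b + n * g b) := fun b => by
    rw [hNf]; exact (hl b).mul ((hg b).pow n)
  have hzero : ∀ b, M.HasExp b (Nm.N t f) 0 := by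
    intro b
    obtain ⟨hN, h1, h2, h3⟩ := Nm.red_unit t fun b => (hf b).mem_G
    refine HasExp.zero_iff.mpr ⟨hN b, ?_⟩
    rcases Nm.cover t b with hb | rfl | rfl
    · rw [h1 b hb]; exact pow_ne_zero _ (hf b).red_ne
    · rw [h2]; exact mul_ne_zero (hf _).red_ne (pow_ne_zero _ (hf _).red_ne)
    · rw [h3]; exact mul_ne_zero (hf _).red_ne (pow_ne_zero _ (hf _).red_ne)
  have hl' : l = -((n : ℤ) * g (Nm.p0 t)) := by
    have := (hexp (Nm.p0 t)).unique (hzero (Nm.p0 t))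
    rw [Nm.e_p0 t] at this
    push_cast at this
    linarith
  set w : ℤ := g (Nm.p0 t)
  refine ⟨lam * ((M.q : K) ^ w) ^ n, G * (algebraMap K F ((M.q : K) ^ w))⁻¹,
    mul_mem hlam (pow_mem (zpow_mem M.q_mem_T _) _),
    mul_ne_zero hlam0 (pow_ne_zero _ (zpow_ne_zero _ M.q_ne)),
    mul_mem hG (inv_mem (M.const_Ω _ (zpow_mem M.q_mem_T _))), ?_, fun b => ⟨?_, ?_⟩⟩
  · rw [hNf, map_mul, map_pow, mul_pow, inv_pow, mul_mul_mul_comm,
      mul_inv_cancel₀ (pow_ne_zero _ ((_root_.map_ne_zero _).mpr (zpow_ne_zero _ M.q_ne))), mul_one]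
  · have h := (hg b).mul ((M.hasExp_q b).zpow w).inv
    rw [← map_zpow₀] at h
    have he' : g b + -(w * M.e b) = 0 := by
      have := (hexp b).unique (hzero b)
      rw [hl'] at this
      have h0 : (n : ℤ) * (g b + -(w * M.e b)) = 0 := by linear_combination this
      exact (mul_eq_zero.mp h0).resolve_left (by exact_mod_cast hn)
    rwa [he'] at h
  · have h := (hl b).mul (((M.hasExp_q b).zpow w).pow n)
    rw [← map_zpow₀, ← map_pow, ← map_mul] at h
    rwa [show l * (M.e b : ℤ) + n * (w * M.e b) = 0 by rw [hl']; ring] at h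

/-- the product of a norm of a local section with the root of the norm of the trivialisation takes
equal values at the points of a crossing -/
theorem Norms.ratio (hn : n ≠ 0) (W : M.Twist n) (t : Bool) {u : K} (huT : u ∈ M.T) (hu0 : u ≠ 0)
    {G : F} (hNf : Nm.N t W.f = algebraMap K F u * G ^ n)
    (hG : ∀ b, M.HasExp b G 0 ∧ M.HasExp b (algebraMap K F u) 0)
    (μ : Fin (br + 1) → ResidueField A)
    (hμ : ∀ b, M.red b G = algebraMap (ResidueField A) Fs (μ b)) {s : Bool} {g : F}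
    (hg : g ∈ M.I W.D s) (π : Fin (br + 1) → Place (ResidueField A) Fs)
    (hπ : π (Nm.p0 t) = π (Nm.p1 t))
    (hsame : ∀ b b', M.SamePt s b (π b) b' (π b')) (ζ : Fin (br + 1) → ResidueField A)
    (hζ : ∀ b, Val (π b) (M.red b g) (ζ b)) :
    ∀ b, Nm.single t b →
      ζ b ^ M.q * μ b = ζ (Nm.p0 t) * ζ (Nm.p1 t) ^ (M.q - 1) * μ (Nm.p0 t) := by
  have hgG := M.GI_iff.mp hg.1
  have hfG : ∀ b, W.f ∈ M.G b := W.f_mem
  -- the regular function `v = gⁿ f`
  have hv : g ^ n * W.f ∈ M.R s := by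
    refine ⟨M.GI_iff.mpr fun b => mul_mem (pow_mem (hgG b) n) (hfG b), fun P hP => ?_⟩
    rcases eq_or_ne g 0 with hg0 | hg0
    · rw [hg0, zero_pow hn, zero_mul]; exact RR.Bd.zero
    have h := (RR.bd_iff_ord hg0).mp (hg.2 P hP)
    rw [RR.bd_iff_ord (mul_ne_zero (pow_ne_zero _ hg0) W.f_ne),
      P.ord_mul (pow_ne_zero _ hg0) W.f_ne, RR.ord_pow, ← W.ord_f]
    simp only [Finsupp.coe_zero, Pi.zero_apply]
    nlinarith
  obtain ⟨U, hU, hUN, c, hc, hUr⟩ := Nm.regular t s _ hv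
  obtain ⟨hNg, hNg1, hNg2, -⟩ := Nm.red_unit t hgG
  set H := Nm.N t g * G * U with hH
  have hUG := M.GI_iff.mp hU.1
  have hHG : ∀ b, H ∈ M.G b := fun b => mul_mem (mul_mem (hNg b) (hG b).1.mem_G) (hUG b)
  have hui : algebraMap K F u ≠ 0 := (_root_.map_ne_zero _).mpr hu0
  have hpow : H ^ n = algebraMap K F u⁻¹ * (U ^ (n - 1) * (U * Nm.N t (g ^ n * W.f))) := by
    obtain ⟨m, rfl⟩ := Nat.exists_eq_succ_of_ne_zero hn
    rw [Nat.succ_sub_one, map_mul, map_pow, hNf, hH, map_inv₀, mul_pow, mul_pow]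
    field_simp
    simp only [Nat.succ_eq_add_one, pow_succ]
    ring
  have hHR : H ∈ M.R s := by
    refine ⟨M.GI_iff.mpr hHG, fun P hP => ?_⟩
    simp only [Finsupp.coe_zero, Pi.zero_apply]
    refine bd_of_pow hn ?_
    rw [hpow]
    have h1 := (pow_mem hU (n - 1))
    have h2 := (mul_mem h1 hUN).2 P hP
    simpa using (RR.Bd.of_algebraMap (v := P) u⁻¹).mul h2
  -- values of `H`
  have hval : ∀ b r, Val (π b) (M.red b (Nm.N t g)) r →
      Val (π b) (M.red b H) (r * μ b * c) := by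
    intro b r hr
    rw [hH, M.red_mul b _ (mul_mem (hNg b) (hG b).1.mem_G) _ (hUG b),
      M.red_mul b _ (hNg b) _ (hG b).1.mem_G, hμ, hUr]
    exact (hr.mul (Val.const (v := π b) (μ b))).mul (Val.const c)
  have h0 := hval (Nm.p0 t) _ (by
    rw [hNg2]; exact (hζ _).mul ((hπ ▸ hζ (Nm.p1 t)).pow _))
  intro b hb
  have hb' := hval b _ (by rw [hNg1 b hb]; exact (hζ _).pow _)
  exact mul_right_cancel₀ hc (((hsame _ _).val_eq M hHR h0).unique hb').symm

/-- exponents congruent to a multiple of the multiplicities after multiplying by `q` -/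
theorem valuations_congr' {n q : ℕ} (hqn : Nat.Coprime q n) {a b l l' : ℤ}
    (h0 : (n : ℤ) ∣ (q : ℤ) * a - l') (h1 : (n : ℤ) ∣ (q : ℤ) * b - l' * ((q : ℤ) - 1))
    (h2 : (n : ℤ) ∣ a + b - l) : (n : ℤ) ∣ l - l' := by
  have h : (n : ℤ) ∣ (q : ℤ) * (l - l') := by
    have := (h2.mul_left (q : ℤ)).sub (h0.add h1)
    have e : (q : ℤ) * (l - l') = -((q : ℤ) * (a + b - l) -
        ((q : ℤ) * a - l' + ((q : ℤ) * b - l' * ((q : ℤ) - 1)))) := by ring
    rw [e]
    exact dvd_neg.mpr this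
  exact (Int.isCoprime_iff_nat_coprime.mpr (by simpa using hqn.symm)).dvd_of_dvd_mul_left h

variable (t : Bool → Fs) (htr : ∀ s, Transcendental (ResidueField A) (t s))
  (hfd : ∀ s, FiniteDimensional (KK (ResidueField A) (t s)) Fs)
  (hsep : ∀ s, Algebra.IsSeparable (KK (ResidueField A) (t s)) Fs)
  (hchart : ∀ s b (Q : Place (ResidueField A) Fs), InChart s (Q.ord (M.Jbar b)) ↔ Bd Q (t s) 0)
  (p : ℕ) [Fact p.Prime] [CharP (ResidueField A) p] [IsAlgClosed (ResidueField A)]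

include htr hfd hsep hchart p in
/-- the divisor of a rational function whose norms are constants times `n`-th powers is killed by
`q ^ 3` -/
theorem Norms.kill (hA : SS.Arch A) (hn : (n : ResidueField A) ≠ 0) (hq : 2 ≤ M.q)
    (hqn : Nat.Coprime M.q n)
    (hgen : ∀ (W : M.Twist n) s b (Q : Place (ResidueField A) Fs), InChart s (Q.ord (M.Jbar b)) →
      ∃ g ∈ M.I W.D s, ∃ c : ResidueField A, c ≠ 0 ∧ ∀ b' (Q' : Place (ResidueField A) Fs),
        InChart s (Q'.ord (M.Jbar b')) → M.SamePt s b Q b' Q' →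
          ∃ ζ, Val Q' (M.red b' g) ζ ∧ ζ ^ n = c)
    (hclass : ∀ s b (Q : Place (ResidueField A) Fs), InChart s (Q.ord (M.Jbar b)) →
      (∀ b' (Q' : Place (ResidueField A) Fs), InChart s (Q'.ord (M.Jbar b')) →
        M.SamePt s b Q b' Q' → b' = b ∧ Q' = Q) ∨
      ∃ π : Fin (br + 1) → Place (ResidueField A) Fs, π b = Q ∧
        (∀ d, π (Nm.p0 d) = π (Nm.p1 d)) ∧ (∀ b', InChart s ((π b').ord (M.Jbar b'))) ∧
        (∀ b' b'', M.SamePt s b' (π b') b'' (π b'')) ∧
        ∀ b' (Q' : Place (ResidueField A) Fs), InChart s (Q'.ord (M.Jbar b')) →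
          M.SamePt s b Q b' Q' → Q' = π b')
    {D : Divisor K F} {f : F} (hD : Divisor.degree D = 0) (hf : f ∈ M.Ω) (hf0 : f ≠ 0)
    (hord : ∀ P : Place K F, (n : ℤ) * D P = P.ord f)
    (hnorm : ∀ d : Bool, ∃ G ∈ M.Ω, ∃ lam ∈ M.T, lam ≠ 0 ∧ G ≠ 0 ∧
      Nm.N d f = algebraMap K F lam * G ^ n) :
    ∃ x : F, x ≠ 0 ∧ ∀ P : Place K F, ((M.q ^ 3 : ℕ) : ℤ) * D P = P.ord x := by
  classical
  have hn0 : n ≠ 0 := fun h => hn (by simp [h])
  have hq1 : ((M.q - 1 : ℕ) : ℤ) = (M.q : ℤ) - 1 := by omega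
  haveI : HasPrincipalDivisors K F := RR.hasPrincipalDivisors
  -- step one: the exponents
  choose G hG lam hlam hlam0 hG0 hNf using hnorm
  choose i hi using fun b => M.exists_hasExp b hf hf0
  choose g hg using fun d b => M.exists_hasExp b (hG d) (hG0 d)
  choose l _ hl using fun d => M.exists_hasExp_const (hlam d) (hlam0 d)
  have hexp : ∀ d b, M.HasExp b (Nm.N d f) (l d * M.e b + n * g d b) := fun d b => by
    rw [hNf]; exact (hl d b).mul ((hg d b).pow n)
  have hs : ∀ d b, Nm.single d b → (n : ℤ) ∣ (M.q : ℤ) * i b - l d * M.e b := fun d b hb =>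
    ⟨g d b, by linear_combination (Nm.exp_single d b f _ hb (hi b)).unique (hexp d b)⟩
  have hp : ∀ d, (n : ℤ) ∣ i (Nm.p0 d) + i (Nm.p1 d) - l d := fun d => by
    have h := (Nm.exp_pair d f _ _ (hi _) (hi _)).unique (hexp d _)
    rw [Nm.e_p0, Nat.cast_one, mul_one] at h
    exact ⟨g d (Nm.p0 d), by linear_combination h⟩
  have hll : (n : ℤ) ∣ l true - l false := by
    have h0 := hs _ _ (Nm.cross0 true)
    have h1 := hs _ _ (Nm.cross1 true)
    rw [Nm.e_p0] at h0
    rw [Nm.e_p1, hq1] at h1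
    simp only [Bool.not_true, Nat.cast_one, mul_one] at h0 h1
    exact valuations_congr' hqn h0 h1 (hp true)
  set v : ℤ := l false with hv
  set Cq : F := algebraMap K F ((M.q : K) ^ v) with hCq
  have hCq0 : Cq ≠ 0 := (_root_.map_ne_zero _).mpr (zpow_ne_zero _ M.q_ne)
  have hexp1 : ∀ b, M.HasExp b (f ^ M.q * Cq⁻¹) ((M.q : ℤ) * i b - v * M.e b) := by
    intro b
    have h := ((hi b).pow M.q).mul ((M.hasExp_q b).zpow v).inv
    rw [← map_zpow₀, ← hCq] at h
    rwa [← sub_eq_add_neg] at h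
  have hdiv : ∀ b, (n : ℤ) ∣ (M.q : ℤ) * i b - v * M.e b := by
    intro b
    obtain ⟨d, hd⟩ := Nm.single_or b
    cases d
    · exact hs false b hd
    · have := (hs true b hd).add (hll.mul_right (M.e b : ℤ))
      rwa [show (M.q : ℤ) * i b - l true * M.e b + (l true - l false) * M.e b =
        (M.q : ℤ) * i b - v * M.e b by rw [hv]; ring] at this
  choose a ha using hdiv
  -- step two: remove the exponents
  haveI := hfd false
  haveI := hsep false
  have hct : ∀ b (Q : Place (ResidueField A) Fs), InChart false (Q.ord (M.Jbar b)) → Bd Q (t false) 0 :=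
    fun b Q hQ => (hchart false b Q).mp hQ
  obtain ⟨φ0, hφ0, hφ⟩ := M.exists_approx (htr false) hct a (fun _ => 1) (fun _ => one_ne_zero)
  have hφe : ∀ b, M.HasExp b φ0 (a b) := fun b => ⟨(hφ b).1, (hφ b).2 ▸ one_ne_zero⟩
  have hφ00 : φ0 ≠ 0 := (hφe 0).ne_zero
  set f2 := f ^ M.q * Cq⁻¹ * (φ0 ^ n)⁻¹ with hf2
  have hexp2 : ∀ b, M.HasExp b f2 0 := fun b => by
    have h := (hexp1 b).mul ((hφe b).pow n).inv
    rw [ha, add_neg_cancel] at h
    exact h
  have hroot2 : ∀ d, ∃ (u : K) (G' : F), u ∈ M.T ∧ u ≠ 0 ∧ G' ∈ M.Ω ∧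
      Nm.N d f2 = algebraMap K F u * G' ^ n ∧
      ∀ b, M.HasExp b G' 0 ∧ M.HasExp b (algebraMap K F u) 0 := fun d => by
    refine Nm.exists_unit_root hn0 d (lam := lam d ^ M.q * (((M.q : K) ^ v) ^ M.q)⁻¹)
      (G := G d ^ M.q * (Nm.N d φ0)⁻¹) ?_ ?_ ?_ ?_ ?_ hexp2
    · exact mul_mem (pow_mem (hlam d) _) (inv_mem (pow_mem (zpow_mem M.q_mem_T _) _))
    · exact mul_ne_zero (pow_ne_zero _ (hlam0 d))
        (inv_ne_zero (pow_ne_zero _ (zpow_ne_zero _ M.q_ne)))
    · exact mul_mem (pow_mem (hG d) _) (inv_mem (Nm.mem d _ hφ0))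
    · exact mul_ne_zero (pow_ne_zero _ (hG0 d)) (inv_ne_zero (Nm.ne_zero d _ hφ00))
    · have hinv : ∀ x : F, x ≠ 0 → Nm.N d x⁻¹ = (Nm.N d x)⁻¹ := fun x hx =>
        eq_inv_of_mul_eq_one_left (by rw [← map_mul, inv_mul_cancel₀ hx, map_one])
      rw [hf2, map_mul, map_mul, map_pow, hinv _ hCq0, hinv _ (pow_ne_zero _ hφ00), map_pow, hNf,
        hCq, Nm.const d _ (zpow_mem M.q_mem_T _), map_mul, map_pow, map_inv₀, map_pow, mul_pow,
        mul_pow, inv_pow, ← pow_mul, ← pow_mul, mul_comm n M.q]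
      ring
  choose u2 G2 hu2 hu20 hG2 hN2 hG2e using hroot2
  -- residues are `n`-th powers
  have hne : ∀ b, M.red b f2 ≠ 0 := fun b => (hexp2 b).red_ne
  have hroot : ∀ b, ∃ h : Fs, h ≠ 0 ∧ M.red b f2 = h ^ n := by
    intro b
    obtain ⟨d, hd⟩ := Nm.single_or b
    obtain ⟨-, h1, -⟩ := Nm.red_unit d fun b => (hexp2 b).mem_G
    have huA : u2 d ∈ A := mem_A_of_hasExp (hu2 d) (hu20 d) (hG2e d b).2
    have e := h1 b hd
    rw [hN2, M.red_mul _ _ (hG2e d b).2.mem_G _ (pow_mem (hG2e d b).1.mem_G n),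
      M.red_pow _ (hG2e d b).1.mem_G, M.red_const _ ⟨u2 d, huA⟩ (hu2 d)] at e
    obtain ⟨κ, hκ⟩ := IsAlgClosed.exists_pow_nat_eq (residue A (⟨u2 d, huA⟩ : A)) hn0.bot_lt
    rw [← hκ, map_pow, ← mul_pow] at e
    refine exists_root_of_pow₀ hqn (hne b) (fun h0 => ?_) e.symm
    rw [h0, zero_pow hn0] at e
    exact pow_ne_zero _ (hne b) e.symm
  choose h hh0 hh using hroot
  -- step three: the twist congruent to one
  set D1 : Divisor K F := M.q • D with hD1
  obtain ⟨E0, hE0, hE0d⟩ := HasPrincipalDivisors.exists_divisor (K := K) (F := F) φ0 hφ00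
  have hf20 : f2 ≠ 0 := (hexp2 0).ne_zero
  have hord2 : ∀ P : Place K F, (n : ℤ) * (D1 - E0 : Divisor K F) P = P.ord f2 := by
    intro P
    rw [hf2, P.ord_mul (mul_ne_zero (pow_ne_zero _ hf0) (inv_ne_zero hCq0))
      (inv_ne_zero (pow_ne_zero _ hφ00)), P.ord_mul (pow_ne_zero _ hf0) (inv_ne_zero hCq0),
      P.ord_inv, P.ord_inv, RR.ord_pow, RR.ord_pow, hCq, RR.ord_algebraMap, ← hord]
    simp only [hD1, Finsupp.smul_apply, Finsupp.sub_apply, nsmul_eq_mul, hE0]
    push_cast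
    ring
  obtain ⟨φ, W, hφΩ, hφ0', hWD, hWf⟩ := M.exists_twist (htr false) hct
    (D := D1 - E0) (f := f2) (by rw [hD1, map_sub, map_nsmul, hD, hE0d, smul_zero, sub_zero])
    hf20 hord2 (fun _ => 0) h hh0 (fun b => by
      simp only [mul_zero, neg_zero, zpow_zero, mul_one]
      exact ⟨(hexp2 b).mem_G, hh b⟩)
  have hW0 : ∀ b, M.HasExp b W.f 0 := fun b =>
    HasExp.zero_iff.mpr ⟨W.f_mem b, by rw [W.red_f]; exact one_ne_zero⟩
  have hroot4 : ∀ d, ∃ (u : K) (G' : F), u ∈ M.T ∧ u ≠ 0 ∧ G' ∈ M.Ω ∧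
      Nm.N d W.f = algebraMap K F u * G' ^ n ∧
      ∀ b, M.HasExp b G' 0 ∧ M.HasExp b (algebraMap K F u) 0 := fun d => by
    refine Nm.exists_unit_root hn0 d (lam := u2 d) (G := G2 d * (Nm.N d φ)⁻¹) (hu2 d) (hu20 d)
      (mul_mem (hG2 d) (inv_mem (Nm.mem d _ hφΩ)))
      (mul_ne_zero (hG2e d 0).1.ne_zero (inv_ne_zero (Nm.ne_zero d _ hφ0'))) ?_ hW0
    have e : Nm.N d W.f * Nm.N d φ ^ n = Nm.N d f2 := by
      rw [← map_pow, ← map_mul, hWf, div_mul_cancel₀ _ (pow_ne_zero _ hφ0')]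
    rw [← mul_inv_cancel_right₀ (pow_ne_zero n (Nm.ne_zero d _ hφ0')) (Nm.N d W.f), e, hN2,
      mul_pow, inv_pow, mul_assoc]
  choose u4 G4 hu4 hu40 hG4 hN4 hG4e using hroot4
  -- the constants
  have hμ : ∀ d, ∃ (ū : ResidueField A) (μ : Fin (br + 1) → ResidueField A), ū ≠ 0 ∧
      ∀ b, M.red b (G4 d) = algebraMap (ResidueField A) Fs (μ b) ∧ μ b ^ n = ū := fun d => by
    have huA : u4 d ∈ A := mem_A_of_hasExp (hu4 d) (hu40 d) (hG4e d 0).2
    set v := residue A ⟨u4 d, huA⟩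
    have hv0 : v ≠ 0 := fun h0 => (hG4e d 0).2.red_ne (by
      rw [M.red_const 0 ⟨u4 d, huA⟩ (hu4 d), show residue A ⟨u4 d, huA⟩ = 0 from h0, map_zero])
    obtain ⟨-, h1, h2, h3⟩ := Nm.red_unit d W.f_mem
    have hpow : ∀ b, M.red b (G4 d) ^ n = algebraMap (ResidueField A) Fs v⁻¹ := fun b => by
      have hone : M.red b (Nm.N d W.f) = 1 := by
        rcases Nm.cover d b with hb | rfl | rfl
        · simp [h1 b hb, W.red_f]
        · simp [h2, W.red_f]
        · simp [h3, W.red_f]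
      rw [hN4, M.red_mul _ _ (hG4e d b).2.mem_G _ (pow_mem (hG4e d b).1.mem_G n),
        M.red_pow _ (hG4e d b).1.mem_G, M.red_const b ⟨u4 d, huA⟩ (hu4 d)] at hone
      rw [map_inv₀]
      exact eq_inv_of_mul_eq_one_right hone
    choose μ hμ hμn using fun b => exists_const_root hn0 (hpow b)
    exact ⟨v⁻¹, μ, inv_ne_zero hv0, fun b => ⟨hμ b, hμn b⟩⟩
  choose ū μ hū hμ using hμ
  have hμ0 : ∀ d b, μ d b ≠ 0 := fun d b h0 => hū d (by rw [← (hμ d b).2, h0, zero_pow hn0])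
  set κ : ResidueField A :=
    μ true (Nm.p0 true) ^ M.q / (μ false (Nm.p0 true) * μ false (Nm.p1 true) ^ (M.q - 1))
  set ω' : Fin (br + 1) → ResidueField A := fun b =>
    if Nm.single false b then (μ false b ^ M.q)⁻¹ else κ / μ true b ^ M.q with hω'
  have hκn : κ ^ n = ū true ^ M.q / ū false ^ M.q := by
    rw [div_pow, mul_pow, ← pow_mul, ← pow_mul, mul_comm M.q n, mul_comm (M.q - 1) n, pow_mul,
      pow_mul, (hμ _ _).2, (hμ _ _).2, (hμ _ _).2, ← pow_succ',
      Nat.sub_add_cancel (by omega : 1 ≤ M.q)]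
  have hω'n : ∀ b, ω' b ^ n = (ū false ^ M.q)⁻¹ := fun b => by
    simp only [hω']
    split_ifs with hb
    · rw [inv_pow, ← pow_mul, mul_comm, pow_mul, (hμ _ _).2]
    · rw [div_pow, hκn, ← pow_mul, mul_comm, pow_mul, (hμ _ _).2, div_div,
        mul_comm (ū false ^ M.q), ← div_div, div_self (pow_ne_zero _ (hū true)), one_div]
  have hω'0 : ∀ b, ω' b ≠ 0 := fun b h0 => by
    have := hω'n b
    rw [h0, zero_pow hn0] at this
    exact inv_ne_zero (pow_ne_zero _ (hū false)) this.symm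
  set ω : Fin (br + 1) → ResidueField A := fun b => ω' b / ω' 0 with hω
  have hωn : ∀ b, ω b ^ n = 1 := fun b => by
    simp only [hω]
    rw [div_pow, hω'n, hω'n, div_self (inv_ne_zero (pow_ne_zero _ (hū false)))]
  have hω0 : ∀ b, ω b ≠ 0 := fun b => div_ne_zero (hω'0 b) (hω'0 0)
  set m := M.q * M.q with hm
  obtain ⟨x, hx, hxD⟩ := M.exists_principal_of_ratios t htr hfd hsep hchart p hA hn W m ω hωn
    (fun s b Q hQ => by
      obtain ⟨g, hg, c, hc, hgv⟩ := hgen W s b Q hQ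
      have hz : ∀ ζ : ResidueField A, ζ ^ n = c → ζ ≠ 0 := fun ζ h h0 =>
        hc (by rw [← h, h0, zero_pow hn0])
      rcases hclass s b Q hQ with hsing | ⟨π, hπb, hπp, hπc, hall, huniq⟩
      · obtain ⟨ζ, hζ, hζn⟩ := hgv b Q hQ (fun x _ => Iff.rfl)
        refine ⟨g, hg, ζ ^ m / ω b, div_ne_zero (pow_ne_zero _ (hz ζ hζn)) (hω0 b),
          fun b' Q' hQ' hs => ?_⟩
        obtain ⟨rfl, rfl⟩ := hsing b' Q' hQ' hs
        exact ⟨ζ, hζ, (div_mul_cancel₀ _ (hω0 _)).symm⟩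
      · choose ζ hζ hζn using fun b' => hgv b' (π b') (hπc b') (hπb ▸ hall b b')
        have hζ0 : ∀ b', ζ b' ≠ 0 := fun b' => hz _ (hζn b')
        have R := fun d => Nm.ratio hn0 W d (hu4 d) (hu40 d) (hN4 d) (hG4e d) (μ d)
          (fun b' => (hμ d b').1) hg π (hπp d) hall ζ hζ
        set Cd : Bool → ResidueField A := fun d =>
          ζ (Nm.p0 d) * ζ (Nm.p1 d) ^ (M.q - 1) * μ d (Nm.p0 d) with hCd
        have hCC : Cd true ^ M.q = Cd false ^ M.q * κ := by
          have r0 : ζ (Nm.p0 true) ^ M.q * μ false (Nm.p0 true) = Cd false :=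
            R false _ (Nm.cross0 true)
          have r1 : ζ (Nm.p1 true) ^ M.q * μ false (Nm.p1 true) = Cd false :=
            R false _ (Nm.cross1 true)
          have e : Cd false ^ M.q = Cd false * Cd false ^ (M.q - 1) := by
            rw [← pow_succ', Nat.sub_add_cancel (by omega : 1 ≤ M.q)]
          rw [e]
          conv_rhs => arg 1; arg 1; rw [← r0]
          conv_rhs => arg 1; arg 2; rw [← r1]
          have := hμ0 false (Nm.p0 true)
          have := hμ0 false (Nm.p1 true)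
          simp only [κ, hCd, mul_pow, ← pow_mul, mul_comm (M.q - 1) M.q]
          field_simp
        have hω'eq : ∀ b', ζ b' ^ m = Cd false ^ M.q * ω' b' := fun b' => by
          have hmq : ∀ z : ResidueField A, z ^ m = (z ^ M.q) ^ M.q := fun z => by
            rw [hm, pow_mul]
          simp only [hω']
          split_ifs with hb
          · rw [← show ζ b' ^ M.q * μ false b' = Cd false from R false b' hb, mul_pow, ← hmq,
              mul_inv_cancel_right₀ (pow_ne_zero _ (hμ0 _ _))]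
          · obtain ⟨d, hd⟩ := Nm.single_or b'
            cases d
            · exact absurd hd hb
            rw [mul_div_assoc', ← hCC, ← show ζ b' ^ M.q * μ true b' = Cd true from R true b' hd,
              mul_pow, ← hmq,
              mul_div_cancel_right₀ _ (pow_ne_zero _ (hμ0 _ _))]
        refine ⟨g, hg, Cd false ^ M.q * ω' 0, ?_, fun b' Q' hQ' hs => ?_⟩
        · rw [← hω'eq 0]
          exact pow_ne_zero _ (hζ0 0)
        obtain rfl := huniq b' Q' hQ' hs
        refine ⟨ζ b', hζ b', ?_⟩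
        rw [hω'eq b']
        simp only [hω]
        have := hω'0 0
        field_simp)
  refine ⟨x * φ ^ m * φ0 ^ m,
    mul_ne_zero (mul_ne_zero hx (pow_ne_zero _ hφ0')) (pow_ne_zero _ hφ00), fun P => ?_⟩
  rw [P.ord_mul (mul_ne_zero hx (pow_ne_zero _ hφ0')) (pow_ne_zero _ hφ00),
    P.ord_mul hx (pow_ne_zero _ hφ0'), RR.ord_pow, RR.ord_pow, ← hxD, hWD]
  simp only [hm, hD1, Finsupp.smul_apply, Finsupp.sub_apply, nsmul_eq_mul, hE0]
  push_cast
  ring

end FLTAgent.CUBE.Fib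

end
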