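import Fermat.Agent.CUBE.Sym
import Fermat.Agent.CUBE.Kill

/-!
The norms along the two degeneracy maps from level `M qᵏ⁺¹` to level `M qᵏ`, as norms of the fibre.
-/

set_option autoImplicit false
set_option linter.unusedSectionVars false
set_option linter.style.haveILetI false
set_option synthInstance.maxHeartbeats 200000
set_option maxHeartbeats 1000000

noncomputable section

open ModularCurve AlgebraicCurve IsLocalRing
open FLTAgent.RR (Bd)
open FLTAgent.Reduction (Qb FB FS Ctx GR tB tS jS kA red)
open FLTAgent.SS2 (InChart rationalFn normAlong normAlong_map normAlong_ne_zero)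

namespace FLTAgent.CUBE

/-- norms along intertwined embeddings -/
theorem normAlong_intertwine {F F' : Type*} [Field F] [Field F'] [Algebra Qb F] [Algebra Qb F']
    (φ ψ : F →ₐ[Qb] F') (e : F ≃+* F) (e' : F' ≃+* F') (h : ∀ a, ψ (e a) = e' (φ a)) (x : F') :
    normAlong ψ (e' x) = e (normAlong φ x) := by
  show @Algebra.norm F F' _ _ (algebraAlong ψ) (e' x) =
    e (@Algebra.norm F F' _ _ (algebraAlong φ) x)
  rw [@Algebra.norm_eq_of_equiv_equiv F F' F F' _ _ _ _ (algebraAlong φ) (algebraAlong ψ) e e'
    (RingHom.ext fun a => h a) x, e.apply_symm_apply]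

variable {A : ValuationSubring Qb} {M q : ℕ} [NeZero M] [NeZero q]

theorem normB_ne_zero {k : ℕ} {x : FB (lev M q (k + 1))} (hx : x ≠ 0) : normB M q k x ≠ 0 := by
  rw [normB_apply]
  exact (_root_.map_ne_zero _).mpr (normAlong_ne_zero _ hx)

variable (C : Ctx A M q)

/-- the norms along the two degeneracy maps, pulled back -/
def normT (k : ℕ) : Bool → (FB (lev M q (k + 1)) →* FB (lev M q (k + 1)))
  | true => normB M q k
  | false => ((wAL C (k + 1) : FB (lev M q (k + 1)) →* FB (lev M q (k + 1)))).comp
      ((normB M q k).comp (wAL C (k + 1) : FB (lev M q (k + 1)) →* FB (lev M q (k + 1))))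

theorem normT_false (k : ℕ) (x : FB (lev M q (k + 1))) :
    normT C k false x = wAL C (k + 1) (normB M q k (wAL C (k + 1) x)) := rfl

include C

/-- the involution of level `M qᵏ` as an automorphism -/
def wALEquiv (k : ℕ) : FB (lev M q k) ≃+* FB (lev M q k) :=
  RingEquiv.ofBijective (wAL C k)
    ⟨wAL_injective C, fun x => ⟨wAL C k x, wAL_wAL C x⟩⟩

theorem wALEquiv_apply {k : ℕ} (x : FB (lev M q k)) : wALEquiv C k x = wAL C k x := rfl

/-- the norm along `α` is the transform of the norm along `β` -/
theorem normT_false_eq (k : ℕ) (x : FB (lev M q (k + 1))) :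
    normT C k false x = upA M q k (normAlong (upA M q k) x) := by
  have h := normAlong_intertwine (upA M q k) (upB M q k) (wALEquiv C k) (wALEquiv C (k + 1))
    (fun a => by
      rw [wALEquiv_apply, wALEquiv_apply, wAL_upA C]) x
  rw [wALEquiv_apply, wALEquiv_apply] at h
  rw [normT_false, normB_apply, h, ← wAL_upA C, wAL_wAL C]

theorem normT_apply (k : ℕ) : ∀ (t : Bool) (x : FB (lev M q (k + 1))),
    normT C k t x = (if t then upB M q k else upA M q k)
      (normAlong (if t then upB M q k else upA M q k) x)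
  | true, x => rfl
  | false, x => normT_false_eq C k x

/-- the norms of the model -/
def modelNorms {k : ℕ} (hk : 2 ≤ k) : Fib.Norms (model C (k + 1)) where
  N := normT C k
  single t b := 2 ≤ ((if t then b else b.rev : Fin (k + 2)) : ℕ)
  p0 t := if t then 0 else (0 : Fin (k + 2)).rev
  p1 t := if t then 1 else (1 : Fin (k + 2)).rev
  cover t b := by
    have key : ∀ c : Fin (k + 2), 2 ≤ (c : ℕ) ∨ c = 0 ∨ c = 1 := fun c => by
      rcases lt_or_ge (c : ℕ) 2 with h | h
      · right
        rcases Nat.lt_succ_iff.mp h |> Nat.le_one_iff_eq_zero_or_eq_one.mp with h | h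
        · exact Or.inl (Fin.ext h)
        · exact Or.inr (Fin.ext h)
      · exact Or.inl h
    cases t
    · rcases key b.rev with h | h | h
      · exact Or.inl h
      · exact Or.inr (Or.inl (by simp [← h]))
      · exact Or.inr (Or.inr (by simp [← h]))
    · simpa using key b
  cross0 t := by cases t <;> simp [Fin.val_rev] <;> omega
  cross1 t := by cases t <;> simp [Fin.val_rev] <;> omega
  e_p0 t := by
    have h0 : eMul q (k + 1) ((0 : Fin (k + 2)) : ℕ) = 1 := by simp [eMul, dpt]
    cases t
    · show eMul q (k + 1) ((0 : Fin (k + 2)).rev : ℕ) = 1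
      rw [eMul_rev C, h0]
    · exact h0
  e_p1 t := by
    have h1 : eMul q (k + 1) ((1 : Fin (k + 2)) : ℕ) = q - 1 := by
      have e : dpt (k + 1) ((1 : Fin (k + 2)) : ℕ) = 1 := by simp [dpt]; omega
      rw [eMul, e, pow_one, Nat.totient_prime C.prime]
    cases t
    · show eMul q (k + 1) ((1 : Fin (k + 2)).rev : ℕ) = q - 1
      rw [eMul_rev C, h1]
    · exact h1
  mem := fun t x hx => by
    cases t
    · exact wAL_rational C (normB_rational C (wAL_rational C hx))
    · exact normB_rational C hx
  ne_zero := fun t x hx => by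
    cases t
    · rw [normT_false]
      exact (_root_.map_ne_zero _).mpr (normB_ne_zero ((_root_.map_ne_zero _).mpr hx))
    · exact normB_ne_zero hx
  const := fun t c _ => by
    have h : normB M q k (algebraMap Qb (FB (lev M q (k + 1))) c) =
        algebraMap Qb (FB (lev M q (k + 1))) c ^ q := by
      rw [normB_apply, ← (upB M q k).commutes c, normAlong_map,
        finrankAlong_upB C k (by omega), map_pow]
    cases t
    · rw [normT_false, wAL_const C, h, map_pow, wAL_const C]
      rfl
    · exact h
  red_single := fun t b x hb hx => by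
    cases t
    · simp only [Bool.false_eq_true, ↓reduceIte] at hb
      obtain ⟨h1, h1'⟩ := wAL_mem_GB C hx
      have h := isRes_normB_single C b.rev hb (isRes_redB h1)
      have hr := normB_rational C (GB_le h1)
      obtain ⟨h2, h2'⟩ := wAL_mem_GB C (h.mem_GB hr)
      rw [Fin.rev_rev, h.redB_eq, h1'] at h2'
      rw [Fin.rev_rev] at h2
      exact ⟨h2, h2'⟩
    · simp only [↓reduceIte] at hb
      have h := isRes_normB_single C b hb (isRes_redB hx)
      exact ⟨h.mem_GB (normB_rational C (GB_le hx)), h.redB_eq⟩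
  red_pair := fun t x hx hx' => by
    cases t
    · obtain ⟨a0, a0'⟩ := wAL_mem_GB C hx
      obtain ⟨a1, a1'⟩ := wAL_mem_GB C hx'
      simp only [Bool.false_eq_true, ↓reduceIte, Fin.rev_rev] at a0 a1 a0' a1' ⊢
      obtain ⟨h0, h1⟩ := isRes_normB_pair C (by omega) (isRes_redB a0) (isRes_redB a1)
      have hr := normB_rational C (GB_le a0)
      obtain ⟨b0, b0'⟩ := wAL_mem_GB C (h0.mem_GB hr)
      obtain ⟨b1, b1'⟩ := wAL_mem_GB C (h1.mem_GB hr)
      refine ⟨b0, b1, b0'.trans ?_, b1'.trans ?_⟩
      · rw [h0.redB_eq, a0', a1']; rfl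
      · rw [h1.redB_eq, a0', a1']; rfl
    · obtain ⟨h0, h1⟩ := isRes_normB_pair C (by omega) (isRes_redB hx) (isRes_redB hx')
      have hr := normB_rational C (GB_le hx)
      exact ⟨h0.mem_GB hr, h1.mem_GB hr, h0.redB_eq, h1.redB_eq⟩
  exp_single := fun t b x i hb hx => by
    cases t
    · simp only [Bool.false_eq_true, ↓reduceIte] at hb
      obtain ⟨hr, hs⟩ := scaled_of_hasExp C (wAL_hasExp C hx).1 (wAL_hasExp C hx).2
      have h := wAL_hasExp C
        (hasExp_of_scaled C (normB_rational C hr) (scaled_normB_single C b.rev hb hs))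
      rw [Fin.rev_rev] at h
      exact h
    · simp only [↓reduceIte] at hb
      obtain ⟨hr, hs⟩ := scaled_of_hasExp C hx.1 hx.2
      exact hasExp_of_scaled C (normB_rational C hr) (scaled_normB_single C b hb hs)
  exp_pair := fun t x i j hi hj => by
    cases t
    · have hi' := wAL_hasExp C hi
      have hj' := wAL_hasExp C hj
      simp only [Bool.false_eq_true, ↓reduceIte, Fin.rev_rev] at hi' hj' ⊢
      obtain ⟨hr, hs⟩ := scaled_of_hasExp C hi'.1 hi'.2
      exact wAL_hasExp C (hasExp_of_scaled C (normB_rational C hr)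
        (scaled_normB_pair C (by omega) hs (scaled_of_hasExp C hj'.1 hj'.2).2).1)
    · obtain ⟨hr, hs⟩ := scaled_of_hasExp C hi.1 hi.2
      exact hasExp_of_scaled C (normB_rational C hr)
        (scaled_normB_pair C (by omega) hs (scaled_of_hasExp C hj.1 hj.2).2).1
  regular := by
    have key : ∀ (s : Bool), ∀ x ∈ (model C (k + 1)).R s,
        ∃ U ∈ (model C (k + 1)).R s, U * normB M q k x ∈ (model C (k + 1)).R s ∧
          ∀ b, (model C (k + 1)).red b U = 1 := by
      intro s x hx
      have hG : ∀ b, x ∈ GB C (k + 1) b := (model C (k + 1)).GI_iff.mp hx.1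
      have hr := normB_rational C (GB_le (hG 0))
      obtain ⟨U, hUr, hU1, hUP, hUN⟩ := regular_normB C (by omega) s (GB_le (hG 0))
        fun P hP => by simpa using hx.2 P hP
      have hN : ∀ b : Fin (k + 2), ∃ R, IsRes C (k + 1) b (normB M q k x) R := fun b => by
        obtain ⟨h0, h1⟩ := isRes_normB_pair C (by omega) (isRes_redB (hG 0)) (isRes_redB (hG 1))
        rcases lt_or_ge (b : ℕ) 2 with hb | hb
        · rcases Nat.le_one_iff_eq_zero_or_eq_one.mp (Nat.lt_succ_iff.mp hb) with hb | hb
          · obtain rfl : b = 0 := Fin.ext hb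
            exact ⟨_, h0⟩
          · obtain rfl : b = 1 := Fin.ext hb
            exact ⟨_, h1⟩
        · exact ⟨_, isRes_normB_single C b hb (isRes_redB (hG b))⟩
      exact ⟨U, model_mem_R hUr (fun b => ⟨_, hU1 b⟩) hUP,
        model_mem_R (mul_mem hUr hr) (fun b => ⟨_, (hU1 b).mul (hN b).choose_spec⟩) hUN,
        fun b => (hU1 b).redB_eq⟩
    intro t s x hx
    cases t
    · obtain ⟨U, hU, hUN, hU1⟩ := key s _ (wAL_mem_R C hx)
      refine ⟨wAL C (k + 1) U, wAL_mem_R C hU, ?_, 1, one_ne_zero, fun b => ?_⟩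
      · rw [normT_false, ← map_mul]
        exact wAL_mem_R C hUN
      · have h := (wAL_mem_GB C ((model C (k + 1)).GI_iff.mp hU.1 b.rev)).2
        rw [Fin.rev_rev] at h
        rw [map_one]
        exact h.trans (hU1 b.rev)
    · obtain ⟨U, hU, hUN, hU1⟩ := key s x hx
      exact ⟨U, hU, hUN, 1, one_ne_zero, fun b => by rw [map_one, hU1 b]⟩

end FLTAgent.CUBE

end
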