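import Fermat.Agent.CUBE.KillDef
import Fermat.Agent.CUBE.Norms
import Fermat.Agent.CUBE.Local
import Fermat.Agent.SS2.KillCore

/-!
At a level with a prime factor `r ≡ 11 (mod 12)`: a rational class whose trivialisation has norms
equal to constants times `n`-th powers is killed by a power of `q`.
-/

set_option autoImplicit false
set_option linter.unusedSectionVars false
set_option synthInstance.maxHeartbeats 400000
set_option maxHeartbeats 1000000

noncomputable section

open ModularCurve AlgebraicCurve IsLocalRing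
open FLTAgent.Reduction
open FLTAgent.SS2 (rationalFn RatClass Fld)

namespace FLTAgent.CUBE

variable {A : ValuationSubring Qb} {M q : ℕ} [NeZero M] [NeZero q] (C : Ctx A M q)
include C

/-- the class is killed -/
theorem kill_rat' {r : ℕ} (hr : r.Prime) (h11 : r % 12 = 11) (hrM : r ∣ M) {j : ℕ} (hj : 2 ≤ j)
    {n : ℕ} (R : RatClass (lev M q (j + 1)) n A) (hnq : Nat.Coprime n q) (hn0 : n ≠ 0)
    (ha : ∃ (G : Fld (lev M q j)) (lam : Qb), G ≠ 0 ∧ lam ≠ 0 ∧
      SS2.normAlong (heckeAlphaBar Qb (lev M q j) q) R.f =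
        algebraMap Qb (Fld (lev M q j)) lam * G ^ n)
    (hb : ∃ (G : Fld (lev M q j)) (lam : Qb), G ≠ 0 ∧ lam ≠ 0 ∧
      SS2.normAlong (heckeBetaBar Qb (lev M q j) q) R.f =
        algebraMap Qb (Fld (lev M q j)) lam * G ^ n) :
    (q ^ 3) • R.cls = 0 := by
  haveI := Fact.mk C.prime
  haveI := charP_residue A C.prime C.lies
  have L := SS2.levelData C
  have hin : ∀ σ ∈ A.inertiaSubgroupIn ℚ,
      SS.Compat (SS.fibreData C).toCore (SS2.galFn (M * q) σ) (RingEquiv.refl (FS A M)) :=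
    fun σ hσ => SS.compat_inertia C σ hσ
  have hn : (n : kA A) ≠ 0 := natCast_residue_ne_zero A C.prime C.lies fun hd =>
    Nat.Prime.not_coprime_iff_dvd.mpr ⟨q, C.prime, hd, dvd_refl q⟩ hnq
  have hf : R.f ∈ rationalFn A (lev M q (j + 1)) := fun σ hσ => R.f_fixed σ (R.inertia σ hσ)
  set Nm := modelNorms C hj with hNm
  have hnorm : ∀ d : Bool, ∃ G ∈ (model C (j + 1)).Ω, ∃ lam ∈ (model C (j + 1)).T, lam ≠ 0 ∧
      G ≠ 0 ∧ Nm.N d R.f = algebraMap Qb (FB (lev M q (j + 1))) lam * G ^ n := by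
    intro d
    obtain ⟨G, lam, hG, hlam, h⟩ : ∃ (G : FB (lev M q j)) (lam : Qb), G ≠ 0 ∧ lam ≠ 0 ∧
        SS2.normAlong (if d then upB M q j else upA M q j) R.f =
          algebraMap Qb (FB (lev M q j)) lam * G ^ n := by
      cases d
      exacts [ha, hb]
    set φ := (if d then upB M q j else upA M q j) with hφ
    have h' : Nm.N d R.f = algebraMap Qb (FB (lev M q (j + 1))) lam * φ G ^ n := by
      rw [show Nm.N d R.f = φ (SS2.normAlong φ R.f) from normT_apply C j d R.f, h, map_mul, map_pow,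
        AlgHom.commutes]
    obtain ⟨G₁, hG₁, lam₁, hlam₁, hne, hne', he⟩ :=
      SS2.exists_rational_root hn0 (Nm.mem d _ hf) ((_root_.map_ne_zero _).mpr hG) hlam h'
    exact ⟨G₁, hG₁, lam₁, hlam₁, hne, hne', he⟩
  obtain ⟨x, hx0, hx⟩ := Nm.kill (t := fun s => tS A M s)
    (htr := fun s => transcendental_tS A M s) (hfd := fun s => finite_tS C s)
    (hsep := fun s => separable_tS C s) (hchart := fun s b Q => model_inChart_iff s b Q) (p := q)
    (SS.arch C.prime C.lies) hn C.prime.two_le hnq.symm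
    (fun W s b Q hQ => exists_gen' C L hr h11 hrM hin (by omega) hn0 W s b Q hQ)
    (fun s b Q hQ => by
      rcases classify' C L hr h11 hrM hin (by omega) s b Q hQ with h | ⟨π, h1, h2, h3⟩
      · exact Or.inl h
      refine Or.inr ⟨π, h1, fun d => ?_, h3⟩
      cases d
      · exact h2 _ _ (Or.inr ⟨by simp [Nm, modelNorms], by simp [Nm, modelNorms]⟩)
      · exact h2 _ _ (Or.inl ⟨by simp [Nm, modelNorms], by simp [Nm, modelNorms]⟩))
    (Divisor.mem_degZero.mp R.degree_D) hf R.f_ne R.ord_f hnorm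
  rw [RatClass.cls, show q ^ 3 • Pic0.mk ⟨R.D, R.degree_D⟩ =
    Pic0.mk (q ^ 3 • (⟨R.D, R.degree_D⟩ :
      Divisor.degZero (K := Qb) (F := Fld (lev M q (j + 1))))) from
      (map_nsmul (QuotientAddGroup.mk' _) (q ^ 3) _).symm, SS2.pic0_mk_eq_zero_iff]
  refine ⟨x, hx0, fun P => ?_⟩
  rw [AddSubgroupClass.coe_nsmul, Finsupp.smul_apply, nsmul_eq_mul]
  exact hx P

omit C in
theorem coreKillK {q : ℕ} [NeZero q] (hq : q.Prime) (A : ValuationSubring Qb)
    (hA : A.LiesOverPrime q) {j : ℕ} (hj : 2 ≤ j) : CoreKillK A q j := by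
  intro M _ r hr h11 hrM hqM
  exact ⟨q ^ 3, pow_pos hq.pos 3, fun n R hn hn0 ha hb =>
    kill_rat' ⟨hq, hqM, hA⟩ hr h11 hrM hj R hn hn0 ha hb⟩

end FLTAgent.CUBE

end
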