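import Fermat.Agent.CUBE.CrossPoints
import Fermat.Agent.CUBE.Rho

/-!
At a double point all branches meet, and the twisted sections have a generator there.
-/

set_option autoImplicit false
set_option linter.unusedSectionVars false
set_option linter.style.haveILetI false
set_option synthInstance.maxHeartbeats 400000
set_option maxHeartbeats 1000000

noncomputable section

open ModularCurve AlgebraicCurve IsLocalRing
open FLTAgent.RR (Bd)
open FLTAgent.Reduction
open FLTAgent.SS2 (InChart rationalFn DblSet LevelData)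

namespace FLTAgent.CUBE

variable {A : ValuationSubring Qb} {M q : ℕ} [NeZero M] [NeZero q] (C : Ctx A M q) {k : ℕ}

namespace CrossData

variable {C} {s : Bool} {Q : PS A M} (E : CrossData C k s Q)
include E

/-- a chart function vanishing at all places over the crossing vanishes at the crossing on every
branch -/
theorem val_zero_of_vanish (hQ : Bd Q (tS A M s) 0) {g : FB (lev M q k)}
    (hg : g ∈ (model C k).R s) (hS : ∀ P ∈ E.S, Val P g 0) (b : Fin (k + 1)) :
    Val (crossPt C k b Q) ((model C k).red b g) 0 := by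
  classical
  set Mo := model C k
  set Qb' := crossPt C k b Q with hQb'
  have hchart : InChart s (Qb'.ord (Mo.Jbar b)) :=
    (model_inChart_iff s b Qb').mpr (fin_crossR C hQ _)
  haveI := Mo.ptIdeal_isPrime s b Qb' hchart
  rcases eq_or_ne g 0 with rfl | hg0
  · rw [Mo.red_zero]; exact Val.zero
  have hx0 : E.x ≠ 0 := fun h => E.x_ne b (by rw [h, Mo.red_zero])
  have hxG := Mo.GI_iff.mp E.x_mem.1
  set bad := (RR.finite_ord_ne_zero (K := Qb) hx0).toFinset.filter
    fun P : Place Qb (FB (lev M q k)) => InChart s (P.ord Mo.J) ∧ 0 < P.ord E.x ∧ P ∉ E.S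
  have hexP : ∀ P : bad, ∃ e : Mo.R s, e ∉ Mo.ptIdeal s b Qb' hchart ∧ Val P.1 (e : FB _) 0 :=
    fun P => by
      obtain ⟨h1, h2, h3⟩ := (Finset.mem_filter.mp P.2).2
      obtain ⟨e, heR, he, hev⟩ := E.other P.1 h1 h2 h3
      exact ⟨⟨e, heR⟩, he b, hev⟩
  choose eP heP hePv using hexP
  set U : Mo.R s := ∏ P : bad, eP P ^ (P.1.ord E.x).toNat with hU
  have hUn : U ∉ Mo.ptIdeal s b Qb' hchart := prod_not_mem _ _ _ fun P h =>
    heP P (Ideal.IsPrime.mem_of_pow_mem inferInstance _ h)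
  have hxinv : ∀ b', E.x⁻¹ ∈ Mo.G b' := fun b' => (Mo.inv_mem_G b' (hxG b') (E.x_ne b')).1
  have hh : (U : FB _) * g * E.x⁻¹ ∈ Mo.R s := by
    refine ⟨Mo.GI_iff.mpr fun b' =>
      mul_mem (mul_mem (Mo.GI_iff.mp U.2.1 b') (Mo.GI_iff.mp hg.1 b')) (hxinv b'), fun P hP => ?_⟩
    simp only [Finsupp.coe_zero, Pi.zero_apply]
    rw [RR.bd_mul_iff (inv_ne_zero hx0), P.ord_inv]
    have hxP : 0 ≤ P.ord E.x := by
      have := (RR.bd_iff_ord hx0).mp (E.x_mem.2 P hP)
      simpa using this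
    have hUP : Bd P (U : FB _) 0 := by simpa [Fib.OnChart] using U.2.2 P hP
    have hgP : Bd P g 0 := by simpa [Fib.OnChart] using hg.2 P hP
    rcases hxP.eq_or_lt with h | h
    · simpa [← h] using hUP.mul hgP
    by_cases hPS : P ∈ E.S
    · have h1 : Bd P g (-1) := by simpa [Val] using hS P hPS
      simpa [E.ord_one P hPS] using hUP.mul h1
    · have hmem : P ∈ bad := Finset.mem_filter.mpr
        ⟨(Set.Finite.mem_toFinset _).mpr h.ne', hP, h, hPS⟩
      have hsplit : U = eP ⟨P, hmem⟩ ^ (P.ord E.x).toNat *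
          ∏ P' ∈ Finset.univ.erase (⟨P, hmem⟩ : bad), eP P' ^ (P'.1.ord E.x).toNat :=
        (Finset.mul_prod_erase _ _ (Finset.mem_univ (⟨P, hmem⟩ : bad))).symm
      set rest : Mo.R s :=
        ∏ P' ∈ Finset.univ.erase (⟨P, hmem⟩ : bad), eP P' ^ (P'.1.ord E.x).toNat
      have h1 : Bd P (eP ⟨P, hmem⟩ : FB _) (-1) := by simpa [Val] using hePv ⟨P, hmem⟩
      have h2 := ((h1.pow (P.ord E.x).toNat).mul
        (by simpa [Fib.OnChart] using rest.2.2 P hP : Bd P (rest : FB _) 0)).mul hgP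
      rw [hsplit, Subring.coe_mul, SubmonoidClass.coe_pow]
      refine h2.mono ?_
      rw [Int.toNat_of_nonneg h.le]
      omega
  obtain ⟨vh, hvh⟩ := Mo.val_exists hchart hh
  obtain ⟨vg, hvg⟩ := Mo.val_exists hchart hg
  obtain ⟨vu, hvu⟩ := Mo.val_exists hchart U.2
  have hvu0 : vu ≠ 0 := fun h => hUn (Fib.mem_ptIdeal Mo |>.mpr (h ▸ hvu))
  have h1 : Mo.red b E.x * Mo.red b ((U : FB _) * g * E.x⁻¹) =
      Mo.red b (U : FB _) * Mo.red b g := by
    rw [← Mo.red_mul b _ (hxG b) _ (Mo.GI_iff.mp hh.1 b),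
      ← Mo.red_mul b _ (Mo.GI_iff.mp U.2.1 b) _ (Mo.GI_iff.mp hg.1 b)]
    congr 1
    field_simp
  have h2 := (E.x_val b).mul hvh
  rw [h1, zero_mul] at h2
  rcases mul_eq_zero.mp ((hvu.mul hvg).unique h2) with h | h
  · exact absurd h hvu0
  · exact h ▸ hvg

/-- sums of powers of `z` with integral rational coefficients -/
theorem sum_mem_R {d : ℕ} {c : ℕ → Qb} (hc : ∀ j, c j ∈ (model C k).T ∧ c j ∈ A) :
    (∑ j ∈ Finset.range d, algebraMap Qb (FB (lev M q k)) (c j) * E.z ^ j) ∈ (model C k).R s :=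
  sum_mem fun j _ => mul_mem ⟨(model C k).GI_iff.mpr fun b =>
      (model C k).const_mem b ⟨_, (hc j).2⟩ (hc j).1,
    fun P _ => by simpa using RR.Bd.of_algebraMap (v := P) (c j)⟩ (pow_mem E.z_mem j)

/-- their restrictions take the value of the constant coefficient -/
theorem val_sum_z (hQ : Bd Q (tS A M s) 0) (b : Fin (k + 1)) {c : ℕ → Qb}
    (hc : ∀ j, c j ∈ (model C k).T ∧ c j ∈ A) : ∀ d : ℕ,
    Val (crossPt C k b Q)
      ((model C k).red b (∑ j ∈ Finset.range (d + 1), algebraMap Qb (FB (lev M q k)) (c j) * E.z ^ j))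
      (residue A ⟨c 0, (hc 0).2⟩) := by
  intro d
  set Mo := model C k
  have hmem : ∀ n, (∑ j ∈ Finset.range n, algebraMap Qb (FB (lev M q k)) (c j) * E.z ^ j) ∈ Mo.G b :=
    fun n => Mo.GI_iff.mp (E.sum_mem_R hc (d := n)).1 b
  induction d with
  | zero =>
    rw [Finset.sum_range_one, pow_zero, mul_one, Mo.red_const b ⟨_, (hc 0).2⟩ (hc 0).1]
    exact Val.const _
  | succ d ih =>
    have hzG := Mo.GI_iff.mp E.z_mem.1 b
    have hcG := Mo.const_mem b ⟨_, (hc (d + 1)).2⟩ (hc (d + 1)).1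
    rw [Finset.sum_range_succ, Mo.red_add b _ (hmem _) _ (mul_mem hcG (pow_mem hzG _)),
      Mo.red_mul b _ hcG _ (pow_mem hzG _), Mo.red_const b ⟨_, (hc (d + 1)).2⟩ (hc (d + 1)).1,
      Mo.red_pow b hzG]
    simpa [zero_pow] using ih.add ((Val.const _).mul ((E.z_val b).pow (d + 1)))

/-- all branches take one value at the crossing -/
theorem exists_common_val (hQ : Bd Q (tS A M s) 0) {g : FB (lev M q k)}
    (hg : g ∈ (model C k).R s) :
    ∃ v, ∀ b : Fin (k + 1), Val (crossPt C k b Q) ((model C k).red b g) v := by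
  set Mo := model C k
  have hgΩ : g ∈ rationalFn A (lev M q k) := Mo.G_le 0 _ (Mo.GI_iff.mp hg.1 0)
  have hb : ∀ P ∈ E.S, Bd P g 0 := fun P hP => by simpa using hg.2 P (E.chart P hP)
  obtain ⟨d, c, hc, h⟩ := E.comparable g hgΩ 1 (one_mem _) hb
    fun P _ => by simpa using RR.Bd.of_algebraMap (v := P) (1 : Qb)
  set H := ∑ j ∈ Finset.range d, algebraMap Qb (FB (lev M q k)) (c j) * E.z ^ j with hH
  have hHR := E.sum_mem_R (d := d) hc
  have hchart : ∀ b : Fin (k + 1), InChart s ((crossPt C k b Q).ord (Mo.Jbar b)) :=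
    fun b => (model_inChart_iff s b _).mpr (fin_crossR C hQ _)
  have hHG := fun b => Mo.GI_iff.mp hHR.1 b
  have hgG := fun b => Mo.GI_iff.mp hg.1 b
  obtain ⟨v, hv⟩ : ∃ v, ∀ b : Fin (k + 1), Val (crossPt C k b Q) (Mo.red b H) v := by
    rcases Nat.eq_zero_or_pos d with hd | hd
    · exact ⟨0, fun b => by rw [hH, hd, Finset.sum_range_zero, Mo.red_zero]; exact Val.zero⟩
    · obtain ⟨d, rfl⟩ : ∃ d', d = d' + 1 := ⟨d - 1, by omega⟩
      exact ⟨_, fun b => E.val_sum_z hQ b hc d⟩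
  rcases h with h | h
  · refine ⟨v, fun b => ?_⟩
    have hm : g - H * 1 ∈ Mo.R s := sub_mem hg (mul_mem hHR (one_mem _))
    have h1 := E.val_zero_of_vanish hQ hm h b
    rw [mul_one] at h1
    have h2 : Mo.red b g = Mo.red b (g - H) + Mo.red b H := by
      rw [← Mo.red_add b _ (sub_mem (hgG b) (hHG b)) _ (hHG b), sub_add_cancel]
    rw [h2]
    simpa using h1.add (hv b)
  · refine ⟨v⁻¹, fun b => ?_⟩
    have hm : 1 - H * g ∈ Mo.R s := sub_mem (one_mem _) (mul_mem hHR hg)
    have h1 := E.val_zero_of_vanish hQ hm h b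
    obtain ⟨w, hw⟩ := Mo.val_exists (hchart b) hg
    have h2 : (1 : FS A M) = Mo.red b (1 - H * g) + Mo.red b H * Mo.red b g := by
      rw [← Mo.red_mul b _ (hHG b) _ (hgG b),
        ← Mo.red_add b _ (sub_mem (one_mem _) (mul_mem (hHG b) (hgG b))) _
          (mul_mem (hHG b) (hgG b)), sub_add_cancel, Mo.red_one]
    have h3 := h1.add ((hv b).mul hw)
    rw [← h2, zero_add] at h3
    rwa [show v⁻¹ = w from (eq_inv_of_mul_eq_one_right (Val.one.unique h3).symm).symm]

end CrossData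

variable {D : SS.Data Qb A (FB (M * q)) (FS A M)} (L : LevelData D)
  {r : ℕ} (hr : r.Prime) (h11 : r % 12 = 11) (hrM : r ∣ M) (hk : 3 ≤ k)
include C L hr h11 hrM hk

/-- the points over a double point have one maximal ideal -/
theorem samePt_double' {s : Bool} {Q : PS A M} (hQ : Q ∈ DblSet D) (hQs : Bd Q (tS A M s) 0)
    (b b' : Fin (k + 1)) :
    (model C k).SamePt s b (crossPt C k b Q) b' (crossPt C k b' Q) := by
  obtain ⟨CL⟩ := SS2.exists_crossLifts C L hr h11 hrM hQ
  obtain ⟨E⟩ := exists_crossData C (k := k) (by omega) (SS2.kronChart_false C) CL hQs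
  intro x hx
  obtain ⟨v, hv⟩ := E.exists_common_val hQs hx
  exact ⟨fun h => (hv b).unique h ▸ hv b', fun h => (hv b').unique h ▸ hv b⟩

/-- the generator at a double point -/
theorem exists_gen_double' {n : ℕ} (hn : n ≠ 0) (W : (model C k).Triv n) (s : Bool)
    (b : Fin (k + 1)) {Q : PS A M} (hQ : Bd Q (tS A M s) 0) (hQD : Q ∈ DblSet D) :
    ∃ g ∈ (model C k).I W.D s, ∃ c : kA A, c ≠ 0 ∧ ∀ b' (Q' : PS A M),
      InChart s (Q'.ord ((model C k).Jbar b')) → (model C k).SamePt s b Q b' Q' →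
        Val Q' ((model C k).red b' (g ^ n * W.f)) c := by
  obtain ⟨CL⟩ := SS2.exists_crossLifts C L hr h11 hrM hQD
  have hfix := CL.fixed
  -- the node `0` over the crossing seen from `Q` on the branch `b`
  have hQR : Bd (crossR C Q (nE k b 0)) (tS A M s) 0 := fin_crossR C hQ _
  have hQRD : crossR C Q (nE k b 0) ∈ DblSet D := by
    induction nE k (b : ℕ) 0 with
    | zero => rwa [crossR_zero]
    | succ m ih => rw [crossR_succ, SS2.frobS_mem_DblSet_iff C L hr h11 hrM]; exact ih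
  have hself : crossPt C k b (crossR C Q (nE k b 0)) = Q := by
    show crossR C (crossR C Q (nE k b 0)) (nE k b 0) = Q
    rw [crossR, crossR, smul_smul, ← pow_add, ← two_mul]
    show crossR C Q (2 * nE k b 0) = Q
    rw [crossR_mod_two C hfix, Nat.mul_mod_right, crossR_zero]
  obtain ⟨CL'⟩ := SS2.exists_crossLifts C L hr h11 hrM hQRD
  obtain ⟨E⟩ := exists_crossData C (k := k) (by omega) (SS2.kronChart_false C) CL' hQR
  have hΩ : ∀ {f : FB (lev M q k)}, f ∈ (model C k).Ω → f ∈ rationalFn A (lev M q k) := fun h => h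
  obtain ⟨g, hg, -, c, hc, -, hval⟩ := (model C k).exists_generator_crossing hn W s b Q
    ((model_inChart_iff s b Q).mpr hQ) (fg_triv' C hn W s) E.x_mem
    (by have := E.x_val b; rwa [hself] at this) E.x_ne E.S E.P₀_mem E.chart E.ord_one
    (fun P hP hpos hPS => by
      obtain ⟨e, heR, he, hev⟩ := E.other P hP hpos hPS
      exact ⟨e, heR, by have := he b; rwa [hself] at this, hev⟩)
    (fun f hf P hP P' hP' hpos => by
      have hf0 : f ≠ 0 := fun h => by rw [h, Place.ord_zero] at hpos; omega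
      have := (E.spread f (hΩ hf) P hP (val_zero_of_ord_pos hpos) P' hP').ord_pos hf0
      omega)
    (fun f hf g hg hfS hgS vf vg hvf hvg => by
      obtain ⟨d, cs, hcs, h⟩ := E.comparable f (hΩ hf) g (hΩ hg) hfS hgS
      exact (model C k).comp_of_sum (E.chart _ E.P₀_mem) E.z_mem hvf hvg hcs
        (h.imp (fun h => h _ E.P₀_mem) fun h => h _ E.P₀_mem))
    (exists_full_chart' C hn W s) (exists_rho_chart' C s)
  exact ⟨g, hg, c, hc, hval⟩

end FLTAgent.CUBE

end
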