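import Fermat.Agent.CUBE.PointVal
import Fermat.Agent.CUBE.FibPoint
import Fermat.Agent.CUBE.FibPointOff

/-!
The places of the generic fibre over a crossing: their number, the transitivity of inertia, the
comparability of values of rational functions, and the chart functions cutting them out.
-/

set_option autoImplicit false
set_option linter.unusedSectionVars false
set_option linter.style.haveILetI false
set_option synthInstance.maxHeartbeats 400000
set_option maxHeartbeats 1000000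

noncomputable section

open ModularCurve AlgebraicCurve IsLocalRing
open FLTAgent.RR (Bd KK)
open FLTAgent.Reduction
open FLTAgent.SS2 (InChart rationalFn galFn inertiaFixed KronChart CrossLifts DblSet LevelData)

namespace FLTAgent.CUBE

variable {A : ValuationSubring Qb} {M q : ℕ} [NeZero M] [NeZero q]

/-- at places permuted by inertia and separated by a function of valuation `1/d`, values of rational
functions are comparable by polynomials in that function -/
theorem exists_comparable (hq : q.Prime) (hA : A.LiesOverPrime q) {N : ℕ} [NeZero N] {d : ℕ}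
    (hd : 0 < d) {S : Finset (PB N)} (hcard : S.card ≤ d)
    (hsmul : ∀ P ∈ S, ∀ σ ∈ A.inertiaSubgroupIn ℚ, galFn N σ • P ∈ S) {z : FB N}
    (hz : z ∈ rationalFn A N)
    (hv : ∀ P ∈ S, ∃ Z : A, Val P z (Z : Qb) ∧ A.valuation (Z : Qb) ^ d = A.valuation (q : Qb))
    {Pb : PB N} (hPb : Pb ∈ S) {f g : FB N} (hf : f ∈ rationalFn A N) (hg : g ∈ rationalFn A N)
    (hfb : ∀ P ∈ S, Bd P f 0) (hgb : ∀ P ∈ S, Bd P g 0) :
    ∃ c : ℕ → Qb, (∀ j, c j ∈ inertiaFixed A ∧ c j ∈ A) ∧
      ((∀ P ∈ S, Val P (f - (∑ j ∈ Finset.range d, algebraMap Qb (FB N) (c j) * z ^ j) * g) 0) ∨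
       (∀ P ∈ S, Val P (g - (∑ j ∈ Finset.range d, algebraMap Qb (FB N) (c j) * z ^ j) * f) 0)) := by
  classical
  obtain ⟨hcardS, hinj, horb⟩ := SS2.PV.orbit_full hq hA hd hcard hsmul hz hv ⟨Pb, hPb⟩
  set Zv := fun P => SS2.PV.valAt P z
  have hbdz : ∀ P ∈ S, Bd P z 0 := fun P hP => (hv P hP).choose_spec.1.bd
  have hzv : ∀ P ∈ S, A.valuation (Zv P) ^ d = A.valuation (q : Qb) := fun P hP => by
    obtain ⟨Z, h1, h2⟩ := hv P hP
    rw [show Zv P = (Z : Qb) from SS2.PV.valAt_eq h1]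
    exact h2
  have hzgal : ∀ P ∈ S, ∀ σ ∈ A.inertiaSubgroupIn ℚ, Zv (galFn N σ • P) = σ (Zv P) :=
    fun P hP σ hσ => SS2.PV.valAt_gal hz hσ (hbdz P hP)
  have hvanish : ∀ u : FB N, u ∈ rationalFn A N → (∀ P ∈ S, Bd P u 0) →
      SS2.PV.valAt Pb u = 0 → ∀ P ∈ S, SS2.PV.valAt P u = 0 := by
    intro u hu hub h0 P hP
    obtain ⟨σ, hσ, rfl⟩ := horb Pb hPb P hP
    rw [SS2.PV.valAt_gal hu hσ (hub Pb hPb), h0, map_zero]
  have hval : ∀ (c : ℕ → Qb) (u w : FB N), (∀ P ∈ S, Bd P u 0) → (∀ P ∈ S, Bd P w 0) →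
      (∀ P ∈ S, SS2.PV.valAt P u =
        (∑ j ∈ Finset.range d, c j * Zv P ^ j) * SS2.PV.valAt P w) →
      ∀ P ∈ S, Val P (u - (∑ j ∈ Finset.range d,
        algebraMap Qb (FB N) (c j) * z ^ j) * w) 0 := by
    intro c u w hub hwb h P hP
    have h1 := (SS2.PV.val_valAt (hub P hP)).sub
      ((SS2.PV.val_sum (Finset.range d) _ _ fun j _ => (Val.const (v := P) (c j)).mul
        ((SS2.PV.val_valAt (hbdz P hP)).pow j)).mul (SS2.PV.val_valAt (hwb P hP)))
    rwa [show SS2.PV.valAt P u - (∑ j ∈ Finset.range d, c j * Zv P ^ j) * SS2.PV.valAt P w = 0 from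
      sub_eq_zero.mpr (h P hP)] at h1
  -- a quotient of values of valuation at most one
  have key : ∀ u ∈ rationalFn A N, ∀ w ∈ rationalFn A N,
      (∀ P ∈ S, Bd P u 0) → (∀ P ∈ S, Bd P w 0) → SS2.PV.valAt Pb w ≠ 0 →
      A.valuation (SS2.PV.valAt Pb u) ≤ A.valuation (SS2.PV.valAt Pb w) →
      ∃ c : ℕ → Qb, (∀ j, c j ∈ inertiaFixed A ∧ c j ∈ A) ∧
        ∀ P ∈ S, SS2.PV.valAt P u =
          (∑ j ∈ Finset.range d, c j * Zv P ^ j) * SS2.PV.valAt P w := by
    intro u hu w hw hub hwb hw0 hle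
    have hwne : ∀ P ∈ S, SS2.PV.valAt P w ≠ 0 := by
      intro P hP h0
      obtain ⟨σ, hσ, rfl⟩ := horb Pb hPb P hP
      rw [SS2.PV.valAt_gal hw hσ (hwb Pb hPb), map_eq_zero] at h0
      exact hw0 h0
    obtain ⟨c, hc, hcw⟩ := SS2.exists_coords (A := A)
      (fun i : S => SS2.PV.valAt (i : PB N) u / SS2.PV.valAt (i : PB N) w)
      (fun i : S => Zv i) (fun i j hij => Subtype.ext (hinj i.2 j.2 hij))
      (fun σ hσ i => ⟨⟨_, hsmul _ i.2 σ hσ⟩, (hzgal _ i.2 σ hσ).symm, by
        show σ (_ / _) = _ / _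
        rw [map_div₀, SS2.PV.valAt_gal hu hσ (hub _ i.2), SS2.PV.valAt_gal hw hσ (hwb _ i.2)]⟩)
    simp only [Fintype.card_coe, hcardS] at hcw
    have hA1 : ∑ j ∈ Finset.range d, c j * Zv Pb ^ j ∈ A := by
      rw [← hcw ⟨Pb, hPb⟩, ← A.valuation_le_one_iff, map_div₀]
      exact (div_le_one₀ (zero_lt_iff.mpr ((_root_.map_ne_zero _).mpr hw0))).mpr hle
    refine ⟨fun j => if j < d then c j else 0, fun j => ?_, fun P hP => ?_⟩
    · show (if j < d then c j else 0) ∈ inertiaFixed A ∧ (if j < d then c j else 0) ∈ A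
      split_ifs with h
      · exact ⟨hc j, SS2.coeff_mem hq hA hd (hzv Pb hPb) hc hA1 h⟩
      · exact ⟨zero_mem _, A.zero_mem⟩
    · have hs : ∑ j ∈ Finset.range d, (if j < d then c j else 0) * Zv P ^ j =
          ∑ j ∈ Finset.range d, c j * Zv P ^ j :=
        Finset.sum_congr rfl fun j hj => by rw [if_pos (Finset.mem_range.mp hj)]
      show _ = (∑ j ∈ Finset.range d, (if j < d then c j else 0) * Zv P ^ j) * _
      rw [hs, ← hcw ⟨P, hP⟩, div_mul_cancel₀ _ (hwne P hP)]
  rcases eq_or_ne (SS2.PV.valAt Pb g) 0 with hg0 | hg0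
  · refine ⟨0, fun _ => ⟨zero_mem _, A.zero_mem⟩, Or.inr (hval 0 g f hgb hfb fun P hP => ?_)⟩
    rw [hvanish g hg hgb hg0 P hP]
    simp
  rcases le_total (A.valuation (SS2.PV.valAt Pb f)) (A.valuation (SS2.PV.valAt Pb g)) with h | h
  · obtain ⟨c, hc, he⟩ := key f hf g hg hfb hgb hg0 h
    exact ⟨c, hc, Or.inl (hval c f g hfb hgb he)⟩
  · rcases eq_or_ne (SS2.PV.valAt Pb f) 0 with hf0 | hf0
    · rw [hf0, map_zero, le_zero_iff, map_eq_zero] at h
      exact absurd h hg0
    obtain ⟨c, hc, he⟩ := key g hg f hf hgb hfb hf0 h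
    exact ⟨c, hc, Or.inr (hval c g f hgb hfb he)⟩

variable (C : Ctx A M q)
include C

/-- the degree of the node `0` -/
theorem finrankAlong_nd_zero {k : ℕ} (hk : 1 ≤ k) :
    finrankAlong Qb (nd M q k 0) = q ^ (k - 1) * (q + 1) := by
  have hd : M ∣ lev M q k := ⟨q ^ k, lev_eq M q k⟩
  have he : nd M q k 0 = SS2.incl hd :=
    AlgHom.ext fun a => Subtype.ext (by
      rw [coe_nd (Nat.zero_le k), SS2.coe_incl, SS2.qExpand_congr' (pow_zero q), qExpand_one_apply])
  rw [he]
  have h := SS2.finrankAlong_incl hd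
  have hc : M.Coprime q := (C.prime.coprime_iff_not_dvd.mpr C.not_dvd).symm
  have e2 : dedekindPsi (lev M q k) = dedekindPsi M * (q ^ k + q ^ (k - 1)) := by
    rw [lev_eq, Genus.dedekindPsi_mul (Nat.Coprime.pow_right k hc),
      Genus.dedekindPsi_prime_pow C.prime hk]
  rw [e2] at h
  refine Nat.eq_of_mul_eq_mul_right (SS2.dedekindPsi_pos' M) (h.trans ?_)
  obtain ⟨m, rfl⟩ : ∃ m, k = m + 1 := ⟨k - 1, by omega⟩
  rw [Nat.add_sub_cancel]
  ring

theorem gal_nd {k l : ℕ} (hl : l ≤ k) (σ : Qb ≃ₐ[ℚ] Qb) (x : FB M) :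
    galFn (lev M q k) σ • nd M q k l x = nd M q k l (galFn M σ • x) :=
  Subtype.ext (by
    rw [coe_arithmeticGalois_smul, coe_nd hl, coe_nd hl, coe_arithmeticGalois_smul,
      coeffMap_qExpand])

/-- moving chart functions of level `M` at a point to another chart containing it -/
theorem exists_chart_factor {s : Bool} {R : PS A M} (hR : Bd R (tS A M s) 0)
    (hf : Bd R (tS A M false) 0) {b : FB M} (hb : BT A M false b) :
    ∃ T : FB M, T ∈ rationalFn A M ∧ T ∈ GR A M ∧ BT A M s (T * b) ∧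
      (∃ u : kA A, u ≠ 0 ∧ Val R (red A M T) u) ∧
      ∀ P : PB M, rP C P = R → ∃ c : A, A.valuation (c : Qb) = 1 ∧ Val P T (c : Qb) := by
  cases s with
  | false =>
    refine ⟨1, one_mem _, one_mem _, by rwa [one_mul], ⟨1, one_ne_zero, ?_⟩,
      fun P _ => ⟨(1 : A), ?_, ?_⟩⟩
    · rw [red_one C]; exact Val.one
    · rw [OneMemClass.coe_one, map_one]
    · rw [OneMemClass.coe_one]; exact Val.one
  | true =>
    obtain ⟨m, hm⟩ := exists_pow_mul_BT C (s := true) (b := b) hb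
    obtain ⟨v, hv⟩ := val_exists_S C hR
    obtain ⟨v', hv'⟩ := val_exists_S C hf
    have hv0 : v ≠ 0 := fun h0 => by
      have h1 := hv'.mul hv
      rw [show tS A M false * tS A M true = 1 from mul_inv_cancel₀ (tS_ne_zero A M false), h0,
        mul_zero] at h1
      exact one_ne_zero (Val.one.unique h1)
    refine ⟨tB M true ^ m, pow_mem (SS2.tB_mem_rationalFn A M _) m, pow_mem (tB_mem true) m, hm,
      ⟨v ^ m, pow_ne_zero _ hv0, ?_⟩, fun P hP => ?_⟩
    · rw [red_pow C (tB_mem true), red_tB C]; exact hv.pow m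
    · obtain ⟨c, hc, hcr⟩ := SS2.PV.exists_val_chart C hP hR (BT_tB (A := A) (N := M) true)
      rw [red_tB C] at hcr
      refine ⟨c ^ m, ?_, ?_⟩
      · push_cast
        rw [map_pow, (res_ne_zero_iff A c).mp fun h => hv0 ((hv.unique hcr).trans h), one_pow]
      · push_cast
        exact hc.pow m

/-- the value of an iterate of Frobenius at a point -/
theorem val_frIt {g : FS A M} {c : kA A} : ∀ (n : ℕ) {Q : PS A M},
    Val (crossR C Q n) g c → Val Q (frIt C n g) c
  | 0, Q, h => by rwa [crossR_zero] at h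
  | n + 1, Q, h => by
    show Val Q (SS.Fr C (frIt C n g)) c
    refine SS2.PV.val_Fr C (val_frIt n ?_)
    rwa [crossR, smul_smul, ← pow_succ]

theorem frIt_ne_zero (n : ℕ) {g : FS A M} (h : g ≠ 0) : frIt C n g ≠ 0 :=
  (_root_.map_ne_zero (frIt C n)).mpr h

omit C in
theorem nE_parity {k i l : ℕ} (hi : i ≤ k) (hl : l ≤ k) : (nE k i l + nE k i 0) % 2 = l % 2 := by
  simp only [nE]
  rcases le_total i (k - i) with h | h <;> rcases le_total i l with h' | h' <;>
    simp only [max_eq_left, max_eq_right, min_eq_left, min_eq_right, h, h', Nat.zero_le] <;>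
    omega

theorem crossPt_eq (k i : ℕ) (Q : PS A M) : crossPt C k i Q = crossR C Q (nE k i 0) := rfl

/-- every branch sees the node `l` at a crossing at the same point -/
theorem val_nd_crossPt {Q : PS A M} (hfix : frobS C • frobS C • Q = Q) {k l : ℕ} (hl : l ≤ k)
    (i : Fin (k + 1)) {g : FS A M} {c : kA A} (h : Val (crossR C Q l) g c) :
    Val (crossPt C k i Q) (frIt C (nE k i l) g) c := by
  refine val_frIt C _ ?_
  rw [crossPt_eq, show crossR C (crossR C Q (nE k i 0)) (nE k i l) =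
    crossR C Q (nE k i l + nE k i 0) by simp only [crossR, smul_smul, ← pow_add]]
  rwa [crossR_mod_two C hfix, nE_parity (Nat.lt_succ_iff.mp i.2) hl, ← crossR_mod_two C hfix]

variable (k : ℕ) in
/-- what the crossing over `Q` needs: a uniformiser `x` at the places over it, a function `z`
measuring them, and their properties -/
structure CrossData (s : Bool) (Q : PS A M) where
  /-- a uniformiser at all places over the crossing -/
  x : FB (lev M q k)
  /-- a function of least positive valuation there -/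
  z : FB (lev M q k)
  /-- the places over the crossing -/
  S : Finset (PB (lev M q k))
  /-- one of them -/
  P₀ : PB (lev M q k)
  P₀_mem : P₀ ∈ S
  x_mem : x ∈ (model C k).R s
  z_mem : z ∈ (model C k).R s
  x_val : ∀ b : Fin (k + 1), Val (crossPt C k b Q) ((model C k).red b x) 0
  x_ne : ∀ b : Fin (k + 1), (model C k).red b x ≠ 0
  z_val : ∀ b : Fin (k + 1), Val (crossPt C k b Q) ((model C k).red b z) 0
  chart : ∀ P ∈ S, InChart s (P.ord (model C k).J)
  ord_one : ∀ P ∈ S, P.ord x = 1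
  other : ∀ P : Place Qb (FB (lev M q k)), InChart s (P.ord (model C k).J) → 0 < P.ord x → P ∉ S →
    ∃ e ∈ (model C k).R s,
      (∀ b : Fin (k + 1), ¬ Val (crossPt C k b Q) ((model C k).red b e) 0) ∧ Val P e 0
  spread : ∀ f ∈ rationalFn A (lev M q k), ∀ P ∈ S, Val P f 0 → ∀ P' ∈ S, Val P' f 0
  comparable : ∀ f ∈ rationalFn A (lev M q k), ∀ g ∈ rationalFn A (lev M q k),
    (∀ P ∈ S, Bd P f 0) → (∀ P ∈ S, Bd P g 0) → ∃ (d : ℕ) (c : ℕ → Qb),
      (∀ j, c j ∈ (model C k).T ∧ c j ∈ A) ∧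
      ((∀ P ∈ S, Val P (f - (∑ j ∈ Finset.range d,
          algebraMap Qb (FB (lev M q k)) (c j) * z ^ j) * g) 0) ∨
       (∀ P ∈ S, Val P (g - (∑ j ∈ Finset.range d,
          algebraMap Qb (FB (lev M q k)) (c j) * z ^ j) * f) 0))

/-- the data at a crossing -/
theorem exists_crossData {k : ℕ} (hk : 1 ≤ k) {s : Bool} {Q : PS A M} (hK : KronChart C false)
    (D : CrossLifts C false Q) (hQs : Bd Q (tS A M s) 0) : Nonempty (CrossData C k s Q) := by
  classical
  haveI : HasPrincipalDivisors Qb (FB (lev M q k)) := RR.hasPrincipalDivisors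
  obtain ⟨y, hy0, hy⟩ := exists_node_unifs C D
  obtain ⟨P0, hP0, hord, huniq, hfix⟩ := D.exists_base
  have hi0 : (nd M q k 0).toRingHom.IsIntegral := HeckeJ.isIntegralAlong _
  set S := Place.fiberAlong (nd M q k 0) hi0 P0 with hS
  have hmem : ∀ P, P ∈ S ↔ P.restrictAlong (nd M q k 0) hi0 = P0 := fun P => Place.mem_fiberAlong
  set d := q ^ (k - 1) * (q + 1) with hd
  have hdpos : 0 < d := Nat.mul_pos (pow_pos C.prime.pos _) (Nat.succ_pos q)
  have hsum := SS2.PV.sum_ramification (nd M q k 0) hi0 P0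
  rw [finrankAlong_nd_zero C hk, ← hd] at hsum
  have ha : Val P0 D.a 0 := val_zero_of_ord_pos (by rw [hord]; exact one_pos)
  have hrP : ∀ P ∈ S, rP C (P.restrictAlong (nd M q k 0) hi0) = Q :=
    fun P hP => ((hmem P).mp hP).symm ▸ hP0
  have hnode : ∀ P ∈ S, ∀ l ≤ k, ∀ h : (nd M q k l).toRingHom.IsIntegral,
      rP C (P.restrictAlong (nd M q k l) h) = crossR C Q l :=
    fun P hP => rP_node C hK hi0 (hrP P hP) D.fin D.fixed
  have hi : ∀ l, (nd M q k l).toRingHom.IsIntegral := fun l => HeckeJ.isIntegralAlong _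
  -- the measuring function
  obtain ⟨Tz, hTzr, hTzG, hTzb, ⟨uz, -, huz⟩, hTzP⟩ := exists_chart_factor C
    (fin_crossR C hQs k) (fin_crossR C D.fin k) (hy (k - 1)).1
  set z := nd M q k k (Tz * y (k - 1)) with hzdef
  have hzrat : z ∈ rationalFn A (lev M q k) :=
    nd_rational k (mul_mem hTzr (hy (k - 1)).2.1)
  have hZ : ∀ P ∈ S, ∃ Z : A, Val P z (Z : Qb) ∧
      A.valuation (Z : Qb) ^ d = A.valuation (q : Qb) := by
    intro P hP
    have e := (hmem P).mp hP
    obtain ⟨Y, hY, hYv, -⟩ := valuations_nd C hK hi0 (hrP P hP) (e.symm ▸ hfix)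
      (e.symm ▸ ha) hy0 hy (k - 1) (by omega)
    rw [show k - 1 + 1 = k by omega] at hY
    obtain ⟨c, hc1, hc⟩ := hTzP _ (hnode P hP k le_rfl (hi k))
    refine ⟨c * Y, ?_, ?_⟩
    · rw [hzdef, map_mul]
      push_cast
      exact ((SS2.PV.val_restrict_iff _ _).mp hc).mul hY
    · push_cast
      rw [map_mul, hc1, one_mul, hYv]
  have hsmul : ∀ P ∈ S, ∀ σ ∈ A.inertiaSubgroupIn ℚ, galFn (lev M q k) σ • P ∈ S := by
    intro P hP σ hσ
    rw [hmem, HeckeJ.restrictAlong_smul (nd M q k 0) hi0 (g := galFn M σ)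
      (fun x => gal_nd C (Nat.zero_le k) σ x), (hmem P).mp hP, hfix σ hσ]
  -- the indices of ramification
  have he1 : ∀ P ∈ S, (1 : ℤ) ≤ Place.ramificationIndexAlong (nd M q k 0) P := fun P _ => by
    letI := algebraAlong (nd M q k 0)
    haveI := isIntegral_along (nd M q k 0) hi0
    exact_mod_cast P.ramificationIndex_pos (F := FB M)
  have hcard : (S.card : ℤ) ≤ d := by
    rw [← hsum, ← hS, Finset.card_eq_sum_ones, Nat.cast_sum, Nat.cast_one]
    exact Finset.sum_le_sum he1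
  have hne : S.Nonempty := by
    by_contra h
    rw [Finset.not_nonempty_iff_eq_empty] at h
    rw [← hS, h, Finset.sum_empty] at hsum
    omega
  obtain ⟨Pb, hPb⟩ := hne
  obtain ⟨hcardS, -, horb⟩ := SS2.PV.orbit_full C.prime C.lies hdpos (by exact_mod_cast hcard) hsmul
    hzrat hZ ⟨Pb, hPb⟩
  have heq : ∀ P ∈ S, (Place.ramificationIndexAlong (nd M q k 0) P : ℤ) = 1 := by
    have h : ∑ P ∈ S, (1 : ℤ) = ∑ P ∈ S, (Place.ramificationIndexAlong (nd M q k 0) P : ℤ) := by
      rw [hS, hsum, ← hS, Finset.sum_const, hcardS, nsmul_eq_mul, mul_one]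
    exact fun P hP => ((Finset.sum_eq_sum_iff_of_le he1).mp h P hP).symm
  -- the uniformiser
  obtain ⟨Tx, hTxr, hTxG, hTxb, ⟨ux, hux0, hux⟩, hTxP⟩ := exists_chart_factor C hQs D.fin D.bt_a
  set a' := Tx * D.a with ha'def
  have hared : red A M a' = red A M Tx * red A M D.a := red_mul C hTxG (BT.mem_GR C D.bt_a)
  have haQ : Q.ord (red A M a') = 1 := by
    obtain ⟨h1, h2⟩ := hux.ord_eq_zero hux0
    rw [hared, Q.ord_mul h1 D.UG_a.2, h2, D.ord_a, zero_add]
  have hunit : ∀ P : PB M, rP C P = Q → P.ord a' = P.ord D.a := fun P hP => by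
    obtain ⟨c, hc1, hc⟩ := hTxP P hP
    obtain ⟨h1, h2⟩ := hc.ord_eq_zero fun h => zero_ne_one (by rwa [h, map_zero] at hc1)
    rw [ha'def, P.ord_mul h1 (D.UG_a.ne_zero C), h2, zero_add]
  obtain ⟨hxR, hxred⟩ := nd_mem_R (C := C) (k := k) hTxb (mul_mem hTxr D.rat_a) (Nat.zero_le k)
  obtain ⟨hzR, hzred⟩ := nd_mem_R (C := C) (k := k) hTzb (mul_mem hTzr (hy (k - 1)).2.1) le_rfl
  refine ⟨{ x := nd M q k 0 a', z := z, S := S, P₀ := Pb, P₀_mem := hPb, x_mem := hxR, z_mem := hzR,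
            x_val := fun b => ?_, x_ne := fun b => ?_, z_val := fun b => ?_, chart := fun P hP => ?_,
            ord_one := fun P hP => ?_, other := fun P hP hpos hPS => ?_, spread := ?_,
            comparable := fun f hf g hg hfb hgb => ?_ }⟩
  · rw [hxred]
    refine val_nd_crossPt C D.fixed (Nat.zero_le k) b ?_
    rw [crossR_zero]
    exact val_zero_of_ord_pos (by rw [haQ]; exact one_pos)
  · rw [hxred]
    exact frIt_ne_zero C _ fun h => by rw [h, Place.ord_zero] at haQ; omega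
  · rw [hzred]
    refine val_nd_crossPt C D.fixed le_rfl b ?_
    rw [red_mul C hTzG (BT.mem_GR C (hy (k - 1)).1)]
    have ho := (hy (k - 1)).2.2.1
    rw [show k - 1 + 1 = k by omega] at ho
    simpa using huz.mul (val_zero_of_ord_pos (by rw [ho]; exact one_pos))
  · refine inChart_of_bd C fun l hl => ?_
    obtain ⟨c, hc, -⟩ := SS2.PV.exists_val_chart C (hnode P hP l hl (hi l)) (fin_crossR C hQs l)
      (BT_tB (A := A) (N := M) s)
    exact ((SS2.PV.val_restrict_iff _ _).mp hc).bd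
  · rw [P.ord_restrictAlong (nd M q k 0) hi0, (hmem P).mp hP, hunit P0 hP0, hord, heq P hP,
      one_mul]
  · set P' := P.restrictAlong (nd M q k 0) hi0
    have hne : P' ≠ P0 := fun h => hPS ((hmem P).mpr h)
    have hrP' : rP C P' ≠ Q := fun h => by
      rw [P.ord_restrictAlong (nd M q k 0) hi0, hunit P' h, huniq P' h hne, mul_zero] at hpos
      exact lt_irrefl _ hpos
    obtain ⟨e, he, her, ⟨v, hv0, hv⟩, heP⟩ := SS2.PV.exists_rational_kill C hQs
      ((SS2.PV.bd_restrict_iff _ hi0 0 (Or.inl rfl)).mpr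
        (bd_nd_of_inChart C hP (Nat.zero_le k))) hrP'
    obtain ⟨heR, hered⟩ := nd_mem_R (C := C) (k := k) he her (Nat.zero_le k)
    refine ⟨nd M q k 0 e, heR, fun b h => ?_, (SS2.PV.val_restrict_iff _ hi0).mp heP⟩
    rw [hered] at h
    exact hv0 ((val_nd_crossPt C D.fixed (Nat.zero_le k) b (by rwa [crossR_zero])).unique h)
  · intro f hf P hP h P' hP'
    obtain ⟨σ, hσ, rfl⟩ := horb P hP P' hP'
    have h1 := Flat.val_gal σ h
    rwa [show Flat.gal (lev M q k) σ • f = f from hf σ hσ, map_zero] at h1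
  · obtain ⟨c, hc, h⟩ := exists_comparable C.prime C.lies hdpos hcardS.le hsmul hzrat hZ hPb hf hg
      hfb hgb
    exact ⟨d, c, hc, h⟩

end FLTAgent.CUBE

end
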