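import Fermat.Agent.CUBE.NotUnipotent
import Fermat.Agent.LL.ToLevelTwo

/-!
The level of a newform attached to a semistable curve is cube-free.
-/

set_option autoImplicit false
set_option linter.style.haveILetI false

noncomputable section

namespace FLTAgent.CUBE

open IsLocalRing Polynomial ModularFormClass

/-- the level of a newform attached to a semistable curve is cube-free -/
theorem cubeFree : LL.CubeFree := by
  intro W M hM g S hg hΔ hss hS q hq hd
  haveI : NeZero q := ⟨hq.ne_zero⟩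
  obtain ⟨e, M0, hqM0, hM0⟩ := Nat.exists_eq_pow_mul_and_not_dvd (NeZero.ne M) q hq.ne_one
  have he : 3 ≤ e := by
    by_contra hlt
    rw [hM0] at hd
    have h1 : q ^ (e + 1) ∣ q ^ e * M0 := (pow_dvd_pow q (by omega)).trans hd
    rw [pow_succ] at h1
    exact hqM0 ((Nat.mul_dvd_mul_iff_left (pow_pos hq.pos e)).1 h1)
  obtain ⟨j, rfl⟩ : ∃ j, e = j + 1 := ⟨e - 1, by omega⟩
  have hj : 2 ≤ j := by omega
  obtain rfl : M = lev M0 q (j + 1) := by rw [hM0, lev_eq, mul_comm]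
  haveI : NeZero M0 := ⟨fun h => hqM0 (h ▸ dvd_zero q)⟩
  obtain ⟨χ, hχ⟩ := Attach.exists_eigenCharacter hg.1
  obtain ⟨r, hrB, hr⟩ := Nat.exists_infinite_primes (q + 3)
  have hqr : q ≠ r := by omega
  obtain ⟨O, iC, iD, iV, iA, iF, iZ, hrO, f, hf⟩ := S58.exists_point (S58.chiC χ) hr
  obtain ⟨D⟩ := Attach.exists_heckeLattice (lev M0 q (j + 1))
  obtain ⟨ρ, hρ, -⟩ := Attach.exists_galoisRepAdic hr hrO D (Attach.galoisInputs _) f
  refine not_unipotentK hq hqM0 hj hr hqr hrO hg χ hχ f (fun t ht => Subtype.ext ((hf t).1 ht)) ρ {r}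
    (fun ℓ hℓ hℓN hℓS => hρ ℓ hℓ hℓN fun h => hℓS (Finset.mem_singleton.2 h)) ?_
  intro A hA σ hσ
  exact S58.charpoly_inertia hΔ hr (by omega) hrO (S58.frobMatches χ hχ S hS f hf ρ hρ) hq
    (hss q hq) hqr hA hσ

end FLTAgent.CUBE

end
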