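import Fermat.Agent.CUBE.Roots

/-!
The `k + 1` expansions of the function field of `X₀(Mqᵏ)`, given on the nodes, and the Atkin–Lehner
involution at `q`.

The branch `i` has its peak at the node `i`: the node `l` has exponent `max i (k - i) - |i - l|`.
-/

set_option autoImplicit false
set_option linter.unusedSectionVars false
set_option synthInstance.maxHeartbeats 100000
set_option maxHeartbeats 1000000

noncomputable section

open ModularCurve AlgebraicCurve
open FLTAgent.Reduction (Qb FB Ctx)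
open FLTAgent.SS2 (PR LS rationalFn BddGen galFn qExpA twistA valA cRoot cRootU Expands jser jser_congr)
open FLTAgent.ModFun (embC jFun jdM scale aff)
open UpperHalfPlane hiding J I
open scoped MatrixGroups Real

namespace FLTAgent.CUBE

/-- the exponent of the node `l` on the branch `i` -/
def nE (k i l : ℕ) : ℕ := max i (k - i) - (max i l - min i l)

/-- the twist of the node `l` on the branch `i` -/
def nodeU (q i l : ℕ) (u : Qbˣ) : Qbˣ := if i ≤ l then 1 else u ^ (q ^ l)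

variable {A : ValuationSubring Qb} {M q : ℕ} [NeZero M] [NeZero q]

theorem nd_gen {k l : ℕ} (hl : l ≤ k) (d : M.divisors) (d₁ : (lev M q k).divisors)
    (h : (d₁ : ℕ) = d * q ^ l) :
    nd M q k l (Genus.gen M d) = Genus.gen (lev M q k) d₁ := by
  haveI : NeZero (q ^ l * (d : ℕ)) := ⟨mul_ne_zero (NeZero.ne _) (NeZero.ne _)⟩
  refine Subtype.ext ?_
  rw [coe_nd hl, SS2.coe_gen_M, SS2.qExpand_jser, SS2.coe_gen_N]
  exact jser_congr (by rw [h, mul_comm])

theorem lev_dvd_cases (hq : q.Prime) {k d : ℕ} (hd : d ∣ lev M q k) :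
    ∃ d', d' ∣ M ∧ ∃ l ≤ k, d = d' * q ^ l := by
  rw [lev_eq] at hd
  obtain ⟨a, b, ha, hb, rfl⟩ := Nat.dvd_mul.mp hd
  obtain ⟨l, hl, rfl⟩ := (Nat.dvd_prime_pow hq).mp hb
  exact ⟨a, ha, l, hl, rfl⟩

/-- every generator comes from a node -/
theorem gen_cases_nd (hq : q.Prime) {k : ℕ} (d : (lev M q k).divisors) :
    ∃ l ≤ k, ∃ d' : M.divisors, Genus.gen (lev M q k) d = nd M q k l (Genus.gen M d') := by
  obtain ⟨d', hd', l, hl, h⟩ := lev_dvd_cases (M := M) hq (Nat.dvd_of_mem_divisors d.2)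
  exact ⟨l, hl, ⟨d', Nat.mem_divisors.mpr ⟨hd', NeZero.ne M⟩⟩, (nd_gen hl _ d h).symm⟩

/-- homomorphisms out of level `M qᵏ` are determined on the nodes -/
theorem algHom_ext_nd (hq : q.Prime) {k : ℕ} {L : Type*} [Field L] [Algebra Qb L]
    {f g : FB (lev M q k) →ₐ[Qb] L} (h : ∀ l ≤ k, ∀ a, f (nd M q k l a) = g (nd M q k l a)) :
    f = g := by
  refine Genus.algHom_ext fun d => ?_
  obtain ⟨l, hl, d', e⟩ := gen_cases_nd hq d
  rw [e]
  exact h l hl _

theorem ringHom_ext_nd (hq : q.Prime) {k : ℕ} {L : Type*} [Field L]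
    {f g : FB (lev M q k) →+* L}
    (hc : ∀ c, f (algebraMap Qb _ c) = g (algebraMap Qb _ c))
    (h : ∀ l ≤ k, ∀ a, f (nd M q k l a) = g (nd M q k l a)) : f = g := by
  refine SS2.ringHom_ext_gen hc fun d => ?_
  obtain ⟨l, hl, d', e⟩ := gen_cases_nd hq d
  rw [e]
  exact h l hl _

theorem galFn_smul_nd {k l : ℕ} (hl : l ≤ k) (σ : Qb ≃ₐ[ℚ] Qb) (a : FB M) :
    galFn (lev M q k) σ • nd M q k l a = nd M q k l (galFn M σ • a) :=
  Subtype.ext (by
    rw [coe_arithmeticGalois_smul, coe_nd hl, coe_nd hl, coe_arithmeticGalois_smul,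
      ModFun.coeffMap_qExpand])

/-- twisting after `q ↦ qⁿ` -/
theorem twist_qExpand_eq (u : Qbˣ) (n : ℕ) [NeZero n] (y : LS) :
    Reduction.twist u (qExpand Qb n y) = qExpand Qb n (Reduction.twist (u ^ n) y) := by
  ext t
  rw [Reduction.twist_coeff]
  by_cases ht : (n : ℤ) ∣ t
  · obtain ⟨j, rfl⟩ := ht
    rw [qExpand_coeff_mul, qExpand_coeff_mul, Reduction.twist_coeff, zpow_mul, zpow_natCast]
  · rw [qExpand_coeff_of_not_dvd n _ ht, qExpand_coeff_of_not_dvd n _ ht, mul_zero]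

theorem twist_twist_mul {R : Type*} [CommRing R] (u v : Rˣ) (y : LaurentSeries R) :
    Reduction.twist u (Reduction.twist v y) = Reduction.twist (u * v) y := by
  ext t
  rw [Reduction.twist_coeff, Reduction.twist_coeff, Reduction.twist_coeff, mul_zpow, Units.val_mul,
    mul_assoc]

theorem pow_root_eq_one {i l : ℕ} (h : i ≤ l) (θ : PR (q ^ i)) : θ.u ^ q ^ l = 1 := by
  obtain ⟨c, rfl⟩ := Nat.exists_eq_add_of_le h
  rw [pow_add, pow_mul, θ.u_pow, one_pow]

theorem nodeU_root {i l : ℕ} (θ : PR (q ^ i)) : nodeU q i l θ.u = θ.u ^ q ^ l := by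
  rw [nodeU]
  split_ifs with h
  · exact (pow_root_eq_one h θ).symm
  · rfl

variable (C : Ctx A M q)
include C

theorem exists_eB (k : ℕ) (i : Fin (k + 1)) (θ : PR (q ^ (i : ℕ))) :
    ∃ e : FB (lev M q k) →ₐ[Qb] LS, ∀ l ≤ k, ∀ a : FB M,
      e (nd M q k l a) =
        qExpand Qb (q ^ nE k i l) (Reduction.twist (nodeU q i l θ.u) (a : LS)) := by
  obtain ⟨i, hi⟩ := i
  have hik : i ≤ k := Nat.lt_succ_iff.mp hi
  change PR (q ^ i) at θ
  show ∃ e : FB (lev M q k) →ₐ[Qb] LS, ∀ l ≤ k, ∀ a : FB M,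
      e (nd M q k l a) = qExpand Qb (q ^ nE k i l) (Reduction.twist (nodeU q i l θ.u) (a : LS))
  have hq := C.prime
  obtain ⟨e, -, hec, he⟩ := (Complex.isPrimitiveRoot_iff _ (q ^ i) (NeZero.ne _)).mp
    (θ.prim.map_of_injective embC.injective)
  set X : ℤ := if i < k then 1 else 1 + (M : ℤ) * e with hX
  set δ : ℤ := X * (q : ℤ) ^ (k - i) - M * e with hδ
  have hcop : IsCoprime δ ((M : ℤ) * (q : ℤ) ^ i) := by
    rcases lt_or_ge i k with hlt | hge
    · have hδ' : δ = (q : ℤ) ^ (k - i) - M * e := by rw [hδ, hX, if_pos hlt, one_mul]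
      have hq' : Prime (q : ℤ) := Nat.prime_iff_prime_int.mp hq
      refine IsCoprime.mul_right ?_ ?_
      · obtain ⟨u, v, huv⟩ : IsCoprime ((q : ℤ) ^ (k - i)) (M : ℤ) := IsCoprime.pow_left
          (Nat.isCoprime_iff_coprime.mpr (hq.coprime_iff_not_dvd.mpr C.not_dvd))
        exact ⟨u, v + u * e, by rw [hδ']; linear_combination huv⟩
      · rcases Nat.eq_zero_or_pos i with h0 | h0
        · rw [h0, pow_zero]; exact isCoprime_one_right
        refine IsCoprime.pow_right ((Prime.coprime_iff_not_dvd hq').mpr fun h => ?_).symm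
        have h1 : (q : ℤ) ∣ (q : ℤ) ^ (k - i) := dvd_pow_self _ (by omega)
        have h2 : (q : ℤ) ∣ (M : ℤ) * e := by
          have := dvd_sub h1 h
          rwa [hδ', sub_sub_cancel] at this
        rcases hq'.dvd_mul.mp h2 with h3 | h3
        · exact C.not_dvd (Int.natCast_dvd_natCast.mp h3)
        · exact hq.one_lt.ne' (Nat.eq_one_of_dvd_coprimes hec (Int.natCast_dvd_natCast.mp h3)
            (dvd_pow_self q (by omega)))
    · rw [show δ = 1 by
        rw [hδ, hX, if_neg (by omega), show k - i = 0 by omega, pow_zero]; ring]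
      exact isCoprime_one_left
  obtain ⟨a, b, hab⟩ := hcop
  let γ : SL(2, ℤ) := ⟨!![a, -b; (M : ℤ) * (q : ℤ) ^ i, δ], by
    simp [Matrix.det_fin_two]; linear_combination hab⟩
  set m := max i (k - i) with hm
  set σ : ℍ → ℍ := fun τ => γ • aff (q ^ m) e (q ^ i) τ with hσ
  have hsurj : Function.Surjective σ := fun z => by
    obtain ⟨τ, hτ⟩ := SS2.surjective_aff (q ^ m) e (q ^ i) (γ⁻¹ • z)
    exact ⟨τ, by show γ • aff (q ^ m) e (q ^ i) τ = z; rw [hτ, smul_inv_smul]⟩
  have hroot : ∀ l, Units.map (embC : Qb →* ℂ) (θ.u ^ q ^ l) =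
      cRootU (q ^ i) ((e : ℤ) * (q : ℤ) ^ l) := by
    intro l
    refine Units.ext ?_
    rw [map_pow, Units.val_pow_eq_pow_val]
    show embC (θ : Qb) ^ q ^ l = cRoot (q ^ i) ((e : ℤ) * (q : ℤ) ^ l)
    rw [← he, cRoot, ← Complex.exp_nat_mul]
    congr 1
    push_cast
    ring
  have hk : ∀ (d : ℕ) [NeZero d] (l : ℕ) [NeZero (d * q ^ l)], d ∣ M → l ≤ k →
      Expands σ (d * q ^ l)
        (qExpand Qb (q ^ nE k i l) (Reduction.twist (nodeU q i l θ.u) (jser d))) := by
    intro d _ l _ hdM hlk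
    obtain ⟨e', he'⟩ := hdM
    have he'' : (M : ℤ) = d * e' := by exact_mod_cast he'
    rcases lt_or_ge l i with hli | hli
    · refine ⟨⟨ModFun.dil (q ^ nE k i l)
        ((SS2.shiftM (q ^ i) ((e : ℤ) * (q : ℤ) ^ l) (jdM d) : ModFun.M1) : ℍ → ℂ),
        ModFun.mod1_dil (SS2.shiftM (q ^ i) ((e : ℤ) * (q : ℤ) ^ l) (jdM d)).2 _⟩, ?_, fun τ => ?_⟩
      · rw [ModFun.coeffMap_qExpand, Reduction.coeffMap_twist, SS2.coeffMap_jser, nodeU,
          if_neg (by omega), hroot, ModFun.lx_dil, SS2.lx_shiftM]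
      · have hmem : γ ∈ CongruenceSubgroup.Gamma0 (d * q ^ l) := by
          rw [CongruenceSubgroup.Gamma0_mem, ZMod.intCast_zmod_eq_zero_iff_dvd]
          show ((d * q ^ l : ℕ) : ℤ) ∣ (M : ℤ) * (q : ℤ) ^ i
          push_cast
          exact mul_dvd_mul (he'' ▸ dvd_mul_right _ _) (pow_dvd_pow _ hli.le)
        obtain ⟨γ', h⟩ := ModFun.scale_smul_Gamma0 (d * q ^ l) hmem (aff (q ^ m) e (q ^ i) τ)
        rw [hσ, h, ModFun.jFun_smul]
        show jFun _ = jFun (scale d (aff (q ^ i) ((e : ℤ) * (q : ℤ) ^ l) (q ^ i)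
          (scale (q ^ nE k i l) τ)))
        congr 1
        ext
        simp only [ModFun.coe_aff, ModFun.coe_scale]
        have hpow : (q : ℂ) ^ l * (q : ℂ) ^ m = (q : ℂ) ^ i * (q : ℂ) ^ nE k i l := by
          rw [← pow_add, ← pow_add]
          congr 1
          rw [nE]
          omega
        have hqi : ((q : ℂ) ^ i) ≠ 0 := pow_ne_zero _ (Nat.cast_ne_zero.mpr (NeZero.ne q))
        push_cast
        field_simp
        linear_combination ((d : ℂ) * (τ : ℂ)) * hpow
    · haveI : NeZero (q ^ nE k i l * d) := ⟨mul_ne_zero (NeZero.ne _) (NeZero.ne _)⟩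
      refine ⟨jdM (q ^ nE k i l * d), ?_, fun τ => ?_⟩
      · rw [nodeU, if_pos hli, Reduction.twist_one_apply, SS2.qExpand_jser, SS2.coeffMap_jser]
      · have hXk : (q : ℤ) ^ (k - l) * (q : ℤ) ^ (l - i) = (q : ℤ) ^ (k - i) := by
          rw [← pow_add]; congr 1; omega
        have hli' : (q : ℤ) ^ (l - i) * (q : ℤ) ^ i = (q : ℤ) ^ l := by
          rw [← pow_add, Nat.sub_add_cancel hli]
        let γ' : SL(2, ℤ) := ⟨!![(q : ℤ) ^ (l - i) * a, (d : ℤ) * (-((q : ℤ) ^ i * b) + a * e);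
            (e' : ℤ), X * (q : ℤ) ^ (k - l)], by
          simp [Matrix.det_fin_two]
          linear_combination hab + (a * X) * hXk + ((q : ℤ) ^ i * b - a * e) * (-he'') - a * hδ⟩
        haveI : NeZero (d * q ^ i) := ⟨mul_ne_zero (NeZero.ne _) (NeZero.ne _)⟩
        have h := (ModFun.scale_smul_eq (d * q ^ l) γ γ' (d * q ^ i) (-((d : ℤ) * e)) (q ^ (l - i))
          (by simp [γ, γ']; linear_combination (-(a * d)) * hli')
          (by simp [γ, γ']; linear_combination ((b : ℤ) * d) * hli')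
          (by simp [γ, γ']; linear_combination (q : ℤ) ^ i * he'')
          (by simp [γ, γ', hδ]; linear_combination (-(e : ℤ)) * he'' - X * hXk)
          (aff (q ^ m) e (q ^ i) τ)).1
        rw [hσ, h, ModFun.jFun_smul]
        show jFun _ = jFun (scale (q ^ nE k i l * d) τ)
        congr 1
        ext
        simp only [ModFun.coe_aff, ModFun.coe_scale]
        have hpow : (q : ℂ) ^ nE k i l * (q : ℂ) ^ (l - i) = (q : ℂ) ^ m := by
          rw [← pow_add]
          congr 1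
          rw [nE]
          omega
        have hq0 : (q : ℂ) ≠ 0 := Nat.cast_ne_zero.mpr (NeZero.ne q)
        have hqi : ((q : ℂ) ^ i) ≠ 0 := pow_ne_zero _ hq0
        have hqli : ((q : ℂ) ^ (l - i)) ≠ 0 := pow_ne_zero _ hq0
        push_cast
        field_simp
        linear_combination (-((d : ℂ) * (τ : ℂ))) * hpow
  obtain ⟨f, hf⟩ := SS2.exists_algHom_sub (lev M q k) σ hsurj fun d => by
    obtain ⟨d', hd', l, hl, h⟩ := lev_dvd_cases (M := M) hq (Nat.dvd_of_mem_divisors d.2)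
    haveI : NeZero d' := ⟨ne_zero_of_dvd_ne_zero (NeZero.ne M) hd'⟩
    haveI : NeZero (d' * q ^ l) := ⟨mul_ne_zero (NeZero.ne _) (NeZero.ne _)⟩
    exact ⟨_, (hk d' l hd' hl).congr h.symm⟩
  refine ⟨f, fun l hl a => ?_⟩
  have key : f.comp (nd M q k l) =
      (qExpA (q ^ nE k i l)).comp ((twistA (nodeU q i l θ.u)).comp (valA M)) := by
    refine Genus.algHom_ext fun d' => ?_
    have hd1 : (d' : ℕ) * q ^ l ∈ (lev M q k).divisors := by
      refine Nat.mem_divisors.mpr ⟨?_, NeZero.ne _⟩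
      rw [lev_eq]
      exact mul_dvd_mul (Nat.dvd_of_mem_divisors d'.2) (pow_dvd_pow q hl)
    let d₁ : (lev M q k).divisors := ⟨_, hd1⟩
    haveI : NeZero ((d' : ℕ) * q ^ l) := ⟨mul_ne_zero (NeZero.ne _) (NeZero.ne _)⟩
    rw [AlgHom.comp_apply, nd_gen hl d' d₁ rfl]
    simp only [AlgHom.comp_apply, SS2.qExpA_apply, SS2.twistA_apply, SS2.valA_apply, SS2.coe_gen_M]
    exact (Expands.congr rfl (hf d₁)).unique (hk (d' : ℕ) l (Nat.dvd_of_mem_divisors d'.2) hl)
  exact DFunLike.congr_fun key a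

/-- the expansion of the branch `i`, for a choice of root -/
def eB (k : ℕ) (i : Fin (k + 1)) (θ : PR (q ^ (i : ℕ))) : FB (lev M q k) →ₐ[Qb] LS :=
  (exists_eB C k i θ).choose

theorem eB_nd {k : ℕ} (i : Fin (k + 1)) (θ : PR (q ^ (i : ℕ))) {l : ℕ} (hl : l ≤ k) (a : FB M) :
    eB C k i θ (nd M q k l a) =
      qExpand Qb (q ^ nE k i l) (Reduction.twist (nodeU q i l θ.u) (a : LS)) :=
  (exists_eB C k i θ).choose_spec l hl a

theorem eB_nd' {k : ℕ} (i : Fin (k + 1)) (θ : PR (q ^ (i : ℕ))) {l : ℕ} (hl : l ≤ k) (a : FB M) :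
    eB C k i θ (nd M q k l a) =
      qExpand Qb (q ^ nE k i l) (Reduction.twist (θ.u ^ q ^ l) (a : LS)) := by
  rw [eB_nd C i θ hl, nodeU_root]

theorem bddGen_eB' {k : ℕ} (i : Fin (k + 1)) (θ : PR (q ^ (i : ℕ))) :
    BddGen A (eB C k i θ) := fun d => by
  obtain ⟨u, hu, -⟩ := exists_unit_root' C θ
  obtain ⟨l, hl, d', h⟩ := gen_cases_nd C.prime d
  rw [h, eB_nd' C i θ hl, SS2.coe_gen_M, ← hu, ← map_pow]
  exact ((SS2.bdd_jser A _).twist_bdd _).qExpand_bdd _

theorem coeffMap_eB {k : ℕ} (i : Fin (k + 1)) (σ : Qb ≃ₐ[ℚ] Qb) (θ : PR (q ^ (i : ℕ)))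
    (x : FB (lev M q k)) :
    coeffMap (σ : Qb →+* Qb) (eB C k i θ x) =
      eB C k i (SS2.PR.map σ θ) (galFn (lev M q k) σ • x) := by
  let g := galFn (lev M q k) σ
  have hu : ∀ n : ℕ, Units.map ((σ : Qb →+* Qb) : Qb →* Qb) (θ.u ^ n) =
      (SS2.PR.map σ θ).u ^ n := fun n => by
    rw [map_pow]; exact congrArg (· ^ n) (Units.ext rfl)
  have key : (coeffMap (σ : Qb →+* Qb)).comp (eB C k i θ).toRingHom =
      (eB C k i (SS2.PR.map σ θ)).toRingHom.comp
        (MulSemiringAction.toRingHom _ (FB (lev M q k)) g) := by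
    refine ringHom_ext_nd C.prime (fun c => ?_) (fun l hl a => ?_)
    · show coeffMap (σ : Qb →+* Qb) (eB C k i θ (algebraMap Qb _ c)) =
        eB C k i (SS2.PR.map σ θ) (g • algebraMap Qb _ c)
      rw [SS2.galFn_smul_const, AlgHom.commutes, AlgHom.commutes,
        algebraMap_laurentSeries_eq_single, algebraMap_laurentSeries_eq_single, coeffMap_single]
      rfl
    · show coeffMap (σ : Qb →+* Qb) (eB C k i θ (nd M q k l a)) =
        eB C k i (SS2.PR.map σ θ) (g • nd M q k l a)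
      rw [galFn_smul_nd hl, eB_nd' C i _ hl, eB_nd' C i _ hl, coe_arithmeticGalois_smul,
        ModFun.coeffMap_qExpand, Reduction.coeffMap_twist, hu]
  exact DFunLike.congr_fun key x

/-- the branch `k` at a root is the inclusion, twisted -/
theorem eB_last {k : ℕ} (θ : PR (q ^ ((Fin.last k : Fin (k + 1)) : ℕ))) (x : FB (lev M q k)) :
    eB C k (Fin.last k) θ x = Reduction.twist θ.u (x : LS) := by
  refine DFunLike.congr_fun (algHom_ext_nd C.prime (f := eB C k (Fin.last k) θ)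
    (g := (twistA θ.u).comp (valA (lev M q k))) fun l hl a => ?_) x
  rw [AlgHom.comp_apply, SS2.twistA_apply, SS2.valA_apply, eB_nd' C _ θ hl, coe_nd hl,
    twist_qExpand_eq]
  refine SS2.qExpand_congr' ?_ _
  congr 1
  simp only [Fin.val_last, nE]
  omega

theorem exists_wAL (k : ℕ) : ∃ w : FB (lev M q k) →ₐ[Qb] FB (lev M q k),
    ∀ l ≤ k, ∀ a : FB M, w (nd M q k l a) = nd M q k (k - l) a := by
  obtain ⟨θ⟩ := nonempty_root C ((0 : Fin (k + 1)) : ℕ)
  have h0 : ∀ l ≤ k, ∀ a : FB M,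
      eB C k 0 θ (nd M q k l a) = ((nd M q k (k - l) a : FB (lev M q k)) : LS) := fun l hl a => by
    rw [eB_nd C 0 θ hl, coe_nd (Nat.sub_le k l), nodeU, if_pos (show ((0 : Fin (k + 1)) : ℕ) ≤ l
      from Nat.zero_le l), Reduction.twist_one_apply]
    refine SS2.qExpand_congr' ?_ _
    congr 1
  have key : ∀ d, eB C k 0 θ (Genus.gen (lev M q k) d) ∈ modularFunctionFieldBar (lev M q k) := by
    intro d
    obtain ⟨l, hl, d', e⟩ := gen_cases_nd C.prime d
    rw [e, h0 l hl]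
    exact SetLike.coe_mem _
  have hmem : ∀ x, eB C k 0 θ x ∈ modularFunctionFieldBar (lev M q k) := by
    intro x
    obtain ⟨P, Q, -, rfl⟩ := Genus.exists_repr _ x
    have hP : ∀ R : MvPolynomial (lev M q k).divisors Qb,
        eB C k 0 θ (MvPolynomial.aeval (Genus.gen (lev M q k)) R) ∈
          modularFunctionFieldBar (lev M q k) := by
      intro R
      induction R using MvPolynomial.induction_on with
      | C a => rw [MvPolynomial.aeval_C, AlgHom.commutes]; exact IntermediateField.algebraMap_mem _ a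
      | add p r hp hr => rw [map_add, map_add]; exact add_mem hp hr
      | mul_X p d hp => rw [map_mul, map_mul, MvPolynomial.aeval_X]; exact mul_mem hp (key d)
    rw [map_div₀]
    exact div_mem (hP P) (hP Q)
  exact ⟨(eB C k 0 θ).codRestrict (modularFunctionFieldBar (lev M q k)).toSubalgebra hmem,
    fun l hl a => Subtype.ext (h0 l hl a)⟩

/-- the Atkin–Lehner involution at `q` -/
def wAL (k : ℕ) : FB (lev M q k) →ₐ[Qb] FB (lev M q k) := (exists_wAL C k).choose

theorem wAL_nd {k l : ℕ} (hl : l ≤ k) (a : FB M) :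
    wAL C k (nd M q k l a) = nd M q k (k - l) a :=
  (exists_wAL C k).choose_spec l hl a

theorem wAL_wAL {k : ℕ} (x : FB (lev M q k)) : wAL C k (wAL C k x) = x := by
  refine DFunLike.congr_fun (algHom_ext_nd C.prime (f := (wAL C k).comp (wAL C k))
    (g := AlgHom.id Qb _) fun l hl a => ?_) x
  rw [AlgHom.comp_apply, AlgHom.id_apply, wAL_nd C hl, wAL_nd C (Nat.sub_le k l),
    Nat.sub_sub_self hl]

theorem wAL_ed {k l : ℕ} (hl : l ≤ k) (g : FB (M * q)) :
    wAL C (k + 1) (ed M q k l g) = ed M q k (k - l) (SS.atkinW M q g) := by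
  refine DFunLike.congr_fun (SS2.algHom_ext_two C.prime C.not_dvd
    (f := (wAL C (k + 1)).comp (ed M q k l))
    (g := (ed M q k (k - l)).comp (SS.atkinW M q)) (fun a => ?_) (fun a => ?_)) g
  · rw [AlgHom.comp_apply, AlgHom.comp_apply, ed_alpha hl, wAL_nd C (by omega),
      show SS.atkinW M q (heckeAlphaBar Qb M q a) = heckeBetaBar Qb M q a from SS.atkinW_i1 C a,
      ed_beta (Nat.sub_le k l), Nat.sub_add_comm hl]
  · rw [AlgHom.comp_apply, AlgHom.comp_apply, ed_beta hl, wAL_nd C (by omega),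
      show SS.atkinW M q (heckeBetaBar Qb M q a) = heckeAlphaBar Qb M q a from SS.atkinW_i2 C a,
      ed_alpha (Nat.sub_le k l), Nat.add_sub_add_right]

theorem wAL_upA {k : ℕ} (g : FB (lev M q k)) :
    wAL C (k + 1) (upA M q k g) = upB M q k (wAL C k g) := by
  refine DFunLike.congr_fun (algHom_ext_nd C.prime
    (f := (wAL C (k + 1)).comp (upA M q k)) (g := (upB M q k).comp (wAL C k))
    fun l hl a => ?_) g
  rw [AlgHom.comp_apply, AlgHom.comp_apply, upA_nd hl, wAL_nd C (by omega), wAL_nd C hl, upB_nd,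
    Nat.sub_add_comm hl]

theorem wAL_galois {k : ℕ} (σ : Qb ≃ₐ[ℚ] Qb) (x : FB (lev M q k)) :
    wAL C k (galFn (lev M q k) σ • x) = galFn (lev M q k) σ • wAL C k x := by
  let g := galFn (lev M q k) σ
  have key : (wAL C k).toRingHom.comp (MulSemiringAction.toRingHom _ (FB (lev M q k)) g) =
      (MulSemiringAction.toRingHom _ (FB (lev M q k)) g).comp (wAL C k).toRingHom := by
    refine ringHom_ext_nd C.prime (fun c => ?_) (fun l hl a => ?_)
    · show wAL C k (g • algebraMap Qb _ c) = g • wAL C k (algebraMap Qb _ c)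
      rw [AlgHom.commutes, SS2.galFn_smul_const, AlgHom.commutes]
    · show wAL C k (g • nd M q k l a) = g • wAL C k (nd M q k l a)
      rw [galFn_smul_nd hl, wAL_nd C hl, wAL_nd C hl, galFn_smul_nd (Nat.sub_le k l)]
  exact DFunLike.congr_fun key x

/-- the involution carries the branch `i` to the branch `k - i`, up to a twist -/
theorem exists_eB_rev {k : ℕ} (i : Fin (k + 1)) (θ : PR (q ^ (i.rev : ℕ))) :
    ∃ (w : Aˣ) (θ' : PR (q ^ (i : ℕ))), IsLocalRing.residue A (w : A) = 1 ∧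
      SS2.unitQ w ^ q ^ (max (i : ℕ) (k - i) - (k - i)) = θ.u ∧
      θ'.u = (SS2.unitQ w ^ q ^ (max (i : ℕ) (k - i) - i))⁻¹ ∧
      ∀ x, eB C k i.rev θ (wAL C k x) =
        Reduction.twist (SS2.unitQ w) (eB C k i θ' x) := by
  have hr : (i.rev : ℕ) = k - i := by rw [Fin.val_rev]; omega
  have hi : (i : ℕ) ≤ k := Nat.lt_succ_iff.mp i.2
  set m := max (i : ℕ) (k - i) with hm
  obtain ⟨z, hz⟩ := exists_root_above C (show (i.rev : ℕ) ≤ m by omega) θ
  rw [show m - (i.rev : ℕ) = m - (k - i) by omega] at hz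
  obtain ⟨w, hw, hw1⟩ := exists_unit_root' C z
  have hz' : SS2.unitQ w ^ q ^ (m - (k - i)) = θ.u := by
    rw [hw]
    exact Units.ext (by rw [Units.val_pow_eq_pow_val]; exact hz)
  have hprim : IsPrimitiveRoot (((z : Qb) ^ q ^ (m - i))⁻¹) (q ^ (i : ℕ)) :=
    (z.prim.pow (pow_pos C.prime.pos _) (by rw [← pow_add]; congr 1; omega)).inv
  obtain ⟨θ', hθ'⟩ : ∃ θ' : PR (q ^ (i : ℕ)), θ'.u = (SS2.unitQ w ^ q ^ (m - i))⁻¹ :=
    ⟨⟨_, (mem_primitiveRoots (pow_pos C.prime.pos _)).mpr hprim⟩, by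
      rw [hw]
      refine Units.ext ?_
      rw [Units.val_inv_eq_inv_val, Units.val_pow_eq_pow_val]
      rfl⟩
  refine ⟨w, θ', hw1, hz', hθ', fun x => ?_⟩
  refine DFunLike.congr_fun (algHom_ext_nd C.prime (f := (eB C k i.rev θ).comp (wAL C k))
    (g := (twistA (SS2.unitQ w)).comp (eB C k i θ')) fun l hl a => ?_) x
  rw [AlgHom.comp_apply, AlgHom.comp_apply, SS2.twistA_apply, wAL_nd C hl,
    eB_nd' C _ _ (Nat.sub_le k l), eB_nd' C _ _ hl, twist_qExpand_eq, twist_twist_mul]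
  have e1 : nE k (i.rev : ℕ) (k - l) = nE k i l := by simp only [nE, hr]; omega
  rw [SS2.qExpand_congr' (congrArg (q ^ ·) e1)]
  suffices h : θ.u ^ q ^ (k - l) = SS2.unitQ w ^ q ^ nE k i l * θ'.u ^ q ^ l by rw [h]
  rcases le_or_gt (i : ℕ) l with hil | hil
  · rw [pow_root_eq_one hil θ', mul_one, ← hz', ← pow_mul, ← pow_add]
    congr 2
    simp only [nE]
    omega
  · rw [pow_root_eq_one (show (i.rev : ℕ) ≤ k - l by omega) θ, hθ', inv_pow, ← pow_mul, ← pow_add,
      show nE k i l = m - i + l by simp only [nE]; omega, mul_inv_cancel]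

theorem wAL_rational {k : ℕ} {x : FB (lev M q k)} (hx : x ∈ rationalFn A (lev M q k)) :
    wAL C k x ∈ rationalFn A (lev M q k) := fun σ hσ => by
  rw [← wAL_galois C, hx σ hσ]

end FLTAgent.CUBE

end
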