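import Fermat.Agent.SS2.Fib

/-!
A curve over an algebraically closed valued field `K` with a model over the discrete valuation ring
`A ∩ T` of a subfield `T`, whose special fibre has `br + 1` components, possibly non-reduced. Everything
is expressed by the `T`-rational functions `Ω`, valuations on `Ω` and a coordinate `J`.
-/

set_option autoImplicit false
set_option linter.unusedVariables false

noncomputable section

open AlgebraicCurve IsLocalRing
open FLTAgent.RR (Bd)
open FLTAgent.Reduction (Val)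

namespace FLTAgent.CUBE

export FLTAgent.SS2 (InChart)

/-- The fibre. -/
structure Fib (br : ℕ) (K : Type*) [Field K] [IsAlgClosed K] [CharZero K] (A : ValuationSubring K)
    (F : Type*) [Field F] [Algebra K F] [RR.FnField K F]
    (Fs : Type*) [Field Fs] [Algebra (ResidueField A) Fs] where
  /-- the field of constants -/
  T : Subfield K
  /-- a uniformiser of `A ∩ T` -/
  q : ℕ
  q_lt : A.valuation (q : K) < 1
  q_ne : (q : K) ≠ 0
  val_T : ∀ x ∈ T, x ≠ 0 → ∃ i : ℤ, A.valuation x = A.valuation (q : K) ^ i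
  res_T : ∀ a : A, ∃ t : A, (t : K) ∈ T ∧ residue A t = residue A a
  /-- the rational functions -/
  Ω : Subfield F
  const_Ω : ∀ t ∈ T, algebraMap K F t ∈ Ω
  indep : ∀ {ι : Type} [Fintype ι] (v : ι → F), (∀ i, v i ∈ Ω) →
    (∀ c : ι → K, (∀ i, c i ∈ T) → ∑ i, algebraMap K F (c i) * v i = 0 → ∀ i, c i = 0) →
    LinearIndependent K v
  /-- rational functions integral on a component -/
  G : Fin (br + 1) → Subring F
  G_le : ∀ b, ∀ x ∈ G b, x ∈ Ω
  /-- restriction to a component -/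
  red : Fin (br + 1) → F → Fs
  red_add : ∀ b, ∀ x ∈ G b, ∀ y ∈ G b, red b (x + y) = red b x + red b y
  red_mul : ∀ b, ∀ x ∈ G b, ∀ y ∈ G b, red b (x * y) = red b x * red b y
  red_one : ∀ b, red b 1 = 1
  const_mem : ∀ b (a : A), (a : K) ∈ T → algebraMap K F (a : K) ∈ G b
  red_const : ∀ b (a : A), (a : K) ∈ T →
    red b (algebraMap K F (a : K)) = algebraMap (ResidueField A) Fs (residue A a)
  /-- a uniformiser of each component -/
  ϖ : Fin (br + 1) → F
  ϖ_mem : ∀ b, ϖ b ∈ G b
  red_ϖ : ∀ b, red b (ϖ b) = 0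
  ϖ_ne : ∀ b, ϖ b ≠ 0
  exists_scale : ∀ b, ∀ x ∈ Ω, x ≠ 0 → ∃ i : ℤ, x * ϖ b ^ (-i) ∈ G b ∧ red b (x * ϖ b ^ (-i)) ≠ 0
  /-- the multiplicities -/
  e : Fin (br + 1) → ℕ
  e_pos : ∀ b, 0 < e b
  q_eq : ∀ b, algebraMap K F (q : K) * (ϖ b ^ e b)⁻¹ ∈ G b ∧
    red b (algebraMap K F (q : K) * (ϖ b ^ e b)⁻¹) ≠ 0
  /-- the coordinate -/
  J : F
  /-- its restrictions -/
  Jbar : Fin (br + 1) → Fs
  J_mem : ∀ b, J ∈ G b
  red_J : ∀ b, red b J = Jbar b
  transc_J : Transcendental K J
  transc_Jbar : ∀ b, Transcendental (ResidueField A) (Jbar b)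
  hasRes : ∀ Q : Place (ResidueField A) Fs, RR.HasRes Q
  finite_ord : ∀ w : Fs, w ≠ 0 → {Q : Place (ResidueField A) Fs | Q.ord w ≠ 0}.Finite
  /-- integral functions on a chart restrict to regular functions -/
  regular : ∀ (s : Bool) (x : F), (∀ b, x ∈ G b) →
    (∀ P : Place K F, InChart s (P.ord J) → Bd P x 0) →
    ∀ b (Q : Place (ResidueField A) Fs), InChart s (Q.ord (Jbar b)) → Bd Q (red b x) 0
  /-- each component is separated from the others on each chart -/
  separated : ∀ (s : Bool) (b : Fin (br + 1)), ∃ x : F, (∀ b', x ∈ G b') ∧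
    (∀ P : Place K F, InChart s (P.ord J) → Bd P x 0) ∧ red b x ≠ 0 ∧ ∀ b', b' ≠ b → red b' x = 0
  /-- regular functions on a component lift to the chart -/
  lift : ∀ (s : Bool) (b : Fin (br + 1)) (φ : Fs),
    (∀ Q : Place (ResidueField A) Fs, InChart s (Q.ord (Jbar b)) → Bd Q φ 0) →
    ∃ x : F, (∀ b', x ∈ G b') ∧ (∀ P : Place K F, InChart s (P.ord J) → Bd P x 0) ∧ red b x = φ
  /-- linear growth of the spaces of functions with poles bounded by those of the coordinate -/
  bounded : ∀ b (w : Fs), w ≠ 0 → ∃ C : ℕ, ∀ m : ℕ,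
    FiniteDimensional (ResidueField A) (RR.boundedOn (fun _ => True)
      (fun Q : Place (ResidueField A) Fs => (m : ℤ) * max (-Q.ord (Jbar b)) 0 + |Q.ord w|)) ∧
    Module.finrank (ResidueField A) (RR.boundedOn (fun _ => True)
      (fun Q : Place (ResidueField A) Fs => (m : ℤ) * max (-Q.ord (Jbar b)) 0 + |Q.ord w|))
      ≤ C * (m + 1)
  /-- bounded rational functions integral on all components form a finitely generated module -/
  lattice_fg : ∀ D : Divisor K F, ∃ S : Finset F,
    (∀ x ∈ S, x ∈ riemannRochSpace D ∧ ∀ b, x ∈ G b) ∧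
    ∀ x ∈ riemannRochSpace D, (∀ b, x ∈ G b) →
      ∃ c : F → K, (∀ i, c i ∈ T ∧ c i ∈ A) ∧ x = ∑ i ∈ S, algebraMap K F (c i) * i

namespace Fib

variable {br : ℕ} {K : Type*} [Field K] [IsAlgClosed K] [CharZero K] {A : ValuationSubring K}
  {F : Type*} [Field F] [Algebra K F] [RR.FnField K F]
  {Fs : Type*} [Field Fs] [Algebra (ResidueField A) Fs] (M : Fib br K A F Fs)

/-- functions integral on every component -/
def GI : Subring F := ⨅ b, M.G b

/-- bounded by `D` on a chart -/
def OnChart (D : Divisor K F) (s : Bool) (x : F) : Prop :=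
  ∀ P : Place K F, InChart s (P.ord M.J) → Bd P x (D P)

/-- the chart ring -/
def R (s : Bool) : Subring F where
  carrier := {x | x ∈ M.GI ∧ M.OnChart 0 s x}
  mul_mem' := fun hx hy => ⟨mul_mem hx.1 hy.1, fun P hP => by
    simpa using (hx.2 P hP).mul (hy.2 P hP)⟩
  one_mem' := ⟨one_mem _, fun P _ => by simpa using (RR.Bd.of_algebraMap (v := P) (1 : K))⟩
  add_mem' := fun hx hy => ⟨add_mem hx.1 hy.1, fun P hP => (hx.2 P hP).add (hy.2 P hP)⟩
  zero_mem' := ⟨zero_mem _, fun P _ => RR.Bd.zero⟩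
  neg_mem' := fun hx => ⟨neg_mem hx.1, fun P hP => (hx.2 P hP).neg⟩

/-- the twisted sections of a chart -/
def I (D : Divisor K F) (s : Bool) : Submodule (M.R s) F where
  carrier := {x | x ∈ M.GI ∧ M.OnChart D s x}
  add_mem' := fun hx hy => ⟨add_mem hx.1 hy.1, fun P hP => (hx.2 P hP).add (hy.2 P hP)⟩
  zero_mem' := ⟨zero_mem _, fun P _ => RR.Bd.zero⟩
  smul_mem' := fun r x hx => ⟨mul_mem r.2.1 hx.1, fun P hP => by
    show Bd P ((r : F) * x) (D P)
    simpa using (r.2.2 P hP).mul (hx.2 P hP)⟩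

/-- a divisor of order `n` with a trivialisation congruent to `1` on every component -/
structure Twist (n : ℕ) where
  /-- the divisor -/
  D : Divisor K F
  /-- the trivialisation -/
  f : F
  degree_D : Divisor.degree D = 0
  f_ne : f ≠ 0
  ord_f : ∀ P : Place K F, (n : ℤ) * D P = P.ord f
  f_mem : ∀ b, f ∈ M.G b
  red_f : ∀ b, M.red b f = 1

/-- a divisor of order `n` with a trivialisation non-zero on every component -/
structure Triv (n : ℕ) where
  /-- the divisor -/
  D : Divisor K F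
  /-- the trivialisation -/
  f : F
  f_ne : f ≠ 0
  ord_f : ∀ P : Place K F, (n : ℤ) * D P = P.ord f
  f_mem : ∀ b, f ∈ M.G b
  red_ne : ∀ b, M.red b f ≠ 0

variable {M}

/-- a twist as a trivialisation -/
def Twist.toTriv {n : ℕ} (W : M.Twist n) : M.Triv n :=
  ⟨W.D, W.f, W.f_ne, W.ord_f, W.f_mem, fun b => by rw [W.red_f b]; exact one_ne_zero⟩

end Fib

end FLTAgent.CUBE
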