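import Fermat.Agent.CUBE.FibVal
import Fermat.Agent.SS.Injective

/-!
Arithmetic of a fibre: the discrete valuation ring of constants, valuations of the components,
pole bounds on the charts.
-/

set_option autoImplicit false
set_option linter.unusedSectionVars false

noncomputable section

open AlgebraicCurve IsLocalRing
open FLTAgent.RR (Bd Pol)

namespace FLTAgent.CUBE.Fib

variable {br : ℕ} {K : Type*} [Field K] [IsAlgClosed K] [CharZero K] {A : ValuationSubring K}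
  {F : Type*} [Field F] [Algebra K F] [RR.FnField K F]
  {Fs : Type*} [Field Fs] [Algebra (ResidueField A) Fs] (M : Fib br K A F Fs)

local notation "ι'" => algebraMap K F

/-! ### the constants -/

/-- the ring of constants -/
abbrev O : ValuationSubring M.T := A.comap M.T.subtype

theorem mem_O {x : M.T} : x ∈ M.O ↔ (x : K) ∈ A := Iff.rfl

/-- the constant as an element of `A` -/
def toA (a : M.O) : A := ⟨((a : M.T) : K), a.2⟩

/-- the uniformiser -/
def qO : M.O := ⟨⟨(M.q : K), natCast_mem M.T M.q⟩, natCast_mem A M.q⟩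

theorem val_q_ne : A.valuation (M.q : K) ≠ 0 := (Valuation.ne_zero_iff _).2 M.q_ne

theorem qO_ne : M.qO ≠ 0 := fun h => M.q_ne (congrArg (fun a : M.O => ((a : M.T) : K)) h)

theorem q_not_isUnit : ¬ IsUnit M.qO := fun h => by
  obtain ⟨u, hu⟩ := h.exists_right_inv
  have h1 : (M.q : K) * ((u : M.T) : K) = 1 := congrArg (fun a : M.O => ((a : M.T) : K)) hu
  have h2 := congrArg A.valuation h1
  rw [map_mul, map_one] at h2
  exact (mul_lt_one_of_nonneg_of_lt_one_left zero_le M.q_lt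
    ((A.valuation_le_one_iff _).2 u.2)).ne h2

theorem isUnit_of_val {a : M.O} (h : A.valuation ((a : M.T) : K) = 1) : IsUnit a := by
  have ha : (a : M.T) ≠ 0 := fun h0 => by simp [h0] at h
  have hinv : (a : M.T)⁻¹ ∈ M.O := by
    show (((a : M.T)⁻¹ : M.T) : K) ∈ A
    rw [← A.valuation_le_one_iff]
    push_cast
    rw [map_inv₀, h, inv_one]
  exact IsUnit.of_mul_eq_one (⟨_, hinv⟩ : M.O) (Subtype.ext (mul_inv_cancel₀ ha))

theorem exists_eq_pow {a : M.O} (ha : a ≠ 0) : ∃ (i : ℕ) (u : M.O), IsUnit u ∧ a = M.qO ^ i * u := by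
  have haT : (a : M.T) ≠ 0 := fun h => ha (Subtype.ext h)
  have haK : ((a : M.T) : K) ≠ 0 := fun h => haT (Subtype.ext h)
  obtain ⟨i, hi⟩ := M.val_T _ (a : M.T).2 haK
  have hle : A.valuation ((a : M.T) : K) ≤ 1 := (A.valuation_le_one_iff _).2 a.2
  rw [hi] at hle
  have hi0 : 0 ≤ i := by
    by_contra hcon
    push Not at hcon
    exact absurd hle (not_le.2 ((one_lt_zpow_iff_right_of_lt_one₀ (zero_lt_iff.2 M.val_q_ne)
      M.q_lt).2 hcon))
  obtain ⟨j, rfl⟩ := Int.eq_ofNat_of_zero_le hi0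
  rw [zpow_natCast] at hi
  have hval : A.valuation (((M.q : K) ^ j)⁻¹ * ((a : M.T) : K)) = 1 := by
    rw [map_mul, map_inv₀, map_pow, hi, inv_mul_cancel₀ (pow_ne_zero _ M.val_q_ne)]
  let u : M.O := ⟨⟨((M.q : K) ^ j)⁻¹ * ((a : M.T) : K),
    mul_mem (inv_mem (pow_mem (natCast_mem M.T M.q) j)) (a : M.T).2⟩,
    (A.valuation_le_one_iff _).1 hval.le⟩
  refine ⟨j, u, M.isUnit_of_val hval, Subtype.ext (Subtype.ext ?_)⟩
  push_cast
  show ((a : M.T) : K) = (M.q : K) ^ j * (((M.q : K) ^ j)⁻¹ * ((a : M.T) : K))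
  rw [← mul_assoc, mul_inv_cancel₀ (pow_ne_zero _ M.q_ne), one_mul]

theorem mem_maximal_iff {a : M.O} : a ∈ maximalIdeal M.O ↔ M.qO ∣ a := by
  constructor
  · intro h
    rcases eq_or_ne a 0 with rfl | ha
    · exact dvd_zero _
    obtain ⟨i, u, hu, rfl⟩ := M.exists_eq_pow ha
    rcases Nat.eq_zero_or_pos i with rfl | hi
    · rw [pow_zero, one_mul] at h
      exact absurd hu h
    · exact dvd_mul_of_dvd_left (dvd_pow_self _ hi.ne') u
  · rintro ⟨b, rfl⟩
    exact Ideal.mul_mem_right _ _ M.q_not_isUnit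

theorem maximalIdeal_eq : maximalIdeal M.O = Ideal.span {M.qO} :=
  Ideal.ext fun _ => M.mem_maximal_iff.trans Ideal.mem_span_singleton.symm

theorem isPrincipalIdealRing_O : IsPrincipalIdealRing M.O := by
  classical
  refine ⟨fun I => ?_⟩
  by_cases hI : I = ⊥
  · subst hI; exact bot_isPrincipal
  have hex : ∃ v : ℕ, M.qO ^ v ∈ I := by
    obtain ⟨x, hxI, hx⟩ := Submodule.exists_mem_ne_zero_of_ne_bot hI
    obtain ⟨v, u, hu, rfl⟩ := M.exists_eq_pow hx
    exact ⟨v, (I.mul_unit_mem_iff_mem hu).1 hxI⟩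
  refine ⟨M.qO ^ Nat.find hex, le_antisymm (fun x hxI => ?_) ?_⟩
  · by_cases hx : x = 0
    · subst hx; exact zero_mem _
    obtain ⟨v, u, hu, rfl⟩ := M.exists_eq_pow hx
    obtain ⟨j, rfl⟩ := Nat.exists_eq_add_of_le
      (Nat.find_min' hex ((I.mul_unit_mem_iff_mem hu).1 hxI))
    rw [Submodule.mem_span_singleton]
    exact ⟨M.qO ^ j * u, by rw [smul_eq_mul, pow_add]; ring⟩
  · rw [Submodule.span_singleton_le_iff_mem]
    exact Nat.find_spec hex

theorem residue_toA_eq_zero {a : M.O} (h : a ∈ maximalIdeal M.O) : residue A (M.toA a) = 0 := by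
  obtain ⟨b, rfl⟩ := M.mem_maximal_iff.1 h
  refine (residue_eq_zero_iff _).2 ?_
  rw [← ValuationSubring.coe_mem_nonunits_iff, ValuationSubring.mem_nonunits_iff]
  show A.valuation ((M.q : K) * ((b : M.T) : K)) < 1
  rw [map_mul]
  exact mul_lt_one_of_nonneg_of_lt_one_left zero_le M.q_lt ((A.valuation_le_one_iff _).2 b.2)

/-! ### the components -/

theorem G_const (b : Fin (br + 1)) (a : M.O) : ι' ((a : M.T) : K) ∈ M.G b := M.const_mem b (M.toA a) (a : M.T).2

theorem red_neg (b : Fin (br + 1)) {x : F} (hx : x ∈ M.G b) : M.red b (-x) = -M.red b x := by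
  have := M.red_add b x hx (-x) (neg_mem hx)
  rw [add_neg_cancel, M.red_zero] at this
  exact eq_neg_of_add_eq_zero_right this.symm

theorem red_sum (b : Fin (br + 1)) {ι : Type*} (s : Finset ι) (f : ι → F) (h : ∀ i ∈ s, f i ∈ M.G b) :
    M.red b (∑ i ∈ s, f i) = ∑ i ∈ s, M.red b (f i) := by
  classical
  induction s using Finset.induction with
  | empty => simp [M.red_zero]
  | insert a s ha ih =>
    rw [Finset.sum_insert ha, Finset.sum_insert ha, M.red_add b _ (h a (Finset.mem_insert_self _ _)) _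
      (sum_mem fun i hi => h i (Finset.mem_insert_of_mem hi)),
      ih fun i hi => h i (Finset.mem_insert_of_mem hi)]

/-- an element of a component invertible in it -/
theorem G_inv_mem {b : Fin (br + 1)} {u : F} (hu : u ∈ M.G b) (hr : M.red b u ≠ 0) :
    u⁻¹ ∈ M.G b ∧ M.red b u⁻¹ = (M.red b u)⁻¹ := by
  have hu0 : u ≠ 0 := fun h => hr (h ▸ M.red_zero b)
  obtain ⟨i, hG, hr'⟩ := M.exists_scale b u⁻¹ (inv_mem (M.G_le b u hu)) (inv_ne_zero hu0)
  set z := u⁻¹ * M.ϖ b ^ (-i) with hz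
  have hϖ := M.ϖ_ne b
  have key : z * u = M.ϖ b ^ (-i) := by rw [hz]; field_simp
  rcases lt_trichotomy i 0 with hi | rfl | hi
  · exfalso
    obtain ⟨k, hk⟩ : ∃ k : ℕ, -i = ((k + 1 : ℕ) : ℤ) := ⟨(-i - 1).toNat, by omega⟩
    rw [hk, zpow_natCast] at key
    have := congrArg (M.red b) key
    rw [M.red_mul b z hG u hu, M.red_pow b (M.ϖ_mem b), M.red_ϖ, zero_pow (Nat.succ_ne_zero k)] at this
    exact mul_ne_zero hr' hr this
  · rw [hz, neg_zero, zpow_zero, mul_one] at hG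
    refine ⟨hG, eq_inv_of_mul_eq_one_left ?_⟩
    rw [← M.red_mul b _ hG u hu, inv_mul_cancel₀ hu0, M.red_one]
  · exfalso
    obtain ⟨k, rfl⟩ : ∃ k : ℕ, i = ((k + 1 : ℕ) : ℤ) := ⟨(i - 1).toNat, by omega⟩
    have h1 : z * u * M.ϖ b ^ (k + 1) = 1 := by
      rw [key, ← zpow_natCast, ← zpow_add₀ hϖ, neg_add_cancel, zpow_zero]
    have := congrArg (M.red b) h1
    rw [M.red_mul b _ (mul_mem hG hu) _ (pow_mem (M.ϖ_mem b) _), M.red_pow b (M.ϖ_mem b), M.red_ϖ,
      zero_pow (Nat.succ_ne_zero k), mul_zero, M.red_one] at this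
    exact zero_ne_one this

/-- the nonunits of a component are divisible by the uniformiser -/
theorem div_ϖ_mem {b : Fin (br + 1)} {x : F} (hx : x ∈ M.G b) (hr : M.red b x = 0) :
    x * (M.ϖ b)⁻¹ ∈ M.G b := by
  rcases eq_or_ne x 0 with rfl | hx0
  · rw [zero_mul]; exact zero_mem _
  obtain ⟨i, hG, hr'⟩ := M.exists_scale b x (M.G_le b x hx) hx0
  have hϖ := M.ϖ_ne b
  rcases lt_trichotomy i 0 with hi | rfl | hi
  · exfalso
    obtain ⟨k, hk⟩ : ∃ k : ℕ, -i = (k : ℤ) := ⟨(-i).toNat, by omega⟩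
    rw [hk, zpow_natCast, M.red_mul b x hx _ (pow_mem (M.ϖ_mem b) k), hr, zero_mul] at hr'
    exact hr' rfl
  · rw [neg_zero, zpow_zero, mul_one] at hr'
    exact absurd hr hr'
  · obtain ⟨k, rfl⟩ : ∃ k : ℕ, i = ((k + 1 : ℕ) : ℤ) := ⟨(i - 1).toNat, by omega⟩
    have : x * (M.ϖ b)⁻¹ = x * M.ϖ b ^ (-((k + 1 : ℕ) : ℤ)) * M.ϖ b ^ k := by
      rw [mul_assoc, ← zpow_natCast (M.ϖ b) k, ← zpow_add₀ hϖ,
        show -((k + 1 : ℕ) : ℤ) + (k : ℤ) = -1 by omega, zpow_neg_one]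
    rw [this]
    exact mul_mem hG (pow_mem (M.ϖ_mem b) k)

theorem pow_div_ϖ_mem {b : Fin (br + 1)} {s : F} (hs : s ∈ M.G b) (hr : M.red b s = 0) (k : ℕ) :
    s ^ k * ((M.ϖ b) ^ k)⁻¹ ∈ M.G b := by
  rw [← inv_pow, ← mul_pow]
  exact pow_mem (M.div_ϖ_mem hs hr) k

theorem J_ne_zero : M.J ≠ 0 := fun h => M.transc_J (h ▸ isAlgebraic_zero)

theorem Jbar_ne_zero (b : Fin (br + 1)) : M.Jbar b ≠ 0 := fun h => M.transc_Jbar b (h ▸ isAlgebraic_zero)

theorem J_inv_mem (b : Fin (br + 1)) : M.J⁻¹ ∈ M.G b ∧ M.red b M.J⁻¹ = (M.Jbar b)⁻¹ := by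
  have := M.G_inv_mem (M.J_mem b) (by rw [M.red_J]; exact M.Jbar_ne_zero b)
  rwa [M.red_J] at this

theorem mem_GI {x : F} : x ∈ M.GI ↔ ∀ b, x ∈ M.G b := Subring.mem_iInf

theorem mem_Ω_of_GI {x : F} (hx : x ∈ M.GI) : x ∈ M.Ω := M.G_le 0 x (M.mem_GI.1 hx 0)

theorem J_mem_GI : M.J ∈ M.GI := M.mem_GI.2 M.J_mem

theorem J_inv_mem_GI : M.J⁻¹ ∈ M.GI := M.mem_GI.2 fun b => (M.J_inv_mem b).1

/-- the class of `q` in each component -/
def uq (b : Fin (br + 1)) : Fs := M.red b (ι' (M.q : K) * (M.ϖ b ^ M.e b)⁻¹)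

theorem uq_ne (b : Fin (br + 1)) : M.uq b ≠ 0 := (M.q_eq b).2

theorem ϖ_pow_div_q (b : Fin (br + 1)) : M.ϖ b ^ M.e b * (ι' (M.q : K))⁻¹ ∈ M.G b ∧
    M.red b (M.ϖ b ^ M.e b * (ι' (M.q : K))⁻¹) = (M.uq b)⁻¹ := by
  have h := M.G_inv_mem (M.q_eq b).1 (M.q_eq b).2
  rwa [mul_inv_rev, inv_inv] at h

theorem q_ne' : ι' (M.q : K) ≠ 0 := (map_ne_zero _).2 M.q_ne

theorem red_q (b : Fin (br + 1)) : M.red b (ι' (M.q : K)) = 0 := by
  have := M.red_const b (M.toA M.qO) (natCast_mem M.T M.q)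
  rwa [M.residue_toA_eq_zero (M.mem_maximal_iff.2 dvd_rfl), map_zero] at this

/-- the largest multiplicity -/
def emax : ℕ := Finset.univ.sup M.e

theorem e_le (b : Fin (br + 1)) : M.e b ≤ M.emax := Finset.le_sup (Finset.mem_univ b)

/-! ### the charts -/

/-- `J` on `false`, `J⁻¹` on `true` -/
def Jc (s : Bool) : F := if s then M.J⁻¹ else M.J

theorem Jc_mem_R (s : Bool) : M.Jc s ∈ M.R s := by
  refine ⟨?_, fun P hP => ?_⟩
  · unfold Jc; split_ifs
    exacts [M.J_inv_mem_GI, M.J_mem_GI]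
  rw [Finsupp.zero_apply, RR.bd_iff]
  right
  cases s
  · simpa [Jc, InChart] using hP
  · simpa [Jc, InChart, P.ord_inv] using hP

theorem const_mem_R (s : Bool) (a : M.O) : ι' ((a : M.T) : K) ∈ M.R s :=
  ⟨M.mem_GI.2 fun b => M.G_const b a, fun _ _ => by
    simpa using RR.Bd.of_algebraMap ((a : M.T) : K)⟩

theorem onChart_add {D : Divisor K F} {s : Bool} {x y : F} (hx : M.OnChart D s x)
    (hy : M.OnChart D s y) : M.OnChart D s (x + y) := fun P hP => (hx P hP).add (hy P hP)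

theorem onChart_smul {D : Divisor K F} {s : Bool} {x : F} (c : K) (hx : M.OnChart D s x) :
    M.OnChart D s (ι' c * x) := fun P hP => by
  rw [← Algebra.smul_def]; exact (hx P hP).smul c

theorem bd_pow_J_mul {P : Place K F} (m : ℕ) {x : F} {d : ℤ} :
    Bd P ((M.J ^ m)⁻¹ * x) d ↔ Bd P x (d - (m : ℤ) * P.ord M.J) := by
  rw [mul_comm, RR.bd_mul_iff (inv_ne_zero (pow_ne_zero _ M.J_ne_zero)), P.ord_inv, RR.ord_pow,
    sub_eq_add_neg]

/-- the sections with pole order at most `m` at the poles of the coordinate -/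
theorem mem_chart_pair_iff {D : Divisor K F} {m : ℕ} {x : F} :
    x ∈ riemannRochSpace (m • Pol (K := K) M.J + D) ↔
      M.OnChart D false x ∧ M.OnChart D true ((M.J ^ m)⁻¹ * x) := by
  have hval : ∀ P : Place K F, (m • Pol (K := K) M.J + D) P
      = (m : ℤ) * max (-P.ord M.J) 0 + D P := fun P => by
    simp [RR.Pol_apply]
  rw [RR.riemannRochSpace_eq_boundedOn, RR.mem_boundedOn]
  constructor
  · intro h
    refine ⟨fun P hP => ?_, fun P hP => (M.bd_pow_J_mul m).2 ?_⟩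
    · have := h P trivial
      rw [hval, max_eq_right (by simp [InChart] at hP; omega)] at this
      simpa using this
    · have := h P trivial
      rw [hval, max_eq_left (by simp [InChart] at hP; omega)] at this
      rwa [show D P - (m : ℤ) * P.ord M.J = (m : ℤ) * -P.ord M.J + D P by ring]
  · rintro ⟨h1, h2⟩ P -
    rw [hval]
    rcases le_or_gt 0 (P.ord M.J) with hP | hP
    · rw [max_eq_right (by omega), mul_zero, zero_add]
      exact h1 P (by simpa [InChart] using hP)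
    · rw [max_eq_left (by omega)]
      have := (M.bd_pow_J_mul m).1 (h2 P (by simp [InChart]; omega))
      rwa [show D P - (m : ℤ) * P.ord M.J = (m : ℤ) * -P.ord M.J + D P by ring] at this

theorem inChart_iff (s : Bool) (P : Place K F) :
    InChart s (P.ord M.J) ↔ 0 ≤ P.ord (M.Jc s) := by
  cases s <;> simp [InChart, Jc, P.ord_inv]

theorem Jc_ne_zero (s : Bool) : M.Jc s ≠ 0 := by
  unfold Jc; split_ifs
  exacts [inv_ne_zero M.J_ne_zero, M.J_ne_zero]

theorem Jc_not (s : Bool) : M.Jc (!s) = (M.Jc s)⁻¹ := by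
  cases s <;> simp [Jc]

/-- a section on one chart is a section on the other up to a power of the coordinate -/
theorem exists_pow_onChart {D : Divisor K F} (s : Bool) {x : F} (hx : M.OnChart D s x) :
    ∃ m : ℕ, M.OnChart D (!s) (M.Jc (!s) ^ m * x) := by
  rcases eq_or_ne x 0 with rfl | hx0
  · exact ⟨0, fun P _ => by rw [mul_zero]; exact RR.Bd.zero⟩
  refine ⟨(Pol (K := K) (M.Jc s)).support.sum fun P => (-(P.ord x) - D P).natAbs, fun P hP => ?_⟩
  set m := (Pol (K := K) (M.Jc s)).support.sum fun P => (-(P.ord x) - D P).natAbs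
  have hJ := M.Jc_ne_zero (!s)
  rw [RR.bd_iff_ord (mul_ne_zero (pow_ne_zero _ hJ) hx0), P.ord_mul (pow_ne_zero _ hJ) hx0, RR.ord_pow]
  have hP' := (M.inChart_iff (!s) P).1 hP
  rcases le_or_gt 0 (P.ord (M.Jc s)) with hs | hs
  · have := (RR.bd_iff_ord hx0).1 (hx P ((M.inChart_iff s P).2 hs))
    nlinarith
  · have hsupp : P ∈ (Pol (K := K) (M.Jc s)).support := by
      rw [Finsupp.mem_support_iff, RR.Pol_apply]; omega
    have hm := SS.abs_le_sum _ (fun P => -(P.ord x) - D P) hsupp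
    have h1 : (1 : ℤ) ≤ P.ord (M.Jc (!s)) := by rw [Jc_not, P.ord_inv]; omega
    have : (m : ℤ) * 1 ≤ (m : ℤ) * P.ord (M.Jc (!s)) :=
      mul_le_mul_of_nonneg_left h1 (Int.natCast_nonneg m)
    omega

end FLTAgent.CUBE.Fib

end
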