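import Fermat.Agent.CUBE.FibVal

/-!
Weak approximation for the three components: a divisor with a trivialisation whose restrictions are
`n`-th powers gives a twist congruent to `1`.
-/

set_option autoImplicit false
set_option linter.unusedSectionVars false
set_option linter.unusedVariables false

noncomputable section

open AlgebraicCurve IsLocalRing
open FLTAgent.RR (Bd KK)
open FLTAgent.Reduction (Val regOn)

namespace FLTAgent.CUBE

/-- quotients of regular functions -/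
theorem exists_div_regOn {k Fs : Type*} [Field k] [Field Fs] [Algebra k Fs] [IsAlgClosed k] {t : Fs}
    (ht : Transcendental k t) [FiniteDimensional (KK k t) Fs] [Algebra.IsSeparable (KK k t) Fs]
    (f : Fs) : ∃ a ∈ regOn k t, ∃ c ∈ regOn k t, c ≠ 0 ∧ f = a / c := by
  refine Reduction.with_sepChart ht ?_
  intro _ _ _ _ _ _ hp hxv _
  obtain ⟨a, c, hc, hf⟩ := RR.Chart.exists_div (K := k) f
  have hreg : ∀ z : RR.Chart.A k Fs, (z : Fs) ∈ regOn k t := fun z v hv =>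
    RR.Chart.A_bd (show Bd v (RR.Chart.xv k Fs) 0 by rw [hxv]; exact hv) z
  exact ⟨a, hreg a, c, hreg c, hc, hf⟩

namespace Fib

variable {br : ℕ} {K : Type*} [Field K] [IsAlgClosed K] [CharZero K] {A : ValuationSubring K}
  {F : Type*} [Field F] [Algebra K F] [RR.FnField K F]
  {Fs : Type*} [Field Fs] [Algebra (ResidueField A) Fs] (M : Fib br K A F Fs) {n : ℕ}
  [IsAlgClosed (ResidueField A)]

/-- prescribed leading terms on the three components -/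
theorem exists_approx {t : Fs} (ht : Transcendental (ResidueField A) t)
    [FiniteDimensional (KK (ResidueField A) t) Fs] [Algebra.IsSeparable (KK (ResidueField A) t) Fs]
    (hchart : ∀ b (Q : Place (ResidueField A) Fs), InChart false (Q.ord (M.Jbar b)) → Bd Q t 0)
    (i : Fin (br + 1) → ℤ) (h : Fin (br + 1) → Fs) (hh : ∀ b, h b ≠ 0) :
    ∃ φ ∈ M.Ω, ∀ b, φ * M.ϖ b ^ (-i b) ∈ M.G b ∧ M.red b (φ * M.ϖ b ^ (-i b)) = h b := by
  classical
  have hlift : ∀ b, ∃ z ∈ M.G b, M.red b z = h b := by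
    intro b
    obtain ⟨a, ha, c, hc, hc0, hac⟩ := exists_div_regOn ht (h b)
    obtain ⟨xa, hxa, -, hxar⟩ := M.lift false b a fun Q hQ => ha Q (hchart b Q hQ)
    obtain ⟨xc, hxc, -, hxcr⟩ := M.lift false b c fun Q hQ => hc Q (hchart b Q hQ)
    obtain ⟨hinv, hinvr⟩ := M.inv_mem_G b (hxc b) (by rw [hxcr]; exact hc0)
    refine ⟨xa * xc⁻¹, mul_mem (hxa b) hinv, ?_⟩
    rw [M.red_mul b _ (hxa b) _ hinv, hinvr, hxar, hxcr, hac, div_eq_mul_inv]
  choose z hz hzr using hlift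
  choose ε hεG hεc hεb hε0 using fun b => M.separated false b
  have hyΩ : ∀ b b', M.ϖ b ^ i b * z b * M.ϖ b' ^ (-i b') ∈ M.Ω := fun b b' =>
    mul_mem (mul_mem (zpow_mem (M.ϖ_mem_Ω b) _) (M.G_le b _ (hz b))) (zpow_mem (M.ϖ_mem_Ω b') _)
  choose N hN using fun p : Fin (br + 1) × Fin (br + 1) => M.exists_killing_exp p.2 (hyΩ p.1 p.2)
  set k := (∑ p, N p) + 1 with hk
  set den := ∑ c, ε c ^ k with hden
  have hdG : ∀ b, den ∈ M.G b := fun b => sum_mem fun c _ => pow_mem (hεG c b) k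
  have hdr : ∀ b, M.red b den = M.red b (ε b) ^ k := fun b => by
    rw [hden, M.red_sum' b _ _ fun c _ => pow_mem (hεG c b) k,
      Finset.sum_eq_single_of_mem b (Finset.mem_univ b) fun c _ hcb => by
        rw [M.red_pow b (hεG c b), hε0 c b (Ne.symm hcb), zero_pow (Nat.succ_ne_zero _)],
      M.red_pow b (hεG b b)]
  have hdinv : ∀ b, den⁻¹ ∈ M.G b ∧ M.red b den⁻¹ = (M.red b den)⁻¹ := fun b =>
    M.inv_mem_G b (hdG b) (by rw [hdr]; exact pow_ne_zero _ (hεb b))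
  set φ := ∑ b, ε b ^ k * den⁻¹ * (M.ϖ b ^ i b * z b) with hφ
  refine ⟨φ, sum_mem fun b _ => mul_mem (mul_mem (pow_mem (M.G_le b _ (hεG b b)) k)
    (M.G_le b _ (hdinv b).1)) (mul_mem (zpow_mem (M.ϖ_mem_Ω b) _) (M.G_le b _ (hz b))), fun b' => ?_⟩
  have hterm : ∀ b, ε b ^ k * den⁻¹ * (M.ϖ b ^ i b * z b) * M.ϖ b' ^ (-i b') =
      (M.ϖ b ^ i b * z b * M.ϖ b' ^ (-i b') * ε b ^ k) * den⁻¹ := fun b => by ring
  have hoff : ∀ b, b ≠ b' → M.ϖ b ^ i b * z b * M.ϖ b' ^ (-i b') * ε b ^ k ∈ M.G b' ∧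
      M.red b' (M.ϖ b ^ i b * z b * M.ϖ b' ^ (-i b') * ε b ^ k) = 0 := fun b hb =>
    hN (b, b') _ (hεG b b') (hε0 b b' (Ne.symm hb)) k
      ((Finset.single_le_sum (fun _ _ => Nat.zero_le _) (Finset.mem_univ (b, b'))).trans
        (Nat.le_succ _))
  have hdiag : M.ϖ b' ^ i b' * z b' * M.ϖ b' ^ (-i b') * ε b' ^ k = z b' * ε b' ^ k := by
    rw [mul_comm (M.ϖ b' ^ i b') (z b'), mul_assoc (z b'), ← zpow_add₀ (M.ϖ_ne b'),
      add_neg_cancel, zpow_zero, mul_one]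
  have hmem : ∀ b, M.ϖ b ^ i b * z b * M.ϖ b' ^ (-i b') * ε b ^ k * den⁻¹ ∈ M.G b' := fun b => by
    refine mul_mem ?_ (hdinv b').1
    rcases eq_or_ne b b' with rfl | hb
    · rw [hdiag]; exact mul_mem (hz b) (pow_mem (hεG b b) k)
    · exact (hoff b hb).1
  rw [hφ, Finset.sum_mul, Finset.sum_congr rfl fun b _ => hterm b]
  refine ⟨sum_mem fun b _ => hmem b, ?_⟩
  rw [M.red_sum' b' _ _ fun b _ => hmem b, Finset.sum_eq_single_of_mem b' (Finset.mem_univ b')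
    fun b _ hb => by rw [M.red_mul b' _ (hoff b hb).1 _ (hdinv b').1, (hoff b hb).2, zero_mul],
    hdiag, M.red_mul b' _ (mul_mem (hz b') (pow_mem (hεG b' b') k)) _ (hdinv b').1,
    M.red_mul b' _ (hz b') _ (pow_mem (hεG b' b') k), (hdinv b').2, hdr, hzr,
    M.red_pow b' (hεG b' b'), mul_inv_cancel_right₀ (pow_ne_zero _ (hεb b'))]

/-- a twist congruent to one in the class of `D` -/
theorem exists_twist {t : Fs} (ht : Transcendental (ResidueField A) t)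
    [FiniteDimensional (KK (ResidueField A) t) Fs] [Algebra.IsSeparable (KK (ResidueField A) t) Fs]
    (hchart : ∀ b (Q : Place (ResidueField A) Fs), InChart false (Q.ord (M.Jbar b)) → Bd Q t 0)
    {D : Divisor K F} {f : F} (hD : Divisor.degree D = 0) (hf0 : f ≠ 0)
    (hord : ∀ P : Place K F, (n : ℤ) * D P = P.ord f) (i : Fin (br + 1) → ℤ) (h : Fin (br + 1) → Fs)
    (hh : ∀ b, h b ≠ 0)
    (hfb : ∀ b, f * M.ϖ b ^ (-((n : ℤ) * i b)) ∈ M.G b ∧
      M.red b (f * M.ϖ b ^ (-((n : ℤ) * i b))) = h b ^ n) :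
    ∃ (φ : F) (W : M.Twist n), φ ∈ M.Ω ∧ φ ≠ 0 ∧ (∀ P : Place K F, W.D P = D P - P.ord φ) ∧
      W.f = f / φ ^ n := by
  obtain ⟨φ, hφΩ, hφ⟩ := M.exists_approx ht hchart i h hh
  have hφ0 : φ ≠ 0 := fun h0 => hh 0 (by rw [← (hφ 0).2, h0, zero_mul, M.red_zero])
  haveI : HasPrincipalDivisors K F := RR.hasPrincipalDivisors
  obtain ⟨E, hE, hE0⟩ := HasPrincipalDivisors.exists_divisor (K := K) (F := F) φ hφ0
  have hfb' : ∀ b, f / φ ^ n =
      (f * M.ϖ b ^ (-((n : ℤ) * i b))) * ((φ * M.ϖ b ^ (-i b)) ^ n)⁻¹ := fun b => by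
    rw [mul_pow, ← zpow_natCast (M.ϖ b ^ (-i b)) n, ← zpow_mul,
      show -i b * (n : ℤ) = -((n : ℤ) * i b) by ring, mul_inv, div_eq_mul_inv,
      mul_mul_mul_comm, mul_inv_cancel₀ (zpow_ne_zero _ (M.ϖ_ne b)), mul_one]
  have hunit : ∀ b, ((φ * M.ϖ b ^ (-i b)) ^ n)⁻¹ ∈ M.G b ∧
      M.red b ((φ * M.ϖ b ^ (-i b)) ^ n)⁻¹ = (h b ^ n)⁻¹ := fun b => by
    have hr : M.red b ((φ * M.ϖ b ^ (-i b)) ^ n) = h b ^ n := by
      rw [M.red_pow b (hφ b).1, (hφ b).2]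
    have := M.inv_mem_G b (pow_mem (hφ b).1 n) (by rw [hr]; exact pow_ne_zero _ (hh b))
    exact ⟨this.1, by rw [this.2, hr]⟩
  refine ⟨φ, ⟨D - E, f / φ ^ n, by rw [map_sub, hD, hE0, sub_zero],
    div_ne_zero hf0 (pow_ne_zero _ hφ0), fun P => ?_, fun b => ?_, fun b => ?_⟩, hφΩ, hφ0,
    fun P => by rw [Finsupp.sub_apply, hE], rfl⟩
  · rw [Finsupp.sub_apply, hE, mul_sub, hord, div_eq_mul_inv,
      P.ord_mul hf0 (inv_ne_zero (pow_ne_zero _ hφ0)), P.ord_inv, RR.ord_pow]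
    ring
  · rw [hfb' b]; exact mul_mem (hfb b).1 (hunit b).1
  · rw [hfb' b, M.red_mul b _ (hfb b).1 _ (hunit b).1, (hfb b).2, (hunit b).2,
      mul_inv_cancel₀ (pow_ne_zero _ (hh b))]

end Fib

end FLTAgent.CUBE

end
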