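import Fermat.Agent.CUBE.Assemble
import Fermat.Agent.CUBE.FibNormalise

/-!
Exponents of rational functions on the components of a fibre.
-/

set_option autoImplicit false
set_option linter.unusedSectionVars false
set_option linter.unusedVariables false
set_option linter.style.haveILetI false
set_option maxHeartbeats 600000

noncomputable section

open AlgebraicCurve IsLocalRing
open FLTAgent.RR (Bd KK)
open FLTAgent.Reduction (Val)

namespace FLTAgent.CUBE

/-- a constant with a given power -/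
theorem exists_const_root {k L : Type*} [Field k] [IsAlgClosed k] [Field L] [Algebra k L] {n : ℕ}
    (hn : n ≠ 0) {x : L} {c : k} (h : x ^ n = algebraMap k L c) :
    ∃ μ : k, x = algebraMap k L μ ∧ μ ^ n = c := by
  classical
  set p : Polynomial k := Polynomial.X ^ n - Polynomial.C c with hp
  have hp0 : p ≠ 0 := (Polynomial.monic_X_pow_sub_C c hn).ne_zero
  have hs : p.Splits := IsAlgClosed.splits p
  have hroot : x ∈ (p.map (algebraMap k L)).roots := by
    rw [Polynomial.mem_roots (Polynomial.map_ne_zero hp0)]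
    simp [hp, h]
  rw [hs.roots_map] at hroot
  obtain ⟨μ, hμ, rfl⟩ := Multiset.mem_map.mp hroot
  refine ⟨μ, rfl, ?_⟩
  have := (Polynomial.mem_roots hp0).mp hμ
  simpa [hp, sub_eq_zero] using this

/-- `exists_root_of_pow` in a field -/
theorem exists_root_of_pow₀ {L : Type*} [Field L] {n q : ℕ} (hqn : Nat.Coprime q n) {r h : L}
    (hr : r ≠ 0) (hh : h ≠ 0) (he : r ^ q = h ^ n) : ∃ g : L, g ≠ 0 ∧ r = g ^ n := by
  obtain ⟨g, hg⟩ := exists_root_of_pow hqn (r := Units.mk0 r hr) (h := Units.mk0 h hh)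
    (Units.ext (by simpa using he))
  exact ⟨g, g.ne_zero, by simpa using congrArg Units.val hg⟩

namespace Fib

variable {br : ℕ} {K : Type*} [Field K] [IsAlgClosed K] [CharZero K] {A : ValuationSubring K}
  {F : Type*} [Field F] [Algebra K F] [RR.FnField K F]
  {Fs : Type*} [Field Fs] [Algebra (ResidueField A) Fs] (M : Fib br K A F Fs) {n : ℕ}

/-- `x` has exponent `i` on the component `b` -/
def HasExp (b : Fin (br + 1)) (x : F) (i : ℤ) : Prop :=
  x * M.ϖ b ^ (-i) ∈ M.G b ∧ M.red b (x * M.ϖ b ^ (-i)) ≠ 0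

variable {M} in
theorem HasExp.ne_zero {b : Fin (br + 1)} {x : F} {i : ℤ} (h : M.HasExp b x i) : x ≠ 0 := fun h0 =>
  h.2 (by rw [h0, zero_mul, M.red_zero])

variable {M} in
theorem HasExp.mem_Ω {b : Fin (br + 1)} {x : F} {i : ℤ} (h : M.HasExp b x i) : x ∈ M.Ω := by
  have := mul_mem (M.G_le b _ h.1) (zpow_mem (M.ϖ_mem_Ω b) i)
  rwa [mul_assoc, ← zpow_add₀ (M.ϖ_ne b), neg_add_cancel, zpow_zero, mul_one] at this

variable {M} in
theorem HasExp.mul {b : Fin (br + 1)} {x y : F} {i j : ℤ} (hx : M.HasExp b x i) (hy : M.HasExp b y j) :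
    M.HasExp b (x * y) (i + j) := by
  have e : x * y * M.ϖ b ^ (-(i + j)) = (x * M.ϖ b ^ (-i)) * (y * M.ϖ b ^ (-j)) := by
    rw [neg_add, zpow_add₀ (M.ϖ_ne b)]
    ring
  refine ⟨e ▸ mul_mem hx.1 hy.1, ?_⟩
  rw [e, M.red_mul b _ hx.1 _ hy.1]
  exact mul_ne_zero hx.2 hy.2

variable {M} in
theorem HasExp.inv {b : Fin (br + 1)} {x : F} {i : ℤ} (hx : M.HasExp b x i) : M.HasExp b x⁻¹ (-i) := by
  have e : x⁻¹ * M.ϖ b ^ (- -i) = (x * M.ϖ b ^ (-i))⁻¹ := by
    rw [mul_inv, ← zpow_neg]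
  have h := M.inv_mem_G b hx.1 hx.2
  refine ⟨e ▸ h.1, ?_⟩
  rw [e, h.2]
  exact inv_ne_zero hx.2

variable {M} in
theorem HasExp.pow {b : Fin (br + 1)} {x : F} {i : ℤ} (hx : M.HasExp b x i) :
    ∀ k : ℕ, M.HasExp b (x ^ k) (k * i)
  | 0 => by
    refine ⟨?_, ?_⟩ <;> simp [M.red_one, one_mem]
  | k + 1 => by
    have h := (HasExp.pow hx k).mul hx
    rw [show (k : ℤ) * i + i = ((k + 1 : ℕ) : ℤ) * i by push_cast; ring, ← pow_succ] at h
    exact h

variable {M} in
theorem HasExp.zpow {b : Fin (br + 1)} {x : F} {i : ℤ} (hx : M.HasExp b x i) :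
    ∀ k : ℤ, M.HasExp b (x ^ k) (k * i)
  | .ofNat k => by simpa using hx.pow k
  | .negSucc k => by
    have h := (hx.pow (k + 1)).inv
    rw [show Int.negSucc k * i = -(((k + 1 : ℕ) : ℤ) * i) by
      rw [Int.negSucc_eq]; push_cast; ring, zpow_negSucc]
    exact h

variable {M} in
theorem HasExp.unique {b : Fin (br + 1)} {x : F} {i j : ℤ} (hi : M.HasExp b x i) (hj : M.HasExp b x j) :
    i = j := by
  have key : ∀ {i j : ℤ}, M.HasExp b x i → M.HasExp b x j → i ≤ j := by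
    intro i j hi hj
    by_contra hlt
    refine hj.2 ?_
    have h := (M.zpow_ϖ_mul b hi.1 (show 1 ≤ i - j by omega)).2
    rwa [mul_left_comm, ← zpow_add₀ (M.ϖ_ne b), show i - j + -i = -j by ring] at h
  exact le_antisymm (key hi hj) (key hj hi)

theorem exists_hasExp (b : Fin (br + 1)) {x : F} (hx : x ∈ M.Ω) (hx0 : x ≠ 0) : ∃ i, M.HasExp b x i :=
  M.exists_scale b x hx hx0

variable {M} in
theorem HasExp.zero_iff {b : Fin (br + 1)} {x : F} :
    M.HasExp b x 0 ↔ x ∈ M.G b ∧ M.red b x ≠ 0 := by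
  simp [HasExp]

theorem hasExp_q (b : Fin (br + 1)) : M.HasExp b (algebraMap K F (M.q : K)) (M.e b) := by
  have h := M.q_eq b
  rwa [← zpow_natCast, ← zpow_neg] at h

/-- exponents of rational constants -/
theorem exists_hasExp_const {c : K} (hc : c ∈ M.T) (hc0 : c ≠ 0) :
    ∃ l : ℤ, A.valuation c = A.valuation (M.q : K) ^ l ∧
      ∀ b, M.HasExp b (algebraMap K F c) (l * M.e b) := by
  obtain ⟨l, hl⟩ := M.val_T c hc hc0
  refine ⟨l, hl, fun b => ?_⟩
  set u := c * ((M.q : K) ^ l)⁻¹ with hu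
  have huT : u ∈ M.T := mul_mem hc (inv_mem (zpow_mem M.q_mem_T _))
  have hval : A.valuation u = 1 := by
    rw [hu, map_mul, map_inv₀, map_zpow₀, hl, mul_inv_cancel₀]
    exact zpow_ne_zero _ ((_root_.map_ne_zero _).mpr M.q_ne)
  have huA : u ∈ A := by rw [← A.valuation_le_one_iff, hval]
  have hur : residue A ⟨u, huA⟩ ≠ 0 := by
    rw [Ne, residue_eq_zero_iff, ValuationSubring.valuation_lt_one_iff]
    simp [hval]
  have h1 : M.HasExp b (algebraMap K F u) 0 := by
    rw [HasExp.zero_iff]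
    refine ⟨M.const_mem b ⟨u, huA⟩ huT, ?_⟩
    rw [M.red_const b ⟨u, huA⟩ huT]
    exact (_root_.map_ne_zero _).mpr hur
  have h := ((M.hasExp_q b).zpow l).mul h1
  rwa [add_zero, ← map_zpow₀, ← map_mul,
    show (M.q : K) ^ l * u = c by
      rw [hu, mul_left_comm, mul_inv_cancel₀ (zpow_ne_zero _ M.q_ne), mul_one]] at h

variable {M}

theorem mem_A_of_hasExp {c : K} (hc : c ∈ M.T) (hc0 : c ≠ 0) {b : Fin (br + 1)}
    (h : M.HasExp b (algebraMap K F c) 0) : c ∈ A := by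
  obtain ⟨l, hl, hl'⟩ := M.exists_hasExp_const hc hc0
  have h0 := (hl' b).unique h
  have : l = 0 := (mul_eq_zero.mp h0).resolve_right (by exact_mod_cast (M.e_pos b).ne')
  rw [← A.valuation_le_one_iff, hl, this, zpow_zero]

/-- a unit on a component: exponent zero -/
theorem HasExp.red_ne {b : Fin (br + 1)} {x : F} (h : M.HasExp b x 0) : M.red b x ≠ 0 :=
  (HasExp.zero_iff.mp h).2

theorem HasExp.mem_G {b : Fin (br + 1)} {x : F} (h : M.HasExp b x 0) : x ∈ M.G b :=
  (HasExp.zero_iff.mp h).1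

/-- roots of functions bounded at a place -/
theorem bd_of_pow {v : Place K F} {x : F} {k : ℕ} (hk : k ≠ 0) (h : Bd v (x ^ k) 0) : Bd v x 0 := by
  rcases eq_or_ne x 0 with rfl | hx
  · exact RR.Bd.zero
  rw [RR.bd_iff_ord (pow_ne_zero _ hx), RR.ord_pow] at h
  rw [RR.bd_iff_ord hx]
  have : (1 : ℤ) ≤ k := by exact_mod_cast Nat.pos_of_ne_zero hk
  nlinarith

end Fib

end FLTAgent.CUBE
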