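import Fermat.Agent.CUBE.Fib
import Fermat.Agent.Reduction.Charts
import Fermat.Agent.SS.Basic

/-!
From local twisted sections with values on a fixed line at every point of the special fibre to
residual roots on a chart.
-/

set_option autoImplicit false
set_option linter.unusedSectionVars false
set_option linter.unusedVariables false

noncomputable section

open AlgebraicCurve IsLocalRing
open FLTAgent.RR (Bd KK)
open FLTAgent.Reduction (Val regOn)

namespace FLTAgent.CUBE.Fib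

variable {br : ℕ} {K : Type*} [Field K] [IsAlgClosed K] [CharZero K] {A : ValuationSubring K}
  {F : Type*} [Field F] [Algebra K F] [RR.FnField K F]
  {Fs : Type*} [Field Fs] [Algebra (ResidueField A) Fs] (M : Fib br K A F Fs) {n : ℕ}


theorem GI_iff {x : F} : x ∈ M.GI ↔ ∀ b, x ∈ M.G b := by simp [GI, Subring.mem_iInf]

theorem red_zero (b : Fin (br + 1)) : M.red b 0 = 0 := by
  have h := M.red_add b 0 (zero_mem _) 0 (zero_mem _)
  rw [add_zero] at h
  exact left_eq_add.mp h

theorem red_sub (b : Fin (br + 1)) {x y : F} (hx : x ∈ M.G b) (hy : y ∈ M.G b) :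
    M.red b (x - y) = M.red b x - M.red b y := by
  rw [eq_sub_iff_add_eq, ← M.red_add b _ (sub_mem hx hy) _ hy, sub_add_cancel]

theorem red_pow (b : Fin (br + 1)) {x : F} (hx : x ∈ M.G b) : ∀ k : ℕ, M.red b (x ^ k) = M.red b x ^ k
  | 0 => by simp [M.red_one]
  | k + 1 => by rw [pow_succ, pow_succ, M.red_mul b _ (pow_mem hx k) _ hx, red_pow b hx k]

/-- constants in the chart -/
theorem exists_const (s : Bool) (v : (ResidueField A)) :
    ∃ t ∈ M.R s, ∀ b, M.red b t = algebraMap (ResidueField A) Fs v := by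
  obtain ⟨a, rfl⟩ := residue_surjective v
  obtain ⟨t, htT, ht⟩ := M.res_T a
  refine ⟨algebraMap K F (t : K), ⟨M.GI_iff.mpr fun b => M.const_mem b t htT, fun P _ => ?_⟩,
    fun b => ?_⟩
  · simpa using RR.Bd.of_algebraMap (v := P) (t : K)
  · rw [M.red_const b t htT, ht]

/-- two points of branches with the same maximal ideal in the chart -/
def SamePt (s : Bool) (b : Fin (br + 1)) (Q : Place (ResidueField A) Fs) (b' : Fin (br + 1)) (Q' : Place (ResidueField A) Fs) : Prop :=
  ∀ x ∈ M.R s, Val Q (M.red b x) 0 ↔ Val Q' (M.red b' x) 0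

theorem val_exists {s : Bool} {b : Fin (br + 1)} {Q : Place (ResidueField A) Fs} (hQ : InChart s (Q.ord (M.Jbar b)))
    {x : F} (hx : x ∈ M.R s) : ∃ v, Val Q (M.red b x) v :=
  Reduction.exists_val (M.hasRes Q) (M.regular s x (M.GI_iff.mp hx.1) (by simpa [OnChart] using hx.2) b Q hQ)

/-- roots of regular functions are regular -/
theorem bd_pow_iff' {v : Place (ResidueField A) Fs} {x : Fs} {k : ℕ} (hk : k ≠ 0)
    (h : Bd v (x ^ k) 0) : Bd v x 0 := by
  rcases eq_or_ne x 0 with rfl | hx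
  · exact RR.Bd.zero
  rw [RR.bd_iff_ord (pow_ne_zero _ hx), RR.ord_pow] at h
  rw [RR.bd_iff_ord hx]
  have : (1 : ℤ) ≤ k := by exact_mod_cast Nat.pos_of_ne_zero hk
  nlinarith

theorem SamePt.val_eq {s : Bool} {b b' : Fin (br + 1)} {Q Q' : Place (ResidueField A) Fs} (h : M.SamePt s b Q b' Q')
    {x : F} (hx : x ∈ M.R s) {v : (ResidueField A)} (hv : Val Q (M.red b x) v) : Val Q' (M.red b' x) v := by
  obtain ⟨t, ht, htr⟩ := M.exists_const s v
  have h1 : Val Q (M.red b (x - t)) 0 := by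
    rw [M.red_sub b (M.GI_iff.mp hx.1 b) (M.GI_iff.mp ht.1 b), htr]
    simpa using hv.sub (Val.const v)
  have h2 := (h (x - t) (sub_mem hx ht)).mp h1
  rw [M.red_sub b' (M.GI_iff.mp hx.1 b') (M.GI_iff.mp ht.1 b'), htr] at h2
  have := h2.add (Val.const (v := Q') v)
  simpa using this

theorem SamePt.symm {s : Bool} {b b' : Fin (br + 1)} {Q Q' : Place (ResidueField A) Fs} (h : M.SamePt s b Q b' Q') :
    M.SamePt s b' Q' b Q := fun x hx => (h x hx).symm

/-- a function vanishing at a different point, one at the given one -/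
theorem exists_sep {s : Bool} {b b' : Fin (br + 1)} {Q Q' : Place (ResidueField A) Fs}
    (hQ : InChart s (Q.ord (M.Jbar b))) (hQ' : InChart s (Q'.ord (M.Jbar b')))
    (h : ¬ M.SamePt s b Q b' Q') :
    ∃ z ∈ M.R s, Val Q (M.red b z) 1 ∧ Val Q' (M.red b' z) 0 := by
  obtain ⟨x, hx, v, v', hv, hv', hne⟩ :
      ∃ x ∈ M.R s, ∃ v v', Val Q (M.red b x) v ∧ Val Q' (M.red b' x) v' ∧ v ≠ v' := by
    by_contra hc
    push Not at hc
    refine h fun x hx => ?_
    obtain ⟨v, hv⟩ := M.val_exists hQ hx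
    obtain ⟨v', hv'⟩ := M.val_exists hQ' hx
    have := hc x hx v v' hv hv'
    constructor <;> intro h0
    · rw [hv.unique h0] at this; rwa [← this] at hv'
    · rw [hv'.unique h0] at this; rwa [this] at hv
  obtain ⟨t, ht, htr⟩ := M.exists_const s v'
  obtain ⟨r, hr, hrr⟩ := M.exists_const s (v - v')⁻¹
  have hne' : v - v' ≠ 0 := sub_ne_zero.mpr hne
  have hxt := sub_mem hx ht
  have hb : ∀ c, M.red c (r * (x - t)) =
      algebraMap (ResidueField A) Fs (v - v')⁻¹ * (M.red c x - algebraMap (ResidueField A) Fs v') := fun c => by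
    rw [M.red_mul c _ (M.GI_iff.mp hr.1 c) _ (M.GI_iff.mp hxt.1 c),
      M.red_sub c (M.GI_iff.mp hx.1 c) (M.GI_iff.mp ht.1 c), htr, hrr]
  refine ⟨r * (x - t), mul_mem hr hxt, ?_, ?_⟩
  · have h1 := (Val.const (v := Q) (v - v')⁻¹).mul (hv.sub (Val.const v'))
    rwa [inv_mul_cancel₀ hne', ← hb] at h1
  · have h1 := (Val.const (v := Q') (v - v')⁻¹).mul (hv'.sub (Val.const v'))
    rwa [sub_self, mul_zero, ← hb] at h1

section

variable (t : Bool → Fs) (htr : ∀ s, Transcendental (ResidueField A) (t s))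
  (hfd : ∀ s, FiniteDimensional (KK (ResidueField A) (t s)) Fs)
  (hsep : ∀ s, Algebra.IsSeparable (KK (ResidueField A) (t s)) Fs)
  (hchart : ∀ s b (Q : Place (ResidueField A) Fs), InChart s (Q.ord (M.Jbar b)) ↔ Bd Q (t s) 0)
  (p : ℕ) [Fact p.Prime] [CharP (ResidueField A) p] [IsAlgClosed (ResidueField A)]

include htr hfd hsep hchart in
/-- an ideal of the chart ring with no zero is everything -/
theorem one_mem_of_no_zero (s : Bool) (J : Ideal (M.R s))
    (hker : ∀ x : M.R s, (∀ b, M.red b (x : F) = 0) → x ∈ J)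
    (hzero : ∀ b (Q : Place (ResidueField A) Fs), InChart s (Q.ord (M.Jbar b)) →
      ∃ x ∈ J, ¬ Val Q (M.red b (x : F)) 0) : (1 : M.R s) ∈ J := by
  classical
  have hstep : ∀ b, ∃ x ∈ J, M.red b (x : F) = 1 := by
    intro b
    haveI := hfd s
    haveI := hsep s
    let I : Ideal (regOn (ResidueField A) (t s)) :=
      { carrier := {φ | ∃ x ∈ J, M.red b (x : F) = (φ : Fs)}
        add_mem' := by
          rintro φ ψ ⟨x, hx, hxr⟩ ⟨y, hy, hyr⟩
          refine ⟨x + y, add_mem hx hy, ?_⟩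
          rw [Subring.coe_add, M.red_add b _ (M.GI_iff.mp x.2.1 b) _ (M.GI_iff.mp y.2.1 b), hxr, hyr]
          rfl
        zero_mem' := ⟨0, zero_mem _, by simp [M.red_zero]⟩
        smul_mem' := by
          rintro ⟨φ, hφ⟩ ψ ⟨x, hx, hxr⟩
          obtain ⟨w, hw, hwc, hwr⟩ := M.lift s b φ fun Q hQ => hφ Q ((hchart s b Q).mp hQ)
          refine ⟨⟨w, M.GI_iff.mpr hw, by simpa [OnChart] using hwc⟩ * x, J.mul_mem_left _ hx, ?_⟩
          rw [Subring.coe_mul, M.red_mul b _ (hw b) _ (M.GI_iff.mp x.2.1 b), hwr, hxr]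
          rfl }
    have hI : I = ⊤ := by
      by_contra hI
      obtain ⟨Q, hQ, hQI⟩ := Reduction.exists_place_of_ideal (htr s) I hI
      obtain ⟨x, hx, hxQ⟩ := hzero b Q ((hchart s b Q).mpr hQ)
      refine hxQ ?_
      have hreg : M.red b (x : F) ∈ regOn (ResidueField A) (t s) := fun Q' hQ' =>
        M.regular s x (M.GI_iff.mp x.2.1) (by simpa [OnChart] using x.2.2) b Q'
          ((hchart s b Q').mpr hQ')
      have := hQI ⟨_, hreg⟩ ⟨x, hx, rfl⟩
      rwa [Val, map_zero, sub_zero]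
    obtain ⟨x, hx, hxr⟩ := (Ideal.eq_top_iff_one I).mp hI
    exact ⟨x, hx, hxr⟩
  choose x hx hxr using hstep
  have h1 : (∏ b, (1 - x b)) - 1 ∈ J := by
    rw [← Ideal.Quotient.eq]
    simp [map_prod, Ideal.Quotient.eq_zero_iff_mem.mpr (hx _)]
  have h2 : ∏ b, (1 - x b) ∈ J := hker _ fun b => by
    rw [← Finset.mul_prod_erase _ _ (Finset.mem_univ b), Subring.coe_mul,
      M.red_mul b _ (M.GI_iff.mp (1 - x b).2.1 b) _
        (M.GI_iff.mp (∏ c ∈ Finset.univ.erase b, (1 - x c)).2.1 b),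
      show ((1 - x b : M.R s) : F) = 1 - (x b : F) from rfl,
      M.red_sub b (one_mem _) (M.GI_iff.mp (x b).2.1 b), M.red_one, hxr, sub_self, zero_mul]
  simpa using J.sub_mem h2 h1

include htr hfd hsep hchart p in
/-- residual roots from local twisted sections with values on the line of `ω` -/
theorem exists_roots (hn : (n : (ResidueField A)) ≠ 0) (W : M.Twist n) (ω : Fin (br + 1) → (ResidueField A)) (hω : ∀ b, ω b ^ n = 1)
    (hgen : ∀ s b (Q : Place (ResidueField A) Fs), InChart s (Q.ord (M.Jbar b)) →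
      ∃ g ∈ M.I W.D s, ∃ c : (ResidueField A), c ≠ 0 ∧ ∀ b' (Q' : Place (ResidueField A) Fs), InChart s (Q'.ord (M.Jbar b')) →
        M.SamePt s b Q b' Q' → Val Q' (M.red b' g) (c * ω b'))
    (s : Bool) : ∃ x ∈ M.I W.D s, ∀ b, M.red b x = algebraMap (ResidueField A) Fs (ω b) := by
  classical
  have hn0 : n ≠ 0 := fun h => hn (by simp [h])
  have hp : p.Prime := Fact.out
  haveI : CharP Fs p := charP_of_injective_algebraMap (algebraMap (ResidueField A) Fs).injective p
  -- the ideal of chart functions times which `ω` lifts to a twisted section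
  let J : Ideal (M.R s) :=
    { carrier := {e | ∃ x ∈ M.I W.D s, ∀ b, M.red b x = algebraMap (ResidueField A) Fs (ω b) * M.red b (e : F)}
      add_mem' := by
        rintro e e' ⟨x, hx, hxr⟩ ⟨x', hx', hxr'⟩
        refine ⟨x + x', add_mem hx hx', fun b => ?_⟩
        rw [M.red_add b _ (M.GI_iff.mp hx.1 b) _ (M.GI_iff.mp hx'.1 b), hxr, hxr', Subring.coe_add,
          M.red_add b _ (M.GI_iff.mp e.2.1 b) _ (M.GI_iff.mp e'.2.1 b), mul_add]
      zero_mem' := ⟨0, zero_mem _, fun b => by simp [M.red_zero]⟩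
      smul_mem' := by
        rintro r e ⟨x, hx, hxr⟩
        refine ⟨(r : F) * x, (M.I W.D s).smul_mem r hx, fun b => ?_⟩
        rw [M.red_mul b _ (M.GI_iff.mp r.2.1 b) _ (M.GI_iff.mp hx.1 b), hxr, smul_eq_mul,
          Subring.coe_mul, M.red_mul b _ (M.GI_iff.mp r.2.1 b) _ (M.GI_iff.mp e.2.1 b)]
        ring }
  suffices h1 : (1 : M.R s) ∈ J by
    obtain ⟨x, hx, hxr⟩ := h1
    exact ⟨x, hx, fun b => by rw [hxr b, Subring.coe_one, M.red_one, mul_one]⟩
  refine M.one_mem_of_no_zero t htr hfd hsep hchart s J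
    (fun e he => ⟨0, zero_mem _, fun b => by rw [he b, mul_zero, M.red_zero]⟩) ?_
  intro b Q hQ
  obtain ⟨g, hg, c, hc, hgv⟩ := hgen s b Q hQ
  -- the unit `u = g ^ n f`
  have hgG := M.GI_iff.mp hg.1
  set u := g ^ n * W.f
  have huG : ∀ b', u ∈ M.G b' := fun b' => mul_mem (pow_mem (hgG b') n) (W.f_mem b')
  have huc : ∀ P : Place K F, InChart s (P.ord M.J) → Bd P u 0 := fun P hP => by
    rcases eq_or_ne g 0 with hg0 | hg0
    · simp only [u, hg0, zero_pow hn0, zero_mul]; exact RR.Bd.zero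
    have h := (RR.bd_iff_ord hg0).mp (hg.2 P hP)
    rw [RR.bd_iff_ord (mul_ne_zero (pow_ne_zero _ hg0) W.f_ne),
      P.ord_mul (pow_ne_zero _ hg0) W.f_ne, RR.ord_pow, ← W.ord_f]
    nlinarith
  have huR : u ∈ M.R s := ⟨M.GI_iff.mpr huG, by simpa [OnChart] using huc⟩
  have hur : ∀ b', M.red b' u = M.red b' g ^ n := fun b' => by
    rw [M.red_mul b' _ (pow_mem (hgG b') n) _ (W.f_mem b'), W.red_f, mul_one,
      M.red_pow b' (hgG b')]
  have hgreg : ∀ b' (Q' : Place (ResidueField A) Fs), InChart s (Q'.ord (M.Jbar b')) →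
      Bd Q' (M.red b' g) 0 := fun b' Q' hQ' => by
    have h := M.regular s u huG huc b' Q' hQ'
    rw [hur] at h
    exact bd_pow_iff' hn0 (by simpa using h)
  -- separating functions and a large power of `p`
  choose ε hεG hεc hεb hε0 using fun b' => M.separated s b'
  have hεR : ∀ b', ε b' ∈ M.R s := fun b' =>
    ⟨M.GI_iff.mpr (hεG b'), by simpa [OnChart] using hεc b'⟩
  set supp : Fin (br + 1) → Finset (Place (ResidueField A) Fs) := fun b' => (M.finite_ord _ (hεb b')).toFinset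
  set d := ∑ b', ∑ Q' ∈ supp b', (Q'.ord (M.red b' (ε b'))).natAbs
  have hd : ∀ (b' : Fin (br + 1)) (Q' : Place (ResidueField A) Fs), Q'.ord (M.red b' (ε b')) ≤ (d : ℤ) := fun b' Q' => by
    by_cases h : Q'.ord (M.red b' (ε b')) = 0
    · rw [h]; exact Int.natCast_nonneg d
    have h1 : (Q'.ord (M.red b' (ε b'))).natAbs ≤ d :=
      le_trans (Finset.single_le_sum (f := fun Q' : Place (ResidueField A) Fs => (Q'.ord (M.red b' (ε b'))).natAbs)
        (fun _ _ => Nat.zero_le _) (show Q' ∈ supp b' from (Set.Finite.mem_toFinset _).mpr h))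
        (Finset.single_le_sum (f := fun b' => ∑ Q' ∈ supp b', (Q'.ord (M.red b' (ε b'))).natAbs)
          (fun _ _ => Nat.zero_le _) (Finset.mem_univ b'))
    have := Int.le_natAbs (a := Q'.ord (M.red b' (ε b')))
    omega
  set N := p ^ d
  have hNd : d ≤ N := (Nat.lt_pow_self hp.one_lt).le
  obtain ⟨a, β, hab⟩ : ∃ a β : ℕ, a * n = 1 + β * N := by
    have hcop : Nat.Coprime n N := Nat.Coprime.pow_right _ (Nat.Coprime.symm
      ((Nat.Prime.coprime_iff_not_dvd hp).mpr fun h => hn ((CharP.cast_eq_zero_iff (ResidueField A) p n).mpr h)))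
    have hN : 0 < N := pow_pos hp.pos d
    have ht := Nat.ModEq.pow_totient hcop
    have hpos : 0 < Nat.totient N := Nat.totient_pos.mpr hN
    refine ⟨n ^ (Nat.totient N - 1), (n ^ Nat.totient N - 1) / N, ?_⟩
    have h1 : 1 ≤ n ^ Nat.totient N := Nat.one_le_pow _ _ (Nat.pos_of_ne_zero hn0)
    rw [← pow_succ, Nat.sub_add_cancel hpos,
      Nat.div_mul_cancel ((Nat.modEq_iff_dvd' h1).mp ht.symm), Nat.add_sub_cancel' h1]
  -- killing the other zeros of the separating functions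
  obtain ⟨e₀, he₀R, he₀Q, he₀⟩ : ∃ e₀ ∈ M.R s, Val Q (M.red b e₀) 1 ∧
      ∀ b' (Q' : Place (ResidueField A) Fs), InChart s (Q'.ord (M.Jbar b')) → Q'.ord (M.red b' (ε b')) ≠ 0 →
        ¬ M.SamePt s b Q b' Q' → Bd Q' (M.red b' e₀) (-(N : ℤ)) := by
    set bad := (Finset.univ.sigma supp).filter fun x : (_ : Fin (br + 1)) × Place (ResidueField A) Fs =>
      InChart s (x.2.ord (M.Jbar x.1)) ∧ ¬ M.SamePt s b Q x.1 x.2
    have hsep' : ∀ x : bad, ∃ z ∈ M.R s, Val Q (M.red b z) 1 ∧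
        Val x.1.2 (M.red x.1.1 z) 0 := fun x =>
      M.exists_sep hQ (Finset.mem_filter.mp x.2).2.1 (Finset.mem_filter.mp x.2).2.2
    choose z hzR hz1 hz0 using hsep'
    refine ⟨∏ x : bad, z x ^ N, prod_mem fun x _ => pow_mem (hzR x) N, ?_, fun b' Q' hQ' hne hns => ?_⟩
    · have hh : ∀ S : Finset bad, Val Q (M.red b (∏ x ∈ S, z x ^ N)) 1 := fun S => by
        induction S using Finset.induction_on with
        | empty => simpa [M.red_one] using Val.one (v := Q)
        | insert x S hx ih =>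
            rw [Finset.prod_insert hx, M.red_mul b _ (pow_mem (M.GI_iff.mp (hzR x).1 b) N) _
              (M.GI_iff.mp (prod_mem (f := fun x => z x ^ N) fun x _ => pow_mem (hzR x) N :
                (∏ x ∈ S, z x ^ N) ∈ M.R s).1 b), M.red_pow b (M.GI_iff.mp (hzR x).1 b)]
            simpa using ((hz1 x).pow N).mul ih
      exact hh _
    · have hmem : (⟨b', Q'⟩ : (_ : Fin (br + 1)) × Place (ResidueField A) Fs) ∈ bad :=
        Finset.mem_filter.mpr ⟨Finset.mem_sigma.mpr ⟨Finset.mem_univ _,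
          (Set.Finite.mem_toFinset _).mpr hne⟩, hQ', hns⟩
      have hrest : (∏ x ∈ Finset.univ.erase (⟨_, hmem⟩ : bad), z x ^ N) ∈ M.R s :=
        prod_mem fun x _ => pow_mem (hzR x) N
      rw [← Finset.mul_prod_erase _ _ (Finset.mem_univ (⟨_, hmem⟩ : bad)),
        M.red_mul b' _ (pow_mem (M.GI_iff.mp (hzR _).1 b') N) _ (M.GI_iff.mp hrest.1 b'),
        M.red_pow b' (M.GI_iff.mp (hzR _).1 b')]
      have h1 : Bd Q' (M.red b' (z ⟨_, hmem⟩)) (-1) := by
        have := hz0 ⟨_, hmem⟩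
        rwa [Val, map_zero, sub_zero] at this
      have h3 := M.regular s _ (M.GI_iff.mp hrest.1) (by simpa [OnChart] using hrest.2) b' Q' hQ'
      simpa using (h1.pow N).mul h3
  -- the correction
  set ψ : Fin (br + 1) → Fs := fun b' =>
    (M.red b' g * algebraMap (ResidueField A) Fs (c * ω b')⁻¹) ^ (β * N)
  set ρ : Fin (br + 1) → Fs := fun b' => (ψ b' - 1) * M.red b' e₀ / M.red b' (ε b')
  have hωne : ∀ b', ω b' ≠ 0 := fun b' h => by simpa [h, zero_pow hn0] using hω b'
  have hρ : ∀ b' (Q' : Place (ResidueField A) Fs), InChart s (Q'.ord (M.Jbar b')) → Bd Q' (ρ b') 0 := by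
    intro b' Q' hQ'
    have hψreg : Bd Q' (ψ b') 0 := by
      simpa [ψ] using ((hgreg b' Q' hQ').mul (RR.Bd.of_algebraMap (c * ω b')⁻¹)).pow (β * N)
    have hψ1 : Bd Q' (ψ b' - 1) 0 := hψreg.sub (by simpa using RR.Bd.of_algebraMap (v := Q') (1 : (ResidueField A)))
    have he₀reg := M.regular s e₀ (M.GI_iff.mp he₀R.1) (by simpa [OnChart] using he₀R.2) b' Q' hQ'
    simp only [ρ]
    rw [RR.bd_div_iff (hεb b'), zero_sub]
    by_cases hne : Q'.ord (M.red b' (ε b')) = 0
    · rw [hne]; simpa using hψ1.mul he₀reg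
    by_cases hsame : M.SamePt s b Q b' Q'
    · have hval := (hgv b' Q' hQ' hsame).mul (Val.const (v := Q') (c * ω b')⁻¹)
      rw [mul_inv_cancel₀ (mul_ne_zero hc (hωne b'))] at hval
      have h1 := hval.pow β
      rw [one_pow, Val, map_one] at h1
      have hchar : ψ b' - 1 =
          ((M.red b' g * algebraMap (ResidueField A) Fs (c * ω b')⁻¹) ^ β - 1) ^ N := by
        simp only [ψ, N, pow_mul]
        rw [sub_pow_char_pow, one_pow]
      rw [hchar]
      refine ((h1.pow N).mul he₀reg).mono ?_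
      have := hd b' Q'
      have : (d : ℤ) ≤ N := by exact_mod_cast hNd
      omega
    · refine (hψ1.mul (he₀ b' Q' hQ' hne hsame)).mono ?_
      have := hd b' Q'
      have : (d : ℤ) ≤ N := by exact_mod_cast hNd
      omega
  choose w hwG hwc hwr using fun b' => M.lift s b' (ρ b') (hρ b')
  set y := e₀ + ∑ b', ε b' * w b'
  have hwR : ∀ b', w b' ∈ M.R s := fun b' =>
    ⟨M.GI_iff.mpr (hwG b'), by simpa [OnChart] using hwc b'⟩
  have hyR : y ∈ M.R s := add_mem he₀R (sum_mem fun b' _ => mul_mem (hεR b') (hwR b'))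
  have hyr : ∀ b', M.red b' y = ψ b' * M.red b' e₀ := by
    intro b'
    have hrest : (∑ x ∈ Finset.univ.erase b', ε x * w x) ∈ M.R s :=
      sum_mem fun x _ => mul_mem (hεR x) (hwR x)
    have hzero : ∀ S : Finset (Fin (br + 1)), b' ∉ S → M.red b' (∑ x ∈ S, ε x * w x) = 0 := by
      intro S
      induction S using Finset.induction_on with
      | empty => intro _; simp [M.red_zero]
      | insert x S hx ih =>
          intro h
          simp only [Finset.mem_insert, not_or] at h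
          rw [Finset.sum_insert hx, M.red_add b' _ (mul_mem (hεG x b') (hwG x b')) _
            (sum_mem fun x _ => mul_mem (hεG x b') (hwG x b')), ih h.2,
            M.red_mul b' _ (hεG x b') _ (hwG x b'), hε0 x b' h.1, zero_mul, add_zero]
    simp only [y]
    rw [← Finset.add_sum_erase _ _ (Finset.mem_univ b'),
      M.red_add b' _ (M.GI_iff.mp he₀R.1 b') _
        (add_mem (mul_mem (hεG b' b') (hwG b' b')) (M.GI_iff.mp hrest.1 b')),
      M.red_add b' _ (mul_mem (hεG b' b') (hwG b' b')) _ (M.GI_iff.mp hrest.1 b'),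
      hzero _ (Finset.notMem_erase b' _), M.red_mul b' _ (hεG b' b') _ (hwG b' b'), hwr, add_zero]
    simp only [ρ]
    rw [mul_div_cancel₀ _ (hεb b')]
    ring
  obtain ⟨t₀, ht₀, ht₀r⟩ := M.exists_const s (c ^ (β * N))
  refine ⟨⟨u ^ a * e₀, mul_mem (pow_mem huR a) he₀R⟩,
    ⟨(t₀ * y) * g, (M.I W.D s).smul_mem ⟨t₀ * y, mul_mem ht₀ hyR⟩ hg, fun b' => ?_⟩, ?_⟩
  · have hcne : algebraMap (ResidueField A) Fs c ≠ 0 := (_root_.map_ne_zero _).mpr hc
    have hwne : algebraMap (ResidueField A) Fs (ω b') ≠ 0 := (_root_.map_ne_zero _).mpr (hωne b')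
    have hwn : algebraMap (ResidueField A) Fs (ω b') ^ n = 1 := by rw [← map_pow, hω, map_one]
    rw [M.red_mul b' _ (mul_mem (M.GI_iff.mp ht₀.1 b') (M.GI_iff.mp hyR.1 b')) _ (hgG b'),
      M.red_mul b' _ (M.GI_iff.mp ht₀.1 b') _ (M.GI_iff.mp hyR.1 b'), ht₀r, hyr]
    show _ = algebraMap (ResidueField A) Fs (ω b') * M.red b' (u ^ a * e₀)
    rw [M.red_mul b' _ (pow_mem (huG b') a) _ (M.GI_iff.mp he₀R.1 b'), M.red_pow b' (huG b'), hur,
      ← pow_mul, mul_comm n a, hab]
    simp only [ψ, map_pow, map_inv₀, map_mul]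
    have hwN : algebraMap (ResidueField A) Fs (ω b') * algebraMap (ResidueField A) Fs (ω b') ^ (β * N) = 1 := by
      rw [← pow_succ', add_comm, ← hab, mul_comm, pow_mul, hwn, one_pow]
    rw [pow_add, pow_one, mul_pow, mul_inv, mul_pow, inv_pow, inv_pow]
    field_simp
    linear_combination (-M.red b' g ^ (β * N) * M.red b' e₀ * M.red b' g) * hwN
  · intro h0
    have h1 : Val Q (M.red b (u ^ a * e₀)) ((c * ω b) ^ (n * a)) := by
      rw [M.red_mul b _ (pow_mem (huG b) a) _ (M.GI_iff.mp he₀R.1 b), M.red_pow b (huG b), hur,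
        ← pow_mul]
      have h2 := ((hgv b Q hQ (fun x _ => Iff.rfl)).pow (n * a)).mul he₀Q
      rwa [mul_one] at h2
    exact pow_ne_zero _ (mul_ne_zero hc (hωne b)) (h1.unique h0)

end

end FLTAgent.CUBE.Fib
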