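import Fermat.Agent.CUBE.FibGen
import Fermat.Agent.CUBE.FibLattice

/-!
Trivialised divisors on a fibre: the inverse, and finiteness of the sections from one section of
the inverse.
-/

set_option autoImplicit false
set_option linter.unusedSectionVars false

noncomputable section

open AlgebraicCurve IsLocalRing
open FLTAgent.RR (Bd)

namespace FLTAgent.CUBE.Fib

variable {br : ℕ} {K : Type*} [Field K] [IsAlgClosed K] [CharZero K] {A : ValuationSubring K}
  {F : Type*} [Field F] [Algebra K F] [RR.FnField K F]
  {Fs : Type*} [Field Fs] [Algebra (ResidueField A) Fs] {M : Fib br K A F Fs} {n : ℕ}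

/-- the inverse of a trivialised divisor -/
def Triv.inv (W : M.Triv n) : M.Triv n where
  D := -W.D
  f := W.f⁻¹
  f_ne := inv_ne_zero W.f_ne
  ord_f P := by rw [Finsupp.neg_apply, P.ord_inv, ← W.ord_f, mul_neg]
  f_mem b := (M.inv_mem_G b (W.f_mem b) (W.red_ne b)).1
  red_ne b := by
    rw [(M.inv_mem_G b (W.f_mem b) (W.red_ne b)).2]
    exact inv_ne_zero (W.red_ne b)

/-- a nonzero section of the inverse divisor embeds the sections in the chart ring -/
theorem fg_of_section (M : Fib br K A F Fs) {D : Divisor K F} {s : Bool} {m : F}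
    (hm : m ∈ M.I (-D) s) (hm0 : m ≠ 0) : (M.I D s).FG := by
  haveI := M.isNoetherianRing_R' s
  let φ : M.I D s →ₗ[M.R s] M.R s :=
    { toFun := fun x => ⟨m * x, mul_mem hm.1 x.2.1, fun P hP => by
        simpa using (hm.2 P hP).mul (x.2.2 P hP)⟩
      map_add' := fun x y => Subtype.ext (mul_add _ _ _)
      map_smul' := fun r x => Subtype.ext (by
        show m * ((r : F) * (x : F)) = (r : F) * (m * (x : F))
        ring) }
  have hφ : Function.Injective φ := fun x y h =>
    Subtype.ext (mul_left_cancel₀ hm0 (congrArg Subtype.val h))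
  haveI : Module.Finite (M.R s) (M.I D s) := Module.Finite.of_injective φ hφ
  exact Module.Finite.iff_fg.mp inferInstance

end FLTAgent.CUBE.Fib

end
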