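import Fermat.Agent.CUBE.Lev
import Fermat.Agent.SS2.KillTop

/-!
The key statement at a level with a prime factor `r ≡ 11 (mod 12)`, for the exponent `j + 1` of `q`.
-/

set_option autoImplicit false
set_option synthInstance.maxHeartbeats 100000

noncomputable section

open ModularCurve AlgebraicCurve
open FLTAgent.SS2 (Fld RatClass normAlong)

namespace FLTAgent.CUBE

local notation "Kb" => AlgebraicClosure ℚ

/-- a rational class at level `M qʲ⁺¹` with norms constants times `n`-th powers is killed by a fixed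
integer -/
def CoreKillK (A : ValuationSubring Kb) (q : ℕ) [NeZero q] (j : ℕ) : Prop :=
  ∀ (M : ℕ) [NeZero M] (r : ℕ), r.Prime → r % 12 = 11 → r ∣ M → ¬ q ∣ M → ∃ c : ℕ, 0 < c ∧
    ∀ (n : ℕ) (R : RatClass (lev M q (j + 1)) n A), Nat.Coprime n q → n ≠ 0 →
      (∃ (G : Fld (lev M q j)) (lam : Kb), G ≠ 0 ∧ lam ≠ 0 ∧
        normAlong (heckeAlphaBar Kb (lev M q j) q) R.f =
          algebraMap Kb (Fld (lev M q j)) lam * G ^ n) →
      (∃ (G : Fld (lev M q j)) (lam : Kb), G ≠ 0 ∧ lam ≠ 0 ∧
        normAlong (heckeBetaBar Kb (lev M q j) q) R.f =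
          algebraMap Kb (Fld (lev M q j)) lam * G ^ n) →
      c • R.cls = 0

end FLTAgent.CUBE

end
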