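import Fermat.Agent.CUBE.KillDef

/-!
Reduction of the key statement at a prime whose cube divides the level to a level without elliptic
points.
-/

set_option autoImplicit false
set_option linter.unusedSectionVars false
set_option synthInstance.maxHeartbeats 100000

noncomputable section

open ModularCurve AlgebraicCurve

namespace FLTAgent.CUBE

open FLTAgent.SS2 (Fld RatClass normAlong incl KilledByPush exists_ratClass exists_norm_eq_pow
  norm_incl finrankAlong_incl dedekindPsi_pos')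

local notation "Kb" => AlgebraicClosure ℚ

theorem exists_killK_of_core {M q : ℕ} [NeZero M] [NeZero q] (hq : q.Prime) (hqM : ¬ q ∣ M)
    (A : ValuationSubring Kb) {j : ℕ} (hcore : CoreKillK A q j) :
    ∃ c : ℕ, 0 < c ∧ ∀ (n : ℕ) (y : JZero (lev M q (j + 1))), Nat.Coprime n q → n • y = 0 →
      (∀ σ ∈ A.inertiaSubgroupIn ℚ, σ • y = y) → KilledByPush (lev M q j) q y → c • y = 0 := by
  obtain ⟨r, hrgt, hr, hr11⟩ := Nat.forall_exists_prime_gt_and_eq_mod (q := 12) (a := 11)
    (IsUnit.of_mul_eq_one 11 (by decide)) (M * q)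
  have hr12 : r % 12 = 11 := by
    have := congrArg ZMod.val hr11
    rwa [ZMod.val_natCast] at this
  haveI : NeZero r := ⟨hr.ne_zero⟩
  have hMq : 0 < M * q := Nat.pos_of_ne_zero (NeZero.ne _)
  have hrMq : ¬ r ∣ M * q := fun h => by
    have := Nat.le_of_dvd hMq h
    omega
  have hrlev : ∀ k, ¬ r ∣ lev M q k := fun k h => by
    rw [lev_eq] at h
    exact (hr.dvd_mul.mp h).elim (fun h' => hrMq (h'.mul_right q))
      fun h' => hrMq ((hr.dvd_of_dvd_pow h').mul_left M)
  have hqr : ¬ q ∣ M * r := fun h => ((Nat.Prime.dvd_mul hq).mp h).elim hqM fun h' =>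
    hrMq ((Nat.prime_dvd_prime_iff_eq hq hr).mp h' ▸ dvd_mul_left q M)
  obtain ⟨c, hc, hkill⟩ := hcore (M * r) r hr hr12 (dvd_mul_left r M) hqr
  have hlev : ∀ k, lev (M * r) q k = lev M q k * r := fun k => by rw [lev_eq, lev_eq]; ring
  have hdeg : ∀ (h : lev M q (j + 1) ∣ lev (M * r) q (j + 1)), finrankAlong Kb (incl h) = r + 1 :=
    fun h => by
    have hcop : (lev M q (j + 1)).Coprime r := (hr.coprime_iff_not_dvd.mpr (hrlev (j + 1))).symm
    have h1 := finrankAlong_incl h
    have h2 : dedekindPsi r = r + 1 := by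
      have := Genus.dedekindPsi_prime_pow hr Nat.one_pos
      simpa [pow_one] using this
    have h3 : dedekindPsi (lev (M * r) q (j + 1)) = dedekindPsi (lev M q (j + 1)) * dedekindPsi r := by
      rw [hlev]; exact Genus.dedekindPsi_mul hcop
    rw [h3, h2, mul_comm (dedekindPsi _)] at h1
    exact Nat.eq_of_mul_eq_mul_right (dedekindPsi_pos' _) h1
  refine ⟨c * (r + 1), Nat.mul_pos hc (Nat.succ_pos r), fun n y hn hy hfix hpush => ?_⟩
  rcases eq_or_ne n 0 with rfl | hn0
  · exact absurd ((Nat.coprime_zero_left q).mp hn) hq.ne_one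
  obtain ⟨R, rfl⟩ := exists_ratClass (n := n) y hy hfix
  obtain ⟨hpa, hpb⟩ := hpush (HeckeJ.isIntegralAlong _) (HeckeJ.isIntegralAlong _)
    ⟨R.D, R.degree_D⟩ rfl
  have h : lev M q (j + 1) ∣ lev (M * r) q (j + 1) := ⟨r, hlev _⟩
  obtain ⟨R', -, hRf, hback⟩ := R.exists_incl h
  rw [← hdeg h]
  refine hback c (hkill n R' hn hn0 ?_ ?_)
  all_goals
    obtain ⟨ha, hb⟩ := norm_incl (a := lev M q j) (a' := lev (M * r) q j) (q := q) (hlev j) hr
      (hrlev (j + 1)) h R.f
  · obtain ⟨G, lam, hG, hlam, hN⟩ := exists_norm_eq_pow _ R.f_ne R.ord_f hpa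
    refine ⟨incl (⟨r, hlev j⟩ : lev M q j ∣ lev (M * r) q j) G, lam,
      (_root_.map_ne_zero _).mpr hG, hlam, ?_⟩
    rw [hRf]
    refine ha.trans ((congrArg _ hN).trans ?_)
    rw [map_mul, map_pow, AlgHom.commutes]
  · obtain ⟨G, lam, hG, hlam, hN⟩ := exists_norm_eq_pow _ R.f_ne R.ord_f hpb
    refine ⟨incl (⟨r, hlev j⟩ : lev M q j ∣ lev (M * r) q j) G, lam,
      (_root_.map_ne_zero _).mpr hG, hlam, ?_⟩
    rw [hRf]
    refine hb.trans ((congrArg _ hN).trans ?_)
    rw [map_mul, map_pow, AlgHom.commutes]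

end FLTAgent.CUBE

end
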