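import Fermat.Agent.SS2.Hasse
import Fermat.Agent.SS2.Crossing
import Mathlib.FieldTheory.PurelyInseparable.PerfectClosure
import Mathlib.FieldTheory.KummerPolynomial

/-!
A function on the special fibre killed by `θ` is a `q`-th power: the function field is separable
over `k(j)` and `θj ≠ 0`.
-/

set_option autoImplicit false
set_option linter.unusedSectionVars false
set_option linter.style.haveILetI false
set_option synthInstance.maxHeartbeats 200000
set_option maxHeartbeats 1000000

noncomputable section

open ModularCurve AlgebraicCurve IsLocalRing Polynomial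
open FLTAgent.Reduction (Qb FS Ctx kA jS tS)
open FLTAgent.SS2 (theta)

namespace FLTAgent.CUBE

variable {A : ValuationSubring Qb} {M q : ℕ} [NeZero M] [NeZero q] (C : Ctx A M q)
include C

/-- the kernel of `θ` on the function field of the special fibre -/
theorem exists_pow_of_theta_eq_zero (g : FS A M)
    (h : theta (g : LaurentSeries (kA A)) = 0) : ∃ a : FS A M, a ^ q = g := by
  haveI := Fact.mk C.prime
  haveI := Reduction.charP_residue A C.prime C.lies
  haveI : CharP (FS A M) q := charP_of_injective_algebraMap (algebraMap (kA A) (FS A M)).injective q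
  haveI : ExpChar (FS A M) q := ExpChar.prime C.prime
  set j : FS A M := tS A M false
  have hjθ : theta (j : LaurentSeries (kA A)) ≠ 0 := SS2.theta_jS_ne C
  set Fq : Subfield (FS A M) := (frobenius (FS A M) q).fieldRange
  have hmem : ∀ x : FS A M, x ^ q ∈ Fq := fun x => ⟨x, rfl⟩
  have hFq : ∀ x ∈ Fq, theta (x : LaurentSeries (kA A)) = 0 := by
    rintro _ ⟨y, rfl⟩
    rw [frobenius_def, SubmonoidClass.coe_pow]
    exact SS2.theta_pow_q C _
  have hj : ∀ b : Fq, b ^ q ≠ ⟨j ^ q, hmem j⟩ := fun b hb => hjθ (by
    have h1 : frobenius (FS A M) q (b : FS A M) = frobenius (FS A M) q j :=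
      congrArg Subtype.val hb
    rw [← frobenius_inj (FS A M) q h1]
    exact hFq _ b.2)
  have hirr := X_pow_sub_C_irreducible_of_prime C.prime hj
  have hroot : aeval j (X ^ q - Polynomial.C (⟨j ^ q, hmem j⟩ : Fq)) = 0 := by
    rw [map_sub, map_pow, aeval_X, aeval_C]
    exact sub_self _
  have hmin : minpoly Fq j = X ^ q - Polynomial.C (⟨j ^ q, hmem j⟩ : Fq) :=
    (minpoly.eq_of_irreducible_of_monic hirr hroot (monic_X_pow_sub_C _ C.prime.ne_zero)).symm
  have hint : IsIntegral Fq j :=
    ⟨_, monic_X_pow_sub_C _ C.prime.ne_zero, by rw [← aeval_def]; exact hroot⟩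
  -- the field is generated over `Fq` by `j`
  haveI := Reduction.separable_tS C false
  haveI : CharP (RR.KK (kA A) j) q :=
    charP_of_injective_algebraMap (algebraMap (kA A) (RR.KK (kA A) j)).injective q
  haveI : ExpChar (RR.KK (kA A) j) q := ExpChar.prime C.prime
  have hgen : ∀ x : FS A M, x ∈ IntermediateField.adjoin Fq ({j} : Set (FS A M)) := by
    intro x
    have h1 : x ∈ IntermediateField.adjoin (RR.KK (kA A) j)
        ((· ^ q) '' (Set.univ : Set (FS A M))) := by
      rw [← IntermediateField.adjoin_eq_adjoin_pow_expChar_of_isSeparable' (RR.KK (kA A) j) (FS A M)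
        (Set.univ : Set (FS A M)) q]
      exact IntermediateField.subset_adjoin _ _ trivial
    set E : IntermediateField Fq (FS A M) := IntermediateField.adjoin Fq ({j} : Set (FS A M))
    have hk : ∀ c : kA A, algebraMap (kA A) (FS A M) c ∈ E := fun c => by
      obtain ⟨d, hd⟩ := IsAlgClosed.exists_pow_nat_eq c C.prime.pos
      rw [← hd, map_pow]
      exact E.algebraMap_mem ⟨_, hmem _⟩
    have hKK : ∀ y ∈ RR.KK (kA A) j, y ∈ E := by
      intro y hy
      induction hy using IntermediateField.adjoin_induction with
      | mem z hz => exact IntermediateField.subset_adjoin _ _ hz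
      | algebraMap c => exact hk c
      | add _ _ _ _ ha hb => exact add_mem ha hb
      | inv _ _ ha => exact inv_mem ha
      | mul _ _ _ _ ha hb => exact mul_mem ha hb
    induction h1 using IntermediateField.adjoin_induction with
    | mem z hz =>
      obtain ⟨y, -, rfl⟩ := hz
      exact E.algebraMap_mem ⟨_, hmem y⟩
    | algebraMap c => exact hKK _ c.2
    | add _ _ _ _ ha hb => exact add_mem ha hb
    | inv _ _ ha => exact inv_mem ha
    | mul _ _ _ _ ha hb => exact mul_mem ha hb
  have hg := hgen g
  rw [← IntermediateField.mem_toSubalgebra,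
    IntermediateField.adjoin_simple_toSubalgebra_of_isAlgebraic hint.isAlgebraic,
    Algebra.adjoin_singleton_eq_range_aeval] at hg
  obtain ⟨P₀, hP₀⟩ := hg
  change aeval j P₀ = g at hP₀
  set P := P₀ %ₘ minpoly Fq j with hPdef
  have hP : aeval j P = g := by rw [hPdef, aeval_modByMonic_eq_self_of_root (minpoly.aeval _ _), hP₀]
  have hdeg : P.natDegree < q := by
    have h1 := natDegree_modByMonic_lt P₀ (minpoly.monic hint) (minpoly.ne_one Fq j)
    rwa [hmin, natDegree_X_pow_sub_C, ← hmin] at h1
  -- `θ` differentiates polynomials in `j` over `Fq`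
  have hθ : ∀ Q : Fq[X], theta ((aeval j Q : FS A M) : LaurentSeries (kA A)) =
      ((aeval j (derivative Q) : FS A M) : LaurentSeries (kA A)) *
        theta (j : LaurentSeries (kA A)) := by
    intro Q
    induction Q using Polynomial.induction_on with
    | C a =>
      rw [aeval_C, derivative_C, map_zero, ZeroMemClass.coe_zero, zero_mul]
      exact hFq _ a.2
    | add Q R hQ hR =>
      rw [map_add, AddMemClass.coe_add, map_add, hQ, hR, derivative_add, map_add,
        AddMemClass.coe_add, add_mul]
    | monomial n a ih =>
      rw [pow_succ, ← mul_assoc, derivative_mul, derivative_X, mul_one, map_mul (aeval j), aeval_X,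
        MulMemClass.coe_mul, SS2.theta_mul, ih, map_add (aeval j),
        map_mul (aeval j) (derivative _) X, aeval_X, AddMemClass.coe_add, MulMemClass.coe_mul]
      ring
  have hd0 : derivative P = 0 := by
    by_contra hne
    have h0 : aeval j (derivative P) = 0 := by
      have := hθ P
      rw [hP, h] at this
      exact Subtype.ext ((mul_eq_zero.mp this.symm).resolve_right hjθ)
    have h1 := natDegree_le_of_dvd (minpoly.dvd Fq j h0) hne
    rw [hmin, natDegree_X_pow_sub_C] at h1
    have := natDegree_derivative_le P
    omega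
  haveI : CharP Fq q := (RingHom.charP_iff Fq.subtype Fq.subtype.injective q).mpr inferInstance
  have hC : P = Polynomial.C (P.coeff 0) := by
    refine Polynomial.ext fun n => ?_
    rcases n with _ | n
    · rw [coeff_C_zero]
    rw [coeff_C_succ]
    rcases lt_or_ge (n + 1) q with hn | hn
    · have h2 := congrArg (fun Q : Fq[X] => Q.coeff n) hd0
      simp only [coeff_derivative, coeff_zero] at h2
      refine (mul_eq_zero.mp h2).resolve_right fun h3 => ?_
      have h4 : ((n + 1 : ℕ) : Fq) = 0 := by push_cast; exact h3
      have := Nat.le_of_dvd (by omega) ((CharP.cast_eq_zero_iff Fq q _).mp h4)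
      omega
    · exact coeff_eq_zero_of_natDegree_lt (by omega)
  obtain ⟨a, ha⟩ := (P.coeff 0).2
  refine ⟨a, ?_⟩
  rw [← hP, hC, aeval_C]
  exact ha

end FLTAgent.CUBE

end
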