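import Fermat.Agent.CUBE.NormBeta
import Fermat.Agent.CUBE.ThetaKer
import Fermat.Agent.SS2.BranchesLand
import Fermat.Agent.SS2.PointValBase

/-!
Residues of rational functions on the branches lie in the function field of the special fibre of
level `M`.
-/

set_option autoImplicit false
set_option linter.unusedSectionVars false
set_option synthInstance.maxHeartbeats 200000
set_option maxHeartbeats 1000000

noncomputable section

open ModularCurve AlgebraicCurve IsLocalRing
open FLTAgent.Reduction (Qb FB FS Ctx GR jS kA red)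
open FLTAgent.SS2 (PR LS rationalFn GG redL cL)

namespace FLTAgent.CUBE

variable {A : ValuationSubring Qb} {M q : ℕ} [NeZero M] [NeZero q] (C : Ctx A M q)
include C

/-- for rational functions the residue series does not depend on the root -/
theorem red_indep {k : ℕ} {i : Fin (k + 1)} {x : FB (lev M q k)}
    (hx : x ∈ rationalFn A (lev M q k)) {θ : PR (q ^ (i : ℕ))} (h : eB C k i θ x ∈ GG A)
    (θ' : PR (q ^ (i : ℕ))) :
    eB C k i θ' x ∈ GG A ∧ redL A (eB C k i θ' x) = redL A (eB C k i θ x) := by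
  obtain ⟨σ, hσ, rfl⟩ := exists_inertia_root C θ θ'
  rw [← coeffMap_eB_rational C i hσ θ hx]
  exact SS2.coeffMap_inertia hσ h

/-- norms of rational functions along `β` are rational -/
theorem normAlong_upB_rational {k : ℕ} {x : FB (lev M q (k + 1))}
    (hx : x ∈ rationalFn A (lev M q (k + 1))) :
    SS2.normAlong (upB M q k) x ∈ rationalFn A (lev M q k) := by
  intro σ hσ
  have h := normB_rational C hx σ hσ
  rw [normB_apply, ← upB_galois] at h
  exact (upB M q k).toRingHom.injective h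

/-- a series whose `q`-th power is one of a function is a function -/
theorem eq_of_pow_eq {R : LaurentSeries (kA A)} {a : FS A M}
    (h : R ^ q = ((a ^ q : FS A M) : LaurentSeries (kA A))) :
    ∃ r : FS A M, R = (r : LaurentSeries (kA A)) := by
  haveI := Fact.mk C.prime
  haveI := Reduction.charP_residue A C.prime C.lies
  haveI : CharP (LaurentSeries (kA A)) q :=
    charP_of_injective_algebraMap (algebraMap (kA A) (LaurentSeries (kA A))).injective q
  refine ⟨a, frobenius_inj (LaurentSeries (kA A)) q ?_⟩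
  rw [frobenius_def, frobenius_def, h, SubmonoidClass.coe_pow]

/-- a series whose `q`-th power is `r'(q^q)` is a function -/
theorem exists_of_pow_Fr {R : LaurentSeries (kA A)} {r' : FS A M}
    (h : R ^ q = qExpand (kA A) q (r' : LaurentSeries (kA A))) :
    ∃ r : FS A M, R = (r : LaurentSeries (kA A)) := by
  refine eq_of_pow_eq C (a := (Reduction.frobS C)⁻¹ • r') ?_
  rw [← SS2.PV.Fr_frobS C, smul_inv_smul, SS.coe_Fr]
  exact h

/-- a series whose `q`-th power is a function is a function -/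
theorem exists_of_pow {R : LaurentSeries (kA A)} {r' : FS A M}
    (h : R ^ q = (r' : LaurentSeries (kA A))) :
    ∃ r : FS A M, R = (r : LaurentSeries (kA A)) := by
  obtain ⟨a, rfl⟩ := exists_pow_of_theta_eq_zero C r' (by rw [← h]; exact SS2.theta_pow_q C _)
  exact eq_of_pow_eq C h

/-- `β` followed by a branch after the middle -/
theorem eB_comp_upB_side {k : ℕ} (i : Fin (k + 2)) (hi : k + 2 ≤ 2 * (i : ℕ))
    (θ : PR (q ^ (i : ℕ))) (g : FB (lev M q k)) :
    eB C (k + 1) i θ (upB M q k g) = qExpand Qb q (eB C k ⟨(i : ℕ) - 1, by omega⟩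
      (rootPow θ 1 ((i : ℕ) - 1) (by omega)) g) := by
  refine DFunLike.congr_fun (algHom_ext_nd C.prime (f := (eB C (k + 1) i θ).comp (upB M q k))
    (g := (SS2.qExpA q).comp (eB C k ⟨(i : ℕ) - 1, by omega⟩
      (rootPow θ 1 ((i : ℕ) - 1) (by omega)))) fun l hl a => ?_) g
  rw [AlgHom.comp_apply, AlgHom.comp_apply, upB_nd, eB_nd' C i θ (by omega),
    eB_nd' C _ _ hl, SS2.qExpA_apply, qExpand_qExpand, rootPow_u, pow_one, ← pow_mul,
    ← pow_succ' q l]
  exact SS2.qExpand_congr' (by rw [← pow_succ']; congr 1; simp only [nE]; omega) _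

/-- `β` followed by the middle branch -/
theorem eB_comp_upB_mid {k : ℕ} (i : Fin (k + 2)) (hi1 : 1 ≤ (i : ℕ))
    (hi : k + 1 = 2 * (i : ℕ)) (θ : PR (q ^ (i : ℕ))) (g : FB (lev M q k)) :
    eB C (k + 1) i θ (upB M q k g) = eB C k ⟨(i : ℕ) - 1, by omega⟩
      (rootPow θ 1 ((i : ℕ) - 1) (by omega)) g := by
  refine DFunLike.congr_fun (algHom_ext_nd C.prime (f := (eB C (k + 1) i θ).comp (upB M q k))
    (g := eB C k ⟨(i : ℕ) - 1, by omega⟩
      (rootPow θ 1 ((i : ℕ) - 1) (by omega))) fun l hl a => ?_) g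
  rw [AlgHom.comp_apply, upB_nd, eB_nd' C i θ (by omega),
    eB_nd' C _ _ hl, rootPow_u, pow_one, ← pow_mul, ← pow_succ' q l]
  exact SS2.qExpand_congr' (by congr 1; simp only [nE]; omega) _

/-- the induction step on the branches from the middle on -/
theorem landing_step {k : ℕ} (i : Fin (k + 2)) (hi2 : 2 ≤ (i : ℕ)) (hi : k + 1 ≤ 2 * (i : ℕ))
    (IH : ∀ (j : Fin (k + 1)) (η : PR (q ^ (j : ℕ))) (y : FB (lev M q k)),
      y ∈ rationalFn A (lev M q k) → eB C k j η y ∈ GG A →
        ∃ r : FS A M, redL A (eB C k j η y) = (r : LaurentSeries (kA A)))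
    (θ : PR (q ^ (i : ℕ))) (x : FB (lev M q (k + 1))) (hx : x ∈ rationalFn A (lev M q (k + 1)))
    (h : eB C (k + 1) i θ x ∈ GG A) :
    ∃ r : FS A M, redL A (eB C (k + 1) i θ x) = (r : LaurentSeries (kA A)) := by
  obtain ⟨η, hη⟩ := eB_normB_single C i hi2 θ
  have hG : eB C (k + 1) i θ (normB M q k x) ∈ GG A := by
    rw [hη]; exact prod_mem fun s _ => (red_indep C hx h (η s)).1
  have hR : redL A (eB C (k + 1) i θ (normB M q k x)) =
      redL A (eB C (k + 1) i θ x) ^ q := by
    rw [hη, SS2.redL_prod _ _ fun s _ => (red_indep C hx h (η s)).1,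
      Finset.prod_congr rfl fun s _ => (red_indep C hx h (η s)).2, Finset.prod_const,
      Finset.card_univ, Fintype.card_fin]
  rw [normB_apply] at hG hR
  set y := SS2.normAlong (upB M q k) x
  have hy : y ∈ rationalFn A (lev M q k) := normAlong_upB_rational C hx
  set η' := rootPow θ 1 ((i : ℕ) - 1) (by omega)
  rcases Nat.lt_or_ge (k + 1) (2 * (i : ℕ)) with hlt | hge
  · rw [eB_comp_upB_side C i hlt θ] at hG hR
    have hG' : eB C k ⟨(i : ℕ) - 1, by omega⟩ η' y ∈ GG A := by
      refine SS2.mem_of_qExpand_mem q ?_ hG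
      rcases eq_or_ne y 0 with h0 | h0
      · left; rw [h0, map_zero]
      · exact Or.inr (SS2.scalable_of_bddGen C.prime C.lies (bddGen_eB' C (k := k) ⟨(i : ℕ) - 1, by omega⟩ η') h0)
    obtain ⟨r', hr'⟩ := IH ⟨(i : ℕ) - 1, by omega⟩ η' y hy hG'
    rw [(SS2.qExpand_mem q hG').2, hr'] at hR
    exact exists_of_pow_Fr C hR.symm
  · rw [eB_comp_upB_mid C i (by omega) (by omega) θ] at hG hR
    obtain ⟨r', hr'⟩ := IH ⟨(i : ℕ) - 1, by omega⟩ η' y hy hG
    rw [hr'] at hR
    exact exists_of_pow C hR.symm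

/-- passage to the opposite branch -/
theorem landing_rev {k : ℕ} {i j : Fin (k + 1)} (hij : (i : ℕ) + j = k)
    (H : ∀ (η : PR (q ^ (j : ℕ))) (y : FB (lev M q k)), y ∈ rationalFn A (lev M q k) →
      eB C k j η y ∈ GG A → ∃ r : FS A M, redL A (eB C k j η y) = (r : LaurentSeries (kA A)))
    (θ : PR (q ^ (i : ℕ))) (x : FB (lev M q k)) (hx : x ∈ rationalFn A (lev M q k))
    (h : eB C k i θ x ∈ GG A) :
    ∃ r : FS A M, redL A (eB C k i θ x) = (r : LaurentSeries (kA A)) := by
  obtain ⟨η⟩ := nonempty_root C (j : ℕ)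
  obtain ⟨θ', u, hu, he⟩ := exists_eB_wAL C hij η
  obtain ⟨h1, h1'⟩ := red_indep C hx h θ'
  obtain ⟨h2, h3⟩ := SS2.twist_mem_of_residue_one u hu h1
  rw [← he] at h2 h3
  obtain ⟨r, hr⟩ := H η _ (wAL_rational C hx) h2
  exact ⟨r, by rw [← h1', ← h3, hr]⟩

/-- level `M q`, the branch `1` -/
theorem landing_level_one (θ : PR (q ^ ((1 : Fin 2) : ℕ))) (x : FB (lev M q 1))
    (h : eB C 1 1 θ x ∈ GG A) :
    ∃ r : FS A M, redL A (eB C 1 1 θ x) = (r : LaurentSeries (kA A)) := by
  obtain ⟨u, hu, hu1⟩ := exists_unit_root' C θ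
  have e : eB C 1 1 θ x = Reduction.twist (SS2.unitQ u) (x : LS) := by
    rw [hu]; exact eB_last C (k := 1) θ x
  rw [e] at h ⊢
  have hu' : residue A ((u⁻¹ : Aˣ) : A) = 1 := by
    have := congrArg (residue A) (show (u : A) * ((u⁻¹ : Aˣ) : A) = 1 from u.mul_inv)
    rwa [map_mul, hu1, one_mul, map_one] at this
  have hG : (x : LS) ∈ GG A := by
    have := (SS2.twist_mem_of_residue_one u⁻¹ hu' h).1
    rwa [show SS2.unitQ u⁻¹ = (SS2.unitQ u)⁻¹ from map_inv (Units.map (A.subtype : A →* Qb)) u,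
      SS2.twist_inv_twist] at this
  refine ⟨⟨_, SS2.redL_side_false C (y := (x : FB (M * q))) hG⟩, ?_⟩
  rw [(SS2.twist_mem_of_residue_one u hu1 hG).2]

/-- the middle branch at level `M q²` in the sense of the double level -/
theorem eB_two_node (θ : PR (q ^ ((1 : Fin 3) : ℕ))) (a : FB M) :
    eB C 2 1 θ (nd M q 2 0 a) = Reduction.twist θ.u (a : LS) ∧
      eB C 2 1 θ (nd M q 2 1 a) = qExpand Qb q (a : LS) ∧
      eB C 2 1 θ (nd M q 2 2 a) = (a : LS) := by
  refine ⟨?_, ?_, ?_⟩
  · rw [eB_nd C _ _ (Nat.zero_le 2), nodeU, if_neg (by decide), pow_zero, pow_one]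
    exact (SS2.qExpand_congr' (pow_zero q) _).trans (qExpand_one_apply _)
  · rw [eB_nd C _ _ (show 1 ≤ 2 by omega), nodeU, if_pos (by decide), Reduction.twist_one_apply]
    exact SS2.qExpand_congr' (pow_one q) _
  · rw [eB_nd C _ _ (le_refl 2), nodeU, if_pos (by decide), Reduction.twist_one_apply]
    exact (SS2.qExpand_congr' (pow_zero q) _).trans (qExpand_one_apply _)

theorem nd_two (a : FB M) :
    (nd M q 2 0 a : FB (M * q * q)) = SS2.i0 M q a ∧
      (nd M q 2 1 a : FB (M * q * q)) = SS2.i1 M q a ∧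
      (nd M q 2 2 a : FB (M * q * q)) = SS2.i2 M q a := by
  refine ⟨Subtype.ext ?_, Subtype.ext ?_, Subtype.ext ?_⟩
  · exact (coe_nd (Nat.zero_le 2) a).trans (((SS2.qExpand_congr' (pow_zero q) _).trans
      (qExpand_one_apply _)).trans (SS2.coe_i0 a).symm)
  · exact (coe_nd (k := 2) (l := 1) (by omega) a).trans
      ((SS2.qExpand_congr' (pow_one q) _).trans (SS2.coe_i1 a).symm)
  · exact (coe_nd (k := 2) le_rfl a).trans ((SS2.qExpand_congr' (pow_two q) _).trans
      ((qExpand_qExpand _ _ _).symm.trans (SS2.coe_i2 a).symm))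

/-- level `M q²`, the middle branch -/
theorem landing_level_two (θ : PR (q ^ ((1 : Fin 3) : ℕ))) (x : FB (lev M q 2))
    (hx : x ∈ rationalFn A (lev M q 2)) (h : eB C 2 1 θ x ∈ GG A) :
    ∃ r : FS A M, redL A (eB C 2 1 θ x) = (r : LaurentSeries (kA A)) := by
  obtain ⟨ζ, hζ⟩ : ∃ ζ : PR q, ζ.u = θ.u :=
    ⟨⟨(θ : Qb), (mem_primitiveRoots C.prime.pos).mpr (by
      have := θ.prim
      simpa using this)⟩, Units.ext rfl⟩
  have e : eB C 2 1 θ x = SS2.e11 M q C.prime C.not_dvd ζ x := by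
    refine DFunLike.congr_fun (SS2.algHom_ext_i (M := M) (q := q) C.prime
      (f := (eB C 2 1 θ : FB (M * q * q) →ₐ[Qb] LS)) (g := SS2.e11 M q C.prime C.not_dvd ζ)
      (fun a => ?_) (fun a => ?_) (fun a => ?_)) x
    · rw [SS2.e11_i0, hζ, ← (nd_two C a).1]
      exact (eB_two_node C θ a).1
    · rw [SS2.e11_i1, ← (nd_two C a).2.1]
      exact (eB_two_node C θ a).2.1
    · rw [SS2.e11_i2, ← (nd_two C a).2.2]
      exact (eB_two_node C θ a).2.2
  rw [e] at h ⊢
  exact ⟨⟨_, SS2.landing11 C hx ζ h⟩, rfl⟩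

theorem landing' : ∀ {k : ℕ} (i : Fin (k + 1)) (θ : PR (q ^ (i : ℕ))) (x : FB (lev M q k)),
    x ∈ rationalFn A (lev M q k) → eB C k i θ x ∈ GG A →
      ∃ r : FS A M, redL A (eB C k i θ x) = (r : LaurentSeries (kA A)) := by
  intro k
  induction k with
  | zero =>
    intro i θ x _ h
    obtain rfl : i = Fin.last 0 := Fin.ext (by have := i.2; simp)
    have hu : θ.u = 1 := by
      simpa using θ.u_pow
    rw [eB_last C θ x, hu, Reduction.twist_one_apply] at h ⊢
    have hG : (x : FB M) ∈ GR A M := (SS2.coe_mem_GG_iff (n := M) x).mp h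
    exact ⟨red A M x, (SS2.redL_coe (n := M) (y := x) hG).trans (SS2.redS_eq_red C hG)⟩
  | succ k IH =>
    -- the branches from the middle on
    have key : ∀ i : Fin (k + 2), k + 1 ≤ 2 * (i : ℕ) → ∀ (θ : PR (q ^ (i : ℕ)))
        (x : FB (lev M q (k + 1))), x ∈ rationalFn A (lev M q (k + 1)) →
        eB C (k + 1) i θ x ∈ GG A →
        ∃ r : FS A M, redL A (eB C (k + 1) i θ x) = (r : LaurentSeries (kA A)) := by
      intro i hi θ x hx h
      by_cases hi2 : 2 ≤ (i : ℕ)
      · exact landing_step C i hi2 hi (fun j η y hy hG => IH j η y hy hG) θ x hx h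
      have hi1 : (i : ℕ) = 1 := by omega
      rcases (show k = 0 ∨ k = 1 by omega) with rfl | rfl
      · obtain rfl : i = (1 : Fin 2) := Fin.ext hi1
        exact landing_level_one C θ x h
      · obtain rfl : i = (1 : Fin 3) := Fin.ext hi1
        exact landing_level_two C θ x hx h
    intro i θ x hx h
    by_cases hi : k + 1 ≤ 2 * (i : ℕ)
    · exact key i hi θ x hx h
    exact landing_rev C (j := i.rev) (by rw [Fin.val_rev]; omega)
      (key i.rev (by rw [Fin.val_rev]; omega)) θ x hx h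

end FLTAgent.CUBE

end
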