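import Fermat.Agent.SS2.BranchesNorm
import Fermat.Agent.SS2.ModelValues
import Fermat.Agent.SS2.ModelAux

/-!
The levels `M qᵏ`, the `k + 1` copies (nodes) of the functions of level `M`, the `k` copies (edges)
of the functions of level `Mq`, and the norm along `β`.
-/

set_option autoImplicit false
set_option linter.unusedSectionVars false
set_option linter.style.haveILetI false

noncomputable section

open ModularCurve AlgebraicCurve
open FLTAgent.Reduction (Qb FB)

namespace FLTAgent.CUBE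

open FLTAgent.SS2 (rationalFn LS)

/-- the level `M qᵏ`, in the shape of iterated degeneracy maps -/
def lev (M q : ℕ) : ℕ → ℕ
  | 0 => M
  | k + 1 => lev M q k * q

theorem lev_zero (M q : ℕ) : lev M q 0 = M := rfl

theorem lev_succ (M q k : ℕ) : lev M q (k + 1) = lev M q k * q := rfl

theorem lev_eq (M q : ℕ) : ∀ k, lev M q k = M * q ^ k
  | 0 => by simp [lev]
  | k + 1 => by rw [lev_succ, lev_eq M q k, pow_succ, mul_assoc]

instance instNeZeroLev (M q k : ℕ) [NeZero M] [NeZero q] : NeZero (lev M q k) :=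
  ⟨by rw [lev_eq]; exact mul_ne_zero (NeZero.ne M) (pow_ne_zero _ (NeZero.ne q))⟩

variable (M q : ℕ) [NeZero M] [NeZero q]

/-- the first degeneracy map from level `M qᵏ` to level `M qᵏ⁺¹` -/
abbrev upA (k : ℕ) : FB (lev M q k) →ₐ[Qb] FB (lev M q (k + 1)) :=
  heckeAlphaBar Qb (lev M q k) q

/-- the second degeneracy map from level `M qᵏ` to level `M qᵏ⁺¹` -/
abbrev upB (k : ℕ) : FB (lev M q k) →ₐ[Qb] FB (lev M q (k + 1)) :=
  heckeBetaBar Qb (lev M q k) q

/-- the node `l` : `a(τ) ↦ a(qˡτ)` -/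
def nd : ∀ k : ℕ, ℕ → (FB M →ₐ[Qb] FB (lev M q k))
  | 0, _ => AlgHom.id Qb (FB M)
  | k + 1, 0 => (upA M q k).comp (nd k 0)
  | k + 1, l + 1 => (upB M q k).comp (nd k l)

/-- the edge `l` : `g(τ) ↦ g(qˡτ)` -/
def ed : ∀ k : ℕ, ℕ → (FB (M * q) →ₐ[Qb] FB (lev M q (k + 1)))
  | 0, _ => AlgHom.id Qb (FB (M * q))
  | k + 1, 0 => (upA M q (k + 1)).comp (ed k 0)
  | k + 1, l + 1 => (upB M q (k + 1)).comp (ed k l)

/-- the norm along the second degeneracy map, pulled back -/
def normB (k : ℕ) : FB (lev M q (k + 1)) →* FB (lev M q (k + 1)) :=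
  ((upB M q k : FB (lev M q k) →* FB (lev M q (k + 1)))).comp (SS2.normAlong (upB M q k))

theorem normB_apply (k : ℕ) (x : FB (lev M q (k + 1))) :
    normB M q k x = upB M q k (SS2.normAlong (upB M q k) x) := rfl

variable {M q}

theorem coe_nd : ∀ {k l : ℕ}, l ≤ k → ∀ a : FB M,
    ((nd M q k l a : FB (lev M q k)) : LS) = qExpand Qb (q ^ l) (a : LS)
  | 0, l, hl, a => by
    obtain rfl : l = 0 := Nat.le_zero.mp hl
    rw [SS2.qExpand_congr' (pow_zero q), qExpand_one_apply]
    rfl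
  | k + 1, 0, _, a => by
    show ((upA M q k (nd M q k 0 a) : FB _) : LS) = _
    refine (coe_heckeAlphaBar (L := Qb) (N := lev M q _) (ℓ := q) _).trans ?_
    exact (coe_nd (Nat.zero_le k) a).trans rfl
  | k + 1, l + 1, hl, a => by
    show ((upB M q k (nd M q k l a) : FB _) : LS) = _
    refine (coe_heckeBetaBar (L := Qb) (N := lev M q _) (ℓ := q) _).trans ?_
    rw [coe_nd (Nat.le_of_succ_le_succ hl) a, qExpand_qExpand]
    exact SS2.qExpand_congr' (pow_succ' q l).symm _

theorem coe_ed : ∀ {k l : ℕ}, l ≤ k → ∀ g : FB (M * q),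
    ((ed M q k l g : FB (lev M q (k + 1))) : LS) = qExpand Qb (q ^ l) (g : LS)
  | 0, l, hl, g => by
    obtain rfl : l = 0 := Nat.le_zero.mp hl
    rw [SS2.qExpand_congr' (pow_zero q), qExpand_one_apply]
    rfl
  | k + 1, 0, _, g => by
    show ((upA M q (k + 1) (ed M q k 0 g) : FB _) : LS) = _
    refine (coe_heckeAlphaBar (L := Qb) (N := lev M q _) (ℓ := q) _).trans ?_
    exact (coe_ed (Nat.zero_le k) g).trans rfl
  | k + 1, l + 1, hl, g => by
    show ((upB M q (k + 1) (ed M q k l g) : FB _) : LS) = _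
    refine (coe_heckeBetaBar (L := Qb) (N := lev M q _) (ℓ := q) _).trans ?_
    rw [coe_ed (Nat.le_of_succ_le_succ hl) g, qExpand_qExpand]
    exact SS2.qExpand_congr' (pow_succ' q l).symm _

theorem ed_alpha {k l : ℕ} (hl : l ≤ k) (a : FB M) :
    ed M q k l (heckeAlphaBar Qb M q a) = nd M q (k + 1) l a :=
  Subtype.ext (by rw [coe_ed hl, coe_nd (hl.trans k.le_succ), coe_heckeAlphaBar])

theorem ed_beta {k l : ℕ} (hl : l ≤ k) (a : FB M) :
    ed M q k l (heckeBetaBar Qb M q a) = nd M q (k + 1) (l + 1) a :=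
  Subtype.ext (by
    rw [coe_ed hl, coe_nd (Nat.succ_le_succ hl), coe_heckeBetaBar, qExpand_qExpand]
    exact SS2.qExpand_congr' (pow_succ q l).symm _)

theorem upA_nd {k l : ℕ} (hl : l ≤ k) (a : FB M) :
    upA M q k (nd M q k l a) = nd M q (k + 1) l a :=
  Subtype.ext ((coe_heckeAlphaBar (L := Qb) (N := lev M q _) (ℓ := q) _).trans
    ((coe_nd hl a).trans (coe_nd (hl.trans k.le_succ) a).symm))

theorem upB_nd {k l : ℕ} (a : FB M) :
    upB M q k (nd M q k l a) = nd M q (k + 1) (l + 1) a := rfl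

theorem nd_rational {A : ValuationSubring Qb} :
    ∀ {k : ℕ} (l : ℕ) {a : FB M}, a ∈ rationalFn A M → nd M q k l a ∈ rationalFn A (lev M q k)
  | 0, _, _, ha => ha
  | k + 1, 0, _, ha => (SS2.heckeAlphaBar_rational q).mpr (nd_rational 0 ha)
  | k + 1, l + 1, _, ha => (SS2.heckeBetaBar_rational q).mpr (nd_rational l ha)

theorem ed_rational {A : ValuationSubring Qb} :
    ∀ {k : ℕ} (l : ℕ) {g : FB (M * q)}, g ∈ rationalFn A (M * q) →
      ed M q k l g ∈ rationalFn A (lev M q (k + 1))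
  | 0, _, _, hg => hg
  | k + 1, 0, _, hg => (SS2.heckeAlphaBar_rational q).mpr (ed_rational 0 hg)
  | k + 1, l + 1, _, hg => (SS2.heckeBetaBar_rational q).mpr (ed_rational l hg)

end FLTAgent.CUBE
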