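import Fermat.Agent.CUBE.Emb
import Fermat.Agent.SS2.Eisenstein

/-!
Transport of the branches: roots of unity of prime power order, conjugation, and the passage from
the branch `i` to the branch `k - i` by the Atkin–Lehner involution.
-/

set_option autoImplicit false
set_option linter.unusedSectionVars false
set_option linter.style.haveILetI false
set_option synthInstance.maxHeartbeats 200000
set_option maxHeartbeats 1000000

noncomputable section

open ModularCurve AlgebraicCurve IsLocalRing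
open FLTAgent.Reduction (Qb FB Ctx)
open FLTAgent.SS2 (PR LS galFn unitQ)

namespace FLTAgent.CUBE

/-! ### roots of prime power order -/

section Roots

variable {q : ℕ} [NeZero q]

/-- the `qᵐ`-th power of a root -/
def rootPow {i : ℕ} (θ : PR (q ^ i)) (m s : ℕ) (h : m + s = i) : PR (q ^ s) :=
  ⟨(θ : Qb) ^ q ^ m, (mem_primitiveRoots (pow_pos (Nat.pos_of_ne_zero (NeZero.ne q)) s)).mpr
    (θ.prim.pow (pow_pos (Nat.pos_of_ne_zero (NeZero.ne q)) i) (by rw [← pow_add, h]))⟩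

theorem coe_rootPow {i : ℕ} (θ : PR (q ^ i)) (m s : ℕ) (h : m + s = i) :
    ((rootPow θ m s h : PR (q ^ s)) : Qb) = (θ : Qb) ^ q ^ m := rfl

theorem rootPow_u {i : ℕ} (θ : PR (q ^ i)) (m s : ℕ) (h : m + s = i) :
    (rootPow θ m s h).u = θ.u ^ q ^ m :=
  Units.ext (by rw [Units.val_pow_eq_pow_val]; rfl)

theorem root_eq_one {θ : PR (q ^ 0)} : (θ : Qb) = 1 :=
  IsPrimitiveRoot.one_right_iff.mp (pow_zero q ▸ θ.prim)

theorem root_ne_one (hq : q.Prime) {i : ℕ} (hi : 1 ≤ i) (θ : PR (q ^ i)) : (θ : Qb) ≠ 1 :=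
  θ.prim.ne_one (Nat.one_lt_pow (by omega) hq.one_lt)

/-- primitive roots have primitive `qᵇ`-th roots -/
theorem exists_root_root (hq : q.Prime) {a : ℕ} (θ : PR (q ^ a)) (b c : ℕ) (h : b + a = c) :
    ∃ w : PR (q ^ c), (w : Qb) ^ q ^ b = θ := by
  haveI : NeZero ((q ^ c : ℕ) : Qb) := ⟨Nat.cast_ne_zero.mpr (pow_ne_zero _ hq.ne_zero)⟩
  obtain ⟨z, hz⟩ := HasEnoughRootsOfUnity.exists_primitiveRoot Qb (q ^ c)
  let ζ : PR (q ^ c) := ⟨z, (mem_primitiveRoots (pow_pos hq.pos c)).mpr hz⟩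
  rcases Nat.eq_zero_or_pos a with rfl | ha
  · exact ⟨ζ, by rw [← coe_rootPow ζ b 0 h, root_eq_one, root_eq_one]⟩
  obtain ⟨j, -, hj, hj'⟩ :=
    (rootPow ζ b a h).prim.isPrimitiveRoot_iff.mp θ.prim
  have hco : Nat.Coprime j (q ^ c) := by
    rw [Nat.coprime_pow_right_iff (by omega)] at hj ⊢
    exact hj
  refine ⟨⟨z ^ j, (mem_primitiveRoots (pow_pos hq.pos c)).mpr (hz.pow_of_coprime j hco)⟩, ?_⟩
  rw [← hj', coe_rootPow]
  show (z ^ j) ^ q ^ b = (z ^ q ^ b) ^ j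
  rw [← pow_mul, ← pow_mul, mul_comm]

/-- twists pass through `q ↦ qⁿ` -/
theorem twist_qExpand_comm {R : Type*} [CommRing R] (u : Rˣ) (n : ℕ) [NeZero n]
    (f : LaurentSeries R) :
    Reduction.twist u (qExpand R n f) = qExpand R n (Reduction.twist (u ^ n) f) := by
  ext m
  rw [Reduction.twist_coeff]
  by_cases hm : (n : ℤ) ∣ m
  · obtain ⟨r, rfl⟩ := hm
    rw [qExpand_coeff_mul, qExpand_coeff_mul, Reduction.twist_coeff, zpow_mul, zpow_natCast]
  · rw [qExpand_coeff_of_not_dvd n f hm, qExpand_coeff_of_not_dvd n _ hm, mul_zero]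

end Roots

variable {A : ValuationSubring Qb} {M q : ℕ} [NeZero M] [NeZero q]

theorem galFn_nd (σ : Qb ≃ₐ[ℚ] Qb) {k l : ℕ} (hl : l ≤ k) (a : FB M) :
    galFn (lev M q k) σ • nd M q k l a = nd M q k l (galFn M σ • a) :=
  Subtype.ext (by
    rw [coe_arithmeticGalois_smul, coe_nd hl, coe_nd hl, coe_arithmeticGalois_smul,
      ModFun.coeffMap_qExpand])

theorem nodeU_map (σ : Qb ≃ₐ[ℚ] Qb) (i l : ℕ) (θ : PR (q ^ i)) :
    Units.map ((σ : Qb →+* Qb) : Qb →* Qb) (nodeU q i l θ.u) =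
      nodeU q i l (SS2.PR.map σ θ).u := by
  have hu : Units.map ((σ : Qb →+* Qb) : Qb →* Qb) θ.u = (SS2.PR.map σ θ).u := Units.ext rfl
  unfold nodeU
  split_ifs
  · exact map_one _
  · rw [map_pow, hu]

theorem coeffMap_symm_apply (σ : Qb ≃ₐ[ℚ] Qb) (y : LS) :
    coeffMap (σ.symm : Qb →+* Qb) (coeffMap (σ : Qb →+* Qb) y) = y := by
  ext n
  simp [coeffMap_coeff]

theorem coeffMap_apply_symm (σ : Qb ≃ₐ[ℚ] Qb) (y : LS) :
    coeffMap (σ : Qb →+* Qb) (coeffMap (σ.symm : Qb →+* Qb) y) = y := by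
  ext n
  simp [coeffMap_coeff]

variable (C : Ctx A M q)
include C

/-- the branches of a rational function are conjugate -/
theorem coeffMap_eB_rational {k : ℕ} (i : Fin (k + 1)) {σ : Qb ≃ₐ[ℚ] Qb}
    (hσ : σ ∈ A.inertiaSubgroupIn ℚ) (θ : PR (q ^ (i : ℕ))) {x : FB (lev M q k)}
    (hx : x ∈ SS2.rationalFn A (lev M q k)) :
    coeffMap (σ : Qb →+* Qb) (eB C k i θ x) = eB C k i (SS2.PR.map σ θ) x := by
  rw [coeffMap_eB, hx σ hσ]

/-- the involution exchanges the branches `i` and `j = k - i`, up to a substitution `q ↦ uq` -/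
theorem exists_eB_wAL {k : ℕ} {i j : Fin (k + 1)} (hij : (i : ℕ) + j = k)
    (θ : PR (q ^ (j : ℕ))) :
    ∃ θ' : PR (q ^ (i : ℕ)), ∃ u : Aˣ, residue A (u : A) = 1 ∧ ∀ x,
      eB C k j θ (wAL C k x) = Reduction.twist (unitQ u) (eB C k i θ' x) := by
  obtain ⟨w, hw⟩ := exists_root_root C.prime θ (max (i : ℕ) (k - i) + i - k) (max (i : ℕ) (k - i))
    (by omega)
  obtain ⟨u, hu, hu1⟩ := exists_unit_root' C w
  obtain ⟨u', hu', hu1'⟩ := exists_unit_root' C (rootPow w (max (i : ℕ) (k - i) - i) i (by omega))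
  let θ' : PR (q ^ (i : ℕ)) := ⟨((rootPow w (max (i : ℕ) (k - i) - i) i (by omega) : PR _) : Qb)⁻¹,
    (mem_primitiveRoots (pow_pos C.prime.pos _)).mpr (SS2.PR.prim _).inv⟩
  refine ⟨θ', u, hu1, fun x => ?_⟩
  have hwu : θ.u = w.u ^ q ^ (max (i : ℕ) (k - i) + i - k) :=
    Units.ext (by rw [Units.val_pow_eq_pow_val]; exact hw.symm)
  have hθ' : θ'.u = (w.u ^ q ^ (max (i : ℕ) (k - i) - i))⁻¹ :=
    Units.ext (by rw [Units.val_inv_eq_inv_val, Units.val_pow_eq_pow_val]; rfl)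
  refine DFunLike.congr_fun (algHom_ext_nd C.prime (f := (eB C k j θ).comp (wAL C k))
    (g := (SS2.twistA (unitQ u)).comp (eB C k i θ')) fun l hl a => ?_) x
  rw [AlgHom.comp_apply, AlgHom.comp_apply, wAL_nd C hl, eB_nd C _ _ (Nat.sub_le k l),
    eB_nd C _ _ hl, SS2.twistA_apply, hu, twist_qExpand_comm, twist_twist_mul]
  have hnE : nE k (j : ℕ) (k - l) = nE k i l := by unfold nE; omega
  rw [hnE]
  congr 2
  have hk1 : w.u ^ q ^ max (i : ℕ) (k - i) = 1 := w.u_pow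
  unfold nodeU nE
  rcases lt_trichotomy (l : ℕ) i with h | h | h
  · rw [if_pos (by omega), if_neg (by omega), hθ', inv_pow, ← pow_mul, ← pow_add,
      show max (i : ℕ) (k - i) - (max (i : ℕ) l - min (i : ℕ) l) =
        max (i : ℕ) (k - i) - i + l by omega, mul_inv_cancel]
  · rw [if_pos (by omega), if_pos (by omega), mul_one,
      show max (i : ℕ) (k - i) - (max (i : ℕ) l - min (i : ℕ) l) = max (i : ℕ) (k - i) by omega,
      hk1]
  · rw [if_neg (by omega), if_pos (by omega), mul_one, hwu, ← pow_mul, ← pow_add]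
    rw [show max (i : ℕ) (k - i) + i - k + (k - l) =
      max (i : ℕ) (k - i) - (max (i : ℕ) l - min (i : ℕ) l) by omega]

end FLTAgent.CUBE

end
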