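import Fermat.Agent.CUBE.Res
import Fermat.Agent.CUBE.Trans

/-!
Scales of the branches: the multiplicity of the branch `i` is `φ(q^min(i, k - i))`.
-/

set_option autoImplicit false
set_option linter.unusedSectionVars false
set_option linter.style.haveILetI false
set_option synthInstance.maxHeartbeats 200000
set_option maxHeartbeats 1000000

noncomputable section

open ModularCurve AlgebraicCurve IsLocalRing
open FLTAgent.Reduction (Qb FB FS Ctx GR jS kA red)
open FLTAgent.SS2 (PR LS rationalFn GG redL cL theta)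

namespace FLTAgent.CUBE

/-- the depth of the branch `i` -/
def dpt (k i : ℕ) : ℕ := min i (k - i)

/-- the multiplicities -/
def eMul (q k i : ℕ) : ℕ := Nat.totient (q ^ dpt k i)

variable {A : ValuationSubring Qb} {M q : ℕ} [NeZero M] [NeZero q]

variable (q) in
/-- the scales of the branches -/
def pB (k : ℕ) (i : Fin (k + 1)) (θ : PR (q ^ (i : ℕ))) : Qb :=
  if dpt k i = 0 then (q : Qb) else 1 - (θ : Qb) ^ (q ^ ((i : ℕ) - dpt k i))

variable (M q) in
/-- the uniformisers -/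
def vpi (k : ℕ) (i : Fin (k + 1)) : FB (lev M q k) :=
  if dpt k i = 0 then algebraMap Qb (FB (lev M q k)) (q : Qb)
  else if (i : ℕ) ≤ k - i then
    nd M q k (2 * i) (ModFun.jBar M) - nd M q k 0 (ModFun.jBar M)
  else nd M q k (2 * i - k) (ModFun.jBar M) - nd M q k k (ModFun.jBar M)

variable (C : Ctx A M q)

/-- the expansions on the branch `i` have scale `pBᶻ` -/
def Scaled (k : ℕ) (i : Fin (k + 1)) (x : FB (lev M q k)) (z : ℤ) : Prop :=
  ∀ θ : PR (q ^ (i : ℕ)), cL (pB q k i θ ^ (-z)) * eB C k i θ x ∈ GG A ∧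
    redL A (cL (pB q k i θ ^ (-z)) * eB C k i θ x) ≠ 0

include C

theorem eMul_pos (k i : ℕ) : 0 < eMul q k i :=
  Nat.totient_pos.mpr (pow_pos C.prime.pos _)

theorem dpt_le (k i : ℕ) : dpt k i ≤ i := min_le_left _ _

/-- the root whose distance to `1` is the scale -/
theorem exists_pB_root {k : ℕ} (i : Fin (k + 1)) (θ : PR (q ^ (i : ℕ))) (h : dpt k i ≠ 0) :
    ∃ η : PR (q ^ dpt k i), pB q k i θ = 1 - (η : Qb) ∧
      η.u = θ.u ^ q ^ ((i : ℕ) - dpt k i) := by
  refine ⟨rootPow θ ((i : ℕ) - dpt k i) (dpt k i) (Nat.sub_add_cancel (dpt_le C k i)), ?_,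
    rootPow_u _ _ _ _⟩
  rw [pB, if_neg h, coe_rootPow]

theorem pB_ne_zero {k : ℕ} (i : Fin (k + 1)) (θ : PR (q ^ (i : ℕ))) : pB q k i θ ≠ 0 := by
  by_cases h : dpt k i = 0
  · rw [pB, if_pos h]; exact Nat.cast_ne_zero.mpr C.prime.ne_zero
  · obtain ⟨η, hη, -⟩ := exists_pB_root C i θ h
    rw [hη]
    exact sub_ne_zero.mpr (root_ne_one C.prime (Nat.pos_of_ne_zero h) η).symm

theorem valuation_pB_pow {k : ℕ} (i : Fin (k + 1)) (θ : PR (q ^ (i : ℕ))) :
    A.valuation (pB q k i θ) ^ eMul q k i = A.valuation (q : Qb) := by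
  by_cases h : dpt k i = 0
  · rw [pB, if_pos h, eMul, h, pow_zero, Nat.totient_one, pow_one]
  · obtain ⟨η, hη, -⟩ := exists_pB_root C i θ h
    rw [hη]
    exact valuation_one_sub_pow' C (Nat.pos_of_ne_zero h) η

/-- the scales of branches of equal depth have equal value -/
theorem valuation_pB_eq {k : ℕ} {i j : Fin (k + 1)} (h : dpt k i = dpt k j)
    (θ : PR (q ^ (i : ℕ))) (η : PR (q ^ (j : ℕ))) :
    A.valuation (pB q k i θ) = A.valuation (pB q k j η) := by
  have h1 := valuation_pB_pow C i θ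
  have e : eMul q k j = eMul q k i := by rw [eMul, eMul, h]
  rw [← valuation_pB_pow C j η, e] at h1
  exact (pow_left_inj₀ zero_le zero_le (eMul_pos C k i).ne').mp h1

theorem vpi_rational' {k : ℕ} (i : Fin (k + 1)) : vpi M q k i ∈ rationalFn A (lev M q k) := by
  have hj : ModFun.jBar M ∈ rationalFn A M := SS2.jBar_rational A M
  unfold vpi
  split_ifs
  · exact SS2.const_mem_rationalFn (natCast_mem _ q)
  · exact sub_mem (nd_rational _ hj) (nd_rational _ hj)
  · exact sub_mem (nd_rational _ hj) (nd_rational _ hj)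

theorem isRes_q {k : ℕ} (i : Fin (k + 1)) :
    IsRes C k i (algebraMap Qb (FB (lev M q k)) (q : Qb)) 0 := by
  have hq : (q : Qb) ∈ A := natCast_mem A q
  refine (IsRes.const (⟨(q : Qb), hq⟩ : A)).congr_res ?_
  rw [(Reduction.res_eq_zero_iff A ⟨(q : Qb), hq⟩).mpr C.lies, map_zero]

theorem isRes_vpi' {k : ℕ} (i : Fin (k + 1)) : IsRes C k i (vpi M q k i) 0 := by
  have hj : ModFun.jBar M ∈ GR A M := Reduction.tB_mem false
  have hi := i.is_le
  unfold vpi
  split_ifs with h1 h2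
  · exact isRes_q C i
  · refine ((isRes_nd C i (l := 2 * i) (by omega) hj).sub
      (isRes_nd C i (Nat.zero_le k) hj)).congr_res ?_
    rw [show nE k i (2 * i) = nE k i 0 by unfold nE; omega, sub_self]
  · refine ((isRes_nd C i (l := 2 * i - k) (by omega) hj).sub
      (isRes_nd C i (le_refl k) hj)).congr_res ?_
    rw [show nE k i (2 * i - k) = nE k i k by unfold nE; omega, sub_self]

/-- the difference of two nodes with equal exponents, one of them untwisted -/
theorem node_diff {k : ℕ} (i : Fin (k + 1)) (θ : PR (q ^ (i : ℕ))) {l₁ l₂ : ℕ} (hl₁ : l₁ ≤ k)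
    (hl₂ : l₂ ≤ k) (hE : nE k i l₁ = nE k i l₂) (hi2 : (i : ℕ) ≤ l₂) {n : ℕ} (η : PR (q ^ n))
    (hn : 1 ≤ n) (hη : nodeU q i l₁ θ.u = η.u) {a : FB M} (ha : a ∈ GR A M) :
    cL (1 - (η : Qb))⁻¹ * eB C k i θ (nd M q k l₂ a - nd M q k l₁ a) ∈ GG A ∧
      redL A (cL (1 - (η : Qb))⁻¹ * eB C k i θ (nd M q k l₂ a - nd M q k l₁ a)) =
        qExpand (kA A) (q ^ nE k i l₂) (theta (Reduction.redS A M a)) := by
  obtain ⟨u, hu, hu1⟩ := exists_unit_root' C η
  have hu' : ((u : A) : Qb) = (η : Qb) := congrArg Units.val hu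
  obtain ⟨h1, h2⟩ := SS2.theta_difference u hu1 (hu' ▸ root_ne_one C.prime hn η)
    (y := (a : LS)) ((SS2.coe_mem_GG_iff a).mpr ha)
  rw [hu'] at h1 h2
  rw [map_sub, eB_nd C i θ hl₂, eB_nd C i θ hl₁, hE, show nodeU q i l₂ θ.u = 1 from if_pos hi2,
    Reduction.twist_one_apply, hη, ← hu, ← map_sub, ← SS2.qExpand_cL_mul]
  obtain ⟨h3, h4⟩ := SS2.qExpand_mem (q ^ nE k i l₂) h1
  exact ⟨h3, by rw [h4, h2, SS2.redL_coe ha]⟩

/-- `(a(q^(2i)τ) - a(τ))/(1 - θ)` restricts to `θā(q^(q^(k - 2i)))` on the branch `i ≤ k/2` -/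
theorem red_node_diff {k : ℕ} (i : Fin (k + 1)) (hi : 1 ≤ (i : ℕ)) (hik : 2 * (i : ℕ) ≤ k)
    (θ : PR (q ^ (i : ℕ))) {a : FB M} (ha : a ∈ GR A M) :
    cL (pB q k i θ)⁻¹ * eB C k i θ (nd M q k (2 * i) a - nd M q k 0 a) ∈ GG A ∧
      redL A (cL (pB q k i θ)⁻¹ * eB C k i θ (nd M q k (2 * i) a - nd M q k 0 a)) =
        qExpand (kA A) (q ^ (k - 2 * (i : ℕ))) (theta (Reduction.redS A M a)) := by
  have hd : dpt k i = i := by unfold dpt; omega
  have hp : pB q k i θ = 1 - (θ : Qb) := by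
    rw [pB, if_neg (by omega), hd, Nat.sub_self, pow_zero, pow_one]
  rw [hp, ← show nE k i (2 * i) = k - 2 * (i : ℕ) by unfold nE; omega]
  refine node_diff C i θ (Nat.zero_le k) hik (by unfold nE; omega) (by omega) θ hi ?_ ha
  rw [nodeU, if_neg (by omega), pow_zero, pow_one]

theorem scaled_vpi' {k : ℕ} (i : Fin (k + 1)) : Scaled C k i (vpi M q k i) 1 := by
  intro θ
  have hj : ModFun.jBar M ∈ GR A M := Reduction.tB_mem false
  have hne : ∀ n : ℕ,
      qExpand (kA A) (q ^ n) (theta (Reduction.redS A M (ModFun.jBar M))) ≠ 0 := fun n => by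
    rw [show Reduction.redS A M (ModFun.jBar M) = jqModC (kA A) from Reduction.redS_tB (N := M) false]
    exact (_root_.map_ne_zero _).mpr SS2.theta_jqModC_ne
  have hi := i.is_le
  rw [zpow_neg_one]
  unfold vpi
  split_ifs with h1 h2
  · rw [AlgHom.commutes, pB, if_pos h1, ← SS2.cL_mul,
      inv_mul_cancel₀ (Nat.cast_ne_zero.mpr C.prime.ne_zero), SS2.cL_one]
    exact ⟨one_mem _, by rw [SS2.redL_one]; exact one_ne_zero⟩
  · unfold dpt at h1
    obtain ⟨h3, h4⟩ := red_node_diff C i (by omega) (by omega) θ hj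
    exact ⟨h3, by rw [h4]; exact hne _⟩
  · obtain ⟨η, hη, hu⟩ := exists_pB_root C i θ h1
    obtain ⟨h3, h4⟩ := node_diff C i θ (l₁ := 2 * i - k) (l₂ := k) (by omega) le_rfl
      (by unfold nE; omega) hi η (Nat.pos_of_ne_zero h1) (by
        have h1' : min (i : ℕ) (k - i) ≠ 0 := h1
        refine Eq.trans ?_ hu.symm
        rw [nodeU, if_neg (by omega)]
        refine congrArg (fun n : ℕ => θ.u ^ q ^ n) ?_
        show 2 * (i : ℕ) - k = (i : ℕ) - min (i : ℕ) (k - i)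
        omega) hj
    rw [hη, ← neg_sub (nd M q k k _), map_neg, mul_neg]
    refine ⟨neg_mem h3, ?_⟩
    rw [SS2.redL_neg h3, h4]
    exact neg_ne_zero.mpr (hne _)

/-- the involution exchanges the scales of the branches -/
theorem scaled_wAL {k : ℕ} {i j : Fin (k + 1)} (hij : (i : ℕ) + j = k) {x : FB (lev M q k)}
    {z : ℤ} (h : Scaled C k i x z) : Scaled C k j (wAL C k x) z := by
  intro θ
  obtain ⟨θ', u, hu, he⟩ := exists_eB_wAL C hij θ
  obtain ⟨h1, h1'⟩ := h θ'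
  obtain ⟨h2, h3⟩ := SS2.twist_mem_of_residue_one u hu h1
  rw [SS2.twist_cL_mul, ← he] at h2 h3
  refine SS2.scale_congr (zpow_ne_zero _ (pB_ne_zero C i θ')) ?_ h2 (by rw [h3]; exact h1')
  rw [map_zpow₀, map_zpow₀, valuation_pB_eq C (i := i) (j := j) (by unfold dpt; omega) θ' θ]

/-- scales of rational functions are conjugate -/
theorem scaled_of_root {k : ℕ} {i : Fin (k + 1)} {x : FB (lev M q k)}
    (hx : x ∈ rationalFn A (lev M q k)) (θ : PR (q ^ (i : ℕ))) {z : ℤ}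
    (h : cL (pB q k i θ ^ (-z)) * eB C k i θ x ∈ GG A)
    (h' : redL A (cL (pB q k i θ ^ (-z)) * eB C k i θ x) ≠ 0) : Scaled C k i x z := by
  intro θ'
  obtain ⟨σ, hσ, rfl⟩ := exists_inertia_root C θ θ'
  have hp : σ (pB q k i θ) = pB q k i (SS2.PR.map σ θ) := by
    unfold pB
    split_ifs
    · exact map_natCast σ q
    · rw [map_sub, map_one, map_pow, SS2.PR.coe_map]
  have e : coeffMap (σ : Qb →+* Qb) (cL (pB q k i θ ^ (-z)) * eB C k i θ x) =
      cL (pB q k i (SS2.PR.map σ θ) ^ (-z)) * eB C k i (SS2.PR.map σ θ) x := by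
    rw [map_mul, coeffMap_eB_rational C i hσ θ hx, ← hp, ← map_zpow₀, cL, cL,
      algebraMap_laurentSeries_eq_single, algebraMap_laurentSeries_eq_single, coeffMap_single]
    rfl
  obtain ⟨h1, h2⟩ := SS2.coeffMap_inertia hσ h
  rw [e] at h1 h2
  exact ⟨h1, by rw [h2]; exact h'⟩

theorem exists_scaled_low {k : ℕ} (i : Fin (k + 1)) (hik : (i : ℕ) ≤ k - i)
    {x : FB (lev M q k)} (hx : x ∈ rationalFn A (lev M q k)) (hx0 : x ≠ 0) :
    ∃ z : ℤ, Scaled C k i x z := by
  classical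
  obtain ⟨θ⟩ := nonempty_root C (i : ℕ)
  have hd : dpt k i = i := by unfold dpt; omega
  set K := IntermediateField.fixedField
    (A.inertiaSubgroupIn ℚ ⊓ MulAction.stabilizer (Qb ≃ₐ[ℚ] Qb) (θ : Qb)) with hK
  have hmemK : ∀ {c : Qb}, c ∈ K ↔ ∀ σ ∈ A.inertiaSubgroupIn ℚ, σ (θ : Qb) = θ → σ c = c :=
    fun {c} => (IntermediateField.mem_fixedField_iff _ _).trans
      ⟨fun h σ h1 h2 => h σ ⟨h1, h2⟩, fun h σ hσ => h σ hσ.1 hσ.2⟩
  have hcoe : ∀ y ∈ rationalFn A (lev M q k), ∀ n, (eB C k i θ y).coeff n ∈ K := by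
    intro y hy n
    refine hmemK.mpr fun σ hσ hθ => ?_
    have := congrArg (fun w : LS => w.coeff n) (coeffMap_eB_rational C i hσ θ hy)
    rw [show SS2.PR.map σ θ = θ from Subtype.ext hθ] at this
    simpa only [coeffMap_coeff, RingHom.coe_coe] using this
  obtain ⟨c, hcK, hc, h1, h2⟩ := SS2.exists_scale_in C.prime C.lies K (bddGen_eB' C i θ)
    (fun d n => hcoe (Genus.gen (lev M q k) d) (SS2.mem_rationalFn.mpr fun m => by
      rw [SS2.coe_gen_N]; exact SS2.coeff_jser_mem _ _ m) n) (hcoe x hx) hx0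
  -- the value of the scale is a power of that of `pB`
  suffices hv : ∃ Z : ℤ, A.valuation c = A.valuation (pB q k i θ ^ Z) by
    obtain ⟨Z, hZ⟩ := hv
    obtain ⟨h3, h4⟩ := SS2.scale_congr hc hZ h1 h2
    rw [← neg_neg Z] at h3 h4
    exact ⟨-Z, scaled_of_root C hx θ h3 h4⟩
  rcases Nat.eq_zero_or_pos (i : ℕ) with hi | hi
  · have hθ1 : (θ : Qb) = 1 := by
      have h := θ.prim.pow_eq_one
      simpa [hi] using h
    have hcT : c ∈ SS2.inertiaFixed A := SS2.mem_inertiaFixed.mpr fun σ hσ =>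
      hmemK.mp hcK σ hσ (by rw [hθ1, map_one])
    obtain ⟨j, hj⟩ := SS2.exists_zpow_valuation_T C.prime C.lies hcT hc
    exact ⟨j, by rw [hj, map_zpow₀, pB, if_pos (by omega)]⟩
  choose τ hτ hτθ using exists_inertia_root C θ
  have hτc : τ θ c = c := hmemK.mp hcK _ (hτ θ) (congrArg Subtype.val (hτθ θ))
  obtain ⟨co, hco, hsum⟩ := SS2.exists_coords (A := A) (fun z => τ z c)
    (fun z : PR (q ^ (i : ℕ)) => (1 : Qb) - (z : Qb))
    (fun a b h => Subtype.ext (sub_right_injective h))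
    (fun σ hσ z => by
      refine ⟨SS2.PR.map σ z, by rw [map_sub, map_one]; rfl, ?_⟩
      have h := hmemK.mp hcK ((τ (SS2.PR.map σ z))⁻¹ * (σ * τ z))
        (mul_mem (inv_mem (hτ _)) (mul_mem hσ (hτ _))) (by
          have e1 : τ (SS2.PR.map σ z) (θ : Qb) = σ (τ z (θ : Qb)) := by
            rw [← SS2.PR.coe_map, hτθ, ← SS2.PR.coe_map (τ z), hτθ]; rfl
          rw [AlgEquiv.mul_apply, AlgEquiv.mul_apply, ← e1]
          exact (τ (SS2.PR.map σ z)).symm_apply_apply _)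
      rw [AlgEquiv.mul_apply, AlgEquiv.mul_apply] at h
      have h' := congrArg (τ (SS2.PR.map σ z)) h
      rw [show ∀ y, τ (SS2.PR.map σ z) ((τ (SS2.PR.map σ z))⁻¹ y) = y from
        (τ (SS2.PR.map σ z)).apply_symm_apply] at h'
      exact h')
  set d := Nat.totient (q ^ (i : ℕ)) with hd_def
  set z := (1 : Qb) - (θ : Qb) with hz_def
  have hp : pB q k i θ = z := by
    rw [pB, if_neg (by omega), hd, Nat.sub_self, pow_zero, pow_one]
  have hz : A.valuation z ^ d = A.valuation (q : Qb) := valuation_one_sub_pow' C hi θ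
  have hd0 : 0 < d := Nat.totient_pos.mpr (pow_pos C.prime.pos _)
  have hceq : c = ∑ m ∈ Finset.range d, co m * z ^ m := by
    rw [hd_def, ← card_root C.prime]; exact hτc.symm.trans (hsum θ)
  obtain ⟨m, hm, hmax⟩ := (Finset.range d).exists_max_image
    (fun m => A.valuation (co m * z ^ m)) ⟨0, Finset.mem_range.mpr hd0⟩
  have hval : A.valuation c = A.valuation (co m * z ^ m) := by
    rw [hceq]
    exact le_antisymm (A.valuation.map_sum_le fun j hj => hmax j hj)
      (SS2.coeff_le C.prime C.lies hd0 hz hco (Finset.mem_range.mp hm))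
  have hz0 : z ≠ 0 := hp ▸ pB_ne_zero C i θ
  have hco0 : co m ≠ 0 := fun h => (Valuation.ne_zero_iff _).mpr hc
    (by rw [hval, h, zero_mul, map_zero])
  obtain ⟨j, hj⟩ := SS2.exists_zpow_valuation_T C.prime C.lies (hco m) hco0
  refine ⟨(d : ℤ) * j + (m : ℤ), ?_⟩
  rw [hp, hval, map_mul, hj, map_pow, map_zpow₀, zpow_add₀ ((Valuation.ne_zero_iff _).mpr hz0),
    zpow_mul, zpow_natCast, zpow_natCast, hz]

theorem exists_scaled {k : ℕ} (i : Fin (k + 1)) {x : FB (lev M q k)}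
    (hx : x ∈ rationalFn A (lev M q k)) (hx0 : x ≠ 0) : ∃ z : ℤ, Scaled C k i x z := by
  by_cases hik : (i : ℕ) ≤ k - i
  · exact exists_scaled_low C i hik hx hx0
  have hij : ((i.rev : Fin (k + 1)) : ℕ) + i = k := by rw [Fin.val_rev]; omega
  obtain ⟨z, hz⟩ := exists_scaled_low C i.rev (by omega) (x := wAL C k x)
    (wAL_rational C hx) ((_root_.map_ne_zero _).mpr hx0)
  have h := scaled_wAL C hij hz
  rw [wAL_wAL C] at h
  exact ⟨z, h⟩

end FLTAgent.CUBE

end
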