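import Fermat.Agent.CUBE.Coord
import Fermat.Agent.CUBE.Scale
import Fermat.Agent.SS2.ModelLattice
import Fermat.Agent.SS2.ModelFib

/-!
Chart functions lifting a regular function to a branch, separating one branch from the others;
lattices of bounded rational functions.
-/

set_option autoImplicit false
set_option linter.unusedSectionVars false
set_option linter.style.haveILetI false
set_option synthInstance.maxHeartbeats 200000
set_option maxHeartbeats 1000000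

noncomputable section

open ModularCurve AlgebraicCurve IsLocalRing
open FLTAgent.RR (Bd)
open FLTAgent.Reduction (Qb FB FS Ctx GR tB tS jS kA red regOn)
open FLTAgent.SS2 (InChart rationalFn TF LS GG redL cL cL_mem redL_cL redL_mul cL_one cL_mul redL_sum)

namespace FLTAgent.CUBE

variable {A : ValuationSubring Qb} {M q : ℕ} [NeZero M] [NeZero q] (C : Ctx A M q)
include C

theorem exists_branch_lift' {k : ℕ} (s : Bool) (i : Fin (k + 1)) {φ : FS A M}
    (hφ : φ ∈ regOn (kA A) (tS A M s)) :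
    ∃ x : FB (lev M q k), x ∈ rationalFn A (lev M q k) ∧ IsRes C k i x φ ∧
      (∀ i', ∃ r, IsRes C k i' x r) ∧
      ∀ P : Place Qb (FB (lev M q k)), InChart s (P.ord (Jp M q k)) → Bd P x 0 := by
  obtain ⟨a, ha, har, hax⟩ := SS2.exists_rational_lift C ((Reduction.BS_iff C).mpr hφ)
  obtain ⟨l, hl, hnE⟩ : ∃ l ≤ k, nE k i l = 0 := by
    have := i.2
    by_cases h : k ≤ 2 * (i : ℕ)
    · exact ⟨0, Nat.zero_le k, by unfold nE; omega⟩
    · exact ⟨k, le_rfl, by unfold nE; omega⟩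
  refine ⟨nd M q k l a, nd_rational l har, ?_,
    fun i' => ⟨_, isRes_nd C i' hl (Reduction.BT.mem_GR C ha)⟩,
    fun P hP => nd_regOn C ha P (bd_nd_of_inChart C hP hl)⟩
  exact (isRes_nd C i hl (Reduction.BT.mem_GR C ha)).congr_res (by rw [hnE, hax]; rfl)

theorem pow_exp_ne {a b : ℕ} (h : a ≠ b) : q ^ a ≠ q ^ b := fun e =>
  h (Nat.pow_right_injective C.prime.two_le e)

/-- the two elementary separating functions of an edge -/
theorem edge_sep {k : ℕ} (s : Bool) {l : ℕ} (hl : l + 1 ≤ k) :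
    let t := tB M s
    let Dp := nd M q k (l + 1) t - nd M q k l t ^ q
    let Dm := nd M q k l t - nd M q k (l + 1) t ^ q
    (∀ i : Fin (k + 1), (l + 1 ≤ (i : ℕ) → IsRes C k i Dp 0) ∧
      ((i : ℕ) ≤ l → ∃ r, r ≠ 0 ∧ IsRes C k i Dp r)) ∧
    (∀ i : Fin (k + 1), ((i : ℕ) ≤ l → IsRes C k i Dm 0) ∧
      (l + 1 ≤ (i : ℕ) → ∃ r, r ≠ 0 ∧ IsRes C k i Dm r)) ∧
    (Dp ∈ rationalFn A (lev M q k) ∧ Dm ∈ rationalFn A (lev M q k)) ∧
    ∀ P : Place Qb (FB (lev M q k)), InChart s (P.ord (Jp M q k)) → Bd P Dp 0 ∧ Bd P Dm 0 := by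
  intro t Dp Dm
  have hA : ∀ i : Fin (k + 1), IsRes C k i Dp
      (tS A M s ^ q ^ nE k i (l + 1) - tS A M s ^ q ^ (nE k i l + 1)) := fun i =>
    ((isRes_nd_tB C i hl s).sub ((isRes_nd_tB C i (Nat.le_of_succ_le hl) s).pow q)).congr_res
      (by rw [← pow_mul, ← pow_succ])
  have hB : ∀ i : Fin (k + 1), IsRes C k i Dm
      (tS A M s ^ q ^ nE k i l - tS A M s ^ q ^ (nE k i (l + 1) + 1)) := fun i =>
    ((isRes_nd_tB C i (Nat.le_of_succ_le hl) s).sub ((isRes_nd_tB C i hl s).pow q)).congr_res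
      (by rw [← pow_mul, ← pow_succ])
  refine ⟨fun i => ⟨fun h => (hA i).congr_res ?_, fun h => ⟨_, ?_, hA i⟩⟩,
    fun i => ⟨fun h => (hB i).congr_res ?_, fun h => ⟨_, ?_, hB i⟩⟩, ?_, fun P hP => ?_⟩
  · rw [sub_eq_zero]
    congr 2
    have := i.2
    unfold nE
    omega
  · refine SS2.tS_pow_sub_ne C s (pow_exp_ne C ?_)
    have := i.2
    unfold nE
    omega
  · rw [sub_eq_zero]
    congr 2
    have := i.2
    unfold nE
    omega
  · refine SS2.tS_pow_sub_ne C s (pow_exp_ne C ?_)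
    have := i.2
    unfold nE
    omega
  · have h := fun l => nd_rational (k := k) (q := q) l (SS2.tB_mem_rationalFn A M s)
    exact ⟨sub_mem (h (l + 1)) (pow_mem (h l) q), sub_mem (h l) (pow_mem (h (l + 1)) q)⟩
  · have hb := fun {l} (h : l ≤ k) => bd_nd_of_inChart C hP h
    exact ⟨(hb hl).sub (by simpa using (hb (Nat.le_of_succ_le hl)).pow q),
      (hb (Nat.le_of_succ_le hl)).sub (by simpa using (hb hl).pow q)⟩

theorem exists_branch_sep' {k : ℕ} (s : Bool) (i : Fin (k + 1)) :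
    ∃ x : FB (lev M q k), x ∈ rationalFn A (lev M q k) ∧
      (∃ r, r ≠ 0 ∧ IsRes C k i x r) ∧ (∀ i', i' ≠ i → IsRes C k i' x 0) ∧
      ∀ P : Place Qb (FB (lev M q k)), InChart s (P.ord (Jp M q k)) → Bd P x 0 := by
  -- kills the branches after `i`
  obtain ⟨xp, hpr, ⟨rp, hrp, hp⟩, hp0, hpP, hpall⟩ : ∃ xp : FB (lev M q k),
      xp ∈ rationalFn A (lev M q k) ∧ (∃ r, r ≠ 0 ∧ IsRes C k i xp r) ∧
      (∀ i' : Fin (k + 1), (i : ℕ) < i' → IsRes C k i' xp 0) ∧
      (∀ P : Place Qb (FB (lev M q k)), InChart s (P.ord (Jp M q k)) → Bd P xp 0) ∧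
      ∀ i', ∃ r, IsRes C k i' xp r := by
    by_cases h : (i : ℕ) + 1 ≤ k
    · obtain ⟨h1, -, ⟨h3, -⟩, h4⟩ := edge_sep C s h
      refine ⟨_, h3, (h1 i).2 le_rfl, fun i' hi' => (h1 i').1 hi', fun P hP => (h4 P hP).1,
        fun i' => ?_⟩
      by_cases hi' : (i : ℕ) + 1 ≤ i'
      · exact ⟨0, (h1 i').1 hi'⟩
      · exact ((h1 i').2 (by omega)).imp fun r hr => hr.2
    · exact ⟨1, one_mem _, ⟨1, one_ne_zero, IsRes.one⟩, fun i' hi' => absurd i'.2 (by omega),
        fun P _ => by simpa using RR.Bd.of_algebraMap (v := P) (1 : Qb), fun _ => ⟨1, IsRes.one⟩⟩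
  -- kills the branches before `i`
  obtain ⟨xm, hmr, ⟨rm, hrm, hm⟩, hm0, hmP, hmall⟩ : ∃ xm : FB (lev M q k),
      xm ∈ rationalFn A (lev M q k) ∧ (∃ r, r ≠ 0 ∧ IsRes C k i xm r) ∧
      (∀ i' : Fin (k + 1), (i' : ℕ) < i → IsRes C k i' xm 0) ∧
      (∀ P : Place Qb (FB (lev M q k)), InChart s (P.ord (Jp M q k)) → Bd P xm 0) ∧
      ∀ i', ∃ r, IsRes C k i' xm r := by
    by_cases h : 1 ≤ (i : ℕ)
    · have := i.2
      obtain ⟨-, h1, ⟨-, h3⟩, h4⟩ := edge_sep C (k := k) s (l := (i : ℕ) - 1) (by omega)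
      refine ⟨_, h3, (h1 i).2 (by omega), fun i' hi' => (h1 i').1 (by omega),
        fun P hP => (h4 P hP).2, fun i' => ?_⟩
      by_cases hi' : (i' : ℕ) ≤ (i : ℕ) - 1
      · exact ⟨0, (h1 i').1 hi'⟩
      · exact ((h1 i').2 (by omega)).imp fun r hr => hr.2
    · exact ⟨1, one_mem _, ⟨1, one_ne_zero, IsRes.one⟩, fun i' hi' => absurd hi' (by omega),
        fun P _ => by simpa using RR.Bd.of_algebraMap (v := P) (1 : Qb), fun _ => ⟨1, IsRes.one⟩⟩
  refine ⟨xp * xm, mul_mem hpr hmr, ⟨rp * rm, mul_ne_zero hrp hrm, hp.mul hm⟩, fun i' hi' => ?_,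
    fun P hP => by simpa using (hpP P hP).mul (hmP P hP)⟩
  rcases lt_or_gt_of_ne (Fin.val_ne_of_ne hi') with h | h
  · obtain ⟨r, hr⟩ := hpall i'
    exact (hr.mul (hm0 i' h)).congr_res (mul_zero r)
  · obtain ⟨r, hr⟩ := hmall i'
    exact ((hp0 i' h).mul hr).congr_res (zero_mul r)

theorem lattice_fg' {k : ℕ} (D : Divisor Qb (FB (lev M q k))) :
    ∃ S : Finset (FB (lev M q k)),
      (∀ x ∈ S, x ∈ riemannRochSpace D ∧ x ∈ rationalFn A (lev M q k) ∧
        ∀ i, ∃ r, IsRes C k i x r) ∧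
      ∀ x ∈ riemannRochSpace D, x ∈ rationalFn A (lev M q k) → (∀ i, ∃ r, IsRes C k i x r) →
        ∃ c : FB (lev M q k) → Qb, (∀ y, c y ∈ TF A ∧ c y ∈ A) ∧
          x = ∑ y ∈ S, algebraMap Qb (FB (lev M q k)) (c y) * y := by
  classical
  haveI := RR.finiteDimensional_rr (K := Qb) D
  obtain ⟨θ⟩ := nonempty_root C ((Fin.last k : Fin (k + 1)) : ℕ)
  obtain ⟨d, v, hspan, hint, hli⟩ := SS2.exists_orth_basis (A := A) C.prime C.lies
    (fun _ : Unit => eB C k (Fin.last k) θ)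
    (fun _ x => SS2.exists_bdd_repr (bddGen_eB' C (Fin.last k) θ) x) (fun _ => 1)
    (fun _ => one_ne_zero) (riemannRochSpace D)
  suffices hb : ∀ x ∈ riemannRochSpace D,
      (x ∈ rationalFn A (lev M q k) ∧ ∀ i, ∃ r, IsRes C k i x r) →
      ∃ a : Fin d → Qb, x = ∑ i, a i • v i ∧ ∀ i, A.valuation (a i) ≤ A.valuation (1 : Qb) by
    obtain ⟨S, hS, hgen⟩ := SS2.lattice_fg_of_coord C.prime C.lies (riemannRochSpace D)
      (fun x => x ∈ rationalFn A (lev M q k) ∧ ∀ i, ∃ r, IsRes C k i x r)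
      (fun x _ hx => hx.1) v 1 hb
    exact ⟨S, hS, fun x hxV hxr hx => hgen x hxV ⟨hxr, hx⟩⟩
  intro x hxV hx
  rw [← hspan] at hxV
  obtain ⟨a, ha⟩ := (Submodule.mem_span_range_iff_exists_fun Qb).mp hxV
  refine ⟨a, ha.symm, fun i => ?_⟩
  rw [map_one]
  by_contra hcon
  push Not at hcon
  obtain ⟨i₀, -, hmax⟩ := Finset.univ.exists_max_image (fun l => A.valuation (a l))
    ⟨i, Finset.mem_univ i⟩
  have hlt : 1 < A.valuation (a i₀) := hcon.trans_le (hmax i (Finset.mem_univ i))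
  have ha0 : a i₀ ≠ 0 := fun h => by
    rw [h, map_zero] at hlt
    exact not_lt_zero hlt
  have hdiv : ∀ l, a l / a i₀ ∈ A := fun l => by
    rw [← A.valuation_le_one_iff, map_div₀, div_le_one₀ (zero_lt_one.trans hlt)]
    exact hmax l (Finset.mem_univ l)
  have hinv : (a i₀)⁻¹ ∈ A := by
    rw [← A.valuation_le_one_iff, map_inv₀]
    exact inv_le_one_of_one_le₀ hlt.le
  have hxG : eB C k (Fin.last k) θ x ∈ GG A := ((hx.2 (Fin.last k)).choose_spec θ).1
  have hvG : ∀ l, eB C k (Fin.last k) θ (v l) ∈ GG A := fun l => by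
    have := hint () l
    rwa [cL_one, one_mul] at this
  have e : cL (a i₀)⁻¹ * eB C k (Fin.last k) θ x = ∑ l, cL (a l / a i₀) * eB C k (Fin.last k) θ (v l) := by
    rw [← ha, map_sum, Finset.mul_sum]
    refine Finset.sum_congr rfl fun l _ => ?_
    rw [Algebra.smul_def, map_mul, AlgHom.commutes, ← mul_assoc, div_eq_inv_mul, cL_mul]
  have hres : redL A (cL (a i₀)⁻¹ * eB C k (Fin.last k) θ x) = 0 := by
    rw [redL_mul (cL_mem hinv) hxG, redL_cL ⟨_, hinv⟩, show residue A (⟨(a i₀)⁻¹, hinv⟩ : A) = 0 from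
      (Reduction.res_eq_zero_iff A _).mpr (by
        show A.valuation ((a i₀)⁻¹) < 1
        rw [map_inv₀]
        exact inv_lt_one_of_one_lt₀ hlt), map_zero, zero_mul]
  rw [e, redL_sum _ _ fun l _ => mul_mem (cL_mem (hdiv l)) (hvG l)] at hres
  have h0 := Fintype.linearIndependent_iff.mp hli (fun l => residue A (⟨a l / a i₀, hdiv l⟩ : A))
    (funext fun b => by
      rw [Finset.sum_apply, Pi.zero_apply, ← hres]
      refine Finset.sum_congr rfl fun l _ => ?_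
      rw [Pi.smul_apply, cL_one, one_mul, redL_mul (cL_mem (hdiv l)) (hvG l), redL_cL ⟨_, hdiv l⟩,
        algebraMap_laurentSeries_eq_single, HahnSeries.single_zero_mul_eq_smul]) i₀
  rw [show (⟨a i₀ / a i₀, hdiv i₀⟩ : A) = 1 from Subtype.ext (div_self ha0), map_one] at h0
  exact one_ne_zero h0

end FLTAgent.CUBE

end
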