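import Fermat.Agent.CUBE.Scale
import Fermat.Agent.SS2.ModelNorms

/-!
The norm along `β` from level `M qᵏ⁺¹` to level `M qᵏ`, read on the branches: inseparable of degree
`q` on the branches `i ≥ 2`; the branches `0` and `1` are put together.
-/

set_option autoImplicit false
set_option linter.unusedSectionVars false
set_option linter.style.haveILetI false
set_option synthInstance.maxHeartbeats 200000
set_option maxHeartbeats 1000000

noncomputable section

open ModularCurve AlgebraicCurve IsLocalRing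
open FLTAgent.Reduction (Qb FB FS Ctx GR jS kA red)
open FLTAgent.SS2 (PR LS rationalFn GG redL cL)

namespace FLTAgent.CUBE

variable {A : ValuationSubring Qb} {M q : ℕ} [NeZero M] [NeZero q]

/-- the second degeneracy map commutes with conjugation -/
theorem upB_galois (k : ℕ) (σ : Qb ≃ₐ[ℚ] Qb) (a : FB (lev M q k)) :
    upB M q k (SS2.galFn (lev M q k) σ • a) = SS2.galFn (lev M q (k + 1)) σ • upB M q k a :=
  Subtype.ext (by
    show ((heckeBetaBar Qb (lev M q k) q (SS2.galFn (lev M q k) σ • a) :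
      FB (lev M q k * q)) : LS) =
        ((SS2.galFn (lev M q k * q) σ • heckeBetaBar Qb (lev M q k) q a :
          FB (lev M q k * q)) : LS)
    rw [coe_heckeBetaBar, coe_arithmeticGalois_smul, coe_arithmeticGalois_smul,
      coe_heckeBetaBar, ModFun.coeffMap_qExpand])

/-- a product of scaled series is scaled -/
theorem prod_scaled {ι : Type*} [Fintype ι] (f : ι → LS) (c : ι → Qb) (hc : ∀ i, c i ≠ 0)
    (h : ∀ i, cL (c i) * f i ∈ GG A ∧ redL A (cL (c i) * f i) ≠ 0) {d : Qb}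
    (hd : A.valuation d = ∏ i, A.valuation (c i)) :
    cL d * ∏ i, f i ∈ GG A ∧ redL A (cL d * ∏ i, f i) ≠ 0 := by
  have e : cL (∏ i, c i) * ∏ i, f i = ∏ i, cL (c i) * f i := by
    rw [SS2.cL_prod, Finset.prod_mul_distrib]
  refine SS2.scale_congr (c := ∏ i, c i) (Finset.prod_ne_zero_iff.mpr fun i _ => hc i)
    (by rw [map_prod, hd]) ?_ ?_
  · rw [e]; exact prod_mem fun i _ => (h i).1
  · rw [e, SS2.redL_prod _ _ fun i _ => (h i).1]
    exact Finset.prod_ne_zero_iff.mpr fun i _ => (h i).2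

/-- the leading coefficient of `j(u qⁿ)` -/
theorem coeff_qExpand_twist_j (n : ℕ) [NeZero n] (u : Qbˣ) :
    (qExpand Qb n (Reduction.twist u (ModFun.jBar M : LS))).coeff (-(n : ℤ)) =
      ((u ^ (-1 : ℤ) : Qbˣ) : Qb) := by
  rw [show -(n : ℤ) = (n : ℤ) * (-1) by ring, qExpand_coeff_mul, SS2.coe_jM0,
    SS2.coeff_twist_j]

variable (C : Ctx A M q)
include C

theorem finrankAlong_upA (k : ℕ) (hk : 1 ≤ k) : finrankAlong Qb (upA M q k) = q := by
  have h := SS2.finrankAlong_incl (dvd_mul_right (lev M q k) q)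
  rw [show upA M q k = heckeAlphaBar Qb (lev M q k) q from rfl, SS2.alpha_eq_incl]
  have hc : M.Coprime q := (C.prime.coprime_iff_not_dvd.mpr C.not_dvd).symm
  have e : ∀ n, 1 ≤ n → dedekindPsi (lev M q n) = dedekindPsi M * (q ^ n + q ^ (n - 1)) :=
    fun n hn => by
      rw [lev_eq, Genus.dedekindPsi_mul (Nat.Coprime.pow_right n hc),
        Genus.dedekindPsi_prime_pow C.prime hn]
  replace h := h.trans (show dedekindPsi (lev M q k * q) = _ from e (k + 1) (by omega))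
  rw [e k hk] at h
  refine Nat.eq_of_mul_eq_mul_right (Nat.mul_pos (SS2.dedekindPsi_pos' M)
    (Nat.add_pos_left (pow_pos C.prime.pos _) _)) (h.trans ?_)
  obtain ⟨n, rfl⟩ := Nat.exists_eq_add_of_le hk
  simp only [Nat.add_sub_cancel, Nat.add_sub_cancel_left]
  ring

theorem finrankAlong_upB (k : ℕ) (hk : 1 ≤ k) : finrankAlong Qb (upB M q k) = q := by
  refine Eq.trans ?_ (finrankAlong_upA C k hk)
  let i : FB (lev M q k) ≃+* FB (lev M q k) :=
    (AlgEquiv.ofAlgHom (wAL C k) (wAL C k) (AlgHom.ext fun x => wAL_wAL C x)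
      (AlgHom.ext fun x => wAL_wAL C x)).toRingEquiv
  let j : FB (lev M q (k + 1)) ≃+* FB (lev M q (k + 1)) :=
    (AlgEquiv.ofAlgHom (wAL C (k + 1)) (wAL C (k + 1)) (AlgHom.ext fun x => wAL_wAL C x)
      (AlgHom.ext fun x => wAL_wAL C x)).toRingEquiv
  refine @Algebra.finrank_eq_of_equiv_equiv _ _ _ _ (algebraAlong (upB M q k))
    _ _ _ _ (algebraAlong (upA M q k)) i j (RingHom.ext fun g => ?_)
  show upA M q k (wAL C k g) = wAL C (k + 1) (upB M q k g)
  conv_rhs => rw [← wAL_wAL C g, ← wAL_upA C, wAL_wAL C]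

theorem normB_rational {k : ℕ} {x : FB (lev M q (k + 1))}
    (hx : x ∈ rationalFn A (lev M q (k + 1))) : normB M q k x ∈ rationalFn A (lev M q (k + 1)) := by
  intro σ hσ
  rw [normB_apply, ← upB_galois]
  congr 1
  have h := SS2.normAlong_equiv (upB M q k)
    (MulSemiringAction.toRingEquiv _ (FB (lev M q k)) (SS2.galFn (lev M q k) σ))
    (MulSemiringAction.toRingEquiv _ (FB (lev M q (k + 1))) (SS2.galFn (lev M q (k + 1)) σ))
    (fun a => upB_galois k σ a) x
  rw [show MulSemiringAction.toRingEquiv _ (FB (lev M q (k + 1)))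
    (SS2.galFn (lev M q (k + 1)) σ) x = x from hx σ hσ] at h
  exact h.symm

/-- branches agreeing on the nodes `≥ 1` agree on the image of `β` -/
theorem eB_upB_congr {k : ℕ} {i j : Fin (k + 2)} (θ : PR (q ^ (i : ℕ))) (η : PR (q ^ (j : ℕ)))
    (h : ∀ l, 1 ≤ l → l ≤ k + 1 → nE (k + 1) i l = nE (k + 1) j l ∧
      nodeU q i l θ.u = nodeU q j l η.u) (g : FB (lev M q k)) :
    eB C (k + 1) i θ (upB M q k g) = eB C (k + 1) j η (upB M q k g) := by
  refine DFunLike.congr_fun (algHom_ext_nd C.prime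
    (f := (eB C (k + 1) i θ).comp (upB M q k)) (g := (eB C (k + 1) j η).comp (upB M q k))
    fun l hl a => ?_) g
  obtain ⟨h1, h2⟩ := h (l + 1) (by omega) (by omega)
  rw [AlgHom.comp_apply, AlgHom.comp_apply, upB_nd, eB_nd C i θ (by omega),
    eB_nd C j η (by omega), h2, h1]

/-- distinct roots give distinct branches -/
theorem eB_injective {k : ℕ} {i : Fin (k + 1)} (hi : 1 ≤ (i : ℕ)) :
    Function.Injective fun θ : PR (q ^ (i : ℕ)) => (eB C k i θ).toRingHom := fun θ η h => by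
  have e := congrArg (fun y : LS => y.coeff (-((q ^ nE k i 0 : ℕ) : ℤ)))
    (DFunLike.congr_fun h (nd M q k 0 (ModFun.jBar M)))
  simp only [AlgHom.toRingHom_eq_coe, RingHom.coe_coe, eB_nd C _ _ (Nat.zero_le k), nodeU,
    if_neg (show ¬ (i : ℕ) ≤ 0 by omega), pow_zero, pow_one, coeff_qExpand_twist_j] at e
  rw [Units.val_zpow_eq_zpow_val, Units.val_zpow_eq_zpow_val, zpow_neg_one, zpow_neg_one,
    inv_inj] at e
  exact Subtype.ext e

/-- the root `θ ω` -/
theorem exists_shift_root {i : ℕ} (hi : 2 ≤ i) (θ : PR (q ^ i)) (s : ℕ) :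
    ∃ η : PR (q ^ i), η.u = θ.u ^ (1 + s * q ^ (i - 1)) ∧
      ∀ l, 1 ≤ l → nodeU q i l η.u = nodeU q i l θ.u := by
  have hco : (1 + s * q ^ (i - 1)).Coprime (q ^ i) := by
    refine Nat.Coprime.pow_right i ?_
    rw [show i - 1 = i - 2 + 1 by omega, pow_succ, ← mul_assoc,
      Nat.coprime_comm, Nat.coprime_add_mul_right_right]
    exact Nat.coprime_one_right q
  refine ⟨⟨(θ : Qb) ^ (1 + s * q ^ (i - 1)), (mem_primitiveRoots (pow_pos C.prime.pos _)).mpr
    (θ.prim.pow_of_coprime _ hco)⟩, Units.ext (by rw [Units.val_pow_eq_pow_val]; rfl),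
    fun l hl => ?_⟩
  unfold nodeU
  split_ifs with h
  · rfl
  refine Units.ext ?_
  rw [Units.val_pow_eq_pow_val, Units.val_pow_eq_pow_val]
  show ((θ : Qb) ^ (1 + s * q ^ (i - 1))) ^ q ^ l = (θ : Qb) ^ q ^ l
  rw [← pow_mul, add_mul, one_mul, pow_add]
  have : s * q ^ (i - 1) * q ^ l = q ^ i * (s * q ^ (l - 1)) := by
    rw [mul_assoc, ← pow_add, mul_left_comm, ← pow_add]
    congr 2
    omega
  rw [this, pow_mul (θ : Qb) (q ^ i), θ.prim.pow_eq_one, one_pow, mul_one]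

/-- the norm on a branch `i ≥ 2` -/
theorem eB_normB_single {k : ℕ} (i : Fin (k + 2)) (hi : 2 ≤ (i : ℕ)) (θ : PR (q ^ (i : ℕ))) :
    ∃ η : Fin q → PR (q ^ (i : ℕ)), ∀ x : FB (lev M q (k + 1)),
      eB C (k + 1) i θ (normB M q k x) = ∏ s, eB C (k + 1) i (η s) x := by
  choose η hu hη using fun s : ℕ => exists_shift_root C hi θ s
  have hinj : Function.Injective fun s : Fin q => η s := by
    intro s t h
    have h1 : θ.u ^ (1 + (s : ℕ) * q ^ ((i : ℕ) - 1)) =
        θ.u ^ (1 + (t : ℕ) * q ^ ((i : ℕ) - 1)) := by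
      rw [← hu, ← hu, show η (s : ℕ) = η (t : ℕ) from h]
    rw [pow_add, pow_add, mul_left_cancel_iff, mul_comm (s : ℕ), mul_comm (t : ℕ),
      pow_mul, pow_mul] at h1
    have hω : IsPrimitiveRoot (θ.u ^ q ^ ((i : ℕ) - 1)) q := by
      rw [← IsPrimitiveRoot.coe_units_iff, Units.val_pow_eq_pow_val]
      exact θ.prim.pow (pow_pos C.prime.pos _) (by rw [← pow_succ]; congr 1; omega)
    exact Fin.ext (hω.pow_inj s.2 t.2 h1)
  refine ⟨fun s => η s, fun x => ?_⟩
  rw [normB_apply]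
  refine SS2.normAlong_prod (upB M q k)
    ((eB C (k + 1) i θ).comp (upB M q k)).toRingHom
    (fun s : Fin q => (eB C (k + 1) i (η s)).toRingHom) (fun s g => ?_)
    (fun s t h => hinj (eB_injective C (by omega) h))
    (by rw [Fintype.card_fin, finrankAlong_upB C k (by omega)]) x
  exact eB_upB_congr C (η s) θ (fun l hl _ => ⟨rfl, hη s l hl⟩) g

theorem isRes_normB_single {k : ℕ} (i : Fin (k + 2)) (hi : 2 ≤ (i : ℕ))
    {x : FB (lev M q (k + 1))} {r : FS A M} (h : IsRes C (k + 1) i x r) :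
    IsRes C (k + 1) i (normB M q k x) (r ^ q) := fun θ => by
  obtain ⟨η, hη⟩ := eB_normB_single C i hi θ
  rw [hη]
  refine ⟨prod_mem fun s _ => (h _).1, ?_⟩
  rw [SS2.redL_prod _ _ fun s _ => (h _).1, Finset.prod_congr rfl fun s _ => (h (η s)).2,
    Finset.prod_const, Finset.card_univ, Fintype.card_fin, SubmonoidClass.coe_pow]

theorem scaled_normB_single {k : ℕ} (i : Fin (k + 2)) (hi : 2 ≤ (i : ℕ))
    {x : FB (lev M q (k + 1))} {z : ℤ} (h : Scaled C (k + 1) i x z) :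
    Scaled C (k + 1) i (normB M q k x) ((q : ℤ) * z) := fun θ => by
  obtain ⟨η, hη⟩ := eB_normB_single C i hi θ
  rw [hη]
  refine prod_scaled _ (fun s => pB q (k + 1) i (η s) ^ (-z))
    (fun s => zpow_ne_zero _ (pB_ne_zero C i _)) (fun s => h (η s)) ?_
  rw [Finset.prod_congr rfl fun s _ => show A.valuation (pB q (k + 1) i (η s) ^ (-z)) =
      A.valuation (pB q (k + 1) i θ) ^ (-z) by rw [map_zpow₀, valuation_pB_eq C rfl (η s) θ],
    Finset.prod_const, Finset.card_univ, Fintype.card_fin, map_zpow₀, ← zpow_natCast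
      (A.valuation (pB q (k + 1) i θ) ^ (-z)) q, ← zpow_mul]
  congr 1
  ring

/-- the conjugates on the branches `0` and `1` -/
def conjP (k : ℕ) (θ₀ : PR (q ^ ((0 : Fin (k + 2)) : ℕ))) :
    Option (PR (q ^ ((1 : Fin (k + 2)) : ℕ))) → (FB (lev M q (k + 1)) →+* LS) := fun o =>
  o.elim (eB C (k + 1) 0 θ₀).toRingHom fun θ => (eB C (k + 1) 1 θ).toRingHom

theorem agree_pair {k : ℕ} (hk : 1 ≤ k) (θ₀ : PR (q ^ ((0 : Fin (k + 2)) : ℕ)))
    (θ : PR (q ^ ((1 : Fin (k + 2)) : ℕ))) (g : FB (lev M q k)) :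
    eB C (k + 1) 1 θ (upB M q k g) = eB C (k + 1) 0 θ₀ (upB M q k g) := by
  refine eB_upB_congr C θ θ₀ (fun l hl hl' => ?_) g
  refine ⟨by simp only [Fin.val_one, Fin.val_zero, nE]; omega, ?_⟩
  unfold nodeU
  rw [if_pos (by simpa using hl), if_pos (by simp)]

/-- the norm on the branches `0` and `1` -/
theorem eB_normB_pair {k : ℕ} (hk : 1 ≤ k) (θ₀ : PR (q ^ ((0 : Fin (k + 2)) : ℕ)))
    (x : FB (lev M q (k + 1))) :
    eB C (k + 1) 0 θ₀ (normB M q k x) =
      eB C (k + 1) 0 θ₀ x * ∏ θ : PR (q ^ ((1 : Fin (k + 2)) : ℕ)), eB C (k + 1) 1 θ x := by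
  have hne : ∀ θ : PR (q ^ ((1 : Fin (k + 2)) : ℕ)),
      conjP C k θ₀ none ≠ conjP C k θ₀ (some θ) := fun θ h => by
    have e := congrArg (fun y : LS => y.coeff (-((q ^ (k - 1) : ℕ) : ℤ)))
      (DFunLike.congr_fun h (nd M q (k + 1) 0 (ModFun.jBar M)))
    simp only [conjP, Option.elim_none, Option.elim_some, AlgHom.toRingHom_eq_coe,
      RingHom.coe_coe, eB_nd C _ _ (Nat.zero_le (k + 1))] at e
    rw [qExpand_coeff_of_not_dvd (q ^ nE (k + 1) ((0 : Fin (k + 2)) : ℕ) 0)] at e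
    · rw [show q ^ (k - 1) = q ^ nE (k + 1) ((1 : Fin (k + 2)) : ℕ) 0 by
        simp only [Fin.val_one, nE]; congr 1; omega, coeff_qExpand_twist_j] at e
      exact Units.ne_zero _ e.symm
    · intro hd
      rw [dvd_neg, Int.natCast_dvd_natCast, Nat.pow_dvd_pow_iff_le_right C.prime.one_lt] at hd
      simp only [Fin.val_zero, nE] at hd
      omega
  have hinj : Function.Injective (conjP C k θ₀) := by
    rintro (_ | a) (_ | b) h
    · rfl
    · exact absurd h (hne b)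
    · exact absurd h.symm (hne a)
    · exact congrArg some (eB_injective C (i := (1 : Fin (k + 2))) (by simp) h)
  have hcard : Fintype.card (Option (PR (q ^ ((1 : Fin (k + 2)) : ℕ)))) =
      finrankAlong Qb (upB M q k) := by
    rw [Fintype.card_option, card_root C.prime, finrankAlong_upB C k hk, Fin.val_one, pow_one,
      Nat.totient_prime C.prime, Nat.sub_add_cancel C.prime.one_le]
  have h := SS2.normAlong_prod (upB M q k)
    ((eB C (k + 1) 0 θ₀).comp (upB M q k)).toRingHom (conjP C k θ₀)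
    (fun o g => by
      rcases o with _ | θ
      · rfl
      · exact agree_pair C hk θ₀ θ g) hinj hcard x
  rw [Fintype.prod_option] at h
  rw [normB_apply]
  exact h

theorem eB_normB_pair' {k : ℕ} (hk : 1 ≤ k) (θ : PR (q ^ ((1 : Fin (k + 2)) : ℕ)))
    (x : FB (lev M q (k + 1))) :
    ∃ θ₀ : PR (q ^ ((0 : Fin (k + 2)) : ℕ)), eB C (k + 1) 1 θ (normB M q k x) =
      eB C (k + 1) 0 θ₀ (normB M q k x) := by
  obtain ⟨θ₀⟩ := nonempty_root C ((0 : Fin (k + 2)) : ℕ)
  exact ⟨θ₀, by rw [normB_apply]; exact agree_pair C hk θ₀ θ _⟩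

theorem card_root_one (k : ℕ) :
    Fintype.card (PR (q ^ ((1 : Fin (k + 2)) : ℕ))) = q - 1 := by
  rw [card_root C.prime, Fin.val_one, pow_one, Nat.totient_prime C.prime]

theorem isRes_normB_pair {k : ℕ} (hk : 1 ≤ k) {x : FB (lev M q (k + 1))} {r₀ r₁ : FS A M}
    (h₀ : IsRes C (k + 1) 0 x r₀) (h₁ : IsRes C (k + 1) 1 x r₁) :
    IsRes C (k + 1) 0 (normB M q k x) (r₀ * r₁ ^ (q - 1)) ∧
      IsRes C (k + 1) 1 (normB M q k x) (r₀ * r₁ ^ (q - 1)) := by
  have key : IsRes C (k + 1) 0 (normB M q k x) (r₀ * r₁ ^ (q - 1)) := fun θ₀ => by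
    rw [eB_normB_pair C hk]
    have hp := prod_mem (t := Finset.univ) fun θ _ => (h₁ θ).1
    refine ⟨mul_mem (h₀ θ₀).1 hp, ?_⟩
    rw [SS2.redL_mul (h₀ θ₀).1 hp, SS2.redL_prod _ _ fun θ _ => (h₁ θ).1, (h₀ θ₀).2,
      Finset.prod_congr rfl fun θ _ => (h₁ θ).2, Finset.prod_const, Finset.card_univ,
      card_root_one C, MulMemClass.coe_mul, SubmonoidClass.coe_pow]
  refine ⟨key, fun θ => ?_⟩
  obtain ⟨θ₀, e⟩ := eB_normB_pair' C hk θ x
  rw [e]
  exact key θ₀

theorem scaled_normB_pair {k : ℕ} (hk : 1 ≤ k) {x : FB (lev M q (k + 1))} {z₀ z₁ : ℤ}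
    (h₀ : Scaled C (k + 1) 0 x z₀) (h₁ : Scaled C (k + 1) 1 x z₁) :
    Scaled C (k + 1) 0 (normB M q k x) (z₀ + z₁) ∧
      Scaled C (k + 1) 1 (normB M q k x) (((q - 1 : ℕ) : ℤ) * (z₀ + z₁)) := by
  have hp0 : ∀ θ₀ : PR (q ^ ((0 : Fin (k + 2)) : ℕ)), pB q (k + 1) 0 θ₀ = (q : Qb) := fun θ₀ => by
    rw [pB, if_pos]; simp [dpt]
  have he : eMul q (k + 1) ((1 : Fin (k + 2)) : ℕ) = q - 1 := by
    simp only [eMul, dpt, Fin.val_one]
    rw [show min 1 (k + 1 - 1) = 1 by omega, pow_one, Nat.totient_prime C.prime]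
  have hv : ∀ θ : PR (q ^ ((1 : Fin (k + 2)) : ℕ)),
      A.valuation (pB q (k + 1) 1 θ) ^ (q - 1) = A.valuation (q : Qb) := fun θ => by
    have := valuation_pB_pow C (k := k + 1) (1 : Fin (k + 2)) θ
    rwa [he] at this
  have key : ∀ (θ₀ : PR (q ^ ((0 : Fin (k + 2)) : ℕ))) (d : Qb),
      A.valuation d = A.valuation (q : Qb) ^ (-(z₀ + z₁)) →
      cL d * eB C (k + 1) 0 θ₀ (normB M q k x) ∈ GG A ∧
        redL A (cL d * eB C (k + 1) 0 θ₀ (normB M q k x)) ≠ 0 := fun θ₀ d hd => by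
    rw [eB_normB_pair C hk θ₀ x]
    have h := prod_scaled (ι := Option (PR (q ^ ((1 : Fin (k + 2)) : ℕ))))
      (fun o => o.elim (eB C (k + 1) 0 θ₀ x) fun θ => eB C (k + 1) 1 θ x)
      (fun o => o.elim (pB q (k + 1) 0 θ₀ ^ (-z₀)) fun θ => pB q (k + 1) 1 θ ^ (-z₁))
      (fun o => by cases o <;> exact zpow_ne_zero _ (pB_ne_zero C _ _))
      (fun o => by cases o with
        | none => exact h₀ θ₀
        | some θ => exact h₁ θ) (d := d) ?_
    · simpa [Fintype.prod_option] using h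
    obtain ⟨θ⟩ := nonempty_root C ((1 : Fin (k + 2)) : ℕ)
    rw [Fintype.prod_option]
    simp only [Option.elim_none, Option.elim_some]
    rw [Finset.prod_congr rfl fun θ' _ => show A.valuation (pB q (k + 1) 1 θ' ^ (-z₁)) =
        A.valuation (pB q (k + 1) 1 θ) ^ (-z₁) by rw [map_zpow₀, valuation_pB_eq C rfl θ' θ],
      Finset.prod_const, Finset.card_univ, card_root_one C, hp0, hd, ← zpow_natCast,
      ← zpow_mul, mul_comm (-z₁), zpow_mul, zpow_natCast, hv, map_zpow₀,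
      ← zpow_add₀ ((Valuation.ne_zero_iff _).mpr (Nat.cast_ne_zero.mpr C.prime.ne_zero)), neg_add]
  refine ⟨fun θ₀ => key θ₀ _ (by rw [hp0, map_zpow₀]), fun θ => ?_⟩
  obtain ⟨θ₀, e⟩ := eB_normB_pair' C hk θ x
  rw [e]
  refine key θ₀ _ ?_
  rw [map_zpow₀, ← hv θ, ← zpow_natCast, ← zpow_mul]
  congr 1
  ring

end FLTAgent.CUBE

end
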