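import Fermat.Agent.CUBE.Coord
import Fermat.Agent.CUBE.NormBeta
import Fermat.Agent.CUBE.Land
import Fermat.Agent.SS2.ModelRegular

/-!
Chart functions integral on all branches restrict to regular functions; their norms along `β` can be
moved onto the chart.
-/

set_option autoImplicit false
set_option linter.unusedSectionVars false
set_option linter.style.haveILetI false
set_option linter.unusedVariables false
set_option synthInstance.maxHeartbeats 200000
set_option maxHeartbeats 1000000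

noncomputable section

open ModularCurve AlgebraicCurve IsLocalRing
open FLTAgent.RR (Bd)
open FLTAgent.Reduction (Qb FB FS Ctx GR tB tS jS kA red regOn BT)
open FLTAgent.SS2 (InChart rationalFn LS PR GG redL)

namespace FLTAgent.CUBE

variable {A : ValuationSubring Qb} {M q : ℕ} [NeZero M] [NeZero q] (C : Ctx A M q)
include C

theorem coe_frIt' : ∀ (n : ℕ) (r : FS A M),
    ((frIt C n r : FS A M) : LaurentSeries (kA A)) = qExpand (kA A) (q ^ n) (r : LaurentSeries (kA A))
  | 0, r => by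
    have : ∀ {a : ℕ} [NeZero a], a = 1 → qExpand (kA A) a (r : LaurentSeries (kA A)) = r := by
      intro a _ h; subst h; exact qExpand_one_apply _
    rw [this (pow_zero q)]
    rfl
  | n + 1, r => by
    show ((SS.Fr C (frIt C n r) : FS A M) : LaurentSeries (kA A)) = _
    rw [SS.coe_Fr, coe_frIt' n r, qExpand_qExpand]
    have : ∀ {a b : ℕ} [NeZero a] [NeZero b], a = b →
        qExpand (kA A) a (r : LaurentSeries (kA A)) = qExpand (kA A) b r := by
      intro a b _ _ h; subst h; rfl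
    exact this (pow_succ' q n).symm

theorem frIt_mem_regOn (s : Bool) {f : FS A M} (hf : f ∈ regOn (kA A) (tS A M s)) :
    ∀ n, frIt C n f ∈ regOn (kA A) (tS A M s)
  | 0 => hf
  | n + 1 => SS2.Fr_mem_regOn C s (frIt_mem_regOn s hf n)

/-- a function with regular power is regular -/
theorem regOn_of_pow (s : Bool) {r : FS A M} {n : ℕ} (hn : n ≠ 0)
    (h : r ^ n ∈ regOn (kA A) (tS A M s)) : r ∈ regOn (kA A) (tS A M s) :=
  fun Q hQ => SS2.bd_zero_of_pow hn (h Q hQ)

/-- the last branch reads the given expansion -/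
theorem res_last {k : ℕ} {x : FB (lev M q k)} {r : FS A M} (h : IsRes C k (Fin.last k) x r) :
    (x : LS) ∈ GG A ∧ redL A (x : LS) = (r : LaurentSeries (kA A)) := by
  obtain ⟨θ⟩ := nonempty_root C ((Fin.last k : Fin (k + 1)) : ℕ)
  obtain ⟨u, hu, hu1⟩ := exists_unit_root' C θ
  obtain ⟨h1, h2⟩ := h θ
  rw [eB_last C, ← hu] at h1 h2
  have hu1' : residue A ((u⁻¹ : Aˣ) : A) = 1 := by
    have := congrArg (residue A) u.inv_mul
    rwa [map_mul, hu1, mul_one, map_one] at this
  have h3 := SS2.twist_mem_of_residue_one u⁻¹ hu1' h1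
  have e : SS2.unitQ u⁻¹ = (SS2.unitQ u)⁻¹ := map_inv _ _
  rw [e, SS2.twist_inv_twist] at h3
  exact ⟨h3.1, h3.2.trans h2⟩

/-- the expansions at level `M qᵏ⁺¹` along `β` -/
theorem eB_upB_eq {k : ℕ} (i : Fin (k + 2)) (j : Fin (k + 1))
    (hij : (i : ℕ) = (j : ℕ) + 1 ∨ ((i : ℕ) = 0 ∧ (j : ℕ) = 0)) (θ : PR (q ^ (i : ℕ))) :
    ∃ θ' : PR (q ^ (j : ℕ)), ∀ y, eB C (k + 1) i θ (upB M q k y) =
      qExpand Qb (q ^ (nE (k + 1) i 1 - nE k j 0)) (eB C k j θ' y) := by
  have hq := C.prime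
  obtain ⟨θ', hθ'⟩ : ∃ θ' : PR (q ^ (j : ℕ)), ∀ l,
      nodeU q i (l + 1) θ.u = nodeU q j l θ'.u := by
    rcases hij with h | ⟨h, h'⟩
    · have hprim : IsPrimitiveRoot ((θ : Qb) ^ q) (q ^ (j : ℕ)) :=
        θ.prim.pow (pow_pos hq.pos _) (by rw [h, pow_succ'])
      refine ⟨⟨_, (mem_primitiveRoots (pow_pos hq.pos _)).mpr hprim⟩, fun l => ?_⟩
      unfold nodeU
      by_cases hl : (j : ℕ) ≤ l
      · rw [if_pos hl, if_pos (by omega)]
      · rw [if_neg hl, if_neg (by omega)]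
        refine Units.ext ?_
        show (θ : Qb) ^ q ^ (l + 1) = ((θ : Qb) ^ q) ^ q ^ l
        rw [← pow_mul, pow_succ']
    · refine ⟨(nonempty_root C (j : ℕ)).some, fun l => ?_⟩
      unfold nodeU
      rw [if_pos (by omega), if_pos (by omega)]
  refine ⟨θ', fun y => ?_⟩
  refine DFunLike.congr_fun (algHom_ext_nd hq (f := (eB C (k + 1) i θ).comp (upB M q k))
    (g := (SS2.qExpA (q ^ (nE (k + 1) i 1 - nE k j 0))).comp (eB C k j θ')) fun l hl a => ?_) y
  rw [AlgHom.comp_apply, AlgHom.comp_apply, SS2.qExpA_apply, upB_nd,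
    eB_nd C i θ (Nat.succ_le_succ hl), eB_nd C j θ' hl, hθ', qExpand_qExpand]
  refine SS2.qExpand_congr' ?_ _
  rw [← pow_add]
  congr 1
  have := i.2
  have := j.2
  unfold nE
  rcases hij with h | ⟨h, h'⟩ <;> omega

/-- residues of functions pulled back along `β` -/
theorem exists_res_of_upB {k : ℕ} (i : Fin (k + 2)) (j : Fin (k + 1))
    (hij : (i : ℕ) = (j : ℕ) + 1 ∨ ((i : ℕ) = 0 ∧ (j : ℕ) = 0))
    {y : FB (lev M q k)} (hy : y ∈ rationalFn A (lev M q k)) {r : FS A M}
    (h : IsRes C (k + 1) i (upB M q k y) r) :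
    ∃ R, IsRes C k j y R ∧ frIt C (nE (k + 1) i 1 - nE k j 0) R = r := by
  obtain ⟨θ⟩ := nonempty_root C (i : ℕ)
  obtain ⟨θ', hθ'⟩ := eB_upB_eq C i j hij θ
  obtain ⟨h1, h2⟩ := h θ
  rw [hθ'] at h1 h2
  have hsc : eB C k j θ' y = 0 ∨ SS2.Scalable A (eB C k j θ' y) := by
    rcases eq_or_ne y 0 with rfl | hy0
    · exact Or.inl (map_zero _)
    · exact Or.inr (SS2.scalable_of_bddGen C.prime C.lies (bddGen_eB' C j θ') hy0)
  have hm := SS2.mem_of_qExpand_mem _ hsc h1
  obtain ⟨R, hR⟩ := landing' C j θ' y hy hm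
  refine ⟨R, isRes_of_series C hy hm hR, Subtype.ext ?_⟩
  rw [coe_frIt', ← hR, ← (SS2.qExpand_mem _ hm).2, h2]

theorem chart_mul {k : ℕ} {s : Bool} {x y : FB (lev M q k)}
    (hx : ∀ P : Place Qb (FB (lev M q k)), InChart s (P.ord (Jp M q k)) → Bd P x 0)
    (hy : ∀ P : Place Qb (FB (lev M q k)), InChart s (P.ord (Jp M q k)) → Bd P y 0) :
    ∀ P : Place Qb (FB (lev M q k)), InChart s (P.ord (Jp M q k)) → Bd P (x * y) 0 :=
  fun P hP => by simpa using (hx P hP).mul (hy P hP)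

/-- the involution preserves the charts -/
theorem chart_wAL {k : ℕ} {s : Bool} {x : FB (lev M q k)}
    (hx : ∀ P : Place Qb (FB (lev M q k)), InChart s (P.ord (Jp M q k)) → Bd P x 0) :
    ∀ P : Place Qb (FB (lev M q k)), InChart s (P.ord (Jp M q k)) → Bd P (wAL C k x) 0 := by
  intro P hP
  obtain ⟨P0, h1, -, -⟩ := SS2.exists_pull (wAL C k) P
  refine (h1 x).mpr (hx P0 (inChart_of_bd C fun l hl => (h1 _).mp ?_))
  rw [wAL_nd C hl]
  exact bd_nd_of_inChart C hP (Nat.sub_le k l)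

/-- the norm to the level below, with its residues -/
theorem exists_normB_res {k : ℕ} (hk : 1 ≤ k) (s : Bool) {x : FB (lev M q (k + 1))}
    (hxr : x ∈ rationalFn A (lev M q (k + 1)))
    (hx : ∀ P : Place Qb (FB (lev M q (k + 1))), InChart s (P.ord (Jp M q (k + 1))) → Bd P x 0)
    {r : Fin (k + 2) → FS A M} (hr : ∀ i, IsRes C (k + 1) i x (r i)) :
    ∃ (y : FB (lev M q k)) (R : Fin (k + 1) → FS A M), y ∈ rationalFn A (lev M q k) ∧
      (∀ P : Place Qb (FB (lev M q k)), InChart s (P.ord (Jp M q k)) → Bd P y 0) ∧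
      (∀ j, IsRes C k j y (R j)) ∧ R 0 = r 0 * r 1 ^ (q - 1) ∧
      ∀ (j : Fin (k + 1)) (i : Fin (k + 2)), 2 ≤ (i : ℕ) → (i : ℕ) = (j : ℕ) + 1 →
        ∃ n, frIt C n (R j) = r i ^ q := by
  obtain ⟨u, hur, huG, hured, hureg, hux⟩ := exists_unit_move C s hx
  set x' := nd M q (k + 1) (k + 1) u * x with hx'
  have hx'r : x' ∈ rationalFn A (lev M q (k + 1)) := mul_mem (nd_rational (k + 1) hur) hxr
  have hu1 : ∀ i, IsRes C (k + 1) i (nd M q (k + 1) (k + 1) u) 1 := fun i =>
    (isRes_nd C i le_rfl huG).congr_res (by rw [hured, map_one])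
  have hr' : ∀ i, IsRes C (k + 1) i x' (r i) := fun i =>
    ((hu1 i).mul (hr i)).congr_res (one_mul _)
  set y := SS2.normAlong (upB M q k) x' with hy
  have hyr : y ∈ rationalFn A (lev M q k) :=
    (SS2.heckeBetaBar_rational q).mp (normB_rational C hx'r)
  rw [← upB_nd (M := M) (q := q) (k := k) (l := k) (tB M s)] at hux
  have hyreg : y ∈ regOn Qb (nd M q k k (tB M s)) :=
    SS2.regOn_normAlong (upB M q k) hux
  obtain ⟨h0, h1⟩ := isRes_normB_pair C hk (hr' 0) (hr' 1)
  have hpair := exists_res_of_upB C (0 : Fin (k + 2)) (0 : Fin (k + 1)) (Or.inr ⟨rfl, rfl⟩) hyr h0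
  have hex : ∀ j : Fin (k + 1), ∃ R, IsRes C k j y R ∧
      ((j : ℕ) = 0 → R = r 0 * r 1 ^ (q - 1)) ∧
      ∀ i : Fin (k + 2), 2 ≤ (i : ℕ) → (i : ℕ) = (j : ℕ) + 1 → ∃ n, frIt C n R = r i ^ q := by
    intro j
    rcases Nat.eq_zero_or_pos (j : ℕ) with hj | hj
    · obtain ⟨R, hR, hR'⟩ := hpair
      obtain rfl : j = 0 := Fin.ext hj
      refine ⟨R, hR, fun _ => ?_, fun i hi hij => absurd hij (by omega)⟩
      rwa [show nE (k + 1) ((0 : Fin (k + 2)) : ℕ) 1 - nE k ((0 : Fin (k + 1)) : ℕ) 0 = 0 by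
        simp [nE]] at hR'
    · obtain ⟨R, hR, hR'⟩ := exists_res_of_upB C j.succ j (Or.inl (Fin.val_succ j)) hyr
        (isRes_normB_single C j.succ (by rw [Fin.val_succ]; omega) (hr' j.succ))
      refine ⟨R, hR, fun h => absurd h (by omega), fun i _ hij => ?_⟩
      obtain rfl : i = j.succ := Fin.ext (by rw [hij, Fin.val_succ])
      exact ⟨_, hR'⟩
  choose R hR hR0 hRi using hex
  exact ⟨y, R, hyr, fun P hP => hyreg P (bd_nd_of_inChart C hP le_rfl), hR, hR0 0 rfl,
    fun j i hi hij => hRi j i hi hij⟩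

/-- regularity at level `M` -/
theorem regular_level_zero (s : Bool) {x : FB (lev M q 0)}
    (hx : ∀ P : Place Qb (FB (lev M q 0)), InChart s (P.ord (Jp M q 0)) → Bd P x 0)
    {r : FS A M} (hr : IsRes C 0 (Fin.last 0) x r) : r ∈ regOn (kA A) (tS A M s) := by
  obtain ⟨hG, hred⟩ := res_last C hr
  have hG' : (x : FB M) ∈ GR A M := (SS2.coe_mem_GG_iff (n := M) x).mp hG
  have hreg : (x : FB M) ∈ regOn Qb (tB M s) := fun P hP =>
    hx P (inChart_of_bd (k := 0) (s := s) (P := P) C fun l hl => by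
      obtain rfl : l = 0 := Nat.le_zero.mp hl
      exact hP)
  have e : r = red A M (x : FB M) := Subtype.ext (by
    rw [Reduction.coe_red C hG', ← hred]
    exact SS2.redL_coe (n := M) hG')
  rw [e, ← Reduction.BS_iff C]
  exact Reduction.red_BS C (Reduction.BT_of_mem C hreg hG')

/-- regularity at level `Mq` -/
theorem regular_level_one (s : Bool) {x : FB (lev M q 1)}
    (hx : ∀ P : Place Qb (FB (lev M q 1)), InChart s (P.ord (Jp M q 1)) → Bd P x 0)
    {r r' : FS A M} (hr : IsRes C 1 (Fin.last 1) x r)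
    (hr' : IsRes C 1 (Fin.last 1) (wAL C 1 x) r') : r ∈ regOn (kA A) (tS A M s) := by
  have hW : wAL C 1 x = SS.atkinW M q (x : FB (M * q)) :=
    wAL_ed C (k := 0) (l := 0) le_rfl (x : FB (M * q))
  obtain ⟨hG, hred⟩ := res_last C hr
  obtain ⟨hG', hred'⟩ := res_last C hr'
  rw [hW] at hG' hred'
  have h0 : SS.IsRed A false (x : FB (M * q)) r :=
    SS2.isRed_of_series C (b := false) hG hred
  have h1 : SS.IsRed A true (x : FB (M * q)) r' :=
    SS2.isRed_of_series C (b := true) hG' hred'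
  have hy : ∀ b, (x : FB (M * q)) ∈ SS.GS M q A b := fun b => by
    cases b
    exacts [h0.1, h1.1]
  have hreg : (x : FB (M * q)) ∈ regOn Qb (SS.tJ M q s) := fun v hv =>
    hx v (inChart_of_bd (k := 1) (s := s) (P := v) C fun l hl => by
      obtain rfl | rfl : l = 0 ∨ l = 1 := by omega
      exacts [(SS.bd_aFn_bFn C hv).1, (SS.bd_aFn_bFn C hv).2])
  rw [← SS.regOn_tJS C, ← h0.eq]
  exact SS.regular_of_integral C s hreg hy false

theorem regular_all : ∀ (k : ℕ) (s : Bool) (x : FB (lev M q k)),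
    x ∈ rationalFn A (lev M q k) →
    (∀ P : Place Qb (FB (lev M q k)), InChart s (P.ord (Jp M q k)) → Bd P x 0) →
    ∀ r : Fin (k + 1) → FS A M, (∀ i, IsRes C k i x (r i)) →
      ∀ i, r i ∈ regOn (kA A) (tS A M s) := by
  intro k
  induction k with
  | zero =>
    intro s x _ hx r hr i
    obtain rfl : i = Fin.last 0 := Fin.ext (by have := i.2; rw [Fin.val_last]; omega)
    exact regular_level_zero C s hx (hr _)
  | succ k ih =>
    have hW : ∀ {x : FB (lev M q (k + 1))} {r : Fin (k + 2) → FS A M},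
        (∀ i, IsRes C (k + 1) i x (r i)) →
          ∀ i, IsRes C (k + 1) i (wAL C (k + 1) x) (r i.rev) := by
      intro x r hr i
      have h := IsRes.wAL C (hr i.rev)
      rwa [Fin.rev_rev] at h
    rcases Nat.eq_zero_or_pos k with rfl | hk
    · intro s x hxr hx r hr i
      have h := hW hr
      fin_cases i
      · have h2 : IsRes C 1 (Fin.last 1) (wAL C 1 (wAL C 1 x)) (r (Fin.last 1)) := by
          rw [wAL_wAL C]; exact hr _
        exact regular_level_one C s (chart_wAL C hx) (h (Fin.last 1)) h2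
      · exact regular_level_one C s hx (hr (Fin.last 1)) (h (Fin.last 1))
    have high : ∀ (s : Bool) (x : FB (lev M q (k + 1))), x ∈ rationalFn A (lev M q (k + 1)) →
        (∀ P : Place Qb (FB (lev M q (k + 1))), InChart s (P.ord (Jp M q (k + 1))) → Bd P x 0) →
        ∀ r : Fin (k + 2) → FS A M, (∀ i, IsRes C (k + 1) i x (r i)) →
          r 0 * r 1 ^ (q - 1) ∈ regOn (kA A) (tS A M s) ∧
          ∀ i : Fin (k + 2), 2 ≤ (i : ℕ) → r i ∈ regOn (kA A) (tS A M s) := by
      intro s x hxr hx r hr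
      obtain ⟨y, R, hyr, hy, hR, hR0, hRi⟩ := exists_normB_res C hk s hxr hx hr
      refine ⟨hR0 ▸ ih s y hyr hy R hR 0, fun i hi => ?_⟩
      obtain ⟨n, hn⟩ := hRi ⟨(i : ℕ) - 1, by omega⟩ i hi (by show (i : ℕ) = (i : ℕ) - 1 + 1; omega)
      exact regOn_of_pow C s C.prime.ne_zero (hn ▸ frIt_mem_regOn C s (ih s y hyr hy R hR _) n)
    intro s x hxr hx r hr i
    have low : ∀ i : Fin (k + 2), (i : ℕ) + 1 ≤ k → r i ∈ regOn (kA A) (tS A M s) := fun i hi => by
      have := (high s _ (wAL_rational C hxr) (chart_wAL C hx) _ (hW hr)).2 i.rev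
        (by rw [Fin.val_rev]; omega)
      rwa [Fin.rev_rev] at this
    by_cases hi2 : 2 ≤ (i : ℕ)
    · exact (high s x hxr hx r hr).2 i hi2
    by_cases hik : (i : ℕ) + 1 ≤ k
    · exact low i hik
    have hi1 : i = 1 := Fin.ext (by
      show (i : ℕ) = _
      rw [Fin.val_one]
      omega)
    subst hi1
    have h0 : r 0 ∈ regOn (kA A) (tS A M s) := low 0 (by rw [Fin.val_zero]; omega)
    intro Q hQ
    by_contra hpole
    obtain ⟨z, hz⟩ := Reduction.val_exists_S C (h0 Q hQ)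
    obtain ⟨a', ha'⟩ := residue_surjective (R := A) (1 - z)
    obtain ⟨a, haT, ha⟩ := SS2.res_TF C.prime C.lies a'
    rw [ha'] at ha
    have h2 := (high s (x + algebraMap Qb (FB (lev M q (k + 1))) (a : Qb))
      (add_mem hxr (SS2.const_mem_rationalFn haT))
      (fun P hP => (hx P hP).add (RR.Bd.of_algebraMap _))
      (fun i => r i + algebraMap (kA A) (FS A M) (residue A a))
      fun i => (hr i).add (IsRes.const a)).1
    have hv : Reduction.Val Q (r 0 + algebraMap (kA A) (FS A M) (residue A a)) 1 := by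
      have h := hz.add (Reduction.Val.const (v := Q) (residue A a))
      rwa [show z + residue A a = 1 by rw [ha]; ring] at h
    obtain ⟨hA0, hA⟩ := hv.ord_eq_zero one_ne_zero
    have hB : Q.ord (r 1 + algebraMap (kA A) (FS A M) (residue A a)) < 0 := by
      by_contra hcon
      push Not at hcon
      have h3 : Bd Q (r 1 + algebraMap (kA A) (FS A M) (residue A a)) 0 :=
        RR.bd_iff.mpr (Or.inr (by omega))
      have h4 := h3.sub (RR.Bd.of_algebraMap (v := Q) (residue A a))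
      rw [add_sub_cancel_right] at h4
      exact hpole h4
    have hB0 : r 1 + algebraMap (kA A) (FS A M) (residue A a) ≠ 0 := fun h0' => by
      rw [h0'] at hB
      simp at hB
    have h4 := h2 Q hQ
    rw [RR.bd_iff_ord (mul_ne_zero hA0 (pow_ne_zero _ hB0)),
      Q.ord_mul hA0 (pow_ne_zero _ hB0), hA, RR.ord_pow] at h4
    have : (1 : ℤ) ≤ ((q - 1 : ℕ) : ℤ) := by
      exact_mod_cast Nat.sub_pos_of_lt C.prime.one_lt
    nlinarith

theorem regular_res' {k : ℕ} (s : Bool) {x : FB (lev M q k)}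
    (hxr : x ∈ rationalFn A (lev M q k))
    (hx : ∀ P : Place Qb (FB (lev M q k)), InChart s (P.ord (Jp M q k)) → Bd P x 0)
    {r : Fin (k + 1) → FS A M} (hr : ∀ i, IsRes C k i x (r i)) (i : Fin (k + 1)) :
    r i ∈ regOn (kA A) (tS A M s) :=
  regular_all C k s x hxr hx r hr i

theorem regular_normB {k : ℕ} (hk : 1 ≤ k) (s : Bool) {x : FB (lev M q (k + 1))}
    (hxr : x ∈ rationalFn A (lev M q (k + 1)))
    (hx : ∀ P : Place Qb (FB (lev M q (k + 1))),
      InChart s (P.ord (Jp M q (k + 1))) → Bd P x 0) :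
    ∃ U : FB (lev M q (k + 1)), U ∈ rationalFn A (lev M q (k + 1)) ∧
      (∀ i, IsRes C (k + 1) i U 1) ∧
      (∀ P : Place Qb (FB (lev M q (k + 1))), InChart s (P.ord (Jp M q (k + 1))) → Bd P U 0) ∧
      ∀ P : Place Qb (FB (lev M q (k + 1))), InChart s (P.ord (Jp M q (k + 1))) →
        Bd P (U * normB M q k x) 0 := by
  obtain ⟨u, hur, huG, hured, hureg, hux⟩ := exists_unit_move C s hx
  refine ⟨nd M q (k + 1) (k + 1) u ^ q, pow_mem (nd_rational (k + 1) hur) q, fun i =>
    (((isRes_nd C i le_rfl huG).congr_res (s := 1) (by rw [hured, map_one])).pow q).congr_res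
      (one_pow q), fun P hP => ?_, fun P hP => ?_⟩
  · simpa using (SS2.map_regOn (nd M q (k + 1) (k + 1)) hureg P
      (bd_nd_of_inChart C hP le_rfl)).pow q
  have e : nd M q (k + 1) (k + 1) u ^ q * normB M q k x =
      normB M q k (nd M q (k + 1) (k + 1) u * x) := by
    rw [map_mul, normB_apply M q k (nd M q (k + 1) (k + 1) u), ← upB_nd,
      SS2.normAlong_map, finrankAlong_upB C k hk, map_pow]
  have hb := bd_nd_of_inChart C hP (le_refl (k + 1))
  rw [← upB_nd (M := M) (q := q) (k := k) (l := k) (tB M s)] at hux hb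
  rw [e, normB_apply]
  exact SS2.map_regOn (upB M q k) (SS2.regOn_normAlong (upB M q k) (t := nd M q k k (tB M s)) hux)
    P hb

end FLTAgent.CUBE

end
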