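import Fermat.Agent.CUBE.ModelBase
import Fermat.Agent.CUBE.Regular
import Fermat.Agent.CUBE.Lift
import Fermat.Agent.CUBE.FibTriv
import Fermat.Agent.SS2.ModelFib

/-!
The model of `X₀(Mqᵏ)` at a place over `q` as a fibre with `k + 1` components.
-/

set_option autoImplicit false
set_option linter.unusedSectionVars false
set_option linter.style.haveILetI false
set_option linter.unusedSimpArgs false
set_option synthInstance.maxHeartbeats 200000
set_option maxHeartbeats 1000000

noncomputable section

open ModularCurve AlgebraicCurve IsLocalRing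
open FLTAgent.RR (Bd)
open FLTAgent.Reduction (Qb FB FS Ctx GR tB tS jS kA red redS regOn PS BT)
open FLTAgent.SS2 (InChart rationalFn TF val_TF res_TF indep_TF const_mem_rationalFn hasRes_FS
  finite_ord_FS' bounded_FS transcendental_jS_pow inChart_jS_pow regOn_inChart)

namespace FLTAgent.CUBE

variable {A : ValuationSubring Qb} {M q : ℕ} [NeZero M] [NeZero q] (C : Ctx A M q)

/-- the fibre -/
def model (k : ℕ) : Fib k Qb A (FB (lev M q k)) (FS A M) where
  T := TF A
  q := q
  q_lt := C.lies
  q_ne := Nat.cast_ne_zero.mpr C.prime.ne_zero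
  val_T := val_TF C.prime C.lies
  res_T := res_TF C.prime C.lies
  Ω := rationalFn A (lev M q k)
  const_Ω := fun _ ht => const_mem_rationalFn ht
  indep := fun v hv h => indep_TF v hv h
  G := GB C k
  G_le := fun _ _ h => GB_le h
  red := redB C k
  red_add := redB_add C
  red_mul := redB_mul C
  red_one := redB_one C
  const_mem := const_mem_GB C
  red_const := fun i a _ => redB_const C i a
  ϖ := vpi M q k
  ϖ_mem := vpi_mem C
  red_ϖ := redB_vpi C
  ϖ_ne := vpi_ne C
  exists_scale := fun i _ hx hx0 => exists_scale_GB C i hx hx0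
  e := fun i => eMul q k i
  e_pos := fun i => eMul_pos C k i
  q_eq := q_eq_GB C
  J := Jp M q k
  Jbar := fun i => jS A M ^ eJ q k i
  J_mem := fun i => (isRes_Jp C i).mem_GB (Jp_rational A k)
  red_J := fun i => (isRes_Jp C i).redB_eq
  transc_J := transcendental_Jp C.prime k
  transc_Jbar := fun i => transcendental_jS_pow (eJ_pos' C.prime.pos k i)
  hasRes := hasRes_FS C
  finite_ord := finite_ord_FS' C
  regular := fun s x hG hx i Q hQ => regular_res' C s (GB_le (hG 0)) hx
    (r := fun i => redB C k i x) (fun i => isRes_redB (hG i)) i Q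
    ((inChart_jS_pow s (eJ_pos' C.prime.pos k i)).mp hQ)
  separated := fun s i => by
    obtain ⟨x, hx, ⟨r, hr, hxr⟩, hx0, hxP⟩ := exists_branch_sep' C (k := k) s i
    refine ⟨x, fun i' => ?_, hxP, by rwa [hxr.redB_eq], fun i' hi' => (hx0 i' hi').redB_eq⟩
    by_cases h : i' = i
    · exact h ▸ hxr.mem_GB hx
    · exact (hx0 i' h).mem_GB hx
  lift := fun s i φ hφ => by
    obtain ⟨x, hx, hxb, hxr, hxP⟩ :=
      exists_branch_lift' C s i ((regOn_inChart s (eJ_pos' C.prime.pos k i)).mpr hφ)
    exact ⟨x, fun i' => (hxr i').choose_spec.mem_GB hx, hxP, hxb.redB_eq⟩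
  bounded := fun i w hw => bounded_FS C (eJ q k i) w hw
  lattice_fg := fun D => by
    obtain ⟨S, hS, hgen⟩ := lattice_fg' C D
    exact ⟨S, fun x hx => ⟨(hS x hx).1, fun i => ⟨(hS x hx).2.1, (hS x hx).2.2 i⟩⟩,
      fun x hx hG => hgen x hx (GB_le (hG 0)) fun i => (hG i).2⟩

variable {C} {k : ℕ}

@[simp] theorem model_q : (model C k).q = q := rfl

theorem model_e (i : Fin (k + 1)) : (model C k).e i = eMul q k i := rfl

/-- a function given by its restrictions -/
theorem model_of_res {i : Fin (k + 1)} {x : FB (lev M q k)} {r : FS A M}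
    (hx : x ∈ rationalFn A (lev M q k)) (h : IsRes C k i x r) :
    x ∈ (model C k).G i ∧ (model C k).red i x = r :=
  ⟨h.mem_GB hx, h.redB_eq⟩

theorem model_res {i : Fin (k + 1)} {x : FB (lev M q k)} (hx : x ∈ (model C k).G i) :
    IsRes C k i x ((model C k).red i x) :=
  isRes_redB hx

theorem model_inChart_iff (s : Bool) (i : Fin (k + 1)) (Q : PS A M) :
    InChart s (Q.ord ((model C k).Jbar i)) ↔ Bd Q (tS A M s) 0 :=
  inChart_jS_pow s (eJ_pos' C.prime.pos k i)

/-- membership of the chart ring -/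
theorem model_mem_R {s : Bool} {x : FB (lev M q k)} (hx : x ∈ rationalFn A (lev M q k))
    (hr : ∀ i, ∃ r, IsRes C k i x r)
    (hreg : ∀ P : Place Qb (FB (lev M q k)), InChart s (P.ord (Jp M q k)) → Bd P x 0) :
    x ∈ (model C k).R s :=
  ⟨(model C k).GI_iff.mpr fun i => (hr i).choose_spec.mem_GB hx,
    fun P hP => by simpa using hreg P hP⟩

/-- the nodes of chart functions of level `M` -/
theorem nd_mem_R {s : Bool} {a : FB M} (ha : BT A M s a) (har : a ∈ rationalFn A M) {l : ℕ}
    (hl : l ≤ k) :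
    nd M q k l a ∈ (model C k).R s ∧
      ∀ i : Fin (k + 1), (model C k).red i (nd M q k l a) = frIt C (nE k i l) (red A M a) := by
  have h : ∀ i : Fin (k + 1), IsRes C k i (nd M q k l a) (frIt C (nE k i l) (red A M a)) :=
    fun i => isRes_nd C i hl (Reduction.BT.mem_GR C ha)
  exact ⟨model_mem_R (nd_rational l har) (fun i => ⟨_, h i⟩)
      fun P hP => nd_regOn C ha P (bd_nd_of_inChart C hP hl),
    fun i => (h i).redB_eq⟩

variable (C)

/-- sections of exact order on a chart -/
theorem exists_full_chart' {n : ℕ} (hn : n ≠ 0) (W : (model C k).Triv n) (s : Bool) :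
    ∀ PK : Place Qb (FB (lev M q k)), InChart s (PK.ord (model C k).J) →
      ∃ m ∈ (model C k).Ω, m ≠ 0 ∧ (model C k).OnChart W.D s m ∧ PK.ord m = -W.D PK := by
  intro PK hPK
  have hf : W.f ∈ rationalFn A (lev M q k) := (model C k).G_le 0 _ (W.f_mem 0)
  obtain ⟨m, hm, hm0, hmc, hmo⟩ := SS2.exists_full (Jp_rational A k)
    (transcendental_Jp C.prime k) W.D (SS2.galois_fixed_of_ord hn hf W.ord_f) s PK hPK
  exact ⟨m, hm, hm0, hmc, hmo⟩

/-- the sections of a trivialised divisor are finitely generated -/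
theorem fg_triv' {n : ℕ} (hn : n ≠ 0) (W : (model C k).Triv n) (s : Bool) :
    ((model C k).I W.D s).FG := by
  obtain ⟨P, hP⟩ := (model C k).exists_chart_place s
  obtain ⟨m, hm, hm0, hmc, -⟩ := exists_full_chart' C hn W.inv s P hP
  obtain ⟨m', hm', hne, -⟩ := (model C k).exists_integral_section hm hmc
  exact (model C k).fg_of_section hm' (hne hm0)

end FLTAgent.CUBE

end
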