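import Fermat.Agent.CUBE.Land
import Fermat.Agent.CUBE.FibExp
import Fermat.Agent.SS2.ModelBase

/-!
Rational functions integral on a branch, their restrictions, and exponents.
-/

set_option autoImplicit false
set_option linter.unusedSectionVars false
set_option linter.style.haveILetI false
set_option linter.unusedSimpArgs false
set_option synthInstance.maxHeartbeats 200000
set_option maxHeartbeats 1000000

noncomputable section

open ModularCurve AlgebraicCurve IsLocalRing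
open FLTAgent.Reduction (Qb FB FS Ctx GR jS kA red)
open FLTAgent.SS2 (PR LS rationalFn GG redL cL TF cL_mul cL_one cL_mem redL_mul redL_zero redL_cL
  redL_neg cL_zpow cL_inv zpow_mem_GG const_mem_rationalFn)

namespace FLTAgent.CUBE

variable {A : ValuationSubring Qb} {M q : ℕ} [NeZero M] [NeZero q] (C : Ctx A M q)

/-- the rational functions integral on the branch `i` -/
def GB (k : ℕ) (i : Fin (k + 1)) : Subring (FB (lev M q k)) where
  carrier := {x | x ∈ rationalFn A (lev M q k) ∧ ∃ r, IsRes C k i x r}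
  mul_mem' := fun ⟨hx, _, hr⟩ ⟨hy, _, hs⟩ => ⟨mul_mem hx hy, _, hr.mul hs⟩
  one_mem' := ⟨one_mem _, _, IsRes.one⟩
  add_mem' := fun ⟨hx, _, hr⟩ ⟨hy, _, hs⟩ => ⟨add_mem hx hy, _, hr.add hs⟩
  zero_mem' := ⟨zero_mem _, 0, IsRes.zero⟩
  neg_mem' := fun ⟨hx, _, hr⟩ => ⟨neg_mem hx, _, hr.neg⟩

open Classical in
/-- the restriction to the branch `i` -/
def redB (k : ℕ) (i : Fin (k + 1)) (x : FB (lev M q k)) : FS A M :=
  if h : ∃ r, IsRes C k i x r then h.choose else 0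

variable {C} {k : ℕ} {i : Fin (k + 1)}

theorem IsRes.redB_eq {x : FB (lev M q k)} {r : FS A M} (h : IsRes C k i x r) :
    redB C k i x = r := by
  rw [redB, dif_pos ⟨r, h⟩]
  exact (Exists.choose_spec (⟨r, h⟩ : ∃ r, IsRes C k i x r)).unique h

theorem IsRes.mem_GB {x : FB (lev M q k)} {r : FS A M} (h : IsRes C k i x r)
    (hx : x ∈ rationalFn A (lev M q k)) : x ∈ GB C k i :=
  ⟨hx, r, h⟩

theorem GB_le {x : FB (lev M q k)} (h : x ∈ GB C k i) : x ∈ rationalFn A (lev M q k) := h.1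

theorem isRes_redB {x : FB (lev M q k)} (h : x ∈ GB C k i) : IsRes C k i x (redB C k i x) := by
  obtain ⟨-, r, hr⟩ := h
  rwa [hr.redB_eq]

variable (C)

theorem redB_add (i : Fin (k + 1)) : ∀ x ∈ GB C k i, ∀ y ∈ GB C k i,
    redB C k i (x + y) = redB C k i x + redB C k i y :=
  fun _ hx _ hy => ((isRes_redB hx).add (isRes_redB hy)).redB_eq

theorem redB_mul (i : Fin (k + 1)) : ∀ x ∈ GB C k i, ∀ y ∈ GB C k i,
    redB C k i (x * y) = redB C k i x * redB C k i y :=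
  fun _ hx _ hy => ((isRes_redB hx).mul (isRes_redB hy)).redB_eq

theorem redB_one (i : Fin (k + 1)) : redB C k i 1 = 1 := IsRes.one.redB_eq

theorem const_mem_GB (i : Fin (k + 1)) (a : A) (ha : (a : Qb) ∈ TF A) :
    algebraMap Qb (FB (lev M q k)) (a : Qb) ∈ GB C k i :=
  (IsRes.const a).mem_GB (const_mem_rationalFn ha)

theorem redB_const (i : Fin (k + 1)) (a : A) :
    redB C k i (algebraMap Qb (FB (lev M q k)) (a : Qb)) =
      algebraMap (kA A) (FS A M) (residue A a) :=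
  (IsRes.const a).redB_eq

include C in
theorem vpi_ne (i : Fin (k + 1)) : vpi M q k i ≠ 0 := fun h => by
  obtain ⟨θ⟩ := nonempty_root C (i : ℕ)
  exact (scaled_vpi' C i θ).2 (by rw [h, map_zero, mul_zero, redL_zero])

theorem vpi_mem (i : Fin (k + 1)) : vpi M q k i ∈ GB C k i :=
  (isRes_vpi' C i).mem_GB (vpi_rational' C i)

theorem redB_vpi (i : Fin (k + 1)) : redB C k i (vpi M q k i) = 0 := (isRes_vpi' C i).redB_eq

theorem mem_GB_of_series {x : FB (lev M q k)} (hx : x ∈ rationalFn A (lev M q k))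
    {θ : PR (q ^ (i : ℕ))} (h : eB C k i θ x ∈ GG A) :
    x ∈ GB C k i ∧ (redB C k i x : LaurentSeries (kA A)) = redL A (eB C k i θ x) := by
  obtain ⟨r, hr⟩ := landing' C i θ x hx h
  have hres := isRes_of_series C hx h hr
  exact ⟨hres.mem_GB hx, by rw [hres.redB_eq, hr]⟩

/-- scaling by a power of a uniformiser -/
theorem eB_mul_zpow (θ : PR (q ^ (i : ℕ))) (x : FB (lev M q k)) (z : ℤ) :
    eB C k i θ (x * vpi M q k i ^ (-z)) =
      cL (pB q k i θ ^ (-z)) * eB C k i θ x *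
        (cL (pB q k i θ ^ (-1 : ℤ)) * eB C k i θ (vpi M q k i)) ^ (-z) := by
  rw [cL_zpow _ (-1), zpow_neg_one, mul_zpow, cL_zpow, inv_zpow, map_mul, map_zpow₀]
  have h : cL (pB q k i θ) ^ (-z) ≠ 0 :=
    zpow_ne_zero _ ((_root_.map_ne_zero _).mpr (pB_ne_zero C i θ))
  field_simp

/-- from scales of series to exponents -/
theorem hasExp_of_scaled {x : FB (lev M q k)} (hx : x ∈ rationalFn A (lev M q k)) {z : ℤ}
    (h : Scaled C k i x z) :
    x * vpi M q k i ^ (-z) ∈ GB C k i ∧ redB C k i (x * vpi M q k i ^ (-z)) ≠ 0 := by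
  obtain ⟨θ⟩ := nonempty_root C (i : ℕ)
  obtain ⟨hs, hs'⟩ := h θ
  obtain ⟨hu, hu'⟩ := scaled_vpi' C i θ
  obtain ⟨hu, hu'⟩ := zpow_mem_GG hu hu' (-z)
  have hm : eB C k i θ (x * vpi M q k i ^ (-z)) ∈ GG A := by
    rw [eB_mul_zpow C]; exact mul_mem hs hu
  obtain ⟨h1, h2⟩ := mem_GB_of_series C (mul_mem hx (zpow_mem (vpi_rational' C i) _)) hm
  refine ⟨h1, fun h0 => ?_⟩
  rw [h0, ZeroMemClass.coe_zero, eB_mul_zpow C, redL_mul hs hu] at h2
  exact mul_ne_zero hs' hu' h2.symm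

/-- from exponents to scales of series -/
theorem scaled_of_hasExp {x : FB (lev M q k)} {z : ℤ}
    (h : x * vpi M q k i ^ (-z) ∈ GB C k i) (h' : redB C k i (x * vpi M q k i ^ (-z)) ≠ 0) :
    x ∈ rationalFn A (lev M q k) ∧ Scaled C k i x z := by
  refine ⟨?_, fun θ => ?_⟩
  · have := mul_mem (GB_le h) (zpow_mem (vpi_rational' C i) z)
    rwa [mul_assoc x, ← zpow_add₀ (vpi_ne C i), neg_add_cancel, zpow_zero, mul_one x] at this
  obtain ⟨hy, hy'⟩ := isRes_redB h θ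
  have hy0 : redL A (eB C k i θ (x * vpi M q k i ^ (-z))) ≠ 0 := by
    rw [hy']
    exact fun hz => h' (Subtype.ext hz)
  obtain ⟨hu, hu'⟩ := scaled_vpi' C i θ
  have hu0 : cL (pB q k i θ ^ (-1 : ℤ)) * eB C k i θ (vpi M q k i) ≠ 0 :=
    fun hz => hu' (by rw [hz, redL_zero])
  obtain ⟨hu, hu'⟩ := zpow_mem_GG hu hu' z
  have e : cL (pB q k i θ ^ (-z)) * eB C k i θ x =
      eB C k i θ (x * vpi M q k i ^ (-z)) *
        (cL (pB q k i θ ^ (-1 : ℤ)) * eB C k i θ (vpi M q k i)) ^ z := by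
    rw [eB_mul_zpow C, mul_assoc _ _
      ((cL (pB q k i θ ^ (-1 : ℤ)) * eB C k i θ (vpi M q k i)) ^ z),
      ← zpow_add₀ hu0, neg_add_cancel, zpow_zero, mul_one]
  rw [e, redL_mul hy hu]
  exact ⟨mul_mem hy hu, mul_ne_zero hy0 hu'⟩

theorem exists_scale_GB (i : Fin (k + 1)) {x : FB (lev M q k)}
    (hx : x ∈ rationalFn A (lev M q k)) (hx0 : x ≠ 0) :
    ∃ z : ℤ, x * vpi M q k i ^ (-z) ∈ GB C k i ∧ redB C k i (x * vpi M q k i ^ (-z)) ≠ 0 := by
  obtain ⟨z, hz⟩ := exists_scaled C i hx hx0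
  exact ⟨z, hasExp_of_scaled C hx hz⟩

include C in
theorem q_eq_GB (i : Fin (k + 1)) :
    algebraMap Qb (FB (lev M q k)) (q : Qb) * (vpi M q k i ^ eMul q k i)⁻¹ ∈ GB C k i ∧
      redB C k i (algebraMap Qb (FB (lev M q k)) (q : Qb) * (vpi M q k i ^ eMul q k i)⁻¹) ≠ 0 := by
  have h : Scaled C k i (algebraMap Qb (FB (lev M q k)) (q : Qb)) (eMul q k i) := fun θ => by
    have hval : A.valuation (pB q k i θ ^ (-(eMul q k i : ℤ)) * (q : Qb)) = 1 := by
      rw [map_mul, map_zpow₀, zpow_neg, zpow_natCast, valuation_pB_pow C, inv_mul_cancel₀]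
      exact (Valuation.ne_zero_iff _).mpr (Nat.cast_ne_zero.mpr C.prime.ne_zero)
    have hA : pB q k i θ ^ (-(eMul q k i : ℤ)) * (q : Qb) ∈ A :=
      (A.valuation_le_one_iff _).mp hval.le
    rw [AlgHom.commutes, show cL (pB q k i θ ^ (-(eMul q k i : ℤ))) * algebraMap Qb LS (q : Qb) =
      cL (pB q k i θ ^ (-(eMul q k i : ℤ)) * (q : Qb)) from (cL_mul _ _).symm]
    refine ⟨cL_mem hA, ?_⟩
    rw [redL_cL ⟨_, hA⟩]
    exact (_root_.map_ne_zero _).mpr ((Reduction.res_ne_zero_iff A _).mpr hval)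
  have h1 := hasExp_of_scaled C (const_mem_rationalFn (natCast_mem _ _)) h
  rwa [zpow_neg, zpow_natCast] at h1

end FLTAgent.CUBE

end
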