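import Fermat.Agent.SS2.NotUnipotent
import Fermat.Agent.CUBE.KillTop
import Fermat.Agent.CUBE.Core

/-!
At a prime whose cube divides the level of a newform, the representation is not unipotent on
inertia.
-/

set_option autoImplicit false
set_option linter.style.haveILetI false
set_option linter.unusedSectionVars false

noncomputable section

open IsLocalRing Polynomial ModularFormClass
open scoped Matrix

namespace FLTAgent.CUBE

open FLTAgent.Attach (GaloisInputs HeckeLattice TFull S2)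

local notation "GalQ" => AlgebraicClosure ℚ ≃ₐ[ℚ] AlgebraicClosure ℚ

variable {O : Type} [CommRing O] [IsDomain O] [IsDiscreteValuationRing O]
  [IsAdicComplete (maximalIdeal O) O] [CharZero O]

theorem not_unipotentK {M q lam : ℕ} [NeZero M] [NeZero q] (hq : q.Prime) (hqM : ¬ q ∣ M) {j : ℕ}
    (hj : 2 ≤ j) (hlam : lam.Prime) (hne : q ≠ lam) (hlamO : (lam : O) ∈ maximalIdeal O)
    {g : S2 (lev M q (j + 1))} (hg : g.IsNewform)
    (χ : TFull (lev M q (j + 1)) →+* integralClosure ℤ ℂ)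
    (hχ : ∀ (ℓ : ℕ) (hℓ : ℓ.Prime) (hℓN : ¬ ℓ ∣ lev M q (j + 1)),
      (χ (CuspForm.heckeAlgebra.T hℓ hℓN (Set.notMem_empty _)) : ℂ) = qCoeff g ℓ)
    (f : TFull (lev M q (j + 1)) →+* O) (hf : ∀ t, f t = 0 → χ t = 0)
    (ρ : GaloisRepAdic O) (S : Finset ℕ)
    (hρ : ∀ (ℓ : ℕ) (hℓ : ℓ.Prime) (hℓN : ¬ ℓ ∣ lev M q (j + 1)), ℓ ∉ S →
      ∀ A : ValuationSubring (AlgebraicClosure ℚ), A.LiesOverPrime ℓ →
        ∀ σ : GalQ, A.IsFrobeniusAt σ ℓ →
          LinearMap.charpoly (ρ.ρ σ) =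
            X ^ 2 - C (f (CuspForm.heckeAlgebra.T hℓ hℓN (Set.notMem_empty _))) * X + C (ℓ : O)) :
    ¬ ρ.IsUnipotentOnInertiaAt q := by
  intro hu
  obtain ⟨A, -, hA, -⟩ := Alg.exists_place_frobenius q hq
  obtain ⟨D⟩ := Attach.exists_heckeLattice (lev M q (j + 1))
  obtain ⟨D0⟩ := Attach.exists_heckeLattice (lev M q j)
  have G := Attach.galoisInputs (lev M q (j + 1))
  obtain ⟨x, hx0, hx, hfix⟩ := SS2.exists_fixed_eigvec hlam hlamO D G f ρ S hρ (hu A hA)
  obtain ⟨P, hP, hχP⟩ := SS.exists_separating (M := lev M q j) hq hg χ hχ lam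
  set t := SS.evalT (lev M q j) q lam (lev M q (j + 1)) dvd_rfl P with ht
  obtain ⟨c, hc, hkill⟩ := exists_killK_of_core hq hqM A (coreKillK hq A hA hj)
  have hTx : (D.mat (D.act t) : Matrix D.Idx D.Idx O) *ᵥ x = f t • x := hx t
  have h0 := SS2.eq_zero_of_fixed_kill D hlam hlamO (A.inertiaSubgroupIn ℚ) hc (D.act t) x
    (fun σ hσ => by rw [hTx, Matrix.mulVec_smul, hfix σ hσ])
    (fun k v hv => hkill (lam ^ k) _
      (((Nat.coprime_primes hlam hq).2 (Ne.symm hne)).pow_left k)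
      (D.nsmul_tors (pow_pos hlam.pos k) _) hv
      (SS.killedByPush_act (M := lev M q j) hlam D D0 G (Attach.galoisInputs (lev M q j)) P hP k v))
  rw [hTx, smul_eq_zero] at h0
  exact h0.elim (fun h => hχP (hf t h)) hx0

end FLTAgent.CUBE

end
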