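import Fermat.Agent.CUBE.Points
import Fermat.Agent.SS2.PointVal

/-!
The values of lifted uniformisers at the points over a crossing: at the node `l + 1` the valuation is
`1/(qˡ(q + 1))`, by induction along the edges.
-/

set_option autoImplicit false
set_option linter.unusedSectionVars false
set_option linter.style.haveILetI false
set_option synthInstance.maxHeartbeats 400000
set_option maxHeartbeats 1000000

noncomputable section

open ModularCurve AlgebraicCurve IsLocalRing Polynomial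
open FLTAgent.RR (Bd KK)
open FLTAgent.Reduction
open FLTAgent.SS2 (rationalFn galFn inertiaFixed KronChart KronPair CrossLifts)

namespace FLTAgent.CUBE

variable {A : ValuationSubring Qb} {M q : ℕ} [NeZero M] [NeZero q]

/-- the reduction of the node `l` over the crossing whose node `0` reduces to `Q` -/
def crossR (C : Ctx A M q) (Q : PS A M) (l : ℕ) : PS A M := frobS C ^ l • Q

variable (C : Ctx A M q)
include C

theorem crossR_zero (Q : PS A M) : crossR C Q 0 = Q := by
  rw [crossR, pow_zero, one_smul]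

theorem crossR_succ (Q : PS A M) (l : ℕ) : crossR C Q (l + 1) = frobS C • crossR C Q l := by
  rw [crossR, crossR, pow_succ', mul_smul]

theorem crossR_fixed {Q : PS A M} (hfix : frobS C • frobS C • Q = Q) (l : ℕ) :
    frobS C • frobS C • crossR C Q l = crossR C Q l := by
  induction l with
  | zero => rw [crossR_zero, hfix]
  | succ l ih => rw [crossR_succ, ih]

theorem crossR_add_two {Q : PS A M} (hfix : frobS C • frobS C • Q = Q) (l : ℕ) :
    crossR C Q (l + 2) = crossR C Q l := by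
  rw [crossR_succ, crossR_succ, crossR_fixed C hfix]

theorem crossR_mod_two {Q : PS A M} (hfix : frobS C • frobS C • Q = Q) :
    ∀ l, crossR C Q l = crossR C Q (l % 2)
  | 0 => rfl
  | 1 => rfl
  | l + 2 => by rw [crossR_add_two C hfix, crossR_mod_two hfix l, Nat.add_mod_right]

theorem fin_crossR {s : Bool} {Q : PS A M} (h : Bd Q (tS A M s) 0) (l : ℕ) :
    Bd (crossR C Q l) (tS A M s) 0 := by
  induction l with
  | zero => rwa [crossR_zero]
  | succ l ih => rw [crossR_succ]; exact SS2.PV.fin_frobS C ih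

/-! ### the edges as Kronecker pairs -/

theorem kronPair_up {s : Bool} (hK : KronChart C s) {k l : ℕ} (hl : l + 1 ≤ k) :
    KronPair C s (nd M q k l) (nd M q k (l + 1)) := by
  cases k with
  | zero => omega
  | succ k =>
    have ha : nd M q (k + 1) l = (ed M q k l).comp (heckeAlphaBar Qb M q) :=
      AlgHom.ext fun a => (ed_alpha (by omega) a).symm
    have hb : nd M q (k + 1) (l + 1) = (ed M q k l).comp (heckeBetaBar Qb M q) :=
      AlgHom.ext fun a => (ed_beta (by omega) a).symm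
    rw [ha, hb]
    exact SS2.PV.pair_push hK _

theorem kronPair_down {s : Bool} (hK : KronChart C s) {k l : ℕ} (hl : l + 1 ≤ k) :
    KronPair C s (nd M q k (l + 1)) (nd M q k l) := by
  cases k with
  | zero => omega
  | succ k =>
    have e1 : nd M q (k + 1) (l + 1) =
        ((ed M q k l).comp (SS.atkinW M q)).comp (heckeAlphaBar Qb M q) :=
      AlgHom.ext fun a => by
        rw [AlgHom.comp_apply, AlgHom.comp_apply, ← ed_beta (by omega) a]
        exact congrArg (ed M q k l) (SS.atkinW_i1 C a).symm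
    have e0 : nd M q (k + 1) l =
        ((ed M q k l).comp (SS.atkinW M q)).comp (heckeBetaBar Qb M q) :=
      AlgHom.ext fun a => by
        rw [AlgHom.comp_apply, AlgHom.comp_apply, ← ed_alpha (by omega) a]
        exact congrArg (ed M q k l) (SS.atkinW_i2 C a).symm
    rw [e1, e0]
    exact SS2.PV.pair_push hK _

/-- the neighbours of a node are roots of one equation over it -/
theorem kron_both {s : Bool} (hK : KronChart C s) {k l : ℕ} (hl : l + 2 ≤ k) {x : FB M}
    (hx : BT A M s x) (hr : x ∈ rationalFn A M) :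
    ∃ Φ : (FB M)[X], Φ.Monic ∧ Φ.natDegree = q + 1 ∧
      (∀ j, BT A M s (Φ.coeff j) ∧ Φ.coeff j ∈ rationalFn A M ∧
        red A M (Φ.coeff j) = (SS2.kronPoly C (red A M x)).coeff j) ∧
      Φ.eval₂ (nd M q k (l + 1)).toRingHom (nd M q k (l + 2) x) = 0 ∧
      Φ.eval₂ (nd M q k (l + 1)).toRingHom (nd M q k l x) = 0 := by
  obtain ⟨Φ, h1, h2, h3, h4⟩ := hK x hx hr
  cases k with
  | zero => omega
  | succ k =>
    have key : ∀ g : FB (M * q) →ₐ[Qb] FB (lev M q (k + 1)),
        Φ.eval₂ (g.comp (heckeAlphaBar Qb M q)).toRingHom (g (heckeBetaBar Qb M q x)) = 0 := fun g => by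
      show Φ.eval₂ (g.toRingHom.comp (heckeAlphaBar Qb M q).toRingHom)
        (g.toRingHom (heckeBetaBar Qb M q x)) = 0
      rw [← Polynomial.hom_eval₂, h4, map_zero]
    have ha : nd M q (k + 1) (l + 1) = (ed M q k (l + 1)).comp (heckeAlphaBar Qb M q) :=
      AlgHom.ext fun a => (ed_alpha (by omega) a).symm
    have e1 : nd M q (k + 1) (l + 1) =
        ((ed M q k l).comp (SS.atkinW M q)).comp (heckeAlphaBar Qb M q) :=
      AlgHom.ext fun a => by
        rw [AlgHom.comp_apply, AlgHom.comp_apply, ← ed_beta (by omega) a]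
        exact congrArg (ed M q k l) (SS.atkinW_i1 C a).symm
    refine ⟨Φ, h1, h2, h3, ?_, ?_⟩
    · rw [ha, ← ed_beta (by omega) x]
      exact key _
    · rw [e1, ← ed_alpha (by omega) x,
        show heckeAlphaBar Qb M q x = SS.atkinW M q (heckeBetaBar Qb M q x) from
          (SS.atkinW_i2 C x).symm]
      exact key ((ed M q k l).comp (SS.atkinW M q))

/-- nodes two apart differ on a lifted uniformiser -/
theorem nd_outer_ne {k l : ℕ} (hl : l + 2 ≤ k) {s : Bool} {R : PS A M} {x : FB M}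
    (hx : BT A M s x) (h1 : R.ord (red A M x) = 1) : nd M q k (l + 2) x ≠ nd M q k l x := by
  intro e
  refine SS2.PV.outer_ne C hx h1 (Subtype.ext ?_)
  rw [SS2.coe_i2, SS2.coe_i0]
  refine qExpand_injective (R := Qb) (N := q ^ l) ?_
  have e' := congrArg (fun z : FB (lev M q k) => (z : LaurentSeries Qb)) e
  simp only [coe_nd (show l + 2 ≤ k from hl), coe_nd (show l ≤ k by omega)] at e'
  rw [← e', qExpand_qExpand, qExpand_qExpand]
  exact SS2.qExpand_congr' (by rw [pow_succ, pow_succ]) _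

/-! ### lifted uniformisers along the nodes -/

variable {Q : PS A M}

/-- a function regular at a point of the chart is a quotient of regular functions -/
theorem exists_cofactor {s : Bool} {R : PS A M} (hR : Bd R (tS A M s) 0) {φ : FS A M}
    (hφ : Bd R φ 0) :
    ∃ e ∈ regOn (kA A) (tS A M s), e ≠ 0 ∧ R.ord e = 0 ∧ e * φ ∈ regOn (kA A) (tS A M s) := by
  classical
  rcases eq_or_ne φ 0 with rfl | hφ0
  · exact ⟨1, one_mem _, one_ne_zero, by simp, by simp⟩
  haveI := finite_tS C s
  haveI := separable_tS C s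
  set bad := (finite_ord_S C s hφ0).toFinset with hbad
  have hRord : 0 ≤ R.ord φ := by simpa using (RR.bd_iff_ord hφ0).mp hφ
  have hex : ∀ u : bad, ∃ g ∈ regOn (kA A) (tS A M s), g ≠ 0 ∧ R.ord g = 0 ∧
      (Bd u.1 (tS A M s) 0 → u.1.ord φ < 0 → Bd u.1 g (-1)) := fun u => by
    by_cases h : Bd u.1 (tS A M s) 0 ∧ u.1.ord φ < 0
    · obtain ⟨g, hg, hgu, hg0, hgR⟩ := exists_separate (transcendental_tS A M s) h.1 hR
        (fun e => by have := h.2; rw [e] at this; omega)
      exact ⟨g, hg, hg0, hgR, fun _ _ => hgu⟩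
    · exact ⟨1, one_mem _, one_ne_zero, by simp, fun h1 h2 => absurd ⟨h1, h2⟩ h⟩
  choose g hgR hg0 hgQ hgu using hex
  set ψ := ∏ u : bad, g u ^ (-u.1.ord φ).toNat
  refine ⟨ψ, prod_mem fun u _ => pow_mem (hgR u) _,
    Finset.prod_ne_zero_iff.mpr fun u _ => pow_ne_zero _ (hg0 u), ?_, fun u hu => ?_⟩
  · rw [RR.ord_prod R _ _ fun u _ => pow_ne_zero _ (hg0 u)]
    exact Finset.sum_eq_zero fun u _ => by rw [RR.ord_pow, hgQ, mul_zero]
  rcases le_or_gt 0 (u.ord φ) with h | h
  · have hψ : ψ ∈ regOn (kA A) (tS A M s) := prod_mem fun u _ => pow_mem (hgR u) _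
    simpa using (hψ u hu).mul (RR.bd_iff.mpr (Or.inr (by simpa using h)) : Bd u φ 0)
  have hmem : u ∈ bad := by
    rw [hbad, Set.Finite.mem_toFinset]
    exact ⟨hu, h.ne⟩
  have hrest : (∏ v ∈ Finset.univ.erase (⟨u, hmem⟩ : bad), g v ^ (-v.1.ord φ).toNat) ∈
      regOn (kA A) (tS A M s) := prod_mem fun v _ => pow_mem (hgR v) _
  have h1 := (((hgu ⟨u, hmem⟩ hu h).pow (-u.ord φ).toNat).mul (hrest u hu)).mul
    (RR.bd_self (v := u) (f := φ))
  simp only [ψ]
  rw [← Finset.mul_prod_erase _ _ (Finset.mem_univ (⟨u, hmem⟩ : bad))]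
  refine h1.mono ?_
  rw [Int.toNat_of_nonneg (by omega)]
  omega

/-- a vanishing residue gives a value at most that of a uniformiser, or `q` -/
theorem val_le_of_unif {s : Bool} {L : ℕ} [NeZero L] {ι : FB M →ₐ[Qb] FB L}
    (hι : ι.toRingHom.IsIntegral) {w : PB L} {R : PS A M} (hP : rP C (w.restrictAlong ι hι) = R)
    (hR : Bd R (tS A M s) 0) {y : FB M} (hy : BT A M s y) (hyr : y ∈ rationalFn A M)
    (hy1 : R.ord (red A M y) = 1) {Y : Qb} (hY : Val w (ι y) Y) {b : FB M} (hb : BT A M s b)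
    (hbr : b ∈ rationalFn A M) (hb0 : Val R (red A M b) 0) {u : Qb} (hu : Val w (ι b) u) :
    A.valuation u ≤ max (A.valuation Y) (A.valuation (q : Qb)) := by
  set γ := red A M y with hγ
  set β := red A M b with hβ
  have hγ0 : γ ≠ 0 := fun h => by rw [h, Place.ord_zero] at hy1; omega
  have hφ : Bd R (β * γ⁻¹) 0 := by
    rcases eq_or_ne β 0 with h | h
    · rw [h, zero_mul]; exact RR.Bd.zero
    have := hb0.ord_pos h
    rw [RR.bd_iff_ord (mul_ne_zero h (inv_ne_zero hγ0)), R.ord_mul h (inv_ne_zero hγ0), R.ord_inv,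
      hy1]
    omega
  obtain ⟨e, he, he0, heR, heg⟩ := exists_cofactor C hR hφ
  obtain ⟨E, hE, hEr, hEe⟩ := SS2.exists_rational_lift C ((BS_iff C).mpr he)
  obtain ⟨G, hG, hGr, hGg⟩ := SS2.exists_rational_lift C ((BS_iff C).mpr heg)
  have h0 : red A M (E * b - G * y) = 0 := by
    rw [red_sub C (BT.mem_GR C (hE.mul hb)) (BT.mem_GR C (hG.mul hy)),
      red_mul C (BT.mem_GR C hE) (BT.mem_GR C hb), red_mul C (BT.mem_GR C hG) (BT.mem_GR C hy),
      hEe, hGg, ← hγ, ← hβ, mul_assoc e, inv_mul_cancel_right₀ hγ0, sub_self]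
  obtain ⟨H, hH, -, hHe⟩ := SS2.PV.exists_q_mul C ((hE.mul hb).sub (hG.mul hy))
    (sub_mem (mul_mem hEr hbr) (mul_mem hGr hyr)) h0
  obtain ⟨cE, hcE, hcEr⟩ := SS2.PV.exists_val_chart C hP hR hE
  obtain ⟨cG, hcG, -⟩ := SS2.PV.exists_val_chart C hP hR hG
  obtain ⟨cH, hcH, -⟩ := SS2.PV.exists_val_chart C hP hR hH
  have h1 := ((hcE.mul ((SS2.PV.val_restrict_iff ι hι).mpr hu)).sub
    (hcG.mul ((SS2.PV.val_restrict_iff ι hι).mpr hY)))
  rw [hHe] at h1
  have h2 := h1.unique ((Val.const (v := w.restrictAlong ι hι) (q : Qb)).mul hcH)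
  have hunit : A.valuation (cE : Qb) = 1 := by
    refine (res_ne_zero_iff A cE).mp fun hz => ?_
    rw [hz, hEe] at hcEr
    have := hcEr.ord_pos he0
    omega
  have h3 : (cE : Qb) * u = (cG : Qb) * Y + (q : Qb) * cH := by linear_combination h2
  calc A.valuation u = A.valuation ((cE : Qb) * u) := by rw [map_mul, hunit, one_mul]
    _ ≤ max (A.valuation ((cG : Qb) * Y)) (A.valuation ((q : Qb) * cH)) := by
        rw [h3]; exact A.valuation.map_add _ _
    _ ≤ _ := by
        refine max_le_max ?_ ?_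
        · rw [map_mul]; exact mul_le_of_le_one_left' (val_le_one_of_mem cG.2)
        · rw [map_mul]; exact mul_le_of_le_one_right' (val_le_one_of_mem cH.2)

/-- lifts of the uniformisers along the nodes, each the Frobenius twist of the next -/
theorem exists_node_unifs (D : CrossLifts C false Q) : ∃ y : ℕ → FB M, y 0 = D.a1 ∧ ∀ n,
    BT A M false (y n) ∧ y n ∈ rationalFn A M ∧
      (crossR C Q (n + 1)).ord (red A M (y n)) = 1 ∧
      red A M (y n) = frobS C • red A M (y (n + 1)) := by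
  classical
  have hex : ∀ b : {b : FB M // BT A M false b ∧ b ∈ rationalFn A M},
      ∃ b' : {b : FB M // BT A M false b ∧ b ∈ rationalFn A M},
        red A M b'.1 = (frobS C)⁻¹ • red A M b.1 := by
    rintro ⟨b, hb, -⟩
    obtain ⟨b', h1, h2, h3⟩ := SS2.exists_rational_lift C
      ((BS_iff C).mpr (SS2.frobS_mem_regOn C ((BS_iff C).mp (red_BS C hb))).2)
    exact ⟨⟨b', h1, h2⟩, h3⟩
  choose f hf using hex
  set z : ℕ → {b : FB M // BT A M false b ∧ b ∈ rationalFn A M} :=
    fun n => f^[n] ⟨D.a1, D.bt_a1, D.rat_a1⟩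
  have hz : ∀ n, red A M (z n).1 = frobS C • red A M (z (n + 1)).1 := fun n => by
    simp only [z, Function.iterate_succ_apply']
    rw [hf, smul_inv_smul]
  refine ⟨fun n => (z n).1, rfl, fun n => ⟨(z n).2.1, (z n).2.2, ?_, hz n⟩⟩
  induction n with
  | zero =>
    show (crossR C Q (0 + 1)).ord (red A M D.a1) = 1
    rw [crossR_succ, crossR_zero, D.red_a1, SemilinearAut.ord_smul, D.ord_a]
  | succ n ih =>
    show (crossR C Q (n + 1 + 1)).ord _ = 1
    rw [← ih, hz n, show crossR C Q (n + 1) = frobS C • crossR C Q (n + 1 + 1) by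
      rw [← crossR_succ, show n + 1 + 1 + 1 = n + 1 + 2 from rfl, crossR_add_two C D.fixed],
      SemilinearAut.ord_smul]

/-! ### the points over a crossing -/

variable {D : CrossLifts C false Q} (hK : KronChart C false) {k : ℕ} {P : PB (lev M q k)}
  (hi : (nd M q k 0).toRingHom.IsIntegral) (hP : rP C (P.restrictAlong (nd M q k 0) hi) = Q)
include hK hP

/-- the node `l` of a point over the crossing -/
theorem rP_node (hQ : Bd Q (tS A M false) 0) (hfix : frobS C • frobS C • Q = Q) :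
    ∀ l ≤ k, ∀ h : (nd M q k l).toRingHom.IsIntegral,
      rP C (P.restrictAlong (nd M q k l) h) = crossR C Q l := by
  intro l
  induction l with
  | zero => intro _ h; rw [crossR_zero]; exact hP
  | succ l ih =>
    intro hl h
    rw [crossR_succ]
    exact SS2.PV.next_place C (kronPair_up C hK hl) (HeckeJ.isIntegralAlong _) (ih (by omega) _)
      (fin_crossR C hQ l) (crossR_fixed C hfix l) h

variable (hfixP : ∀ σ ∈ A.inertiaSubgroupIn ℚ,
    galFn M σ • P.restrictAlong (nd M q k 0) hi = P.restrictAlong (nd M q k 0) hi)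
  (ha : Val (P.restrictAlong (nd M q k 0) hi) D.a 0)
include hfixP ha

/-- the first node after the crossing -/
theorem valuation_one (hk : 1 ≤ k) :
    ∃ Y : A, Val P (nd M q k 1 D.a1) (Y : Qb) ∧
      A.valuation (Y : Qb) ^ (q + 1) = A.valuation (q : Qb) := by
  obtain ⟨m, rfl⟩ : ∃ m, k = m + 1 := ⟨k - 1, by omega⟩
  set P0 := P.restrictAlong (nd M q (m + 1) 0) hi
  have h01 := kronPair_up C hK (k := m + 1) (l := 0) hk
  obtain ⟨Φ, Y, c, h1, h2, h3, h4, hY, hc, hrel⟩ :=
    SS2.PV.relation C h01 hi hP D.fin D.bt_a1 D.rat_a1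
  have h4' : Φ.eval₂ (heckeAlphaBar Qb M q).toRingHom (heckeBetaBar Qb M q D.a1) = 0 := by
    refine (ed M q m 0).toRingHom.injective ?_
    rw [Polynomial.hom_eval₂, map_zero]
    have ha' : nd M q (m + 1) 0 = (ed M q m 0).comp (heckeAlphaBar Qb M q) :=
      AlgHom.ext fun a => (ed_alpha (Nat.zero_le _) a).symm
    show Φ.eval₂ ((ed M q m 0).comp (heckeAlphaBar Qb M q)).toRingHom
      (ed M q m 0 (heckeBetaBar Qb M q D.a1)) = 0
    rw [← ha', ed_beta (Nat.zero_le _)]
    exact h4
  obtain ⟨H, e, hH, hH0, he, hHe⟩ := D.exists_unit_coeff h1 h2 h3 h4'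
  refine ⟨Y, hY, ?_⟩
  have hc0 : A.valuation (c 0 : Qb) = A.valuation (q : Qb) := by
    obtain ⟨h, hh, hhr⟩ := SS2.PV.exists_val_chart C hP D.fin hH
    obtain ⟨b, hb, -⟩ := SS2.PV.exists_val_chart C hP D.fin D.bt_a2
    have h5 : Val P0 (Φ.coeff 0) ((q : Qb) * h) := by
      rw [hH0]
      simpa [zero_pow C.prime.ne_zero] using
        ((ha.pow q).mul hb).add ((Val.const (v := P0) (q : Qb)).mul hh)
    rw [(hc 0).1.unique h5, map_mul, (res_ne_zero_iff A h).mp fun h0 =>
      he (hHe.unique (h0 ▸ hhr)), mul_one]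
  have hi1 : (nd M q (m + 1) 1).toRingHom.IsIntegral := HeckeJ.isIntegralAlong _
  have hYres : residue A Y = 0 := by
    obtain ⟨y, hy, hyr⟩ := SS2.PV.exists_val_chart C
      (SS2.PV.next_place C h01 hi hP D.fin D.fixed hi1) (SS2.PV.fin_frobS C D.fin) D.bt_a1
    rw [show Y = y from Subtype.ext (hY.unique ((SS2.PV.val_restrict_iff _ hi1).mp hy))]
    exact hyr.unique D.val_a1
  rw [← hc0]
  refine SS2.root_valuation (Nat.succ_pos q) hrel ((res_eq_zero_iff A Y).mp hYres) fun j hj _ => ?_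
  rw [hc0]
  refine SS2.PV.le_q_of_lt_one C.prime C.lies (SS2.PV.val_mem_fixed C hfixP (h3 j).2.1 (hc j).1)
    ((res_eq_zero_iff A _).mp ((hc j).2.unique ?_))
  obtain ⟨hf, hg⟩ := SS2.PV.val_roots C D.fixed D.val_a1
  rw [zero_pow C.prime.ne_zero] at hg
  exact SS2.PV.val_kronPoly_zero C hf hg (by have := Finset.mem_range.mp hj; omega)

/-- the valuations at the nodes after the crossing -/
theorem valuations_nd {y : ℕ → FB M} (hy0 : y 0 = D.a1) (hy : ∀ n,
    BT A M false (y n) ∧ y n ∈ rationalFn A M ∧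
      (crossR C Q (n + 1)).ord (red A M (y n)) = 1 ∧
      red A M (y n) = frobS C • red A M (y (n + 1))) :
    ∀ n, n + 1 ≤ k → ∃ Y : A, Val P (nd M q k (n + 1) (y n)) (Y : Qb) ∧
      A.valuation (Y : Qb) ^ (q ^ n * (q + 1)) = A.valuation (q : Qb) ∧
      A.valuation (Y : Qb) < 1 ∧ A.valuation (q : Qb) < A.valuation (Y : Qb) ∧
      ∀ b : FB M, BT A M false b → b ∈ rationalFn A M → Val (crossR C Q n) (red A M b) 0 →
        ∀ u : Qb, Val P (nd M q k n b) u → A.valuation u < A.valuation (Y : Qb) := by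
  classical
  have hQ := D.fin
  have hfix := D.fixed
  have hqlt : A.valuation (q : Qb) < 1 := C.lies
  have hqpos := SS2.valuation_q_pos (A := A) C.prime
  have hbase : ∀ {n : ℕ} {Y : A}, A.valuation (Y : Qb) ^ (q ^ n * (q + 1)) = A.valuation (q : Qb) →
      A.valuation (Y : Qb) < 1 ∧ A.valuation (q : Qb) < A.valuation (Y : Qb) := by
    intro n Y h
    have hd : 2 ≤ q ^ n * (q + 1) := le_trans
      (show 2 ≤ 1 * (q + 1) by have := C.prime.one_le; omega)
      (Nat.mul_le_mul_right _ (Nat.one_le_pow _ _ C.prime.pos))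
    have h1 : A.valuation (Y : Qb) < 1 := by
      by_contra hge
      push Not at hge
      exact (not_lt.mpr (one_le_pow₀ hge)) (h.symm ▸ hqlt)
    refine ⟨h1, ?_⟩
    rw [← h]
    refine pow_lt_self_of_lt_one₀ (zero_lt_iff.mpr fun h0 => ?_) h1 (by omega)
    rw [h0, zero_pow (by omega)] at h
    exact hqpos.ne h
  intro n
  induction n with
  | zero =>
    intro hk
    obtain ⟨Y, hY, hYv⟩ := valuation_one C hK hi hP hfixP ha hk
    have hYv' : A.valuation (Y : Qb) ^ (q ^ 0 * (q + 1)) = A.valuation (q : Qb) := by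
      rw [pow_zero, one_mul, hYv]
    obtain ⟨h1, h2⟩ := hbase hYv'
    refine ⟨Y, hy0 ▸ hY, hYv', h1, h2, fun b hb hbr hb0 u hu => ?_⟩
    refine (val_le_of_unif C hi hP hQ D.bt_a D.rat_a D.ord_a
      ((SS2.PV.val_restrict_iff _ hi).mp ha) hb hbr (by rwa [crossR_zero] at hb0) hu).trans_lt ?_
    rw [map_zero, max_eq_right zero_le]
    exact h2
  | succ n ih =>
    intro hk
    obtain ⟨Y, hY, hYv, hY1, hqY, hprev⟩ := ih (by omega)
    obtain ⟨hx, hxr, hxo, -⟩ := hy (n + 1)
    obtain ⟨hyb, hyr, hyo, hyf⟩ := hy n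
    set x := y (n + 1)
    set R := crossR C Q (n + 1) with hRdef
    have hi' : ∀ l, (nd M q k l).toRingHom.IsIntegral := fun l => HeckeJ.isIntegralAlong _
    have hR : rP C (P.restrictAlong (nd M q k (n + 1)) (hi' _)) = R :=
      rP_node C hK hi hP hQ hfix _ (by omega) _
    have hRfin : Bd R (tS A M false) 0 := fin_crossR C hQ _
    have hR2 : rP C (P.restrictAlong (nd M q k (n + 2)) (hi' _)) = crossR C Q (n + 2) :=
      rP_node C hK hi hP hQ hfix _ hk _
    have hRn : rP C (P.restrictAlong (nd M q k n) (hi' _)) = crossR C Q n :=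
      rP_node C hK hi hP hQ hfix _ (by omega) _
    have hxval : Val (crossR C Q (n + 2)) (red A M x) 0 :=
      val_zero_of_ord_pos (by rw [hxo]; exact one_pos)
    obtain ⟨Ψ, k1, k2, k3, k4, k5⟩ := kron_both C hK hk hx hxr
    choose d hd hdr using fun j => SS2.PV.exists_val_chart C hR hRfin (k3 j).1
    obtain ⟨Z, hZ', hZr⟩ := SS2.PV.exists_val_chart C hR2 (fin_crossR C hQ _) hx
    obtain ⟨Z', hZ0', hZ0r⟩ := SS2.PV.exists_val_chart C hRn (fin_crossR C hQ _) hx
    have hZ : Val P (nd M q k (n + 2) x) (Z : Qb) := (SS2.PV.val_restrict_iff _ _).mp hZ'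
    have hZ0 : Val P (nd M q k n x) (Z' : Qb) := (SS2.PV.val_restrict_iff _ _).mp hZ0'
    have hdP : ∀ j, Val P (nd M q k (n + 1) (Ψ.coeff j)) (d j : Qb) :=
      fun j => (SS2.PV.val_restrict_iff _ _).mp (hd j)
    have hZ1 : A.valuation (Z : Qb) < 1 := (res_eq_zero_iff A Z).mp (hZr.unique hxval)
    have hZ'Y : A.valuation (Z' : Qb) < A.valuation (Y : Qb) :=
      hprev x hx hxr (by rwa [crossR_add_two C hfix] at hxval) _ hZ0
    have hbound : ∀ b : FB M, BT A M false b → b ∈ rationalFn A M → Val R (red A M b) 0 →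
        ∀ u : Qb, Val P (nd M q k (n + 1) b) u → A.valuation u ≤ A.valuation (Y : Qb) :=
      fun b hb hbr hb0 u hu => (val_le_of_unif C (hi' _) hR hRfin hyb hyr hyo hY hb hbr hb0
        hu).trans (max_le le_rfl hqY.le)
    -- the linear coefficient
    have hd1 : A.valuation (d 1 : Qb) = A.valuation (Y : Qb) := by
      obtain ⟨r, hr, -, hre⟩ := SS2.PV.exists_q_mul C ((k3 1).1.add hyb)
        (add_mem (k3 1).2.1 hyr) (by
          rw [red_add C (BT.mem_GR C (k3 1).1) (BT.mem_GR C hyb),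
            (k3 1).2.2, SS2.PV.coeff_one_kronPoly, ← hyf, neg_add_cancel])
      obtain ⟨w, hw, -⟩ := SS2.PV.exists_val_chart C hR hRfin hr
      have h7 := (hd 1).add ((SS2.PV.val_restrict_iff _ (hi' _)).mpr hY)
      rw [hre] at h7
      have h8 := h7.unique ((Val.const (v := P.restrictAlong (nd M q k (n + 1)) (hi' _))
        (q : Qb)).mul hw)
      rw [eq_sub_of_add_eq h8, Valuation.map_sub_swap]
      refine Valuation.map_sub_eq_of_lt_left _ ?_
      rw [map_mul]
      exact (mul_le_of_le_one_right' (val_le_one_of_mem w.2)).trans_lt hqY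
    have hdle : ∀ j ≤ q, A.valuation (d j : Qb) ≤ A.valuation (Y : Qb) := fun j hj => by
      refine hbound _ (k3 j).1 (k3 j).2.1 ?_ _ (hdP j)
      rw [(k3 j).2.2]
      obtain ⟨hf, hg⟩ := SS2.PV.val_roots C (crossR_fixed C hfix (n + 1)) (g := red A M x) (v := 0)
        (by rw [← crossR_succ]; exact hxval)
      rw [zero_pow C.prime.ne_zero] at hg
      exact SS2.PV.val_kronPoly_zero C hf hg hj
    -- the divided difference
    set x2 := nd M q k (n + 2) x
    set x0 := nd M q k n x
    have hne : x2 - x0 ≠ 0 := sub_ne_zero.mpr (nd_outer_ne C hk hx hxo)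
    set E := ∑ j ∈ Finset.range (q + 2),
      nd M q k (n + 1) (Ψ.coeff j) * ∑ i ∈ Finset.range j, x2 ^ i * x0 ^ (j - 1 - i)
    have hE : E = 0 := by
      refine (mul_eq_zero.mp (?_ : (x2 - x0) * E = 0)).resolve_left hne
      rw [Polynomial.eval₂_eq_sum_range, k2] at k4 k5
      rw [Finset.mul_sum, ← sub_self (0 : FB (lev M q k))]
      nth_rw 1 [← k4]
      rw [← k5, ← Finset.sum_sub_distrib]
      refine Finset.sum_congr rfl fun j _ => ?_
      rw [mul_left_comm, mul_comm (x2 - x0), geom_sum₂_mul, mul_sub]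
      rfl
    set T := fun j : ℕ => (d j : Qb) *
      ∑ i ∈ Finset.range j, (Z : Qb) ^ i * (Z' : Qb) ^ (j - 1 - i)
    have hsum : ∑ j ∈ Finset.range (q + 2), T j = 0 := by
      have hv : Val P E (∑ j ∈ Finset.range (q + 2), T j) :=
        SS2.PV.val_sum _ _ _ fun j _ => (hdP j).mul
          (SS2.PV.val_sum _ _ _ fun i _ => (hZ.pow i).mul (hZ0.pow _))
      rw [hE] at hv
      exact (Val.zero.unique hv).symm
    have hlead : (d (q + 1) : Qb) = 1 := by
      have e : Ψ.coeff (q + 1) = 1 := by rw [← k2]; exact k1.coeff_natDegree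
      exact (hd (q + 1)).unique (e ▸ Val.one)
    have hT1 : T 1 = (d 1 : Qb) := by simp [T]
    have hZle : A.valuation (Z : Qb) ≤ 1 := hZ1.le
    have hZ'1 : A.valuation (Z' : Qb) < 1 := hZ'Y.trans hY1
    have hmon : ∀ i m : ℕ, A.valuation ((Z : Qb) ^ i * (Z' : Qb) ^ (m + 1)) ≤
        A.valuation (Z' : Qb) := fun i m => by
      rw [map_mul, map_pow, map_pow, pow_succ']
      exact (mul_le_of_le_one_left' (pow_le_one₀ zero_le hZle)).trans
        (mul_le_of_le_one_right' (pow_le_one₀ zero_le hZ'1.le))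
    have hmax : ∀ i m : ℕ, i + m ≠ 0 → A.valuation ((Z : Qb) ^ i * (Z' : Qb) ^ m) < 1 :=
      fun i m him => by
      cases m with
      | zero => rw [pow_zero, mul_one, map_pow]; exact pow_lt_one₀ zero_le hZ1 (by omega)
      | succ m => exact (hmon i m).trans_lt hZ'1
    have hY0 : 0 < A.valuation (Y : Qb) := hqpos.trans hqY
    -- every term but two is smaller
    have hmid : ∀ j ∈ Finset.range (q + 1), j ≠ 1 → A.valuation (T j) < A.valuation (Y : Qb) := by
      intro j hj hj1
      rcases Nat.eq_zero_or_pos j with rfl | hj0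
      · simpa [T] using hY0
      rw [show T j = (d j : Qb) * _ from rfl, map_mul]
      refine (mul_le_mul_left (hdle j (by have := Finset.mem_range.mp hj; omega)) _).trans_lt ?_
      refine mul_lt_of_lt_one_right hY0 (Valuation.map_sum_lt _ one_ne_zero fun i hi => ?_)
      exact hmax _ _ (by have := Finset.mem_range.mp hi; omega)
    have htop : A.valuation (T (q + 1) - (Z : Qb) ^ q) < A.valuation (Y : Qb) := by
      simp only [T, hlead, one_mul]
      rw [Finset.sum_range_succ, Nat.add_sub_cancel, Nat.sub_self, pow_zero, mul_one,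
        add_sub_cancel_right]
      refine Valuation.map_sum_lt _ hY0.ne' fun i hi => ?_
      obtain ⟨m, hm⟩ : ∃ m, q - i = m + 1 :=
        ⟨q - i - 1, by have := Finset.mem_range.mp hi; omega⟩
      rw [hm]
      exact (hmon i m).trans_lt hZ'Y
    have hkey : A.valuation ((Z : Qb) ^ q + (d 1 : Qb)) < A.valuation (Y : Qb) := by
      have h1mem : 1 ∈ Finset.range (q + 1) := Finset.mem_range.mpr (by have := C.prime.pos; omega)
      rw [Finset.sum_range_succ, ← Finset.add_sum_erase _ _ h1mem, hT1] at hsum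
      rw [show (Z : Qb) ^ q + (d 1 : Qb) =
        -((∑ j ∈ (Finset.range (q + 1)).erase 1, T j) + (T (q + 1) - (Z : Qb) ^ q)) by
          linear_combination hsum, Valuation.map_neg]
      refine Valuation.map_add_lt _ (Valuation.map_sum_lt _ hY0.ne' fun j hj => ?_) htop
      exact hmid j (Finset.mem_of_mem_erase hj) (Finset.ne_of_mem_erase hj)
    have hZq : A.valuation (Z : Qb) ^ q = A.valuation (Y : Qb) := by
      rw [← map_pow, show (Z : Qb) ^ q = ((Z : Qb) ^ q + (d 1 : Qb)) - (d 1 : Qb) by ring,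
        Valuation.map_sub_eq_of_lt_right _ (hd1.symm ▸ hkey), hd1]
    have hZv : A.valuation (Z : Qb) ^ (q ^ (n + 1) * (q + 1)) = A.valuation (q : Qb) := by
      rw [pow_succ', mul_assoc, pow_mul, hZq, hYv]
    obtain ⟨hb1, hb2⟩ := hbase hZv
    have hYZ : A.valuation (Y : Qb) < A.valuation (Z : Qb) := by
      rw [← hZq]
      exact pow_lt_self_of_lt_one₀ (hqpos.trans hb2) hb1 C.prime.one_lt
    exact ⟨Z, hZ, hZv, hb1, hb2, fun b hb hbr hb0 u hu => (hbound b hb hbr hb0 u hu).trans_lt hYZ⟩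

end FLTAgent.CUBE

end
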