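import Fermat.Agent.CUBE.Model
import Fermat.Agent.SS2.KillLifts
import Fermat.Agent.SS2.KillClass
import Fermat.Agent.SS2.KronChart

/-!
The point of each branch over a double point.
-/

set_option autoImplicit false
set_option linter.unusedSectionVars false

noncomputable section

open ModularCurve AlgebraicCurve IsLocalRing
open FLTAgent.RR (Bd)
open FLTAgent.Reduction

namespace FLTAgent.CUBE

variable {A : ValuationSubring Qb} {M q : ℕ} [NeZero M] [NeZero q] (C : Ctx A M q)

/-- the point of the branch `i` at the crossing whose node `0` reduces to `Q` -/
def crossPt (k i : ℕ) (Q : PS A M) : PS A M := frobS C ^ nE k i 0 • Q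

end FLTAgent.CUBE

end
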