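import Fermat.Agent.CUBE.Emb
import Fermat.Agent.SS2.ModelRes

/-!
Restrictions to the branches.
-/

set_option autoImplicit false
set_option linter.unusedSectionVars false
set_option linter.style.haveILetI false
set_option synthInstance.maxHeartbeats 200000
set_option maxHeartbeats 1000000

noncomputable section

open ModularCurve AlgebraicCurve IsLocalRing
open FLTAgent.Reduction (Qb FB FS Ctx GR jS kA red)
open FLTAgent.SS2 (PR LS rationalFn GG redL cL redL_mul redL_add redL_sub redL_pow redL_cL cL_mem)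

namespace FLTAgent.CUBE

variable {A : ValuationSubring Qb} {M q : ℕ} [NeZero M] [NeZero q] (C : Ctx A M q)

/-- the iterated Frobenius substitution -/
def frIt : ℕ → (FS A M →ₐ[kA A] FS A M)
  | 0 => AlgHom.id (kA A) (FS A M)
  | n + 1 => (SS.Fr C).comp (frIt n)

/-- `r` is the restriction of `x` to the branch `i` -/
def IsRes (k : ℕ) (i : Fin (k + 1)) (x : FB (lev M q k)) (r : FS A M) : Prop :=
  ∀ θ : PR (q ^ (i : ℕ)), eB C k i θ x ∈ GG A ∧
    redL A (eB C k i θ x) = (r : LaurentSeries (kA A))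

namespace IsRes

variable {C} {k : ℕ} {i : Fin (k + 1)} {x y : FB (lev M q k)} {r s : FS A M}

theorem unique (hx : IsRes C k i x r) (hx' : IsRes C k i x s) : r = s := by
  obtain ⟨θ⟩ := nonempty_root C (i : ℕ)
  exact Subtype.ext ((hx θ).2.symm.trans (hx' θ).2)

theorem mul (hx : IsRes C k i x r) (hy : IsRes C k i y s) : IsRes C k i (x * y) (r * s) :=
  fun θ => by
  rw [map_mul, MulMemClass.coe_mul, redL_mul (hx θ).1 (hy θ).1, (hx θ).2, (hy θ).2]
  exact ⟨mul_mem (hx θ).1 (hy θ).1, rfl⟩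

theorem add (hx : IsRes C k i x r) (hy : IsRes C k i y s) : IsRes C k i (x + y) (r + s) :=
  fun θ => by
  rw [map_add, AddMemClass.coe_add, redL_add (hx θ).1 (hy θ).1, (hx θ).2, (hy θ).2]
  exact ⟨add_mem (hx θ).1 (hy θ).1, rfl⟩

theorem sub (hx : IsRes C k i x r) (hy : IsRes C k i y s) : IsRes C k i (x - y) (r - s) :=
  fun θ => by
  rw [map_sub, AddSubgroupClass.coe_sub, redL_sub (hx θ).1 (hy θ).1, (hx θ).2, (hy θ).2]
  exact ⟨sub_mem (hx θ).1 (hy θ).1, rfl⟩

theorem pow (hx : IsRes C k i x r) (n : ℕ) : IsRes C k i (x ^ n) (r ^ n) := fun θ => by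
  rw [map_pow, SubmonoidClass.coe_pow, redL_pow (hx θ).1, (hx θ).2]
  exact ⟨pow_mem (hx θ).1 n, rfl⟩

theorem const (a : A) :
    IsRes C k i (algebraMap Qb (FB (lev M q k)) (a : Qb))
      (algebraMap (kA A) (FS A M) (residue A a)) := fun θ => by
  rw [AlgHom.commutes]
  exact ⟨cL_mem a.2, redL_cL a⟩

theorem one : IsRes C k i (1 : FB (lev M q k)) 1 := by
  simpa using const (C := C) (k := k) (i := i) (1 : A)

theorem zero : IsRes C k i (0 : FB (lev M q k)) 0 := by
  simpa using const (C := C) (k := k) (i := i) (0 : A)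

theorem neg (hx : IsRes C k i x r) : IsRes C k i (-x) (-r) := by
  simpa using zero.sub hx

theorem congr_res (hx : IsRes C k i x r) (e : r = s) : IsRes C k i x s := e ▸ hx

theorem prod {ι : Type*} (S : Finset ι) (f : ι → FB (lev M q k)) (g : ι → FS A M)
    (h : ∀ j ∈ S, IsRes C k i (f j) (g j)) : IsRes C k i (∏ j ∈ S, f j) (∏ j ∈ S, g j) := by
  classical
  induction S using Finset.induction with
  | empty => simpa using one (C := C) (k := k) (i := i)
  | insert a S ha ih =>
    rw [Finset.prod_insert ha, Finset.prod_insert ha]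
    exact (h a (by simp)).mul (ih fun j hj => h j (by simp [hj]))

end IsRes

include C

theorem frIt_tS (s : Bool) (n : ℕ) :
    frIt C n (Reduction.tS A M s) = Reduction.tS A M s ^ (q ^ n) := by
  induction n with
  | zero => rw [frIt, pow_zero, pow_one]; rfl
  | succ n ih =>
    show SS.Fr C (frIt C n _) = _
    rw [ih, map_pow, SS2.Fr_tS C, ← pow_mul, pow_succ']

theorem coe_frIt (n : ℕ) (r : FS A M) :
    ((frIt C n r : FS A M) : LaurentSeries (kA A)) =
      qExpand (kA A) (q ^ n) (r : LaurentSeries (kA A)) := by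
  induction n with
  | zero =>
    have e : ∀ (a : ℕ) [NeZero a], a = 1 → ∀ y : LaurentSeries (kA A), qExpand (kA A) a y = y :=
      fun a _ h y => by subst h; exact qExpand_one_apply y
    exact (e _ (pow_zero q) _).symm
  | succ n ih =>
    have e : ∀ (a b : ℕ) [NeZero a] [NeZero b], a = b → ∀ y : LaurentSeries (kA A),
        qExpand (kA A) a y = qExpand (kA A) b y := fun a b _ _ h y => by subst h; rfl
    show ((SS.Fr C (frIt C n r) : FS A M) : LaurentSeries (kA A)) = _
    rw [SS.coe_Fr, ih, qExpand_qExpand]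
    exact e _ _ (pow_succ' q n).symm _

/-- the reduction of a twisted and stretched series -/
theorem redL_qExpand_twist {m : ℕ} [NeZero m] (n : ℕ) (u : Aˣ) (hu : residue A (u : A) = 1)
    {y : FB m} (hy : y ∈ GR A m) {R : FS A M}
    (hR : Reduction.redS A m y = (R : LaurentSeries (kA A))) :
    qExpand Qb (q ^ n) (Reduction.twist (SS2.unitQ u) (y : LS)) ∈ GG A ∧
      redL A (qExpand Qb (q ^ n) (Reduction.twist (SS2.unitQ u) (y : LS))) =
        (frIt C n R : LaurentSeries (kA A)) := by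
  obtain ⟨h1, h2⟩ := SS2.twist_mem_of_residue_one u hu ((SS2.coe_mem_GG_iff y).mpr hy)
  obtain ⟨h3, h4⟩ := SS2.qExpand_mem (q ^ n) h1
  exact ⟨h3, by rw [h4, h2, SS2.redL_coe hy, hR, coe_frIt]⟩

/-- restrictions of the nodes -/
theorem isRes_nd {k : ℕ} (i : Fin (k + 1)) {l : ℕ} (hl : l ≤ k) {a : FB M} (ha : a ∈ GR A M) :
    IsRes C k i (nd M q k l a) (frIt C (nE k i l) (red A M a)) := fun θ => by
  obtain ⟨u, hu, hu1⟩ := exists_unit_root' C θ
  rw [eB_nd' C i θ hl, ← hu, ← map_pow]
  exact redL_qExpand_twist C _ _ (by rw [Units.val_pow_eq_pow_val, map_pow, hu1, one_pow]) ha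
    (SS2.redS_eq_red C ha)

/-- restrictions of the edges to the branches after them -/
theorem isRes_ed_false {k : ℕ} (i : Fin (k + 2)) {l : ℕ} (hl : l ≤ k) (hli : l + 1 ≤ (i : ℕ))
    {g : FB (M * q)} {R : FS A M} (hg : SS.IsRed A false g R) :
    IsRes C (k + 1) i (ed M q k l g) (frIt C (nE (k + 1) i l) R) := fun θ => by
  obtain ⟨u, hu, hu1⟩ := exists_unit_root' C θ
  have hi : (i : ℕ) ≤ k + 1 := Nat.lt_succ_iff.mp i.2
  have key : eB C (k + 1) i θ (ed M q k l g) =
      qExpand Qb (q ^ nE (k + 1) i l) (Reduction.twist (θ.u ^ q ^ l) (g : LS)) := by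
    refine DFunLike.congr_fun (SS2.algHom_ext_two C.prime C.not_dvd
      (f := (eB C (k + 1) i θ).comp (ed M q k l))
      (g := (SS2.qExpA (q ^ nE (k + 1) i l)).comp
        ((SS2.twistA (θ.u ^ q ^ l)).comp (SS2.valA (M * q)))) (fun a => ?_) (fun a => ?_)) g
    · simp only [AlgHom.comp_apply, SS2.qExpA_apply, SS2.twistA_apply, SS2.valA_apply]
      rw [ed_alpha hl, eB_nd' C i θ (by omega), coe_heckeAlphaBar]
    · simp only [AlgHom.comp_apply, SS2.qExpA_apply, SS2.twistA_apply, SS2.valA_apply]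
      rw [ed_beta hl, eB_nd' C i θ (by omega), coe_heckeBetaBar, twist_qExpand_eq,
        qExpand_qExpand, show (θ.u ^ q ^ l) ^ q = θ.u ^ q ^ (l + 1) by rw [← pow_mul, ← pow_succ]]
      refine SS2.qExpand_congr' ?_ _
      rw [← pow_succ]
      congr 1
      simp only [nE]
      omega
  rw [key, ← hu, ← map_pow]
  exact redL_qExpand_twist C _ _ (by rw [Units.val_pow_eq_pow_val, map_pow, hu1, one_pow])
    (SS.mem_GS.mp hg.1) hg.2

/-- restrictions of the edges to the branches before them -/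
theorem isRes_ed_true {k : ℕ} (i : Fin (k + 2)) {l : ℕ} (hl : l ≤ k) (hli : (i : ℕ) ≤ l)
    {g : FB (M * q)} {R : FS A M} (hg : SS.IsRed A true g R) :
    IsRes C (k + 1) i (ed M q k l g) (frIt C (nE (k + 1) i (l + 1)) R) := fun θ => by
  have hi : (i : ℕ) ≤ k + 1 := Nat.lt_succ_iff.mp i.2
  have key : eB C (k + 1) i θ (ed M q k l g) =
      qExpand Qb (q ^ nE (k + 1) i (l + 1))
        (Reduction.twist (SS2.unitQ (1 : Aˣ)) ((SS.atkinW M q g : FB (M * q)) : LS)) := by
    rw [show SS2.unitQ (1 : Aˣ) = 1 from map_one _, Reduction.twist_one_apply]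
    refine DFunLike.congr_fun (SS2.algHom_ext_two C.prime C.not_dvd
      (f := (eB C (k + 1) i θ).comp (ed M q k l))
      (g := (SS2.qExpA (q ^ nE (k + 1) i (l + 1))).comp
        ((SS2.valA (M * q)).comp (SS.atkinW M q))) (fun a => ?_) (fun a => ?_)) g
    · simp only [AlgHom.comp_apply, SS2.qExpA_apply, SS2.valA_apply]
      rw [ed_alpha hl, eB_nd' C i θ (by omega), pow_root_eq_one hli, Reduction.twist_one_apply,
        show SS.atkinW M q (heckeAlphaBar Qb M q a) = heckeBetaBar Qb M q a from SS.atkinW_i1 C a,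
        coe_heckeBetaBar, qExpand_qExpand]
      refine SS2.qExpand_congr' ?_ _
      rw [← pow_succ]
      congr 1
      simp only [nE]
      omega
    · simp only [AlgHom.comp_apply, SS2.qExpA_apply, SS2.valA_apply]
      rw [ed_beta hl, eB_nd' C i θ (by omega), pow_root_eq_one (hli.trans l.le_succ),
        Reduction.twist_one_apply,
        show SS.atkinW M q (heckeBetaBar Qb M q a) = heckeAlphaBar Qb M q a from SS.atkinW_i2 C a,
        coe_heckeAlphaBar]
  rw [key]
  exact redL_qExpand_twist C _ 1 (by rw [Units.val_one, map_one]) (SS.mem_GS.mp hg.1) hg.2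

/-- the involution exchanges the branches `i` and `k - i` -/
theorem IsRes.wAL {k : ℕ} {i : Fin (k + 1)} {x : FB (lev M q k)} {r : FS A M}
    (h : IsRes C k i x r) : IsRes C k i.rev (CUBE.wAL C k x) r := fun θ => by
  obtain ⟨w, θ', hw, -, -, he⟩ := exists_eB_rev C i θ
  obtain ⟨h1, h2⟩ := SS2.twist_mem_of_residue_one w hw (h θ').1
  rw [he]
  exact ⟨h1, by rw [h2, (h θ').2]⟩

/-- for rational functions residues do not depend on the root of unity -/
theorem isRes_of_series {k : ℕ} {i : Fin (k + 1)} {x : FB (lev M q k)}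
    (hx : x ∈ rationalFn A (lev M q k)) {θ : PR (q ^ (i : ℕ))} (h : eB C k i θ x ∈ GG A)
    {r : FS A M} (hr : redL A (eB C k i θ x) = (r : LaurentSeries (kA A))) :
    IsRes C k i x r := fun θ' => by
  obtain ⟨σ, hσ, hσθ⟩ := exists_inertia_root C θ θ'
  have e := coeffMap_eB C i σ θ x
  rw [hx σ hσ, hσθ] at e
  obtain ⟨h1, h2⟩ := SS2.coeffMap_inertia hσ h
  rw [← e]
  exact ⟨h1, by rw [h2, hr]⟩

end FLTAgent.CUBE

end
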