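import Fermat.Agent.CUBE.Lev
import Fermat.Agent.SS2.Branches

/-!
Roots of unity of prime power order at a place over `q`.
-/

set_option autoImplicit false
set_option linter.unusedSectionVars false

noncomputable section

open ModularCurve IsLocalRing
open FLTAgent.Reduction (Qb Ctx)
open FLTAgent.SS2 (PR unitQ)

namespace FLTAgent.CUBE

variable {A : ValuationSubring Qb} {M q : ℕ} [NeZero M] [NeZero q] (C : Ctx A M q)
include C

theorem nonempty_root (i : ℕ) : Nonempty (PR (q ^ i)) := by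
  haveI : NeZero ((q ^ i : ℕ) : Qb) :=
    ⟨Nat.cast_ne_zero.mpr (pow_ne_zero _ C.prime.ne_zero)⟩
  obtain ⟨z, hz⟩ := HasEnoughRootsOfUnity.exists_primitiveRoot Qb (q ^ i)
  exact ⟨⟨z, (mem_primitiveRoots (pow_pos C.prime.pos _)).mpr hz⟩⟩

/-- a root of unity of `q`-power order is a unit congruent to one -/
theorem exists_unit_root' {i : ℕ} (θ : PR (q ^ i)) :
    ∃ u : Aˣ, unitQ u = θ.u ∧ residue A (u : A) = 1 := by
  haveI := Fact.mk C.prime
  haveI := Reduction.charP_residue A C.prime C.lies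
  have hn : q ^ i ≠ 0 := pow_ne_zero _ C.prime.ne_zero
  have hθA : (θ : Qb) ∈ A := Reduction.mem_A_of_isIntegral A ⟨Polynomial.X ^ (q ^ i) - 1,
    Polynomial.monic_X_pow_sub_C 1 hn, by simp [θ.prim.pow_eq_one]⟩
  have hθ' : (⟨θ, hθA⟩ : A) ^ (q ^ i) = 1 := Subtype.ext θ.prim.pow_eq_one
  refine ⟨Units.ofPowEqOne ⟨θ, hθA⟩ (q ^ i) hθ' hn, Units.ext rfl, ?_⟩
  have h1 : (residue A ⟨θ, hθA⟩ - 1) ^ (q ^ i) = 0 := by
    rw [sub_pow_char_pow, ← map_pow, hθ', map_one, one_pow, sub_self]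
  simpa [sub_eq_zero] using eq_zero_of_pow_eq_zero h1

omit C in
theorem card_root (hq : q.Prime) (i : ℕ) : Fintype.card (PR (q ^ i)) = Nat.totient (q ^ i) := by
  haveI : NeZero ((q ^ i : ℕ) : Qb) := ⟨Nat.cast_ne_zero.mpr (pow_ne_zero _ hq.ne_zero)⟩
  obtain ⟨ζ, hζ⟩ := HasEnoughRootsOfUnity.exists_primitiveRoot Qb (q ^ i)
  rw [Fintype.card_coe, hζ.card_primitiveRoots]

theorem valuation_one_sub_eq' {i : ℕ} (hi : 1 ≤ i) (θ θ' : PR (q ^ i)) :
    A.valuation (1 - (θ' : Qb)) = A.valuation (1 - (θ : Qb)) := by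
  obtain ⟨u, hu, hu1⟩ := exists_unit_root' C θ
  obtain ⟨j, -, hji⟩ := θ.prim.eq_pow_of_pow_eq_one θ'.prim.pow_eq_one
  obtain ⟨d, hd, hr⟩ := SS2.exists_geom u hu1 j
  have hj : ¬ q ∣ j := by
    have h1 : IsPrimitiveRoot ((θ : Qb) ^ j) (q ^ i) := hji.symm ▸ θ'.prim
    have h2 := (θ.prim.pow_iff_coprime (pow_pos C.prime.pos _) j).mp h1
    intro h3
    exact C.prime.one_lt.ne' (Nat.eq_one_of_dvd_coprimes h2 h3 (dvd_pow_self q (by omega)))
  have hdv : A.valuation (d : Qb) = 1 := by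
    refine (Reduction.res_ne_zero_iff A d).mp ?_
    rw [hr, Int.cast_natCast]
    exact Reduction.natCast_residue_ne_zero A C.prime C.lies hj
  have hu' : ((u : A) : Qb) = (θ : Qb) := congrArg Units.val hu
  have h2 := congrArg (fun z : A => (z : Qb)) hd
  simp only [zpow_natCast, Units.val_pow_eq_pow_val] at h2
  push_cast at h2
  rw [hu'] at h2
  rw [← hji, h2, map_mul, hdv, mul_one]

theorem prod_one_sub' {i : ℕ} (hi : 1 ≤ i) : ∏ θ : PR (q ^ i), (1 - (θ : Qb)) = (q : Qb) := by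
  haveI := Fact.mk C.prime
  obtain ⟨i, rfl⟩ := Nat.exists_eq_add_of_le' hi
  haveI : NeZero ((q ^ (i + 1) : ℕ) : Qb) :=
    ⟨Nat.cast_ne_zero.mpr (pow_ne_zero _ C.prime.ne_zero)⟩
  obtain ⟨z, hz⟩ := HasEnoughRootsOfUnity.exists_primitiveRoot Qb (q ^ (i + 1))
  rw [Finset.prod_coe_sort (primitiveRoots (q ^ (i + 1)) Qb) (fun μ => 1 - μ),
    ← Polynomial.eval_one_cyclotomic_prime_pow (R := Qb) (p := q) i,
    Polynomial.cyclotomic_eq_prod_X_sub_primitiveRoots hz, Polynomial.eval_prod]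
  simp

theorem valuation_one_sub_pow' {i : ℕ} (hi : 1 ≤ i) (θ : PR (q ^ i)) :
    A.valuation (1 - (θ : Qb)) ^ Nat.totient (q ^ i) = A.valuation (q : Qb) := by
  rw [← prod_one_sub' C hi, map_prod,
    Finset.prod_congr rfl fun θ' _ => valuation_one_sub_eq' C hi θ θ',
    Finset.prod_const, Finset.card_univ, card_root C.prime]

/-- inertia permutes the primitive roots of `q`-power order transitively -/
theorem exists_inertia_root {i : ℕ} (θ θ' : PR (q ^ i)) :
    ∃ σ ∈ A.inertiaSubgroupIn ℚ, SS2.PR.map σ θ = θ' := by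
  classical
  rcases Nat.eq_zero_or_pos i with rfl | hi
  · refine ⟨1, one_mem _, Subtype.ext ?_⟩
    have h1 : (θ : Qb) = 1 := by simpa using θ.prim.pow_eq_one
    have h2 : (θ' : Qb) = 1 := by simpa using θ'.prim.pow_eq_one
    rw [SS2.PR.coe_map, h1, h2, map_one]
  set R := Finset.univ.filter fun z : PR (q ^ i) =>
    ∃ σ ∈ A.inertiaSubgroupIn ℚ, SS2.PR.map σ θ = z with hR
  suffices h : R = Finset.univ by
    have := Finset.mem_univ θ'
    rw [← h, hR, Finset.mem_filter] at this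
    exact this.2
  refine Finset.eq_univ_of_card _ (le_antisymm (Finset.card_le_univ _) ?_)
  rw [card_root C.prime]
  have hinj : Function.Injective fun z : PR (q ^ i) => (1 : Qb) - (z : Qb) := fun a b h =>
    Subtype.ext (sub_right_injective h)
  rw [← Finset.card_image_of_injective R hinj]
  refine SS2.card_le C.prime C.lies (Nat.totient_pos.mpr (pow_pos C.prime.pos _))
    (valuation_one_sub_pow' C hi θ) _ (fun σ hσ w hw => ?_) ?_
  · obtain ⟨z, hz, rfl⟩ := Finset.mem_image.mp hw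
    rw [hR] at hz
    obtain ⟨-, τ, hτ, rfl⟩ := Finset.mem_filter.mp hz
    refine Finset.mem_image.mpr ⟨SS2.PR.map (σ * τ) θ,
      Finset.mem_filter.mpr ⟨Finset.mem_univ _, _, mul_mem hσ hτ, rfl⟩, ?_⟩
    simp only [SS2.PR.coe_map, map_sub, map_one]
    rfl
  · exact Finset.mem_image.mpr ⟨θ, Finset.mem_filter.mpr
      ⟨Finset.mem_univ _, 1, one_mem _, Subtype.ext rfl⟩, rfl⟩

/-- a root of higher order above a given one -/
theorem exists_root_above {j m : ℕ} (hjm : j ≤ m) (θ : PR (q ^ j)) :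
    ∃ w : PR (q ^ m), (w : Qb) ^ q ^ (m - j) = θ := by
  obtain ⟨z⟩ := nonempty_root C m
  rcases Nat.eq_zero_or_pos j with rfl | hj
  · refine ⟨z, ?_⟩
    have h1 : (θ : Qb) = 1 := by simpa using θ.prim.pow_eq_one
    rw [Nat.sub_zero, z.prim.pow_eq_one, h1]
  have hz : IsPrimitiveRoot ((z : Qb) ^ q ^ (m - j)) (q ^ j) :=
    z.prim.pow (pow_pos C.prime.pos _) (by rw [← pow_add, Nat.sub_add_cancel hjm])
  obtain ⟨c, -, hc⟩ := hz.eq_pow_of_pow_eq_one θ.prim.pow_eq_one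
  have hcop : Nat.Coprime c (q ^ j) :=
    (hz.pow_iff_coprime (pow_pos C.prime.pos _) c).mp (hc.symm ▸ θ.prim)
  have hcq : Nat.Coprime c (q ^ m) :=
    Nat.Coprime.pow_right m ((Nat.coprime_pow_right_iff hj c q).mp hcop)
  refine ⟨⟨(z : Qb) ^ c, (mem_primitiveRoots (pow_pos C.prime.pos _)).mpr
    (z.prim.pow_of_coprime c hcq)⟩, ?_⟩
  show ((z : Qb) ^ c) ^ q ^ (m - j) = θ
  rw [← pow_mul, mul_comm, pow_mul, hc]

end FLTAgent.CUBE

end
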